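import Mathlib
import Fermat.Agent.Frob.Exists
set_option autoImplicit false

open scoped Pointwise
open Fermat.Agent.Frob

namespace Fermat.Agent.ExtVan

variable {Ω : Type*} [Field Ω] [Algebra ℚ Ω] [IsGalois ℚ Ω]

/-- Fixed points of `Gal(Ω/L)` on the algebraic integers are the integers of `L`. -/
lemma mem_fixedPoints_iff (L : IntermediateField ℚ Ω) (x : integralClosure ℤ Ω) :
    x ∈ FixedPoints.subalgebra ℤ (integralClosure ℤ Ω) L.fixingSubgroup ↔ (x : Ω) ∈ L := by
  constructor
  · intro h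
    rw [← InfiniteGalois.fixedField_fixingSubgroup L, IntermediateField.mem_fixedField_iff]
    intro σ hσ
    exact congrArg Subtype.val (h ⟨σ, hσ⟩)
  · intro h σ
    apply Subtype.ext
    have := (IntermediateField.mem_fixingSubgroup_iff L σ.1).mp σ.2 (x : Ω) h
    exact this

instance compactSpace_fixingSubgroup (L : IntermediateField ℚ Ω) : CompactSpace L.fixingSubgroup :=
  isCompact_iff_compactSpace.mp (InfiniteGalois.fixingSubgroup_isClosed L).isCompact

lemma continuousSMul_fixingSubgroup (L : IntermediateField ℚ Ω) :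
    let _ : TopologicalSpace (integralClosure ℤ Ω) := ⊥
    ContinuousSMul L.fixingSubgroup (integralClosure ℤ Ω) := by
  let _ : TopologicalSpace (integralClosure ℤ Ω) := ⊥
  have _ : DiscreteTopology (integralClosure ℤ Ω) := ⟨rfl⟩
  have _ : ContinuousSMul (Ω ≃ₐ[ℚ] Ω) (integralClosure ℤ Ω) := continuousSMul_integralClosure
  exact ⟨(continuous_smul (M := Ω ≃ₐ[ℚ] Ω) (X := integralClosure ℤ Ω)).comp
    (continuous_subtype_val.prodMap continuous_id)⟩

instance isInvariant_fixedPoints (L : IntermediateField ℚ Ω) :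
    Algebra.IsInvariant (FixedPoints.subalgebra ℤ (integralClosure ℤ Ω) L.fixingSubgroup)
      (integralClosure ℤ Ω) L.fixingSubgroup where
  isInvariant b hb := ⟨⟨b, hb⟩, rfl⟩

/-- transitivity of `Gal(Ω/L)` on the valuation subrings with the same trace on `L` -/
theorem exists_fixing_smul_eq (L : IntermediateField ℚ Ω) {A A' : ValuationSubring Ω}
    (h : ∀ x : integralClosure ℤ Ω, (x : Ω) ∈ L → (x ∈ center A ↔ x ∈ center A')) :
    ∃ τ ∈ L.fixingSubgroup, A' = τ • A := by
  let _ : TopologicalSpace (integralClosure ℤ Ω) := ⊥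
  have _ : DiscreteTopology (integralClosure ℤ Ω) := ⟨rfl⟩
  have _ : ContinuousSMul L.fixingSubgroup (integralClosure ℤ Ω) := continuousSMul_fixingSubgroup L
  obtain ⟨τ, hτ⟩ := Algebra.IsInvariant.exists_smul_of_under_eq_of_profinite
    (A := FixedPoints.subalgebra ℤ (integralClosure ℤ Ω) L.fixingSubgroup)
    (G := L.fixingSubgroup) (center A) (center A') (by
      ext x
      exact h x.1 ((mem_fixedPoints_iff L x.1).mp x.2))
  refine ⟨τ.1, τ.2, center_injective ?_⟩
  rw [center_smul, hτ]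
  rfl

/-- Surjectivity of `Gal(Ω/L) ∩ D_A` onto automorphisms of the residue ring over that of `L`. -/
theorem exists_fixing_decomposition_lift (L : IntermediateField ℚ Ω) {A : ValuationSubring Ω}
    (f : (integralClosure ℤ Ω ⧸ center A) ≃+* (integralClosure ℤ Ω ⧸ center A))
    (hf : ∀ x : integralClosure ℤ Ω, (x : Ω) ∈ L →
      f (Ideal.Quotient.mk (center A) x) = Ideal.Quotient.mk (center A) x) :
    ∃ τ ∈ L.fixingSubgroup, τ • A = A ∧ ∀ b : integralClosure ℤ Ω,
      Ideal.Quotient.mk (center A) (τ • b) = f (Ideal.Quotient.mk (center A) b) := by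
  let _ : TopologicalSpace (integralClosure ℤ Ω) := ⊥
  have _ : DiscreteTopology (integralClosure ℤ Ω) := ⟨rfl⟩
  have _ : ContinuousSMul L.fixingSubgroup (integralClosure ℤ Ω) := continuousSMul_fixingSubgroup L
  let A0 := FixedPoints.subalgebra ℤ (integralClosure ℤ Ω) L.fixingSubgroup
  let P : Ideal A0 := (center A).under A0
  have hP : P.IsPrime := inferInstance
  have hover : (center A).LiesOver P := ⟨rfl⟩
  let f' : (integralClosure ℤ Ω ⧸ center A) ≃ₐ[A0 ⧸ P] (integralClosure ℤ Ω ⧸ center A) :=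
    { f with
      commutes' := by
        intro r
        obtain ⟨n, rfl⟩ := Ideal.Quotient.mk_surjective r
        exact hf n.1 ((mem_fixedPoints_iff L n.1).mp n.2) }
  obtain ⟨⟨σ, hσ⟩, h⟩ := Ideal.Quotient.stabilizerHom_surjective_of_profinite
    (G := L.fixingSubgroup) P (center A) f'
  refine ⟨σ.1, σ.2, ?_, fun b => ?_⟩
  · apply center_injective
    rw [center_smul]
    exact hσ
  · exact DFunLike.congr_fun h (Ideal.Quotient.mk (center A) b)

/-- lifting elements of finite level decomposition groups -/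
theorem exists_lift_decomposition (L : IntermediateField ℚ Ω) {A : ValuationSubring Ω} (σ₀ : Ω ≃ₐ[ℚ] Ω)
    (h : ∀ x : integralClosure ℤ Ω, (x : Ω) ∈ L → (σ₀ • x ∈ center A ↔ x ∈ center A)) :
    ∃ σ : Ω ≃ₐ[ℚ] Ω, σ • A = A ∧ ∀ x ∈ L, σ x = σ₀ x := by
  obtain ⟨τ, hτ, h2⟩ := exists_fixing_smul_eq L (A := A) (A' := σ₀⁻¹ • A) (by
    intro x hx
    rw [center_smul, Ideal.mem_pointwise_smul_iff_inv_smul_mem, inv_inv]
    exact (h x hx).symm)
  refine ⟨σ₀ * τ, ?_, fun x hx => ?_⟩
  · rw [mul_smul, ← h2, smul_inv_smul]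
  · rw [AlgEquiv.mul_apply]
    congr 1
    exact (IntermediateField.mem_fixingSubgroup_iff L τ).mp hτ x hx

/-- the inertia subgroup in terms of the ring of all algebraic integers -/
theorem mem_inertiaSubgroupIn_of {A : ValuationSubring Ω} {ℓ : ℕ} (hℓ : ℓ.Prime)
    (hA : A.LiesOverPrime ℓ) (σ : Ω ≃ₐ[ℚ] Ω) (hσ : σ • A = A)
    (h : ∀ b : integralClosure ℤ Ω, σ • b - b ∈ center A) : σ ∈ A.inertiaSubgroupIn ℚ := by
  refine ⟨⟨σ, hσ⟩, ?_, rfl⟩
  show _ ∈ MonoidHom.ker _
  rw [MonoidHom.mem_ker]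
  apply RingEquiv.ext
  intro x
  obtain ⟨b, rfl⟩ := residue_toVal_surjective hℓ hA x
  show (⟨σ, hσ⟩ : A.decompositionSubgroup ℚ) • IsLocalRing.residue A (toVal A b) =
    IsLocalRing.residue A (toVal A b)
  have h3 : IsLocalRing.residue A (toVal A (σ • b - b)) = 0 := by
    rw [IsLocalRing.residue_eq_zero_iff]; exact h b
  rw [map_sub, map_sub, sub_eq_zero] at h3
  rw [← IsLocalRing.ResidueField.residue_smul]
  exact h3

/-- lifting elements of finite level inertia groups -/
theorem exists_lift_inertia (L : IntermediateField ℚ Ω) {A : ValuationSubring Ω} {ℓ : ℕ} (hℓ : ℓ.Prime)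
    (hA : A.LiesOverPrime ℓ) (σ₀ : Ω ≃ₐ[ℚ] Ω)
    (h : ∀ x : integralClosure ℤ Ω, (x : Ω) ∈ L → σ₀ • x - x ∈ center A) :
    ∃ σ ∈ A.inertiaSubgroupIn ℚ, ∀ x ∈ L, σ x = σ₀ x := by
  obtain ⟨σ₁, hσ₁, hσ₁L⟩ := exists_lift_decomposition L (A := A) σ₀ (by
    intro x hx
    have := h x hx
    constructor
    · intro h2
      have h3 := (center A).sub_mem h2 this
      rwa [sub_sub_cancel] at h3
    · intro h2
      have h3 := (center A).add_mem this h2
      rwa [sub_add_cancel] at h3)
  have hst : σ₁ • center A = center A := by rw [← center_smul, hσ₁]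
  -- the automorphism of the residue ring
  let f : (integralClosure ℤ Ω ⧸ center A) ≃+* (integralClosure ℤ Ω ⧸ center A) :=
    Ideal.quotientEquiv (center A) (center A) (MulSemiringAction.toRingEquiv _ _ σ₁) (by
      conv_lhs => rw [← hst]
      rw [Ideal.pointwise_smul_def]
      rfl)
  have hf : ∀ b : integralClosure ℤ Ω, f (Ideal.Quotient.mk (center A) b) = Ideal.Quotient.mk (center A) (σ₁ • b) :=
    fun b => rfl
  obtain ⟨τ, hτ, hτA, hτf⟩ := exists_fixing_decomposition_lift L f (by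
    intro x hx
    rw [hf, Ideal.Quotient.eq]
    have h1 : σ₁ • x = σ₀ • x := Subtype.ext (hσ₁L x hx)
    rw [h1]
    exact h x hx)
  refine ⟨σ₁ * τ⁻¹, ?_, fun x hx => ?_⟩
  · apply mem_inertiaSubgroupIn_of hℓ hA
    · have : τ⁻¹ • A = A := by
        rw [inv_smul_eq_iff, hτA]
      rw [mul_smul, this, hσ₁]
    · intro b
      rw [← Ideal.Quotient.eq, mul_smul, ← hf, ← hτf, smul_inv_smul]
  · rw [AlgEquiv.mul_apply, ← hσ₁L x hx]
    congr 1
    have h2 := (IntermediateField.mem_fixingSubgroup_iff L τ).mp hτ x hx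
    rw [AlgEquiv.aut_inv, AlgEquiv.symm_apply_eq]
    exact h2.symm

end Fermat.Agent.ExtVan
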