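import Mathlib
set_option autoImplicit false

namespace Fermat.Agent.ExtVan

lemma exists_functional_aux (K : Type*) [Field K] {A : Type*} [AddCommGroup A] [Module K A] (x : A)
    (hx : x ≠ 0) : ∃ g : A →+ K, g x ≠ 0 := by
  obtain ⟨f, hf⟩ := Module.Projective.exists_dual_ne_zero K hx
  exact ⟨f.toAddMonoidHom, hf⟩

/-- a functional on the range of an additive endomorphism killed by `p` -/
lemma exists_functional {p : ℕ} [hp : Fact p.Prime] {A : Type*} [AddCommGroup A]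
    (T : A →+ A) (y : A) (hy : T y ≠ 0) (hT : ∀ y, p • T y = 0) :
    ∃ g : T.range →+ ZMod p, g (T.rangeRestrict y) ≠ 0 := by
  have hR : ∀ r : T.range, p • r = 0 := by
    rintro ⟨_, a, rfl⟩
    exact Subtype.ext (hT a)
  let inst : Module (ZMod p) T.range := AddCommGroup.zmodModule hR
  exact exists_functional_aux (ZMod p) _ fun h => hy (congrArg Subtype.val h)

theorem exists_eigen_functional {p : ℕ} [hp : Fact p.Prime] {A : Type*} [AddCommGroup A] [Finite A]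
    (s : (ZMod p)ˣ → A →+ A) (hs : ∀ g h x, s (g * h) x = s g (s h x)) (c : A) (hc : c ≠ 0)
    (hpc : p • c = 0) (hsc : ∀ g : (ZMod p)ˣ, s g c = ((g : ZMod p).val ^ 2) • c) :
    ∃ f : A →+ ZMod p, f ≠ 0 ∧ ∀ (g : (ZMod p)ˣ) x, f (s g x) = (g : ZMod p) ^ 2 * f x := by
  classical
  have : NeZero p := ⟨hp.out.ne_zero⟩
  obtain ⟨n, m, hm, hcard⟩ := Nat.exists_eq_pow_mul_and_not_dvd (n := Nat.card A)
    (Nat.card_pos (α := A)).ne' p hp.out.one_lt.ne'
  let w : (ZMod p)ˣ → ℕ := fun g => ((g⁻¹ : (ZMod p)ˣ) : ZMod p).val ^ (2 * p ^ n)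
  let W : (ZMod p)ˣ → ℕ := fun g => (g : ZMod p).val ^ (2 * p ^ n)
  let T : A →+ A := m • ∑ g : (ZMod p)ˣ, w g • s g
  have hTx : ∀ x, T x = m • ∑ g : (ZMod p)ˣ, w g • s g x := by
    intro x
    show (m • ∑ g : (ZMod p)ˣ, w g • s g) x = _
    rw [AddMonoidHom.nsmul_apply, AddMonoidHom.finsetSum_apply]
    rfl
  have hkill : ∀ y : A, (p ^ n * m) • y = 0 := by
    intro y
    rw [← hcard]
    exact card_nsmul_eq_zero'
  -- equivariance
  have hW : ∀ (h : (ZMod p)ˣ) (x : A), T (s h x) = W h • T x := by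
    intro h x
    rw [hTx, hTx]
    have h1 : ∑ g : (ZMod p)ˣ, w g • s g (s h x) = ∑ g : (ZMod p)ˣ, w (g * h⁻¹) • s g x := by
      refine Fintype.sum_equiv (Equiv.mulRight h) _ _ fun g => ?_
      rw [Equiv.coe_mulRight, mul_inv_cancel_right, hs]
    rw [h1, smul_comm (W h) m, Finset.smul_sum, Finset.smul_sum, Finset.smul_sum]
    refine Finset.sum_congr rfl fun g _ => ?_
    rw [smul_smul, smul_smul, smul_smul]
    -- congruence
    have h2 : ((p : ℤ) ^ n) ∣ ((w (g * h⁻¹) : ℕ) : ℤ) - ((W h * w g : ℕ) : ℤ) := by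
      have h3 : (p : ℤ) ∣ ((((g * h⁻¹)⁻¹ : (ZMod p)ˣ) : ZMod p).val : ℤ) ^ 2 -
          (((h : ZMod p).val : ℤ) * (((g⁻¹ : (ZMod p)ˣ) : ZMod p).val : ℤ)) ^ 2 := by
        rw [← ZMod.intCast_zmod_eq_zero_iff_dvd]
        rw [Int.cast_sub, Int.cast_pow, Int.cast_pow, Int.cast_mul, Int.cast_natCast, Int.cast_natCast,
          Int.cast_natCast, ZMod.natCast_zmod_val, ZMod.natCast_zmod_val, ZMod.natCast_zmod_val,
          mul_inv_rev, inv_inv, Units.val_mul]
        exact sub_self _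
      have h4 := dvd_sub_pow_of_dvd_sub h3 n
      have h5 : ((w (g * h⁻¹) : ℕ) : ℤ) - ((W h * w g : ℕ) : ℤ) =
          ((((g * h⁻¹)⁻¹ : (ZMod p)ˣ) : ZMod p).val ^ 2 : ℤ) ^ p ^ n -
          (((((h : ZMod p).val : ℤ) * (((g⁻¹ : (ZMod p)ˣ) : ZMod p).val : ℤ)) ^ 2) ^ p ^ n) := by
        show (((((g * h⁻¹)⁻¹ : (ZMod p)ˣ) : ZMod p).val ^ (2 * p ^ n) : ℕ) : ℤ) -
          (((h : ZMod p).val ^ (2 * p ^ n) * ((g⁻¹ : (ZMod p)ˣ) : ZMod p).val ^ (2 * p ^ n) : ℕ) : ℤ) = _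
        push_cast
        rw [← pow_mul, ← pow_mul, mul_pow]
      rw [h5]
      exact (pow_dvd_pow _ (by omega)).trans h4
    obtain ⟨r, hr⟩ := h2
    have h6 : ((m * w (g * h⁻¹) : ℕ) : ℤ) = ((m * (W h * w g) : ℕ) : ℤ) + r * ((p ^ n * m : ℕ) : ℤ) := by
      push_cast at hr ⊢
      linear_combination (m : ℤ) * hr
    have h7 : (m * w (g * h⁻¹)) • s g x = (m * (W h * w g)) • s g x := by
      rw [← natCast_zsmul, h6, add_smul, mul_smul, natCast_zsmul, natCast_zsmul, hkill, smul_zero, add_zero]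
    rw [mul_assoc]
    exact h7
  -- `T c ≠ 0`
  have hTc : T c ≠ 0 := by
    rw [hTx]
    have h1 : m • ∑ g : (ZMod p)ˣ, w g • s g c =
        (m * ∑ g : (ZMod p)ˣ, w g * (g : ZMod p).val ^ 2) • c := by
      rw [mul_smul, Finset.sum_smul]
      congr 1
      refine Finset.sum_congr rfl fun g _ => ?_
      rw [hsc, mul_smul]
    rw [h1]
    intro h
    have hord : addOrderOf c = p := addOrderOf_eq_prime hpc hc
    have h2 := addOrderOf_dvd_iff_nsmul_eq_zero.mpr h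
    rw [hord, ← ZMod.natCast_eq_zero_iff] at h2
    push_cast at h2
    have h3 : ∀ g : (ZMod p)ˣ, (w g : ZMod p) * (((g : ZMod p).val : ℕ) : ZMod p) ^ 2 = 1 := by
      intro g
      show ((((g⁻¹ : (ZMod p)ˣ) : ZMod p).val ^ (2 * p ^ n) : ℕ) : ZMod p) * _ = 1
      push_cast
      rw [ZMod.natCast_zmod_val, ZMod.natCast_zmod_val, mul_comm 2, pow_mul, ZMod.pow_card_pow, ← mul_pow,
        inv_mul_cancel₀ (Units.ne_zero g), one_pow]
    rw [Finset.sum_congr rfl fun g _ => h3 g, Finset.sum_const, Finset.card_univ, ZMod.card_units_eq_totient,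
      Nat.totient_prime hp.out, nsmul_eq_mul, mul_one, Nat.cast_sub hp.out.one_le,
      (CharP.cast_eq_zero (ZMod p) p)] at h2
    simp only [Nat.cast_one, zero_sub, mul_neg, mul_one, neg_eq_zero] at h2
    exact hm ((ZMod.natCast_eq_zero_iff _ _).mp h2)
  -- the largest power of `p` not killing `T`
  have hex : ∃ k : ℕ, ∀ x, p ^ k • T x = 0 := by
    refine ⟨n, fun x => ?_⟩
    rw [hTx, smul_smul]
    exact hkill _
  have h0 : Nat.find hex ≠ 0 := by
    intro h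
    have := Nat.find_spec hex
    rw [h] at this
    apply hTc
    have := this c
    rwa [pow_zero, one_smul] at this
  obtain ⟨k, hk⟩ := Nat.exists_eq_succ_of_ne_zero h0
  have hk1 : ¬ ∀ x, p ^ k • T x = 0 := Nat.find_min hex (by omega)
  have hk2 : ∀ x, p ^ (k + 1) • T x = 0 := by
    have := Nat.find_spec hex
    rwa [hk] at this
  push Not at hk1
  obtain ⟨y, hy⟩ := hk1
  let T' : A →+ A := p ^ k • T
  have hT' : ∀ x, T' x = p ^ k • T x := fun x => rfl
  obtain ⟨g, hg⟩ := exists_functional T' y hy (fun x => by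
    rw [hT', smul_smul, ← pow_succ']
    exact hk2 x)
  refine ⟨g.comp T'.rangeRestrict, fun h => hg (DFunLike.congr_fun h y), fun h x => ?_⟩
  have h1 : T'.rangeRestrict (s h x) = W h • T'.rangeRestrict x := by
    apply Subtype.ext
    show T' (s h x) = W h • T' x
    rw [hT', hT', hW, smul_comm]
  show g (T'.rangeRestrict (s h x)) = _ * g (T'.rangeRestrict x)
  rw [h1, map_nsmul, nsmul_eq_mul]
  congr 1
  show (((h : ZMod p).val ^ (2 * p ^ n) : ℕ) : ZMod p) = _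
  push_cast
  rw [ZMod.natCast_zmod_val, mul_comm 2, pow_mul, ZMod.pow_card_pow]

end Fermat.Agent.ExtVan
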