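import Mathlib
import Fermat.Agent.ExtVan.LiftInertia
import Fermat.Agent.Frob.QbarInst
import Fermat.Prelude.Def_ExtCitation_AdmissibleExtension_v2
set_option autoImplicit false

open scoped Pointwise
open Fermat.Agent.Frob ExtCitation

namespace Fermat.Agent.ExtVan

local notation "Ω" => AlgebraicClosure ℚ

section cyclo

variable (p : ℕ) [Fact p.Prime]

/-- the mod `p` cyclotomic character with values in `ZMod p` -/
noncomputable def chiP (σ : Ω ≃ₐ[ℚ] Ω) : ZMod p := (cycloExp p σ : ZMod p)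

lemma chiP_eq (σ : Ω ≃ₐ[ℚ] Ω) :
    chiP p σ = haveI : NeZero p := ⟨(Fact.out : p.Prime).ne_zero⟩
      ((modularCyclotomicCharacter Ω (card_rootsOfUnity_eq_self p) (σ : Ω ≃+* Ω) : (ZMod p)ˣ) : ZMod p) := by
  have : NeZero p := ⟨(Fact.out : p.Prime).ne_zero⟩
  unfold chiP cycloExp
  rw [ZMod.natCast_zmod_val]

lemma chiP_ne_zero (σ : Ω ≃ₐ[ℚ] Ω) : chiP p σ ≠ 0 := by
  rw [chiP_eq]; exact Units.ne_zero _

lemma chiP_mul (σ τ : Ω ≃ₐ[ℚ] Ω) : chiP p (σ * τ) = chiP p σ * chiP p τ := by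
  have : NeZero p := ⟨(Fact.out : p.Prime).ne_zero⟩
  rw [chiP_eq, chiP_eq, chiP_eq]
  have : ((σ * τ : Ω ≃ₐ[ℚ] Ω) : Ω ≃+* Ω) = (σ : Ω ≃+* Ω) * (τ : Ω ≃+* Ω) := rfl
  rw [this, map_mul, Units.val_mul]

lemma chiP_one : chiP p 1 = 1 := by
  have h := chiP_mul p 1 1
  rw [one_mul] at h
  have h1 := chiP_ne_zero p 1
  exact (mul_left_cancel₀ h1 (by rw [mul_one]; exact h)).symm

variable {p}

lemma chiP_spec {z : Ω} (hz : IsPrimitiveRoot z p) (σ : Ω ≃ₐ[ℚ] Ω) : σ z = z ^ (chiP p σ).val := by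
  have : NeZero p := ⟨(Fact.out : p.Prime).ne_zero⟩
  have h := modularCyclotomicCharacter.spec (L := Ω) (card_rootsOfUnity_eq_self p) (σ : Ω ≃+* Ω)
    (SetLike.coe_mem hz.toRootsOfUnity)
  rw [chiP_eq]
  exact h

lemma chiP_spec' {z : Ω} (hz : IsPrimitiveRoot z p) (σ : Ω ≃ₐ[ℚ] Ω) {t : ℕ} (h : σ z = z ^ t) :
    (t : ZMod p) = chiP p σ := by
  have : NeZero p := ⟨(Fact.out : p.Prime).ne_zero⟩
  have h1 := chiP_spec hz σ
  rw [h] at h1
  rw [(hz.isOfFinOrder (NeZero.ne p)).pow_eq_pow_iff_modEq, ← hz.eq_orderOf] at h1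
  rw [← ZMod.natCast_zmod_val (chiP p σ)]
  exact (ZMod.natCast_eq_natCast_iff _ _ _).mpr h1

lemma chiP_eq_one_iff {z : Ω} (hz : IsPrimitiveRoot z p) (σ : Ω ≃ₐ[ℚ] Ω) :
    chiP p σ = 1 ↔ σ z = z := by
  haveI : Fact (1 < p) := ⟨(Fact.out : p.Prime).one_lt⟩
  constructor
  · intro h
    rw [chiP_spec hz, h, ZMod.val_one, pow_one]
  · intro h
    have := chiP_spec' hz σ (t := 1) (by rw [h, pow_one])
    rw [← this, Nat.cast_one]

lemma exists_chiP_ne_one (hp3 : 3 ≤ p) : ∃ τ : Ω ≃ₐ[ℚ] Ω, chiP p τ ≠ 1 := by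
  have : NeZero p := ⟨(Fact.out : p.Prime).ne_zero⟩
  by_contra hcon
  push Not at hcon
  obtain ⟨z, hz⟩ := HasEnoughRootsOfUnity.exists_primitiveRoot Ω p
  have h1 : z ∈ (⊥ : IntermediateField ℚ Ω) := by
    rw [InfiniteGalois.mem_bot_iff_fixed]
    intro σ
    exact (chiP_eq_one_iff hz σ).mp (hcon σ)
  rw [IntermediateField.mem_bot] at h1
  obtain ⟨q, hq⟩ := h1
  have hq1 : IsPrimitiveRoot q p := by
    apply IsPrimitiveRoot.of_map_of_injective (f := algebraMap ℚ Ω) (by rw [hq]; exact hz)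
    exact (algebraMap ℚ Ω).injective
  have h2 := hq1.pow_eq_one
  have hodd : Odd p := (Fact.out : p.Prime).odd_of_ne_two (by omega)
  have h3 : q = 1 := by
    have : q ^ p = 1 ^ p := by rw [h2, one_pow]
    exact hodd.strictMono_pow.injective this
  rw [h3] at hq1
  have := hq1.unique IsPrimitiveRoot.one
  omega

end cyclo

/-- The cocycle data extracted from a nonsplit admissible extension. -/
structure CocycleData (p : ℕ) [Fact p.Prime] where
  φ : (Ω ≃ₐ[ℚ] Ω) → ZMod p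
  mul : ∀ σ τ, φ (σ * τ) = chiP p τ * φ σ + φ τ
  isOpen : IsOpen {σ : Ω ≃ₐ[ℚ] Ω | chiP p σ = 1 ∧ φ σ = 0}
  unr : ∀ ℓ : ℕ, ℓ.Prime → ℓ ≠ p → ∀ A : ValuationSubring Ω, A.LiesOverPrime ℓ →
      ∀ σ ∈ A.inertiaSubgroupIn ℚ, φ σ = 0
  loc : ∀ A : ValuationSubring Ω, A.LiesOverPrime p →
    ∀ σ ∈ A.decompositionSubgroup ℚ, chiP p σ = 1 → φ σ = 0
  nonsplit : ∃ σ, chiP p σ = 1 ∧ φ σ ≠ 0

section linalg

variable {p : ℕ} [Fact p.Prime] {V : Type} [AddCommGroup V] [Module (ZMod p) V]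
  [DistribMulAction (Ω ≃ₐ[ℚ] Ω) V] [SMulCommClass (Ω ≃ₐ[ℚ] Ω) (ZMod p) V]

theorem exists_cocycleData (hp3 : 3 ≤ p) (C : Submodule (ZMod p) V)
    (hC : IsAdmissibleExtensionCts p V C) (hns : ¬ SplitsGlobally C) : Nonempty (CocycleData p) := by
  have hp : p.Prime := Fact.out
  have hV : Finite V := by
    apply Nat.finite_of_card_ne_zero
    rw [hC.card_total]
    exact pow_ne_zero _ hp.ne_zero
  have hrC : Module.finrank (ZMod p) C = 1 := by
    have h1 := Module.natCard_eq_pow_finrank (K := ZMod p) (V := C)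
    rw [hC.card_sub, Nat.card_zmod] at h1
    have h2 : p ^ Module.finrank (ZMod p) C = p ^ 1 := by rw [pow_one]; exact h1.symm
    exact Nat.pow_right_injective hp.two_le h2
  have hrV : Module.finrank (ZMod p) V = 2 := by
    have h1 := Module.natCard_eq_pow_finrank (K := ZMod p) (V := V)
    rw [hC.card_total, Nat.card_zmod] at h1
    exact Nat.pow_right_injective hp.two_le h1.symm
  obtain ⟨c₀, hc₀, hc₀'⟩ := finrank_eq_one_iff'.mp hrC
  have hrQ : Module.finrank (ZMod p) (V ⧸ C) = 1 := by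
    have := C.finrank_quotient_add_finrank
    omega
  obtain ⟨vq, hvq, hvq'⟩ := finrank_eq_one_iff'.mp hrQ
  obtain ⟨v₀, rfl⟩ := C.mkQ_surjective vq
  have hv₀ : v₀ ∉ C := by
    intro h
    exact hvq ((Submodule.Quotient.mk_eq_zero C).mpr h)
  have hspan : ∀ w : V, ∃ a b : ZMod p, w = a • v₀ + b • (c₀ : V) := by
    intro w
    obtain ⟨a, ha⟩ := hvq' (C.mkQ w)
    have h1 : w - a • v₀ ∈ C := by
      rw [← Submodule.Quotient.mk_eq_zero]
      show C.mkQ _ = 0
      rw [map_sub, map_smul, ha, sub_self]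
    obtain ⟨b, hb⟩ := hc₀' ⟨_, h1⟩
    refine ⟨a, b, ?_⟩
    have := congrArg Subtype.val hb
    simp only [Submodule.coe_smul] at this
    rw [this]; abel
  have hc₀0 : (c₀ : V) ≠ 0 := fun h => hc₀ (Subtype.ext h)
  have hbz : ∀ b : ZMod p, b • (c₀ : V) = 0 → b = 0 := fun b hb => by
    rcases smul_eq_zero.mp hb with h | h
    · exact h
    · exact absurd h hc₀0
  -- define φ
  have hφ : ∀ σ : Ω ≃ₐ[ℚ] Ω, ∃ b : ZMod p, σ • v₀ = chiP p σ • v₀ + b • (c₀ : V) := by
    intro σ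
    have h1 := hC.cyclo_quot σ v₀
    obtain ⟨b, hb⟩ := hc₀' ⟨_, h1⟩
    refine ⟨b, ?_⟩
    have := congrArg Subtype.val hb
    simp only [Submodule.coe_smul] at this
    rw [this]
    unfold chiP
    abel
  choose φ hφ using hφ
  have hfix : ∀ σ : Ω ≃ₐ[ℚ] Ω, σ • (c₀ : V) = c₀ := fun σ => hC.fixed_sub σ _ c₀.2
  have hmul : ∀ σ τ, φ (σ * τ) = chiP p τ * φ σ + φ τ := by
    intro σ τ
    have h1 := hφ (σ * τ)
    rw [mul_smul, hφ τ, smul_add, smul_comm σ, smul_comm σ, hφ σ, hfix, chiP_mul] at h1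
    rw [← sub_eq_zero]
    apply hbz
    rw [sub_smul, add_smul, mul_smul]
    rw [smul_add, smul_smul, add_assoc, mul_comm (chiP p τ)] at h1
    have h2 := add_left_cancel h1
    rw [h2, ← h2, sub_self]
  -- trivial action
  have htriv : ∀ σ : Ω ≃ₐ[ℚ] Ω, (∀ v : V, σ • v = v) ↔ (chiP p σ = 1 ∧ φ σ = 0) := by
    intro σ
    constructor
    · intro h
      have h1 := hφ σ
      rw [h] at h1
      have h2 : chiP p σ = 1 := by
        by_contra h3
        apply hv₀
        have h4 : (1 - chiP p σ) • v₀ ∈ C := by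
          have : (1 - chiP p σ) • v₀ = φ σ • (c₀ : V) := by
            rw [sub_smul, one_smul]
            nth_rewrite 1 [h1]
            abel
          rw [this]
          exact C.smul_mem _ c₀.2
        exact (Submodule.smul_mem_iff C (sub_ne_zero.mpr (Ne.symm h3))).mp h4
      refine ⟨h2, hbz _ ?_⟩
      rw [h2, one_smul] at h1
      have := h1
      exact (left_eq_add.mp this)
    · rintro ⟨h1, h2⟩ v
      obtain ⟨a, b, rfl⟩ := hspan v
      rw [smul_add, smul_comm σ, smul_comm σ, hfix, hφ, h1, h2, one_smul, zero_smul, add_zero]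
  refine ⟨⟨φ, hmul, ?_, ?_, ?_, ?_⟩⟩
  · have := hC.open_kernel
    simp only [htriv] at this
    exact this
  · intro ℓ hℓ hℓp A hA σ hσ
    exact ((htriv σ).mp (hC.unramified_outside ℓ hℓ hℓp A hA σ hσ)).2
  · intro A hA σ hσ h1
    obtain ⟨C', hC', hcompl⟩ := hC.locally_split A hA
    refine ((htriv σ).mp ?_).2
    -- σ acts trivially on C'
    have h2 : ∀ x ∈ C', σ • x = x := by
      intro x hx
      have h3 : σ • x - x ∈ C' := C'.sub_mem (hC' σ hσ x hx) hx
      have h4 : σ • x - x ∈ C := by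
        have := hC.cyclo_quot σ x
        have h5 : (cycloExp p σ : ZMod p) = 1 := h1
        rw [h5, one_smul] at this
        exact this
      have h5 := Submodule.disjoint_def.mp hcompl.disjoint _ h4 h3
      exact sub_eq_zero.mp h5
    intro v
    have hv : v ∈ C ⊔ C' := by rw [hcompl.sup_eq_top]; trivial
    obtain ⟨x, hx, y, hy, rfl⟩ := Submodule.mem_sup.mp hv
    rw [smul_add, h2 y hy, hC.fixed_sub σ x hx]
  · by_contra hcon
    push Not at hcon
    apply hns
    obtain ⟨τ, hτ⟩ := exists_chiP_ne_one hp3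
    have hτ' : chiP p τ - 1 ≠ 0 := sub_ne_zero.mpr hτ
    let b' : ZMod p := φ τ / (chiP p τ - 1)
    have hb' : b' * (chiP p τ - 1) = φ τ := div_mul_cancel₀ _ hτ'
    let v₁ : V := v₀ + b' • (c₀ : V)
    -- φ σ = b' (χ σ - 1)
    have hone : φ 1 = 0 := by
      have := hmul 1 1
      rw [one_mul, chiP_one, one_mul] at this
      exact add_eq_left.mp this.symm
    have hkey : ∀ σ, φ σ = b' * (chiP p σ - 1) := by
      intro σ
      -- φ (σ τ) = φ (τ σ)
      have h1 : φ (σ * τ) = φ (τ * σ) := by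
        have h2 : σ * τ = (τ * σ) * ((τ * σ)⁻¹ * (σ * τ)) := by group
        have h3 : chiP p ((τ * σ)⁻¹ * (σ * τ)) = 1 := by
          have h4 : chiP p ((τ * σ) * ((τ * σ)⁻¹ * (σ * τ))) = chiP p (τ * σ) := by
            rw [← h2, chiP_mul, chiP_mul, mul_comm]
          rw [chiP_mul] at h4
          exact mul_left_cancel₀ (chiP_ne_zero p (τ * σ)) (by rw [h4, mul_one])
        rw [h2, hmul, h3, one_mul, hcon _ h3, add_zero]
      rw [hmul, hmul] at h1
      have h2 : (chiP p τ - 1) * (φ σ - b' * (chiP p σ - 1)) = 0 := by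
        linear_combination h1 + (1 - chiP p σ) * hb'
      rcases mul_eq_zero.mp h2 with h | h
      · exact absurd h hτ'
      · exact sub_eq_zero.mp h
    have hv₁ : ∀ σ : Ω ≃ₐ[ℚ] Ω, σ • v₁ = chiP p σ • v₁ := by
      intro σ
      show σ • (v₀ + b' • (c₀ : V)) = chiP p σ • (v₀ + b' • (c₀ : V))
      rw [smul_add, smul_comm σ b', hfix, hφ, hkey σ, smul_add, smul_smul, add_assoc, ← add_smul]
      congr 2
      ring
    refine ⟨Submodule.span (ZMod p) {v₁}, ?_, ?_⟩
    · intro σ x hx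
      obtain ⟨a, rfl⟩ := Submodule.mem_span_singleton.mp hx
      rw [smul_comm σ, hv₁]
      exact Submodule.smul_mem _ _ (Submodule.smul_mem _ _ (Submodule.mem_span_singleton_self _))
    · have hv₁C : v₁ ∉ C := by
        intro h
        apply hv₀
        have := C.sub_mem h (C.smul_mem b' c₀.2)
        rwa [add_sub_cancel_right] at this
      constructor
      · rw [Submodule.disjoint_def]
        intro x hx hx'
        obtain ⟨a, rfl⟩ := Submodule.mem_span_singleton.mp hx'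
        by_cases ha : a = 0
        · rw [ha, zero_smul]
        · exact absurd ((Submodule.smul_mem_iff C ha).mp hx) hv₁C
      · rw [codisjoint_iff, eq_top_iff]
        intro w _
        obtain ⟨a, b, rfl⟩ := hspan w
        rw [Submodule.mem_sup]
        refine ⟨(b - a * b') • (c₀ : V), C.smul_mem _ c₀.2, a • v₁,
          Submodule.smul_mem _ _ (Submodule.mem_span_singleton_self _), ?_⟩
        show (b - a * b') • (c₀ : V) + a • (v₀ + b' • (c₀ : V)) = _
        rw [smul_add, smul_smul, sub_smul]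
        abel

end linalg

end Fermat.Agent.ExtVan
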