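import Mathlib
import Fermat.Agent.ExtVan.Cocycle
set_option autoImplicit false

open scoped Pointwise
open Fermat.Agent.Frob ExtCitation

namespace Fermat.Agent.ExtVan

local notation "Ω" => AlgebraicClosure ℚ

/-- the cyclotomic field inside `Ω` -/
noncomputable abbrev Kz (z : Ω) : IntermediateField ℚ Ω := IntermediateField.adjoin ℚ {z}

section

variable {p : ℕ} [Fact p.Prime]

lemma mem_Kz_iff {z : Ω} (hz : IsPrimitiveRoot z p) (x : Ω) :
    x ∈ Kz z ↔ ∀ σ : Ω ≃ₐ[ℚ] Ω, chiP p σ = 1 → σ x = x := by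
  constructor
  · intro hx σ hσ
    rw [chiP_eq_one_iff hz] at hσ
    have h1 : Kz z ≤ IntermediateField.fixedField (Subgroup.zpowers σ) := by
      rw [IntermediateField.adjoin_le_iff]
      intro y hy
      rw [Set.mem_singleton_iff] at hy
      subst hy
      rw [SetLike.mem_coe, IntermediateField.mem_fixedField_iff]
      intro τ hτ
      rw [Subgroup.mem_zpowers_iff] at hτ
      obtain ⟨n, rfl⟩ := hτ
      have : σ ∈ MulAction.stabilizer (Ω ≃ₐ[ℚ] Ω) y := hσ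
      exact Subgroup.zpow_mem _ this n
    exact (IntermediateField.mem_fixedField_iff _ _).mp (h1 hx) σ (Subgroup.mem_zpowers σ)
  · intro h
    rw [← InfiniteGalois.fixedField_fixingSubgroup (Kz z), IntermediateField.mem_fixedField_iff]
    intro σ hσ
    apply h
    rw [chiP_eq_one_iff hz]
    exact (IntermediateField.mem_fixingSubgroup_iff _ σ).mp hσ z (IntermediateField.mem_adjoin_simple_self ℚ z)

namespace CocycleData

variable (D : CocycleData p)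

lemma φ_one : D.φ 1 = 0 := by
  have := D.mul 1 1
  rw [one_mul, chiP_one, one_mul] at this
  exact add_eq_left.mp this.symm

/-- the kernel of the cocycle restricted to the kernel of the cyclotomic character -/
def N : Subgroup (Ω ≃ₐ[ℚ] Ω) where
  carrier := {σ | chiP p σ = 1 ∧ D.φ σ = 0}
  mul_mem' {σ τ} hσ hτ := ⟨by rw [chiP_mul, hσ.1, hτ.1, one_mul],
    by rw [D.mul, hσ.2, hτ.2, mul_zero, add_zero]⟩
  one_mem' := ⟨chiP_one p, D.φ_one⟩
  inv_mem' {σ} hσ := by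
    have h1 : chiP p σ⁻¹ = 1 := by
      have := chiP_mul p σ σ⁻¹
      rw [mul_inv_cancel, chiP_one, hσ.1, one_mul] at this
      exact this.symm
    refine ⟨h1, ?_⟩
    have := D.mul σ σ⁻¹
    rw [mul_inv_cancel, hσ.2, mul_zero, zero_add, D.φ_one] at this
    exact this.symm

lemma mem_N (σ : Ω ≃ₐ[ℚ] Ω) : σ ∈ D.N ↔ chiP p σ = 1 ∧ D.φ σ = 0 := Iff.rfl

instance normal_N : D.N.Normal where
  conj_mem σ hσ g := by
    have h1 : chiP p g * chiP p g⁻¹ = 1 := by rw [← chiP_mul, mul_inv_cancel, chiP_one]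
    refine ⟨?_, ?_⟩
    · rw [chiP_mul, chiP_mul, hσ.1, mul_one, h1]
    · rw [D.mul, D.mul, hσ.1, hσ.2, one_mul, add_zero, ← D.mul, mul_inv_cancel, D.φ_one]

lemma N_isOpen : IsOpen (D.N : Set (Ω ≃ₐ[ℚ] Ω)) := D.isOpen

lemma N_isClosed : IsClosed (D.N : Set (Ω ≃ₐ[ℚ] Ω)) := Subgroup.isClosed_of_isOpen _ D.N_isOpen

/-- the field cut out by the cocycle -/
noncomputable def L : IntermediateField ℚ Ω := IntermediateField.fixedField D.N

lemma fixingSubgroup_L : D.L.fixingSubgroup = D.N :=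
  InfiniteGalois.fixingSubgroup_fixedField ⟨D.N, D.N_isClosed⟩

instance finiteDimensional_L : FiniteDimensional ℚ D.L := by
  rw [← InfiniteGalois.isOpen_iff_finite, D.fixingSubgroup_L]
  exact D.N_isOpen

lemma mem_L_iff (x : Ω) : x ∈ D.L ↔ ∀ σ ∈ D.N, σ x = x :=
  IntermediateField.mem_fixedField_iff _ _

lemma map_mem_L (g : Ω ≃ₐ[ℚ] Ω) {x : Ω} (hx : x ∈ D.L) : g x ∈ D.L := by
  rw [mem_L_iff] at hx ⊢
  intro σ hσ
  have h1 := hx _ (D.normal_N.conj_mem σ hσ g⁻¹)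
  rw [inv_inv, AlgEquiv.mul_apply, AlgEquiv.mul_apply, AlgEquiv.aut_inv, AlgEquiv.symm_apply_eq] at h1
  exact h1

lemma eq_on_L (σ τ : Ω ≃ₐ[ℚ] Ω) :
    (∀ x ∈ D.L, σ x = τ x) ↔ (chiP p σ = chiP p τ ∧ D.φ σ = D.φ τ) := by
  have h1 : (∀ x ∈ D.L, σ x = τ x) ↔ τ⁻¹ * σ ∈ D.N := by
    rw [← D.fixingSubgroup_L, IntermediateField.mem_fixingSubgroup_iff]
    refine forall_congr' fun x => forall_congr' fun _ => ?_
    rw [AlgEquiv.mul_apply, AlgEquiv.aut_inv, AlgEquiv.symm_apply_eq]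
  rw [h1, mem_N]
  have h2 : σ = τ * (τ⁻¹ * σ) := by group
  have h3 : chiP p σ = chiP p τ * chiP p (τ⁻¹ * σ) := by rw [← chiP_mul, ← h2]
  have h4 : D.φ σ = chiP p (τ⁻¹ * σ) * D.φ τ + D.φ (τ⁻¹ * σ) := by rw [← D.mul, ← h2]
  constructor
  · rintro ⟨h5, h6⟩
    rw [h3, h4, h5, h6, mul_one, one_mul, add_zero]
    exact ⟨rfl, rfl⟩
  · rintro ⟨h5, h6⟩
    have h7 : chiP p (τ⁻¹ * σ) = 1 := by
      rw [h5] at h3
      exact (mul_left_cancel₀ (chiP_ne_zero p τ) (by rw [mul_one]; exact h3)).symm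
    refine ⟨h7, ?_⟩
    rw [h7, one_mul, h6] at h4
    exact add_eq_left.mp h4.symm

lemma φ_pow (σ : Ω ≃ₐ[ℚ] Ω) (hσ : chiP p σ = 1) (n : ℕ) :
    chiP p (σ ^ n) = 1 ∧ D.φ (σ ^ n) = n * D.φ σ := by
  induction n with
  | zero => simp [chiP_one, D.φ_one]
  | succ n ih =>
    refine ⟨by rw [pow_succ, chiP_mul, ih.1, hσ, one_mul], ?_⟩
    rw [pow_succ, D.mul, ih.2, hσ, one_mul]
    push_cast; ring

lemma exists_gen : ∃ σ, chiP p σ = 1 ∧ D.φ σ = 1 := by
  obtain ⟨σ, h1, h2⟩ := D.nonsplit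
  refine ⟨σ ^ ((D.φ σ)⁻¹).val, (D.φ_pow σ h1 _).1, ?_⟩
  rw [(D.φ_pow σ h1 _).2, ZMod.natCast_zmod_val, inv_mul_cancel₀ h2]

/-- a chosen generator -/
noncomputable def gen : Ω ≃ₐ[ℚ] Ω := D.exists_gen.choose

lemma chi_gen : chiP p D.gen = 1 := D.exists_gen.choose_spec.1
lemma φ_gen : D.φ D.gen = 1 := D.exists_gen.choose_spec.2

lemma φ_gen_pow (j : ZMod p) : chiP p (D.gen ^ j.val) = 1 ∧ D.φ (D.gen ^ j.val) = j := by
  have := D.φ_pow D.gen D.chi_gen j.val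
  rw [D.φ_gen, mul_one, ZMod.natCast_zmod_val] at this
  exact this

lemma gen_shift (σ : Ω ≃ₐ[ℚ] Ω) (hσ : chiP p σ = 1) (j : ZMod p) (x : Ω) (hx : x ∈ D.L) :
    σ ((D.gen ^ j.val) x) = (D.gen ^ (j + D.φ σ).val) x := by
  have := (D.eq_on_L (σ * D.gen ^ j.val) (D.gen ^ (j + D.φ σ).val)).mpr (by
    rw [chiP_mul, D.mul, (D.φ_gen_pow _).1, (D.φ_gen_pow _).1, (D.φ_gen_pow _).2, (D.φ_gen_pow _).2,
      hσ, one_mul, one_mul, add_comm]
    exact ⟨rfl, rfl⟩)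
  exact this x hx

/-- the characters of `L` -/
noncomputable def chars (j : ZMod p) : D.L →* Ω :=
  ((D.gen ^ j.val : Ω ≃ₐ[ℚ] Ω) : Ω →* Ω).comp (D.L.val : D.L →* Ω)

lemma chars_apply (j : ZMod p) (x : D.L) : D.chars j x = (D.gen ^ j.val) (x : Ω) := rfl

lemma chars_injective : Function.Injective D.chars := by
  intro i j hij
  have := (D.eq_on_L (D.gen ^ i.val) (D.gen ^ j.val)).mp (fun x hx => DFunLike.congr_fun hij ⟨x, hx⟩)
  rw [(D.φ_gen_pow _).2, (D.φ_gen_pow _).2] at this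
  exact this.2

end CocycleData

/-- the additive character `a ↦ z^a` -/
noncomputable def psi {z : Ω} (hz : IsPrimitiveRoot z p) : AddChar (ZMod p) Ω :=
  haveI : NeZero p := ⟨(Fact.out : p.Prime).ne_zero⟩
  AddChar.zmodChar p hz.pow_eq_one

lemma psi_apply {z : Ω} (hz : IsPrimitiveRoot z p) (a : ZMod p) : psi hz a = z ^ a.val := rfl

lemma psi_natCast {z : Ω} (hz : IsPrimitiveRoot z p) (a : ℕ) : psi hz (a : ZMod p) = z ^ a := by
  have : NeZero p := ⟨(Fact.out : p.Prime).ne_zero⟩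
  exact AddChar.zmodChar_apply' _ _

lemma psi_ne_zero {z : Ω} (hz : IsPrimitiveRoot z p) (a : ZMod p) : psi hz a ≠ 0 :=
  pow_ne_zero _ (hz.ne_zero (Fact.out : p.Prime).ne_zero)

lemma psi_mem {z : Ω} (hz : IsPrimitiveRoot z p) (a : ZMod p) : psi hz a ∈ Kz z :=
  pow_mem (IntermediateField.mem_adjoin_simple_self ℚ z) _

lemma psi_fixed {z : Ω} (hz : IsPrimitiveRoot z p) (a : ZMod p) (σ : Ω ≃ₐ[ℚ] Ω) (hσ : chiP p σ = 1) :
    σ (psi hz a) = psi hz a := (mem_Kz_iff hz _).mp (psi_mem hz a) σ hσ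

lemma psi_eq_one_iff {z : Ω} (hz : IsPrimitiveRoot z p) (a : ZMod p) : psi hz a = 1 ↔ a = 0 := by
  have : NeZero p := ⟨(Fact.out : p.Prime).ne_zero⟩
  rw [psi_apply]
  constructor
  · intro h
    have := (hz.pow_eq_one_iff_dvd _).mp h
    rw [← ZMod.natCast_zmod_val a]
    exact (ZMod.natCast_eq_zero_iff _ _).mpr this
  · rintro rfl
    simp

lemma psi_sum {z : Ω} (hz : IsPrimitiveRoot z p) (b : ZMod p) :
    ∑ x : ZMod p, psi hz (x * b) = if b = 0 then (p : Ω) else 0 := by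
  have : NeZero p := ⟨(Fact.out : p.Prime).ne_zero⟩
  have h1 := AddChar.sum_mulShift (ψ := psi hz) b (AddChar.zmodChar_primitive_of_primitive_root p hz)
  rw [ZMod.card] at h1
  rw [h1]
  split_ifs <;> simp

namespace CocycleData

variable (D : CocycleData p) {z : Ω} (hz : IsPrimitiveRoot z p)

/-- Lagrange resolvents -/
noncomputable def res (i : ZMod p) (x : Ω) : Ω := ∑ j : ZMod p, psi hz (-(i * j)) * (D.gen ^ j.val) x

lemma map_res (i : ZMod p) {x : Ω} (hx : x ∈ D.L) (σ : Ω ≃ₐ[ℚ] Ω) (hσ : chiP p σ = 1) :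
    σ (D.res hz i x) = psi hz (i * D.φ σ) * D.res hz i x := by
  unfold res
  rw [map_sum, Finset.mul_sum]
  refine Fintype.sum_equiv (Equiv.addRight (D.φ σ)) _ _ fun j => ?_
  rw [map_mul, psi_fixed hz _ σ hσ, D.gen_shift σ hσ j x hx, Equiv.coe_addRight, ← mul_assoc,
    ← AddChar.map_add_eq_mul]
  congr 2
  ring

lemma res_mem_L (i : ZMod p) {x : Ω} (hx : x ∈ D.L) : D.res hz i x ∈ D.L := by
  rw [D.mem_L_iff]
  intro σ hσ
  rw [D.map_res hz i hx σ hσ.1, hσ.2, mul_zero, AddChar.map_zero_eq_one, one_mul]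

lemma sum_res {x : Ω} : ∑ i : ZMod p, D.res hz i x = p * x := by
  unfold res
  rw [Finset.sum_comm]
  have h1 : ∀ j : ZMod p, ∑ i : ZMod p, psi hz (-(i * j)) * (D.gen ^ j.val) x =
      if j = 0 then p * x else 0 := by
    intro j
    rw [← Finset.sum_mul]
    have h2 : ∑ i : ZMod p, psi hz (-(i * j)) = ∑ i : ZMod p, psi hz (i * (-j)) := by
      refine Finset.sum_congr rfl fun i _ => ?_
      rw [mul_neg]
    rw [h2, psi_sum]
    by_cases h : j = 0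
    · subst h; simp
    · rw [if_neg (neg_ne_zero.mpr h), if_neg h, zero_mul]
  rw [Finset.sum_congr rfl fun j _ => h1 j, Finset.sum_ite_eq' Finset.univ (0 : ZMod p)]
  simp

theorem exists_beta : ∃ β : Ω, β ≠ 0 ∧ β ∈ D.L ∧ ∀ σ : Ω ≃ₐ[ℚ] Ω, chiP p σ = 1 → σ β = psi hz (D.φ σ) * β := by
  have hli : LinearIndependent Ω (fun j : ZMod p => (D.chars j : D.L → Ω)) :=
    (linearIndependent_monoidHom D.L Ω).comp D.chars D.chars_injective
  rw [Fintype.linearIndependent_iff] at hli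
  have h1 : ∃ x : D.L, D.res hz 1 x ≠ 0 := by
    by_contra hcon
    push Not at hcon
    have := hli (fun j => psi hz (-(1 * j))) (by
      funext x
      rw [Finset.sum_apply]
      exact hcon x) 0
    exact psi_ne_zero hz _ this
  obtain ⟨x, hx⟩ := h1
  refine ⟨D.res hz 1 x, hx, D.res_mem_L hz 1 x.2, fun σ hσ => ?_⟩
  rw [D.map_res hz 1 x.2 σ hσ, one_mul]

variable {β : Ω} (hβ0 : β ≠ 0) (hβ : ∀ σ : Ω ≃ₐ[ℚ] Ω, chiP p σ = 1 → σ β = psi hz (D.φ σ) * β)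

include hβ in
lemma map_beta_pow (σ : Ω ≃ₐ[ℚ] Ω) (hσ : chiP p σ = 1) (n : ℕ) :
    σ (β ^ n) = psi hz (n * D.φ σ) * β ^ n := by
  rw [map_pow, hβ σ hσ, mul_pow, ← AddChar.map_nsmul_eq_pow, nsmul_eq_mul]

include hβ in
lemma beta_pow_mem : β ^ p ∈ Kz z := by
  rw [mem_Kz_iff hz]
  intro σ hσ
  rw [D.map_beta_pow hz hβ σ hσ, CharP.cast_eq_zero, zero_mul, AddChar.map_zero_eq_one, one_mul]

include hβ in
lemma beta_mem_L : β ∈ D.L := by
  rw [D.mem_L_iff]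
  intro σ hσ
  rw [hβ σ hσ.1, hσ.2, AddChar.map_zero_eq_one, one_mul]

include hβ hβ0 in
/-- the decomposition of an element of `L` -/
theorem decomp {x : Ω} (hx : x ∈ D.L) : ∃ a : ZMod p → Ω, (∀ i, a i ∈ Kz z) ∧
    x = ∑ i : ZMod p, a i * β ^ i.val := by
  have hp0 : (p : Ω) ≠ 0 := Nat.cast_ne_zero.mpr (Fact.out : p.Prime).ne_zero
  refine ⟨fun i => D.res hz i x / (p * β ^ i.val), fun i => ?_, ?_⟩
  · rw [mem_Kz_iff hz]
    intro σ hσ
    rw [map_div₀, map_mul, map_natCast, D.map_res hz i hx σ hσ, D.map_beta_pow hz hβ σ hσ,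
      ZMod.natCast_zmod_val]
    have := psi_ne_zero hz (i * D.φ σ)
    have := pow_ne_zero i.val hβ0
    field_simp
  · have h1 : ∀ i : ZMod p, D.res hz i x / (p * β ^ i.val) * β ^ i.val = D.res hz i x / p := by
      intro i
      have := pow_ne_zero i.val hβ0
      field_simp
    rw [Finset.sum_congr rfl fun i _ => h1 i, ← Finset.sum_div, D.sum_res hz]
    field_simp

include hβ hβ0 in
/-- `β^p` is not a `p`-th power in `K`. -/
theorem beta_not_pow (x : Ω) (hx : x ∈ Kz z) : x ^ p ≠ β ^ p := by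
  have : NeZero p := ⟨(Fact.out : p.Prime).ne_zero⟩
  intro h
  have h1 : (β / x) ^ p = 1 := by
    rw [div_pow, h, div_self (pow_ne_zero _ hβ0)]
  obtain ⟨i, _, hi⟩ := hz.eq_pow_of_pow_eq_one h1
  have hx0 : x ≠ 0 := by
    rintro rfl
    rw [zero_pow (NeZero.ne p)] at h
    exact pow_ne_zero _ hβ0 h.symm
  have h2 : β ∈ Kz z := by
    have : β = z ^ i * x := by rw [hi]; field_simp
    rw [this]
    exact mul_mem (pow_mem (IntermediateField.mem_adjoin_simple_self ℚ z) _) hx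
  have h3 := (mem_Kz_iff hz _).mp h2 D.gen D.chi_gen
  rw [hβ _ D.chi_gen, D.φ_gen] at h3
  have h4 : psi hz 1 = 1 := mul_right_cancel₀ hβ0 (by rw [one_mul]; exact h3)
  rw [psi_eq_one_iff] at h4
  exact one_ne_zero h4

include hβ hβ0 in
/-- `g α = α^{χ(g)²}` up to `p`-th powers. -/
theorem map_beta (g : Ω ≃ₐ[ℚ] Ω) (t : ℕ) (hg : g z = z ^ t) : ∃ k ∈ Kz z, g β = β ^ (t ^ 2) * k := by
  refine ⟨g β / β ^ (t ^ 2), ?_, by have := pow_ne_zero (t ^ 2) hβ0; field_simp⟩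
  rw [mem_Kz_iff hz]
  intro σ hσ
  have hg1 : (t : ZMod p) = chiP p g := chiP_spec' hz g hg
  have h1 : σ (g β) = psi hz (t ^ 2 * D.φ σ) * g β := by
    have h2 : σ (g β) = g ((g⁻¹ * σ * g) β) := by
      rw [← AlgEquiv.mul_apply, ← AlgEquiv.mul_apply]
      congr 1
      group
    have h3 : chiP p g⁻¹ * chiP p g = 1 := by rw [← chiP_mul, inv_mul_cancel, chiP_one]
    have h4 : chiP p (g⁻¹ * σ * g) = 1 := by
      rw [chiP_mul, chiP_mul, hσ, mul_one, h3]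
    have h5 : D.φ (g⁻¹ * σ * g) = t * D.φ σ := by
      have h6 : D.φ (g⁻¹ * σ * g) = chiP p g * (chiP p σ * D.φ g⁻¹ + D.φ σ) + D.φ g := by
        rw [D.mul, D.mul]
      have h7 : chiP p g * D.φ g⁻¹ + D.φ g = 0 := by rw [← D.mul, inv_mul_cancel, D.φ_one]
      rw [h6, hσ, hg1]
      linear_combination h7
    rw [h2, hβ _ h4, h5, map_mul]
    congr 1
    rw [psi_apply, map_pow, hg, ← pow_mul, ← psi_natCast hz]
    congr 1
    push_cast
    rw [ZMod.natCast_zmod_val]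
    ring
  rw [map_div₀, h1, D.map_beta_pow hz hβ σ hσ]
  push_cast
  have := psi_ne_zero hz (t ^ 2 * D.φ σ)
  have := pow_ne_zero (t ^ 2) hβ0
  field_simp

end CocycleData

end

end Fermat.Agent.ExtVan
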