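import Mathlib
import Fermat.Agent.ExtVan.Kummer
set_option autoImplicit false

open scoped Pointwise
open Fermat.Agent.Frob ExtCitation

namespace Fermat.Agent.ExtVan

local notation "Ω" => AlgebraicClosure ℚ

namespace CocycleData

variable {p : ℕ} [Fact p.Prime] (D : CocycleData p) {z : Ω} (hz : IsPrimitiveRoot z p)
  {β : Ω} (hβ0 : β ≠ 0) (hβ : ∀ σ : Ω ≃ₐ[ℚ] Ω, chiP p σ = 1 → σ β = psi hz (D.φ σ) * β)

include hβ0 hβ in
lemma val_pow_ne (A : ValuationSubring Ω) (h : ∀ k ∈ Kz z, A.valuation β ≠ A.valuation k)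
    (n : ℤ) (hn : ¬ (p : ℤ) ∣ n) (k : Ω) (hk : k ∈ Kz z) : A.valuation β ^ n ≠ A.valuation k := by
  intro heq
  have hcop : IsCoprime n (p : ℤ) := by
    rw [Int.isCoprime_iff_gcd_eq_one, Int.gcd_comm]
    have := (Nat.Prime.coprime_iff_not_dvd (Fact.out : p.Prime)).mpr (fun h2 => hn (Int.natCast_dvd.mpr h2) : ¬ p ∣ n.natAbs)
    exact this
  obtain ⟨a, b, hab⟩ := hcop
  have hv : A.valuation β ≠ 0 := (Valuation.ne_zero_iff _).mpr hβ0
  apply h (k ^ a * (β ^ p) ^ b)
  · exact mul_mem (zpow_mem hk a) (zpow_mem (D.beta_pow_mem hz hβ) b)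
  · rw [map_mul, map_zpow₀, map_zpow₀, map_pow, ← heq, ← zpow_natCast, ← zpow_mul, ← zpow_mul,
      ← zpow_add₀ hv]
    have : n * a + p * b = 1 := by linarith
    rw [this, zpow_one]

include hβ0 hβ in
/-- bounded terms -/
lemma val_terms (A : ValuationSubring Ω) (h : ∀ k ∈ Kz z, A.valuation β ≠ A.valuation k)
    (a : ZMod p → Ω) (ha : ∀ i, a i ∈ Kz z) (hx : A.valuation (∑ i : ZMod p, a i * β ^ i.val) ≤ 1) :
    ∀ i : ZMod p, i ≠ 0 → A.valuation (a i * β ^ i.val) < 1 := by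
  classical
  have : NeZero p := ⟨(Fact.out : p.Prime).ne_zero⟩
  have hv : A.valuation β ≠ 0 := (Valuation.ne_zero_iff _).mpr hβ0
  have hdist : ∀ i j : ZMod p, i ≠ j → a i ≠ 0 → a j ≠ 0 →
      A.valuation (a i * β ^ i.val) ≠ A.valuation (a j * β ^ j.val) := by
    intro i j hij hi hj heq
    rw [map_mul, map_mul, map_pow, map_pow] at heq
    have hi' : A.valuation (a i) ≠ 0 := (Valuation.ne_zero_iff _).mpr hi
    have hj' : A.valuation (a j) ≠ 0 := (Valuation.ne_zero_iff _).mpr hj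
    refine D.val_pow_ne hz hβ0 hβ A h ((i.val : ℤ) - j.val) ?_ (a j / a i) (div_mem (ha j) (ha i)) ?_
    · intro hd
      apply hij
      have := (ZMod.intCast_zmod_eq_zero_iff_dvd _ p).mpr hd
      push_cast at this
      rw [ZMod.natCast_zmod_val, ZMod.natCast_zmod_val, sub_eq_zero] at this
      exact this
    · rw [zpow_sub₀ hv, zpow_natCast, zpow_natCast, map_div₀]
      rw [div_eq_div_iff (pow_ne_zero _ hv) hi', mul_comm, heq]
  -- all terms are `≤ 1`
  have hle : ∀ i : ZMod p, A.valuation (a i * β ^ i.val) ≤ 1 := by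
    obtain ⟨i₀, _, hi₀⟩ := Finset.exists_max_image Finset.univ (fun i : ZMod p => A.valuation (a i * β ^ i.val))
      ⟨0, Finset.mem_univ _⟩
    by_contra hcon
    push Not at hcon
    obtain ⟨j, hj⟩ := hcon
    have h1 : 1 < A.valuation (a i₀ * β ^ i₀.val) := lt_of_lt_of_le hj (hi₀ j (Finset.mem_univ _))
    have hi₀0 : a i₀ ≠ 0 := by
      intro h0
      rw [h0, zero_mul, map_zero] at h1
      exact absurd h1 (not_lt.mpr zero_le_one)
    have h2 : A.valuation (∑ i : ZMod p, a i * β ^ i.val) = A.valuation (a i₀ * β ^ i₀.val) := by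
      apply Valuation.map_sum_eq_of_lt _ (Finset.mem_univ i₀)
      intro i hi
      rw [Finset.mem_sdiff, Finset.mem_singleton] at hi
      by_cases h0 : a i = 0
      · rw [h0, zero_mul, map_zero]
        exact lt_trans zero_lt_one h1
      · exact lt_of_le_of_ne (hi₀ i (Finset.mem_univ _)) (hdist i i₀ hi.2 h0 hi₀0)
    rw [h2] at hx
    exact absurd h1 (not_lt.mpr hx)
  intro i hi
  refine lt_of_le_of_ne (hle i) fun heq => ?_
  have hi0 : a i ≠ 0 := by
    intro h0
    rw [h0, zero_mul, map_zero] at heq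
    exact zero_ne_one heq
  have hi' : A.valuation (a i) ≠ 0 := (Valuation.ne_zero_iff _).mpr hi0
  refine D.val_pow_ne hz hβ0 hβ A h (i.val : ℤ) ?_ (a i)⁻¹ (inv_mem (ha i)) ?_
  · intro hd
    apply hi
    have := (ZMod.intCast_zmod_eq_zero_iff_dvd _ p).mpr hd
    push_cast at this
    rwa [ZMod.natCast_zmod_val] at this
  · rw [zpow_natCast, map_inv₀]
    rw [map_mul, map_pow] at heq
    exact eq_inv_of_mul_eq_one_right heq

include hβ0 hβ in
/-- `β` has the same valuation as an element of `K`, at every place. -/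
theorem exists_val_eq (A : ValuationSubring Ω) {ℓ : ℕ} (hℓ : ℓ.Prime) (hA : A.LiesOverPrime ℓ) :
    ∃ k ∈ Kz z, A.valuation β = A.valuation k := by
  have : NeZero p := ⟨(Fact.out : p.Prime).ne_zero⟩
  by_contra hcon
  push Not at hcon
  obtain ⟨σ, hσ, hσL⟩ := exists_lift_inertia D.L hℓ hA D.gen (by
    intro x hx
    obtain ⟨a, ha, hxa⟩ := D.decomp hz hβ0 hβ hx
    have h1 := D.val_terms hz hβ0 hβ A hcon a ha (by
      rw [← hxa, A.valuation_le_one_iff]
      exact mem_of_isIntegral A x.2)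
    rw [mem_center_iff, ValuationSubring.mem_nonunits_iff]
    have h2 : ((D.gen • x - x : integralClosure ℤ Ω) : Ω) =
        ∑ i : ZMod p, (psi hz i - 1) * (a i * β ^ i.val) := by
      have h3 : ((D.gen • x - x : integralClosure ℤ Ω) : Ω) = D.gen (x : Ω) - x := rfl
      rw [h3]
      nth_rewrite 1 [hxa]
      nth_rewrite 1 [hxa]
      rw [map_sum, ← Finset.sum_sub_distrib]
      refine Finset.sum_congr rfl fun i _ => ?_
      rw [map_mul, (mem_Kz_iff hz _).mp (ha i) D.gen D.chi_gen, D.map_beta_pow hz hβ _ D.chi_gen,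
        D.φ_gen, ZMod.natCast_zmod_val, mul_one]
      ring
    rw [h2]
    apply Valuation.map_sum_lt _ one_ne_zero
    intro i _
    by_cases hi : i = 0
    · rw [hi, AddChar.map_zero_eq_one, sub_self, zero_mul, map_zero]
      exact zero_lt_one
    · rw [map_mul]
      refine lt_of_le_of_lt (mul_le_of_le_one_left' ?_) (h1 i hi)
      rw [A.valuation_le_one_iff]
      apply mem_of_isIntegral
      rw [psi_apply]
      exact ((hz.isIntegral (NeZero.pos p)).pow _).sub isIntegral_one)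
  have hz1 : z ∈ D.L := by
    rw [D.mem_L_iff]
    intro τ hτ
    exact (chiP_eq_one_iff hz τ).mp hτ.1
  have h1 : chiP p σ = 1 := by
    rw [chiP_eq_one_iff hz, hσL z hz1]
    exact (chiP_eq_one_iff hz _).mp D.chi_gen
  have h2 : D.φ σ = 0 := by
    by_cases hℓp : ℓ = p
    · subst hℓp
      refine D.loc A hA σ ?_ h1
      obtain ⟨⟨τ, hτ⟩, _, rfl⟩ := hσ
      exact hτ
    · exact D.unr ℓ hℓ hℓp A hA σ hσ
  have h3 := hσL β (D.beta_mem_L hz hβ)
  rw [hβ σ h1, h2, hβ _ D.chi_gen, D.φ_gen] at h3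
  have h4 := mul_right_cancel₀ hβ0 h3
  rw [AddChar.map_zero_eq_one] at h4
  exact one_ne_zero ((psi_eq_one_iff hz _).mp h4.symm)

end CocycleData

end Fermat.Agent.ExtVan
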