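import Mathlib
import Fermat.Agent.ExtVan.KummerVal
set_option autoImplicit false

open scoped Pointwise
open Fermat.Agent.Frob ExtCitation NumberField

namespace Fermat.Agent.ExtVan

local notation "Ω" => AlgebraicClosure ℚ

/-- an approximation lemma: at a completely split prime, every element is congruent to a fixed element -/
theorem exists_fixed_approx {B : Type*} [CommRing B] (s : B ≃+* B) {p : ℕ} (hp : 0 < p)
    (hs : ∀ x, (s ^ p) x = x) (P : Ideal B) [P.IsMaximal]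
    (h : ∀ i, 0 < i → i < p → P.comap ((s ^ i : B ≃+* B) : B →+* B) ≠ P) (n : ℕ) (x : B) :
    ∃ b, s b = b ∧ x - b ∈ P ^ n := by
  classical
  have hmax : ∀ i : ℕ, (P.comap ((s ^ i : B ≃+* B) : B →+* B)).IsMaximal := fun i =>
    Ideal.comap_isMaximal_of_surjective _ (s ^ i : B ≃+* B).surjective
  have hcop : IsCoprime (P ^ n) (∏ i ∈ Finset.Ico 1 p, (P.comap ((s ^ i : B ≃+* B) : B →+* B)) ^ n) := by
    apply IsCoprime.prod_right
    intro i hi
    rw [Finset.mem_Ico] at hi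
    apply IsCoprime.pow
    rw [Ideal.isCoprime_iff_sup_eq]
    exact Ideal.IsMaximal.coprime_of_ne inferInstance (hmax i) (h i (by omega) hi.2).symm
  obtain ⟨a, ha, e, he, hae⟩ := Ideal.isCoprime_iff_exists.mp hcop
  have he' : ∀ i ∈ Finset.Ico 1 p, (s ^ i : B ≃+* B) e ∈ P ^ n := by
    intro i hi
    have h1 : e ∈ (P.comap ((s ^ i : B ≃+* B) : B →+* B)) ^ n :=
      (Ideal.le_of_dvd (Finset.dvd_prod_of_mem _ hi)) he
    exact Ideal.le_comap_pow _ n h1
  refine ⟨∑ i ∈ Finset.range p, (s ^ i : B ≃+* B) (e * x), ?_, ?_⟩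
  · rw [map_sum]
    have h1 : ∀ i, s ((s ^ i : B ≃+* B) (e * x)) = (s ^ (i + 1) : B ≃+* B) (e * x) := by
      intro i
      rw [pow_succ']; rfl
    rw [Finset.sum_congr rfl fun i _ => h1 i]
    have h2 := Finset.sum_range_succ' (fun i => (s ^ i : B ≃+* B) (e * x)) p
    have h3 := Finset.sum_range_succ (fun i => (s ^ i : B ≃+* B) (e * x)) p
    rw [h3, hs] at h2
    have h4 : (s ^ 0 : B ≃+* B) (e * x) = e * x := rfl
    rw [h4] at h2
    exact (add_right_cancel h2).symm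
  · obtain ⟨q, rfl⟩ : ∃ q, p = q + 1 := ⟨p - 1, by omega⟩
    rw [Finset.sum_range_succ']
    have h4 : (s ^ 0 : B ≃+* B) (e * x) = e * x := rfl
    rw [h4]
    have h5 : x - (∑ i ∈ Finset.range q, (s ^ (i + 1) : B ≃+* B) (e * x) + e * x) =
        a * x - ∑ i ∈ Finset.range q, (s ^ (i + 1) : B ≃+* B) (e * x) := by
      have : x = (a + e) * x := by rw [hae, one_mul]
      nth_rewrite 1 [this]
      ring
    rw [h5]
    apply Ideal.sub_mem _ (Ideal.mul_mem_right _ _ ha)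
    apply Ideal.sum_mem
    intro i hi
    rw [Finset.mem_range] at hi
    rw [map_mul]
    exact Ideal.mul_mem_right _ _ (he' (i + 1) (Finset.mem_Ico.mpr ⟨by omega, by omega⟩))

namespace CocycleData

variable {p : ℕ} [Fact p.Prime] (D : CocycleData p) {z : Ω} (hz : IsPrimitiveRoot z p)
  {β : Ω} (hβ0 : β ≠ 0) (hβ : ∀ σ : Ω ≃ₐ[ℚ] Ω, chiP p σ = 1 → σ β = psi hz (D.φ σ) * β)

/-- the restriction of an automorphism to `L` -/
noncomputable def restr (g : Ω ≃ₐ[ℚ] Ω) : D.L ≃+* D.L where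
  toFun x := ⟨g x, D.map_mem_L g x.2⟩
  invFun x := ⟨g⁻¹ x, D.map_mem_L g⁻¹ x.2⟩
  left_inv x := Subtype.ext (g.symm_apply_apply x)
  right_inv x := Subtype.ext (g.apply_symm_apply x)
  map_mul' _ _ := Subtype.ext (map_mul g _ _)
  map_add' _ _ := Subtype.ext (map_add g _ _)

instance numberField_L : NumberField D.L where
  to_charZero := inferInstance
  to_finiteDimensional := by
    have := D.finiteDimensional_L
    convert this

/-- the restriction of an automorphism to the integers of `L` -/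
noncomputable def restrO (g : Ω ≃ₐ[ℚ] Ω) : 𝓞 D.L ≃+* 𝓞 D.L := RingOfIntegers.mapRingEquiv (D.restr g)

lemma coe_restrO (g : Ω ≃ₐ[ℚ] Ω) (x : 𝓞 D.L) : ((D.restrO g x : D.L) : Ω) = g ((x : D.L) : Ω) := rfl

lemma coe_restrO_pow (g : Ω ≃ₐ[ℚ] Ω) (n : ℕ) (x : 𝓞 D.L) :
    (((D.restrO g ^ n : 𝓞 D.L ≃+* 𝓞 D.L) x : D.L) : Ω) = (g ^ n) ((x : D.L) : Ω) := by
  induction n generalizing x with
  | zero => rfl
  | succ n ih => 
    rw [pow_succ, pow_succ]
    exact ih (D.restrO g x)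

/-- embedding of the ring of integers of `L` into all the algebraic integers -/
noncomputable def iotaO : 𝓞 D.L →+* integralClosure ℤ Ω where
  toFun x := ⟨((x : D.L) : Ω), by
    have := x.2
    exact (map_isIntegral_int D.L.val (RingOfIntegers.isIntegral_coe x))⟩
  map_one' := rfl
  map_mul' _ _ := rfl
  map_zero' := rfl
  map_add' _ _ := rfl

lemma coe_iotaO (x : 𝓞 D.L) : (D.iotaO x : Ω) = ((x : D.L) : Ω) := rfl

/-- the prime of `L` below a place `A` -/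
noncomputable def PL (A : ValuationSubring Ω) : Ideal (𝓞 D.L) := (center A).comap D.iotaO

instance PL_isPrime (A : ValuationSubring Ω) : (D.PL A).IsPrime := Ideal.comap_isPrime _ _

lemma mem_PL (A : ValuationSubring Ω) (x : 𝓞 D.L) : x ∈ D.PL A ↔ ((x : D.L) : Ω) ∈ A.nonunits := by
  exact mem_center_iff A (D.iotaO x)

lemma PL_isMaximal {A : ValuationSubring Ω} {ℓ : ℕ} (hℓ : ℓ.Prime) (hA : A.LiesOverPrime ℓ) :
    (D.PL A).IsMaximal := by
  apply (D.PL_isPrime A).isMaximal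
  intro h
  have h1 : (ℓ : 𝓞 D.L) ∈ D.PL A := by
    rw [mem_PL]
    have : (((ℓ : 𝓞 D.L) : D.L) : Ω) = (ℓ : Ω) := by simp
    rw [this]
    exact hA
  rw [h, Ideal.mem_bot] at h1
  exact hℓ.ne_zero (Nat.cast_eq_zero.mp h1)

/-- the splitting statement at `p` -/
lemma comap_ne {A : ValuationSubring Ω} (hA : A.LiesOverPrime p) (i : ℕ) (hi : 0 < i) (hip : i < p) :
    (D.PL A).comap ((D.restrO D.gen ^ i : 𝓞 D.L ≃+* 𝓞 D.L) : 𝓞 D.L →+* 𝓞 D.L) ≠ D.PL A := by
  intro h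
  obtain ⟨z, hz⟩ : ∃ z : Ω, IsPrimitiveRoot z p := by
    have : NeZero p := ⟨(Fact.out : p.Prime).ne_zero⟩
    exact HasEnoughRootsOfUnity.exists_primitiveRoot Ω p
  obtain ⟨σ, hσA, hσL⟩ := exists_lift_decomposition D.L (A := A) (D.gen ^ i) (by
    intro x hx
    have hxi : IsIntegral ℤ (⟨x, hx⟩ : D.L) := by
      have h1 : IsIntegral ℤ ((algebraMap D.L Ω) ⟨x, hx⟩) := x.2
      exact (isIntegral_algebraMap_iff (algebraMap D.L Ω).injective).mp h1
    obtain ⟨x', hx'⟩ : ∃ x' : 𝓞 D.L, ((x' : D.L) : Ω) = x := ⟨⟨⟨x, hx⟩, hxi⟩, rfl⟩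
    have h1 : (D.restrO D.gen ^ i : 𝓞 D.L ≃+* 𝓞 D.L) x' ∈ D.PL A ↔ x' ∈ D.PL A := Ideal.ext_iff.mp h x'
    have h4 := ((D.mem_PL A _).symm.trans h1).trans (D.mem_PL A _)
    have h2 := D.coe_restrO_pow D.gen i x'
    rw [h2, hx'] at h4
    rw [mem_center_iff, mem_center_iff]
    exact h4)
  have hz1 : z ∈ D.L := by
    rw [D.mem_L_iff]
    intro τ hτ
    exact (chiP_eq_one_iff hz τ).mp hτ.1
  have h1 := (D.eq_on_L σ (D.gen ^ i)).mp hσL
  rw [(D.φ_pow _ D.chi_gen i).1, (D.φ_pow _ D.chi_gen i).2, D.φ_gen, mul_one] at h1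
  have h2 := D.loc A hA σ hσA h1.1
  rw [h1.2] at h2
  have := (ZMod.natCast_eq_zero_iff _ _).mp h2
  exact absurd (Nat.le_of_dvd hi this) (by omega)

lemma restrO_pow_p (x : 𝓞 D.L) : (D.restrO D.gen ^ p : 𝓞 D.L ≃+* 𝓞 D.L) x = x := by
  apply RingOfIntegers.ext
  apply Subtype.ext
  rw [coe_restrO_pow]
  have := (D.eq_on_L (D.gen ^ p) 1).mpr (by
    rw [(D.φ_pow _ D.chi_gen p).1, (D.φ_pow _ D.chi_gen p).2, chiP_one, D.φ_one, CharP.cast_eq_zero,
      zero_mul]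
    exact ⟨rfl, rfl⟩)
  exact this _ (x : D.L).2

lemma mem_Kz_of_fixed {z : Ω} (hz : IsPrimitiveRoot z p) {x : Ω} (hx : x ∈ D.L) (h : D.gen x = x) : x ∈ Kz z := by
  rw [mem_Kz_iff hz]
  intro σ hσ
  have h1 := D.gen_shift σ hσ 0 x hx
  have h2 : ∀ n : ℕ, (D.gen ^ n) x = x := by
    intro n
    induction n with
    | zero => rfl
    | succ n ih => rw [pow_succ, AlgEquiv.mul_apply, h, ih]
  rw [h2, h2] at h1
  exact h1

include hz in
/-- every integer of `L` is congruent to an integer of `K` modulo any power of the prime of `L`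
below `A`, a place over `p`. -/
theorem exists_approx {A : ValuationSubring Ω} (hA : A.LiesOverPrime p) (n : ℕ) (x : 𝓞 D.L) :
    ∃ b : 𝓞 D.L, ((b : D.L) : Ω) ∈ Kz z ∧ x - b ∈ D.PL A ^ n := by
  have := D.PL_isMaximal (Fact.out : p.Prime) hA
  obtain ⟨b, hb, hb2⟩ := exists_fixed_approx (D.restrO D.gen) (Fact.out : p.Prime).pos D.restrO_pow_p
    (D.PL A) (fun i hi hip => D.comap_ne hA i hi hip) n x
  refine ⟨b, D.mem_Kz_of_fixed hz (b : D.L).2 ?_, hb2⟩
  rw [← D.coe_restrO, hb]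

end CocycleData

end Fermat.Agent.ExtVan
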