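import Mathlib
import Fermat.Agent.ExtVan.KummerLoc
set_option autoImplicit false

open scoped Pointwise
open Fermat.Agent.Frob ExtCitation NumberField IsDedekindDomain

namespace Fermat.Agent.ExtVan

local notation "Ω" => AlgebraicClosure ℚ

section

variable {p : ℕ} [hp : Fact p.Prime] {K : Type*} [Field K] [NumberField K]
  [hK : IsCyclotomicExtension {p} ℚ K]

lemma mem_Kz_iff_range {ζ : K} (hζ : IsPrimitiveRoot ζ p) (ι : K →+* Ω) (x : Ω) :
    x ∈ Kz (ι ζ) ↔ ∃ k, ι k = x := by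
  have : NeZero p := ⟨hp.out.ne_zero⟩
  constructor
  · intro hx
    have h1 : Kz (ι ζ) ≤ (RingHom.toRatAlgHom ι).fieldRange := by
      rw [IntermediateField.adjoin_le_iff, Set.singleton_subset_iff]
      exact ⟨ζ, rfl⟩
    obtain ⟨k, hk⟩ := h1 hx
    exact ⟨k, hk⟩
  · rintro ⟨k, rfl⟩
    have h1 : k ∈ Algebra.adjoin ℚ {ζ} := by
      rw [IsCyclotomicExtension.adjoin_primitive_root_eq_top hζ]
      trivial
    have h2 : (RingHom.toRatAlgHom ι) k ∈ (Algebra.adjoin ℚ {ζ}).map (RingHom.toRatAlgHom ι) := ⟨k, h1, rfl⟩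
    rw [AlgHom.map_adjoin, Set.image_singleton] at h2
    exact IntermediateField.algebra_adjoin_le_adjoin ℚ _ h2

omit [NumberField K] hK in
/-- the Galois group of `K` lifts to `Ω` -/
lemma exists_lift_gal [CharZero K] (ι : K →+* Ω) (σ : K ≃ₐ[ℚ] K) : ∃ g : Ω ≃ₐ[ℚ] Ω, ∀ x, g (ι x) = ι (σ x) := by
  let _ : Algebra K Ω := ι.toAlgebra
  have : IsScalarTower ℚ K Ω := IsScalarTower.of_algebraMap_eq' (Subsingleton.elim _ _)
  refine ⟨σ.liftNormal Ω, fun x => ?_⟩
  exact σ.liftNormal_commutes Ω x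

/-- comparison of a valuation with `v` -/
lemma val_eq_one_of (v : HeightOneSpectrum (𝓞 K)) {Γ : Type*} [LinearOrderedCommGroupWithZero Γ]
    (w : Valuation K Γ) (h1 : ∀ a : 𝓞 K, a ∈ v.asIdeal → w (a : K) < 1)
    (h2 : ∀ a : 𝓞 K, a ∉ v.asIdeal → w (a : K) = 1) (x : K) (hx : w x = 1) : v.valuation K x = 1 := by
  have key : ∀ y : K, v.valuation K y < 1 → w y < 1 := by
    intro y hy
    obtain ⟨n, d, hnd⟩ := v.exists_primeCompl_mul_eq_of_integer y hy.le
    have hd : (d : 𝓞 K) ∉ v.asIdeal := d.2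
    have h3 := congrArg w hnd
    have h4 := congrArg (v.valuation K) hnd
    rw [map_mul] at h3 h4
    have h5 : v.valuation K ((algebraMap (𝓞 K) K) d) = 1 := (HeightOneSpectrum.valuation_eq_one_iff_notMem v).mpr hd
    have h6 : w ((algebraMap (𝓞 K) K) d) = 1 := h2 _ hd
    rw [h5, mul_one] at h4
    rw [h6, mul_one] at h3
    rw [h3]
    apply h1
    rw [← HeightOneSpectrum.valuation_lt_one_iff_mem (K := K), ← h4]
    exact hy
  rcases lt_trichotomy (v.valuation K x) 1 with h | h | h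
  · exact absurd hx (key x h).ne
  · exact h
  · have h3 : v.valuation K x⁻¹ < 1 := by
      rw [map_inv₀]
      exact inv_lt_one_of_one_lt₀ h
    have := key _ h3
    rw [map_inv₀, hx, inv_one] at this
    exact absurd this (lt_irrefl _)

omit hp hK in
lemma exists_place_over (ι : K →+* Ω) (v : HeightOneSpectrum (𝓞 K)) :
    ∃ (A : ValuationSubring Ω) (ℓ : ℕ), ℓ.Prime ∧ A.LiesOverPrime ℓ ∧
      (∀ a : 𝓞 K, a ∈ v.asIdeal → A.valuation (ι a) < 1) ∧
      (∀ a : 𝓞 K, a ∉ v.asIdeal → A.valuation (ι a) = 1) := by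
  let f : 𝓞 K →+* Ω := ι.comp (algebraMap (𝓞 K) K)
  have hf : Function.Injective f := ι.injective.comp RingOfIntegers.coe_injective
  let e : 𝓞 K ≃+* f.range := RingEquiv.ofBijective f.rangeRestrict
    ⟨fun a b h => hf (congrArg Subtype.val h), f.rangeRestrict_surjective⟩
  have hne : v.asIdeal.comap (e.symm : f.range →+* 𝓞 K) ≠ ⊤ := by
    rw [Ne, Ideal.comap_eq_top_iff]
    exact v.isPrime.ne_top
  obtain ⟨A, hA, hA2⟩ := Ideal.image_subset_nonunits_valuationSubring _ hne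
  have h1 : ∀ a : 𝓞 K, a ∈ v.asIdeal → A.valuation (ι a) < 1 := by
    intro a ha
    rw [← ValuationSubring.mem_nonunits_iff]
    apply hA2
    refine ⟨e a, ?_, rfl⟩
    show e.symm (e a) ∈ v.asIdeal
    rw [e.symm_apply_apply]
    exact ha
  have hint : ∀ a : 𝓞 K, ι a ∈ A := fun a => mem_of_isIntegral A (map_isIntegral_int ι (RingOfIntegers.isIntegral_coe a))
  have h2 : ∀ a : 𝓞 K, a ∉ v.asIdeal → A.valuation (ι a) = 1 := by
    intro a ha
    obtain ⟨b, c, hc, hbc⟩ := v.isMaximal.exists_inv ha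
    apply le_antisymm ((A.valuation_le_one_iff _).mpr (hint a))
    by_contra hlt
    push Not at hlt
    have h3 : A.valuation (ι ((b * a + c : 𝓞 K) : K)) < 1 := by
      push_cast
      rw [map_add]
      apply Valuation.map_add_lt
      · rw [map_mul, map_mul]
        exact mul_lt_one_of_nonneg_of_lt_one_right ((A.valuation_le_one_iff _).mpr (hint b)) zero_le hlt
      · exact h1 c hc
    rw [hbc] at h3
    simp at h3
  have hne0 : NeZero v.asIdeal := ⟨v.ne_bot⟩
  refine ⟨A, Ideal.absNorm (v.asIdeal.under ℤ), Nat.absNorm_under_prime _, ?_, h1, h2⟩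
  have h3 := h1 _ (Int.absNorm_under_mem v.asIdeal)
  rw [← ValuationSubring.mem_nonunits_iff] at h3
  show ((_ : ℕ) : Ω) ∈ _
  convert h3 using 1
  simp

end

namespace CocycleData

variable {p : ℕ} [hp : Fact p.Prime] (D : CocycleData p) {K : Type*} [Field K] [NumberField K]
  [hK : IsCyclotomicExtension {p} ℚ K]

include D in
theorem exists_kummer_element {ζ : 𝓞 K} (hζ : IsPrimitiveRoot ζ p) :
    ∃ α : K, α ≠ 0 ∧ (∀ x : K, x ^ p ≠ α) ∧
      (∀ (σ : K ≃ₐ[ℚ] K) (t : ℕ), σ (ζ : K) = (ζ : K) ^ t → ∃ y : K, σ α = α ^ (t ^ 2) * y ^ p) ∧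
      (∀ v : HeightOneSpectrum (𝓞 K), ∃ k : K, k ≠ 0 ∧ v.valuation K (α / k ^ p) = 1) ∧
      (∃ (y : K) (α₁ d : 𝓞 K), y ≠ 0 ∧ (α₁ : K) = α * y ^ p ∧ ¬ (ζ - 1) ∣ d ∧ ¬ (ζ - 1) ∣ α₁ ∧
        (ζ - 1) ^ 3 ∣ α₁ - d ^ p) := by
  have : NeZero p := ⟨hp.out.ne_zero⟩
  have hζK : IsPrimitiveRoot (ζ : K) p := hζ.map_of_injective RingOfIntegers.coe_injective
  let ι : K →+* Ω := (IsAlgClosed.lift (R := ℚ) (S := K) (M := Ω) : K →ₐ[ℚ] Ω)
  have hz : IsPrimitiveRoot (ι ζ) p := hζK.map_of_injective ι.injective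
  obtain ⟨β, hβ0, hβL, hβ⟩ := D.exists_beta hz
  obtain ⟨α, hα⟩ := (mem_Kz_iff_range hζK ι _).mp (D.beta_pow_mem hz hβ)
  have hα0 : α ≠ 0 := by
    rintro rfl
    rw [map_zero] at hα
    exact pow_ne_zero _ hβ0 hα.symm
  refine ⟨α, hα0, ?_, ?_, ?_, ?_⟩
  · intro x hx
    apply D.beta_not_pow hz hβ0 hβ (ι x) ((mem_Kz_iff_range hζK ι _).mpr ⟨x, rfl⟩)
    rw [← map_pow, hx, hα]
  · intro σ t hσ
    obtain ⟨g, hg⟩ := exists_lift_gal ι σ
    obtain ⟨k, hk, hk2⟩ := D.map_beta hz hβ0 hβ g t (by rw [hg, hσ, map_pow])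
    obtain ⟨y, rfl⟩ := (mem_Kz_iff_range hζK ι _).mp hk
    refine ⟨y, ι.injective ?_⟩
    rw [← hg, hα, map_pow, hk2, map_mul, map_pow, map_pow, hα]
    ring
  · intro v
    obtain ⟨A, ℓ, hℓ, hA, h1, h2⟩ := exists_place_over ι v
    obtain ⟨k', hk', hk2⟩ := D.exists_val_eq hz hβ0 hβ A hℓ hA
    obtain ⟨k, rfl⟩ := (mem_Kz_iff_range hζK ι _).mp hk'
    have hk0 : k ≠ 0 := by
      rintro rfl
      rw [map_zero, map_zero, map_eq_zero] at hk2
      exact hβ0 hk2
    refine ⟨k, hk0, val_eq_one_of v (A.valuation.comap ι) h1 h2 _ ?_⟩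
    rw [Valuation.comap_apply, map_div₀, hα, map_pow, map_div₀, map_pow, map_pow, hk2]
    apply div_self
    apply pow_ne_zero
    rw [Valuation.ne_zero_iff, Ne, map_eq_zero]
    exact hk0
  · -- the prime above `p`
    have hpr : Prime (ζ - 1) := hζK.zeta_sub_one_prime'
    let v : HeightOneSpectrum (𝓞 K) :=
      ⟨Ideal.span {ζ - 1}, (Ideal.span_singleton_prime hpr.ne_zero).mpr hpr, by
        rw [Ne, Ideal.span_singleton_eq_bot]; exact hpr.ne_zero⟩
    have hv : ∀ a : 𝓞 K, a ∈ v.asIdeal ↔ (ζ - 1) ∣ a := fun a => Ideal.mem_span_singleton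
    obtain ⟨A, ℓ, hℓ, hA, h1, h2⟩ := exists_place_over ι v
    have hAp : A.LiesOverPrime p := by
      show ((_ : ℕ) : Ω) ∈ _
      rw [ValuationSubring.mem_nonunits_iff]
      have := h1 (p : 𝓞 K) (by
        rw [hv]
        have h3 := IsCyclotomicExtension.Rat.associated_zeta_sub_one_pow_prime p hζK
        exact (dvd_pow_self _ (by have := hp.out.two_le; omega)).trans h3.dvd)
      convert this using 2
      simp
    obtain ⟨k', hk', hk2⟩ := D.exists_val_eq hz hβ0 hβ A hℓ hA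
    obtain ⟨k, rfl⟩ := (mem_Kz_iff_range hζK ι _).mp hk'
    have hk0 : k ≠ 0 := by
      rintro rfl
      rw [map_zero, map_zero, map_eq_zero] at hk2
      exact hβ0 hk2
    have hιk0 : ι k ≠ 0 := by rw [Ne, map_eq_zero]; exact hk0
    have hw : A.valuation (ι (α / k ^ p)) = 1 := by
      rw [map_div₀, hα, map_pow, map_div₀, map_pow, map_pow, hk2]
      exact div_self (pow_ne_zero _ ((Valuation.ne_zero_iff _).mpr hιk0))
    have hvw : v.valuation K (α / k ^ p) = 1 := val_eq_one_of v (A.valuation.comap ι) h1 h2 _ hw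
    obtain ⟨a, ⟨b, hb'⟩, hab⟩ := v.exists_primeCompl_mul_eq_of_integer _ hvw.le
    have hb : b ∉ v.asIdeal := hb'
    have hb0 : (b : K) ≠ 0 := by
      intro h
      apply hb
      have : b = 0 := RingOfIntegers.coe_eq_zero_iff.mp h
      rw [this]
      exact v.asIdeal.zero_mem
    have ha : a ∉ v.asIdeal := by
      intro h
      have h3 : v.valuation K (algebraMap (𝓞 K) K a) < 1 :=
        (HeightOneSpectrum.valuation_lt_one_iff_mem (K := K) v a).mpr h
      rw [← hab, map_mul, hvw, one_mul] at h3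
      exact hb ((HeightOneSpectrum.valuation_lt_one_iff_mem (K := K) v b).mp h3)
    have hab' : (α / k ^ p) * algebraMap (𝓞 K) K b = algebraMap (𝓞 K) K a := hab
    -- the element
    let α₁ : 𝓞 K := a * b ^ (p - 1)
    have hα₁ : (α₁ : K) = α * ((b : K) / k) ^ p := by
      show algebraMap (𝓞 K) K (a * b ^ (p - 1)) = α * (algebraMap (𝓞 K) K b / k) ^ p
      rw [map_mul, map_pow, ← hab']
      have : (algebraMap (𝓞 K) K b) ^ p = algebraMap (𝓞 K) K b * (algebraMap (𝓞 K) K b) ^ (p - 1) := by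
        rw [← pow_succ', Nat.sub_add_cancel hp.out.one_le]
      rw [div_pow, this]
      ring
    have hα₁v : ¬ (ζ - 1) ∣ α₁ := by
      rw [← hv]
      intro h
      rcases v.isPrime.mem_or_mem h with h | h
      · exact ha h
      · exact hb (v.isPrime.mem_of_pow_mem _ h)
    -- the root in `L`
    have hKL : ∀ x : K, ι x ∈ D.L := by
      intro x
      rw [D.mem_L_iff]
      intro σ hσ
      exact (mem_Kz_iff hz _).mp ((mem_Kz_iff_range hζK ι _).mpr ⟨x, rfl⟩) σ hσ.1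
    let j0 : K →+* D.L := ι.codRestrict D.L hKL
    let j : 𝓞 K →+* 𝓞 D.L := RingOfIntegers.mapRingHom j0
    have hj : ∀ x : 𝓞 K, ((j x : D.L) : Ω) = ι (x : K) := fun x => rfl
    have hxL : β * ι ((b : K) / k) ∈ D.L := mul_mem (D.beta_mem_L hz hβ) (hKL _)
    have hxp : (β * ι ((b : K) / k)) ^ p = ι (α₁ : K) := by
      rw [mul_pow, ← hα, ← map_pow, ← map_mul, ← hα₁]
    have hxint : IsIntegral ℤ (⟨β * ι ((b : K) / k), hxL⟩ : D.L) := by
      have h3 : IsIntegral ℤ ((⟨β * ι ((b : K) / k), hxL⟩ : D.L) ^ p) := by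
        have : (⟨β * ι ((b : K) / k), hxL⟩ : D.L) ^ p = (j α₁ : D.L) := Subtype.ext hxp
        rw [this]
        exact RingOfIntegers.isIntegral_coe _
      exact IsIntegral.of_pow hp.out.pos h3
    obtain ⟨x, hx⟩ : ∃ x : 𝓞 D.L, ((x : D.L) : Ω) = β * ι ((b : K) / k) := ⟨⟨_, hxint⟩, rfl⟩
    have hxα : x ^ p = j α₁ := by
      apply RingOfIntegers.ext
      apply Subtype.ext
      show ((x : D.L) : Ω) ^ p = _
      rw [hx, hxp]
      rfl
    -- `P ∩ 𝓞 K = (ζ - 1)`
    have hPj : ∀ c : 𝓞 K, j c ∈ D.PL A ↔ (ζ - 1) ∣ c := by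
      intro c
      rw [D.mem_PL, hj, ValuationSubring.mem_nonunits_iff, ← hv]
      constructor
      · intro h
        by_contra h3
        rw [h2 c h3] at h
        exact lt_irrefl _ h
      · exact h1 c
    -- choice of `n`
    have hPtop : D.PL A ≠ ⊤ := (D.PL_isPrime A).ne_top
    obtain ⟨n, hn⟩ : ∃ n : ℕ, j (ζ - 1) ^ 2 ∉ D.PL A ^ n := by
      by_contra hcon
      push Not at hcon
      have h3 : j (ζ - 1) ^ 2 ∈ (⨅ i : ℕ, D.PL A ^ i) := by
        rw [Ideal.mem_iInf]; exact hcon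
      rw [Ideal.iInf_pow_eq_bot_of_isDomain _ hPtop, Ideal.mem_bot] at h3
      have h4 : j (ζ - 1) = 0 := by
        exact pow_eq_zero_iff (two_ne_zero) |>.mp h3
      have h5 : ι ((ζ - 1 : 𝓞 K) : K) = 0 := by
        rw [← hj, h4]; rfl
      rw [map_eq_zero, RingOfIntegers.coe_eq_zero_iff] at h5
      exact hpr.ne_zero h5
    obtain ⟨b', hb'K, hb'P⟩ := D.exists_approx hz hAp n x
    obtain ⟨d0, hd0⟩ := (mem_Kz_iff_range hζK ι _).mp hb'K
    have hd0int : IsIntegral ℤ d0 := by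
      have h3 : IsIntegral ℤ (ι d0) := by
        rw [hd0]
        exact map_isIntegral_int D.L.val (RingOfIntegers.isIntegral_coe b')
      exact (isIntegral_algHom_iff (ι.toIntAlgHom) ι.injective).mp h3
    let d : 𝓞 K := ⟨d0, hd0int⟩
    have hjd : j d = b' := by
      apply RingOfIntegers.ext
      apply Subtype.ext
      exact hd0
    have hmem : j (α₁ - d ^ p) ∈ D.PL A ^ n := by
      rw [map_sub, map_pow, ← hxα, hjd]
      exact Ideal.mem_of_dvd _ (sub_dvd_pow_sub_pow x b' p) hb'P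
    have hdvd : (ζ - 1) ^ 3 ∣ α₁ - d ^ p := by
      by_contra hcon
      have hne : α₁ - d ^ p ≠ 0 := by
        intro h
        rw [h] at hcon
        exact hcon (dvd_zero _)
      obtain ⟨m, t, ht, hmt⟩ := WfDvdMonoid.max_power_factor hne hpr.irreducible
      have hm : m ≤ 2 := by
        by_contra hm
        apply hcon
        rw [hmt]
        exact (pow_dvd_pow _ (by omega)).mul_right _
      rw [hmt, map_mul, mul_comm] at hmem
      rcases Ideal.IsPrime.mul_mem_pow (D.PL A) hmem with h | h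
      · exact ht ((hPj t).mp h)
      · apply hn
        rw [map_pow] at h
        have : j (ζ - 1) ^ 2 = j (ζ - 1) ^ m * j (ζ - 1) ^ (2 - m) := by
          rw [← pow_add]; congr 1; omega
        rw [this]
        exact Ideal.mul_mem_right _ _ h
    refine ⟨(b : K) / k, α₁, d, div_ne_zero hb0 hk0, hα₁, ?_, hα₁v, hdvd⟩
    intro h
    apply hα₁v
    have h3 : (ζ - 1) ∣ α₁ - d ^ p := (dvd_pow_self _ (by norm_num)).trans hdvd
    have h4 : (ζ - 1) ∣ d ^ p := h.trans (dvd_pow_self _ hp.out.ne_zero)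
    have := dvd_add h3 h4
    rwa [sub_add_cancel] at this

end CocycleData

end Fermat.Agent.ExtVan
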