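import Fermat.Agent.ExtVan.ThaineMain

set_option autoImplicit false
set_option linter.unusedSectionVars false

/-!
Thaine's theorem in the `ω²`-part.
-/

namespace Fermat.Agent.ExtVan

open NumberField nonZeroDivisors Ideal
open Fermat.Agent.Thaine

/-- (T) Thaine's relation in the `ω²`-part. -/
theorem thaine {p : ℕ} [Fact p.Prime] (hp5 : 5 ≤ p) (K : Type*) [Field K] [NumberField K]
    [IsCyclotomicExtension {p} ℚ K] {ζ : 𝓞 K} (hζ : IsPrimitiveRoot ζ p)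
    (χ : ClassGroup (𝓞 K) →* Multiplicative (ZMod p))
    (hχ : ∀ (σ : 𝓞 K ≃+* 𝓞 K) (t : ℕ), σ ζ = ζ ^ t →
      ∀ c, χ (ClassGroup.mulEquiv σ c) = (χ c) ^ (t ^ 2))
    (𝔮 : (Ideal (𝓞 K))⁰) (hprime : (𝔮 : Ideal (𝓞 K)).IsPrime)
    (hq : (absNorm (𝔮 : Ideal (𝓞 K))).Prime) (hpq : (p : 𝓞 K) ∉ (𝔮 : Ideal (𝓞 K)))
    (hne : χ (ClassGroup.mk0 𝔮) ≠ 1)
    (c : ℕ → ℕ) (hc : ∀ t ∈ Finset.Ico 1 p, ((c t * t ^ 2 : ℕ) : ZMod p) = 1) :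
    ∃ y : 𝓞 K, y ^ p - ∏ t ∈ Finset.Ico 1 p, (∑ i ∈ Finset.range t, ζ ^ i) ^ (c t)
      ∈ (𝔮 : Ideal (𝓞 K)) := by
  classical
  obtain ⟨𝔮, h𝔮⟩ := 𝔮
  have h𝔮0 : 𝔮 ≠ ⊥ := mem_nonZeroDivisors_iff_ne_zero.mp h𝔮
  simp only at hprime hq hpq ⊢
  have hne' : chi χ 𝔮 ≠ 1 := by
    rw [chi_of_ne χ h𝔮0]
    exact hne
  obtain ⟨s, a, hrel, m, hm⟩ := relation hζ χ hχ 𝔮 hprime hq hpq hne' c hc
  obtain ⟨m', hm'⟩ := dvd_sum_c hp5 c hc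
  have hmax : 𝔮.IsMaximal := hprime.isMaximal h𝔮0
  let _ := Ideal.Quotient.field 𝔮
  set f := Ideal.Quotient.mk 𝔮 with hf
  have h1 : ∀ t ∈ Finset.Ico 1 p, (1 - f ζ ^ t) * (s : 𝓞 K ⧸ 𝔮) ^ (a t) = 1 := by
    intro t ht
    have h2 := Ideal.Quotient.eq.mpr (hrel t ht)
    rw [map_mul, map_sub, map_one, map_pow, map_pow, map_natCast] at h2
    exact h2
  have hp := (Fact.out : p.Prime)
  set D : 𝓞 K ⧸ 𝔮 := ∏ t ∈ Finset.Ico 1 p, (∑ i ∈ Finset.range t, f ζ ^ i) ^ (c t) with hD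
  have h3 : ((1 - f ζ) ^ m' * (s : 𝓞 K ⧸ 𝔮) ^ m) ^ p * D = 1 := by
    have e1 : ((1 - f ζ) ^ m') ^ p = ∏ t ∈ Finset.Ico 1 p, (1 - f ζ) ^ (c t) := by
      rw [Finset.prod_pow_eq_pow_sum, hm', ← pow_mul, mul_comm]
    have e2 : ((s : 𝓞 K ⧸ 𝔮) ^ m) ^ p = ∏ t ∈ Finset.Ico 1 p, ((s : 𝓞 K ⧸ 𝔮) ^ (a t)) ^ (c t) := by
      rw [← pow_mul, mul_comm m p, ← hm, ← Finset.prod_pow_eq_pow_sum]
      exact Finset.prod_congr rfl fun t _ => by rw [← pow_mul, mul_comm]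
    rw [mul_pow, e1, e2, hD, ← Finset.prod_mul_distrib, ← Finset.prod_mul_distrib]
    refine Finset.prod_eq_one fun t ht => ?_
    rw [← mul_pow, ← mul_pow, mul_right_comm, mul_neg_geom_sum, h1 t ht, one_pow]
  set w := (1 - f ζ) ^ m' * (s : 𝓞 K ⧸ 𝔮) ^ m with hw
  have hw0 : w ≠ 0 := by
    intro h
    rw [h, zero_pow hp.ne_zero, zero_mul] at h3
    exact zero_ne_one h3
  obtain ⟨y, hy⟩ := Ideal.Quotient.mk_surjective (w⁻¹)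
  refine ⟨y, ?_⟩
  rw [← Ideal.Quotient.eq, map_pow, hy, map_prod]
  have h4 : ∏ t ∈ Finset.Ico 1 p, (Ideal.Quotient.mk 𝔮) ((∑ i ∈ Finset.range t, ζ ^ i) ^ c t) = D := by
    rw [hD]
    refine Finset.prod_congr rfl fun t _ => ?_
    rw [map_pow, map_sum]
    simp only [map_pow]
    rfl
  rw [h4, inv_pow]
  exact (eq_inv_of_mul_eq_one_right h3).symm

end Fermat.Agent.ExtVan
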