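import Mathlib
set_option autoImplicit false

open Polynomial

namespace Fermat.Agent.ExtVan

section R3

variable (p : ℕ) [hp : Fact p.Prime]

/-- truncated polynomials over `𝔽_p` -/
abbrev R3 : Type := (ZMod p)[X] ⧸ Ideal.span {(X ^ 3 : (ZMod p)[X])}

variable {p}

/-- `i`-th coefficient, `i < 3`. -/
noncomputable def cf (i : ℕ) (hi : i < 3) : R3 p →ₗ[ZMod p] ZMod p :=
  Submodule.liftQ ((Ideal.span {(X ^ 3 : (ZMod p)[X])}).restrictScalars (ZMod p)) (lcoeff (ZMod p) i) (by
    intro f hf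
    rw [Submodule.restrictScalars_mem, Ideal.mem_span_singleton] at hf
    rw [LinearMap.mem_ker, lcoeff_apply]
    exact (X_pow_dvd_iff.mp hf) i hi)

lemma cf_mk (i : ℕ) (hi : i < 3) (f : (ZMod p)[X]) : cf i hi (Ideal.Quotient.mk _ f) = f.coeff i := rfl

lemma cf0_mul (x y : R3 p) : cf 0 (by norm_num) (x * y) = cf 0 (by norm_num) x * cf 0 (by norm_num) y := by
  obtain ⟨f, rfl⟩ := Ideal.Quotient.mk_surjective x
  obtain ⟨g, rfl⟩ := Ideal.Quotient.mk_surjective y
  rw [← map_mul, cf_mk, cf_mk, cf_mk, mul_coeff_zero]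

lemma cf1_mul (x y : R3 p) : cf 1 (by norm_num) (x * y) =
    cf 0 (by norm_num) x * cf 1 (by norm_num) y + cf 1 (by norm_num) x * cf 0 (by norm_num) y := by
  obtain ⟨f, rfl⟩ := Ideal.Quotient.mk_surjective x
  obtain ⟨g, rfl⟩ := Ideal.Quotient.mk_surjective y
  rw [← map_mul]
  simp only [cf_mk]
  rw [mul_coeff_one]

lemma cf2_mul (x y : R3 p) : cf 2 (by norm_num) (x * y) =
    cf 0 (by norm_num) x * cf 2 (by norm_num) y + cf 1 (by norm_num) x * cf 1 (by norm_num) y +
    cf 2 (by norm_num) x * cf 0 (by norm_num) y := by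
  obtain ⟨f, rfl⟩ := Ideal.Quotient.mk_surjective x
  obtain ⟨g, rfl⟩ := Ideal.Quotient.mk_surjective y
  rw [← map_mul]
  simp only [cf_mk]
  rw [coeff_mul]
  simp [Finset.Nat.antidiagonal_succ]
  ring

/-- the second logarithmic derivative -/
noncomputable def l2 (x : R3 p) : ZMod p :=
  cf 1 (by norm_num) x / cf 0 (by norm_num) x + 2 * (cf 2 (by norm_num) x / cf 0 (by norm_num) x) -
    (cf 1 (by norm_num) x / cf 0 (by norm_num) x) ^ 2

lemma l2_mul (x y : R3 p) (hx : cf 0 (by norm_num) x ≠ 0) (hy : cf 0 (by norm_num) y ≠ 0) :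
    l2 (x * y) = l2 x + l2 y := by
  unfold l2
  rw [cf0_mul, cf1_mul, cf2_mul]
  field_simp
  ring

lemma cf0_one : cf 0 (by norm_num) (1 : R3 p) = 1 := by
  have : (1 : R3 p) = Ideal.Quotient.mk _ 1 := rfl
  rw [this, cf_mk, coeff_one_zero]

lemma l2_one : l2 (1 : R3 p) = 0 := by
  have : (1 : R3 p) = Ideal.Quotient.mk _ 1 := rfl
  unfold l2
  rw [this, cf_mk, cf_mk, cf_mk]
  simp [coeff_one]

lemma cf0_pow (x : R3 p) (n : ℕ) : cf 0 (by norm_num) (x ^ n) = (cf 0 (by norm_num) x) ^ n := by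
  induction n with
  | zero => rw [pow_zero, pow_zero, cf0_one]
  | succ n ih => rw [pow_succ x, pow_succ (cf 0 (by norm_num) x), cf0_mul, ih]

lemma l2_pow (x : R3 p) (hx : cf 0 (by norm_num) x ≠ 0) (n : ℕ) : l2 (x ^ n) = n * l2 x := by
  induction n with
  | zero => rw [pow_zero, l2_one]; simp
  | succ n ih =>
    rw [pow_succ, l2_mul _ _ (by rw [cf0_pow]; exact pow_ne_zero _ hx) hx, ih]
    push_cast; ring

lemma cf0_prod {ι : Type*} (s : Finset ι) (f : ι → R3 p) :
    cf 0 (by norm_num) (∏ i ∈ s, f i) = ∏ i ∈ s, cf 0 (by norm_num) (f i) := by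
  classical
  induction s using Finset.induction_on with
  | empty => rw [Finset.prod_empty, Finset.prod_empty, cf0_one]
  | insert a s ha ih => rw [Finset.prod_insert ha, Finset.prod_insert ha, cf0_mul, ih]

lemma l2_prod {ι : Type*} (s : Finset ι) (f : ι → R3 p) (hf : ∀ i ∈ s, cf 0 (by norm_num) (f i) ≠ 0) :
    l2 (∏ i ∈ s, f i) = ∑ i ∈ s, l2 (f i) := by
  classical
  induction s using Finset.induction_on with
  | empty => rw [Finset.prod_empty, Finset.sum_empty, l2_one]
  | insert a s ha ih =>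
    rw [Finset.prod_insert ha, Finset.sum_insert ha, l2_mul _ _ (hf a (Finset.mem_insert_self _ _)) ?_,
      ih (fun i hi => hf i (Finset.mem_insert_of_mem hi))]
    rw [cf0_prod]
    exact Finset.prod_ne_zero_iff.mpr fun i hi => hf i (Finset.mem_insert_of_mem hi)

/-- the sum `1 + (1+X) + ... + (1+X)^(t-1)` -/
noncomputable def geo (t : ℕ) : R3 p := Ideal.Quotient.mk _ (∑ i ∈ Finset.range t, (1 + X) ^ i)

lemma geo_coeff (t i : ℕ) : (∑ j ∈ Finset.range t, (1 + X : (ZMod p)[X]) ^ j).coeff i = (t.choose (i + 1) : ZMod p) := by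
  rw [finsetSum_coeff]
  simp only [add_comm (1 : (ZMod p)[X]) X, coeff_X_add_one_pow]
  rw [← Nat.cast_sum]
  congr 1
  induction t with
  | zero => simp
  | succ t ih => rw [Finset.sum_range_succ, ih, Nat.choose_succ_succ t i, add_comm]

lemma cf_geo (t i : ℕ) (hi : i < 3) : cf i hi (geo t : R3 p) = (t.choose (i + 1) : ZMod p) := by
  rw [geo, cf_mk, geo_coeff]

lemma l2_geo (hp5 : 5 ≤ p) (t : ℕ) (ht : (t : ZMod p) ≠ 0) :
    12 * l2 (geo t : R3 p) = (t : ZMod p) ^ 2 - 1 := by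
  have h2 : (2 : ZMod p) ≠ 0 := by
    intro h
    have h' : ((2 : ℕ) : ZMod p) = 0 := by exact_mod_cast h
    have := Nat.le_of_dvd (by norm_num) ((ZMod.natCast_eq_zero_iff _ _).mp h')
    omega
  have h3 : (3 : ZMod p) ≠ 0 := by
    intro h
    have h' : ((3 : ℕ) : ZMod p) = 0 := by exact_mod_cast h
    have := Nat.le_of_dvd (by norm_num) ((ZMod.natCast_eq_zero_iff _ _).mp h')
    omega
  unfold l2
  rw [cf_geo, cf_geo, cf_geo]
  have e1 : ((t.choose (0 + 1) : ℕ) : ZMod p) = t := by simp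
  have e2 : 2 * ((t.choose (1 + 1) : ℕ) : ZMod p) = t * (t - 1) := by
    have h := Nat.choose_two_right t
    have h4 : 2 * t.choose 2 = t * (t - 1) := by
      rw [h]
      exact Nat.mul_div_cancel' (Nat.even_mul_pred_self t).two_dvd
    have h5 : t ≠ 0 := by rintro rfl; simp at ht
    have h6 : ((2 * t.choose 2 : ℕ) : ZMod p) = ((t * (t - 1) : ℕ) : ZMod p) := by rw [h4]
    push_cast [Nat.cast_sub (Nat.one_le_iff_ne_zero.mpr h5)] at h6
    exact h6
  have e3 : 6 * ((t.choose (2 + 1) : ℕ) : ZMod p) = t * (t - 1) * (t - 2) := by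
    have h5 : t ≠ 0 := by rintro rfl; simp at ht
    have h4 : 3 * t.choose 3 = t.choose 2 * (t - 2) := by
      have := Nat.choose_succ_right_eq t 2
      rw [mul_comm]; exact this
    have h6 : ((3 * t.choose 3 : ℕ) : ZMod p) = ((t.choose 2 * (t - 2) : ℕ) : ZMod p) := by rw [h4]
    by_cases h7 : 2 ≤ t
    · push_cast [Nat.cast_sub h7] at h6
      have e2' : 2 * ((t.choose 2 : ℕ) : ZMod p) = t * (t - 1) := e2
      have : (2 + 1 : ℕ) = 3 := rfl
      rw [this]
      linear_combination 2 * h6 + (t - 2 : ZMod p) * e2'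
    · have h8 : t = 1 := by omega
      subst h8
      rw [Nat.choose_eq_zero_of_lt (by norm_num)]
      simp
  set A := ((t.choose (1 + 1) : ℕ) : ZMod p)
  set B := ((t.choose (2 + 1) : ℕ) : ZMod p)
  rw [e1]
  have hA : A = t * (t - 1) / 2 := by field_simp; linear_combination e2
  have h6 : (6 : ZMod p) ≠ 0 := by
    have : (6 : ZMod p) = 2 * 3 := by norm_num
    rw [this]; exact mul_ne_zero h2 h3
  have hB : B = t * (t - 1) * (t - 2) / 6 := by field_simp; linear_combination e3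
  rw [hA, hB]
  field_simp
  ring

end R3

end Fermat.Agent.ExtVan
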