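import Mathlib
set_option autoImplicit false

open Polynomial TensorProduct

namespace Fermat.Agent.ExtVan

lemma aeval_baseChange_tmul {R : Type*} [CommRing R] {Λ : Type*} [AddCommGroup Λ] [Module R Λ]
    {A : Type*} [CommRing A] [Algebra R A] (T : Module.End R Λ) (P : R[X]) (x : Λ) :
    aeval (T.baseChange A) P ((1 : A) ⊗ₜ[R] x) = (1 : A) ⊗ₜ[R] (aeval T P x) := by
  induction P using Polynomial.induction_on' with
  | add p q hp hq => simp only [map_add, LinearMap.add_apply, hp, hq, tmul_add]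
  | monomial n a =>
    rw [aeval_monomial, aeval_monomial]
    have h : ∀ (n : ℕ) (x : Λ), ((T.baseChange A) ^ n) ((1 : A) ⊗ₜ[R] x) = (1 : A) ⊗ₜ[R] ((T ^ n) x) := by
      intro n
      induction n with
      | zero => intro x; rfl
      | succ n ih =>
        intro x
        rw [pow_succ, pow_succ, Module.End.mul_apply, Module.End.mul_apply, LinearMap.baseChange_tmul, ih]
    simp only [Module.End.mul_apply, h]
    rw [Module.algebraMap_end_apply, Module.algebraMap_end_apply, tmul_smul]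

section

variable {Λ : Type*} [AddCommGroup Λ] [Module.Free ℤ Λ] [Module.Finite ℤ Λ]

lemma charpoly_dvd (T : Module.End ℤ Λ) (n : ℕ) (hT : T ^ n = 1) (hn : n ≠ 0)
    (e : Λ) (he : ∀ P : ℤ[X], P ≠ 0 → P.natDegree < Module.finrank ℤ Λ → aeval T P e ≠ 0) :
    T.charpoly ∣ (X ^ n - 1 : ℤ[X]) := by
  set TQ : Module.End ℚ (ℚ ⊗[ℤ] Λ) := T.baseChange ℚ with hTQ
  have hmin : TQ.charpoly = minpoly ℚ TQ := by
    apply Polynomial.eq_of_monic_of_dvd_of_natDegree_le
      (minpoly.monic (Algebra.IsIntegral.isIntegral TQ)) TQ.charpoly_monic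
      (LinearMap.minpoly_dvd_charpoly TQ)
    rw [LinearMap.charpoly_natDegree, Module.finrank_baseChange]
    by_contra hlt
    push Not at hlt
    set P := minpoly ℚ TQ with hP
    have hP0 : P ≠ 0 := (minpoly.monic (Algebra.IsIntegral.isIntegral TQ)).ne_zero
    obtain ⟨b, hbm, hb⟩ := IsLocalization.integerNormalization_spec (nonZeroDivisors ℤ) P
    set Q := IsLocalization.integerNormalization (nonZeroDivisors ℤ) P with hQ
    have hb0 : (b : ℤ) ≠ 0 := nonZeroDivisors.ne_zero hbm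
    have hbP : Q.map (algebraMap ℤ ℚ) ≠ 0 := by
      rw [hb]
      exact smul_ne_zero hb0 hP0
    have hQ0 : Q ≠ 0 := by
      intro h; rw [h, Polynomial.map_zero] at hbP; exact hbP rfl
    have hdeg : Q.natDegree < Module.finrank ℤ Λ := by
      have h1 : Q.natDegree = (Q.map (algebraMap ℤ ℚ)).natDegree :=
        (Polynomial.natDegree_map_eq_of_injective (algebraMap ℤ ℚ).injective_int Q).symm
      rw [h1, hb, Polynomial.natDegree_smul _ hb0]
      exact hlt
    apply he Q hQ0 hdeg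
    have h2 : aeval TQ Q = 0 := by
      have h3 : aeval TQ (Q.map (algebraMap ℤ ℚ)) = aeval TQ Q := by
        rw [Polynomial.aeval_map_algebraMap]
      rw [← h3, hb, map_zsmul, hP, minpoly.aeval, smul_zero]
    have h4 := aeval_baseChange_tmul (A := ℚ) T Q e
    rw [← hTQ, h2, LinearMap.zero_apply] at h4
    have hinj : Function.Injective (TensorProduct.mk ℤ ℚ Λ 1) :=
      Module.Flat.tensorProduct_mk_injective _ _ _
    apply hinj
    rw [map_zero, TensorProduct.mk_apply, ← h4]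
  have hdvdQ : TQ.charpoly ∣ (X ^ n - 1 : ℚ[X]) := by
    rw [hmin]
    apply minpoly.dvd
    rw [map_sub, map_pow, aeval_X, map_one, sub_eq_zero]
    apply LinearMap.ext
    intro z
    induction z using TensorProduct.induction_on with
    | zero => simp
    | add a b ha hb => rw [map_add, ha, hb, map_add]
    | tmul a x =>
      have h5 : ∀ (k : ℕ), (TQ ^ k) (a ⊗ₜ[ℤ] x) = a ⊗ₜ[ℤ] ((T ^ k) x) := by
        intro k
        induction k with
        | zero => rfl
        | succ k ih => rw [pow_succ', pow_succ', Module.End.mul_apply, ih, hTQ, LinearMap.baseChange_tmul,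
            Module.End.mul_apply]
      rw [h5, hT]; rfl
  rw [hTQ, LinearMap.charpoly_baseChange] at hdvdQ
  have h6 : (X ^ n - 1 : ℚ[X]) = (X ^ n - 1 : ℤ[X]).map (algebraMap ℤ ℚ) := by
    simp
  rw [h6] at hdvdQ
  have h7 : (X ^ n - 1 : ℤ[X]).Monic := by simpa using (monic_X_pow_sub_C (1:ℤ) hn)
  exact (Polynomial.Monic.dvd_iff_fraction_map_dvd_fraction_map (K := ℚ) h7 T.charpoly_monic).mp hdvdQ

lemma exists_of_tmul_eq_zero (p : ℕ) (w : Λ) (hw : (1 : ZMod p) ⊗ₜ[ℤ] w = 0) :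
    ∃ z : Λ, w = (p : ℤ) • z := by
  let b := Module.Free.chooseBasis ℤ Λ
  have h1 : ∀ i, ((b.repr w i : ℤ) : ZMod p) = 0 := by
    intro i
    have h2 := Module.Basis.baseChange_repr_tmul (ZMod p) b (1 : ZMod p) w i
    rw [hw] at h2
    simpa using h2.symm
  refine ⟨∑ i, (b.repr w i / (p : ℤ)) • b i, ?_⟩
  rw [Finset.smul_sum]
  conv_lhs => rw [← b.sum_repr w]
  refine Finset.sum_congr rfl fun i _ => ?_
  rw [smul_smul, Int.mul_ediv_cancel' ((ZMod.intCast_zmod_eq_zero_iff_dvd _ _).mp (h1 i))]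

lemma eigen_rel (T : Module.End ℤ Λ) (n : ℕ) (hn : n ≠ 0)
    (hT : T.charpoly ∣ (X ^ n - 1 : ℤ[X])) (p : ℕ) [Fact p.Prime] (hpn : ¬ p ∣ n)
    (a : ℤ) (x y x' y' : Λ) (hx : T x = a • x + (p : ℤ) • x') (hy : T y = a • y + (p : ℤ) • y') :
    ∃ c d : ℤ, ¬ ((p : ℤ) ∣ c ∧ (p : ℤ) ∣ d) ∧ ∃ z : Λ, c • x + d • y = (p : ℤ) • z := by
  set Tp : Module.End (ZMod p) (ZMod p ⊗[ℤ] Λ) := T.baseChange (ZMod p) with hTp
  have hchar : Tp.charpoly ∣ (X ^ n - 1 : (ZMod p)[X]) := by
    rw [hTp, LinearMap.charpoly_baseChange]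
    have := Polynomial.map_dvd (algebraMap ℤ (ZMod p)) hT
    simpa using this
  have hsep : (X ^ n - 1 : (ZMod p)[X]).Separable := by
    have hne : ((n : ℕ) : ZMod p) ≠ 0 := by
      rwa [Ne, ZMod.natCast_eq_zero_iff]
    have := Polynomial.separable_X_pow_sub_C (1 : ZMod p) hne one_ne_zero
    simpa using this
  have hmult : Tp.charpoly.rootMultiplicity (a : ZMod p) ≤ 1 :=
    Polynomial.rootMultiplicity_le_one_of_separable (hsep.of_dvd hchar) _
  have hdim := (LinearMap.finrank_eigenspace_le Tp (a : ZMod p)).trans hmult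
  have hmem : ∀ (x x' : Λ), T x = a • x + (p : ℤ) • x' →
      (1 : ZMod p) ⊗ₜ[ℤ] x ∈ Tp.eigenspace (a : ZMod p) := by
    intro x x' hx
    rw [Module.End.mem_eigenspace_iff, hTp, LinearMap.baseChange_tmul, hx, TensorProduct.tmul_add,
      TensorProduct.tmul_smul, TensorProduct.tmul_smul]
    have h1 : (p : ℤ) • (1 : ZMod p) = 0 := by simp
    have h2 : (a : ℤ) • (1 : ZMod p) = (a : ZMod p) • (1 : ZMod p) := by simp
    rw [TensorProduct.smul_tmul', TensorProduct.smul_tmul', h1, TensorProduct.zero_tmul, add_zero, h2,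
      ← TensorProduct.smul_tmul']
  by_cases h0 : (1 : ZMod p) ⊗ₜ[ℤ] x = 0
  · obtain ⟨z, hz⟩ := exists_of_tmul_eq_zero p x h0
    refine ⟨1, 0, ?_, z, by simpa using hz⟩
    rintro ⟨h, -⟩
    have := Int.eq_one_of_dvd_one (by positivity) h
    exact (Fact.out : p.Prime).one_lt.ne' (by exact_mod_cast this)
  · have hfin : Module.finrank (ZMod p) (Tp.eigenspace (a : ZMod p)) ≤ 1 := hdim
    have hx0 : (⟨_, hmem x x' hx⟩ : Tp.eigenspace (a : ZMod p)) ≠ 0 := by
      intro h; exact h0 (congrArg Subtype.val h)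
    have hone : Module.finrank (ZMod p) (Tp.eigenspace (a : ZMod p)) = 1 := by
      apply le_antisymm hfin
      rw [Nat.one_le_iff_ne_zero]
      intro h
      exact hx0 (by
        have := Module.finrank_zero_iff.mp h
        exact Subsingleton.elim _ _)
    obtain ⟨c, hc⟩ := (finrank_eq_one_iff_of_nonzero' _ hx0).mp hone ⟨_, hmem y y' hy⟩
    have hc' : c • ((1 : ZMod p) ⊗ₜ[ℤ] x) = (1 : ZMod p) ⊗ₜ[ℤ] y := congrArg Subtype.val hc
    have h3 : (1 : ZMod p) ⊗ₜ[ℤ] (((c.val : ℤ)) • x + (-1 : ℤ) • y) = 0 := by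
      rw [TensorProduct.tmul_add, TensorProduct.tmul_smul, TensorProduct.tmul_smul,
        TensorProduct.smul_tmul']
      have h4 : ((c.val : ℤ)) • (1 : ZMod p) = c • (1 : ZMod p) := by
        simp
      rw [h4, ← TensorProduct.smul_tmul', hc']
      simp
    obtain ⟨z, hz⟩ := exists_of_tmul_eq_zero p _ h3
    refine ⟨c.val, -1, ?_, z, hz⟩
    rintro ⟨-, h⟩
    rw [dvd_neg] at h
    have := Int.eq_one_of_dvd_one (by positivity) h
    exact (Fact.out : p.Prime).one_lt.ne' (by exact_mod_cast this)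

end

end Fermat.Agent.ExtVan
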