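import Mathlib
import Fermat.Agent.ExtVan.EigenDim
set_option autoImplicit false

open NumberField Polynomial
open NumberField.Units (torsion mem_torsion pos_at_place)

namespace Fermat.Agent.ExtVan

section

variable {K : Type*} [Field K] [NumberField K]

/-- The action of a field automorphism on the ring of integers. -/
noncomputable def gO (σ : K ≃ₐ[ℚ] K) : 𝓞 K ≃+* 𝓞 K := RingOfIntegers.mapRingEquiv (σ : K ≃+* K)

@[simp] lemma coe_gO (σ : K ≃ₐ[ℚ] K) (x : 𝓞 K) : ((gO σ x : 𝓞 K) : K) = σ (x : K) := rfl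

lemma gO_one : gO (1 : K ≃ₐ[ℚ] K) = RingEquiv.refl _ := rfl

lemma gO_mul_apply (σ τ : K ≃ₐ[ℚ] K) (x : 𝓞 K) : gO (σ * τ) x = gO σ (gO τ x) := rfl

/-- The action of a field automorphism on the units. -/
noncomputable def gU (σ : K ≃ₐ[ℚ] K) : (𝓞 K)ˣ ≃* (𝓞 K)ˣ := Units.mapEquiv (gO σ).toMulEquiv

@[simp] lemma coe_gU (σ : K ≃ₐ[ℚ] K) (x : (𝓞 K)ˣ) : ((gU σ x : (𝓞 K)ˣ) : 𝓞 K) = gO σ (x : 𝓞 K) := rfl

lemma coe_gU' (σ : K ≃ₐ[ℚ] K) (x : (𝓞 K)ˣ) : ((gU σ x : (𝓞 K)ˣ) : K) = σ (x : K) := rfl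

lemma gU_mul_apply (σ τ : K ≃ₐ[ℚ] K) (x : (𝓞 K)ˣ) : gU (σ * τ) x = gU σ (gU τ x) := by
  apply Units.coe_injective
  rfl

lemma gU_one_apply (x : (𝓞 K)ˣ) : gU 1 x = x := by
  apply Units.coe_injective
  rfl

lemma gU_pow_apply (σ : K ≃ₐ[ℚ] K) (n : ℕ) (x : (𝓞 K)ˣ) : gU (σ ^ n) x = (gU σ)^[n] x := by
  induction n generalizing x with
  | zero => rw [pow_zero, gU_one_apply]; rfl
  | succ n ih => rw [pow_succ, gU_mul_apply, ih]; rfl

variable (K) in
/-- units modulo torsion -/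
def UQ : Type _ := Additive ((𝓞 K)ˣ ⧸ (torsion K))

noncomputable instance : AddCommGroup (UQ K) :=
  inferInstanceAs (AddCommGroup (Additive ((𝓞 K)ˣ ⧸ (torsion K))))

instance : Module.Free ℤ (UQ K) := Module.Free.of_basis (NumberField.Units.basisModTorsion K)

instance : Module.Finite ℤ (UQ K) := Module.Finite.of_basis (NumberField.Units.basisModTorsion K)

lemma finrank_UQ : Module.finrank ℤ (UQ K) = Units.rank K := NumberField.Units.finrank_modTorsion K

lemma gU_mem_torsion (σ : K ≃ₐ[ℚ] K) {x : (𝓞 K)ˣ} (hx : x ∈ torsion K) : gU σ x ∈ torsion K := by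
  rw [torsion, CommGroup.mem_torsion] at hx ⊢
  exact (MonoidHom.isOfFinOrder (gU σ).toMonoidHom hx)

/-- The class of a unit modulo torsion, written additively. -/
noncomputable def cls : (𝓞 K)ˣ → UQ K := fun u => Additive.ofMul (QuotientGroup.mk u)

lemma cls_mul (u v : (𝓞 K)ˣ) : cls (u * v) = cls u + cls v := rfl
lemma cls_one : cls (1 : (𝓞 K)ˣ) = 0 := rfl
lemma cls_zpow (u : (𝓞 K)ˣ) (n : ℤ) : cls (u ^ n) = n • cls u := rfl
lemma cls_pow (u : (𝓞 K)ˣ) (n : ℕ) : cls (u ^ n) = n • cls u := rfl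

lemma cls_eq_cls_iff (u v : (𝓞 K)ˣ) : cls u = cls v ↔ ∃ t ∈ torsion K, u = t * v := by
  have h0 : cls u = cls v ↔ (QuotientGroup.mk u : (𝓞 K)ˣ ⧸ (torsion K)) = QuotientGroup.mk v :=
    Additive.ofMul.injective.eq_iff
  rw [h0, eq_comm, QuotientGroup.eq]
  constructor
  · intro h
    exact ⟨_, h, by rw [mul_comm, mul_inv_cancel_left]⟩
  · rintro ⟨t, ht, rfl⟩
    rwa [mul_comm t, inv_mul_cancel_left]

lemma cls_surj (x : UQ K) : ∃ u : (𝓞 K)ˣ, cls u = x := by
  obtain ⟨u, hu⟩ := QuotientGroup.mk_surjective x.toMul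
  exact ⟨u, by unfold cls; rw [hu]; rfl⟩

/-- The induced endomorphism of the unit lattice. -/
noncomputable def gT (σ : K ≃ₐ[ℚ] K) : Module.End ℤ (UQ K) :=
  (MonoidHom.toAdditive (QuotientGroup.map (torsion K) (torsion K) (gU σ).toMonoidHom
    (fun _ hx => gU_mem_torsion σ hx))).toIntLinearMap

lemma gT_cls (σ : K ≃ₐ[ℚ] K) (u : (𝓞 K)ˣ) : gT σ (cls u) = cls (gU σ u) := rfl

lemma gT_pow_cls (σ : K ≃ₐ[ℚ] K) (n : ℕ) (u : (𝓞 K)ˣ) : (gT σ ^ n) (cls u) = cls (gU (σ ^ n) u) := by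
  induction n generalizing u with
  | zero => rw [pow_zero, pow_zero, gU_one_apply]; rfl
  | succ n ih => rw [pow_succ, Module.End.mul_apply, gT_cls, ih, pow_succ, gU_mul_apply]

/-- log of the absolute value at a place, on the unit lattice. -/
noncomputable def logQ (w : InfinitePlace K) : UQ K →+ ℝ :=
  AddMonoidHom.mk' (fun x => Real.log (w ((Quotient.out x.toMul : (𝓞 K)ˣ) : K))) (by
    have key : ∀ u v : (𝓞 K)ˣ, cls u = cls v → Real.log (w (u : K)) = Real.log (w (v : K)) := by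
      intro u v h
      obtain ⟨t, ht, rfl⟩ := (cls_eq_cls_iff u v).mp h
      rw [NumberField.Units.coe_mul, map_mul, (mem_torsion K).mp ht w, one_mul]
    intro a b
    rw [← Real.log_mul (ne_of_gt (pos_at_place _ _)) (ne_of_gt (pos_at_place _ _)), ← map_mul, ← NumberField.Units.coe_mul]
    apply key
    rw [cls_mul]
    have h : ∀ x : UQ K, cls (Quotient.out x.toMul) = x := by
      intro x
      exact congrArg Additive.ofMul (Quotient.out_eq x.toMul)
    rw [h, h, h])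

lemma logQ_cls (w : InfinitePlace K) (u : (𝓞 K)ˣ) : logQ w (cls u) = Real.log (w (u : K)) := by
  have h : cls (Quotient.out (cls u).toMul) = cls u := congrArg Additive.ofMul (Quotient.out_eq (cls u).toMul)
  obtain ⟨t, ht, h2⟩ := (cls_eq_cls_iff _ _).mp h
  show Real.log (w ((Quotient.out (cls u).toMul : (𝓞 K)ˣ) : K)) = _
  rw [h2, NumberField.Units.coe_mul, map_mul, (mem_torsion K).mp ht w, one_mul]

lemma sum_log [IsGalois ℚ K] (w : InfinitePlace K) (u : (𝓞 K)ˣ) :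
    ∑ g : K ≃ₐ[ℚ] K, Real.log (w (g (u : K))) = 0 := by
  rw [← Real.log_prod (fun g _ => by
    rw [← coe_gU']
    exact (pos_at_place _ _).ne'), ← map_prod, ← Algebra.norm_eq_prod_automorphisms ℚ]
  have h := (NumberField.isUnit_iff_norm (K := K) (x := (u : 𝓞 K))).mp u.isUnit
  rw [RingOfIntegers.coe_norm] at h
  have h2 : Algebra.norm ℚ (u : K) = 1 ∨ Algebra.norm ℚ (u : K) = -1 := eq_or_eq_neg_of_abs_eq h
  rcases h2 with h2 | h2
  · rw [h2]; simp
  · rw [h2, map_neg, map_one, ← w.norm_embedding_eq]; simp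

end

section Cyclo

variable {p : ℕ} [hp : Fact p.Prime] {K : Type*} [Field K] [NumberField K]
  [hK : IsCyclotomicExtension {p} ℚ K]

include hK in
lemma embedding_conj (φ : K →+* ℂ) {c : K ≃ₐ[ℚ] K} {ζ : K} (hζ : IsPrimitiveRoot ζ p)
    (hc : c ζ = ζ⁻¹) (x : K) : φ (c x) = (starRingEnd ℂ) (φ x) := by
  let f₁ : K →ₐ[ℚ] ℂ := (φ.comp (c : K →+* K)).toRatAlgHom
  let f₂ : K →ₐ[ℚ] ℂ := ((starRingEnd ℂ).comp φ).toRatAlgHom
  have h : f₁ = f₂ := by
    apply (hζ.powerBasis ℚ).algHom_ext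
    rw [IsPrimitiveRoot.powerBasis_gen]
    show φ (c ζ) = (starRingEnd ℂ) (φ ζ)
    have h1 : ‖φ ζ‖ = 1 := by
      have h3 : (φ ζ) ^ p = 1 := by rw [← map_pow, hζ.pow_eq_one, map_one]
      exact Complex.norm_eq_one_of_pow_eq_one h3 hp.out.ne_zero
    rw [hc, map_inv₀, Complex.inv_def, Complex.normSq_eq_norm_sq, h1]
    simp
  exact DFunLike.congr_fun h x

include hK in
lemma place_conj (w : InfinitePlace K) {c : K ≃ₐ[ℚ] K} {ζ : K} (hζ : IsPrimitiveRoot ζ p)
    (hc : c ζ = ζ⁻¹) (x : K) : w (c x) = w x := by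
  rw [← InfinitePlace.norm_embedding_eq, ← InfinitePlace.norm_embedding_eq, embedding_conj w.embedding hζ hc,
    Complex.norm_conj]

include hK in
lemma eq_one_or_conj_of_place (w : InfinitePlace K) {c g : K ≃ₐ[ℚ] K} {ζ : K} (hζ : IsPrimitiveRoot ζ p)
    (hc : c ζ = ζ⁻¹) (hg : w.comap (g : K →+* K) = w) : g = 1 ∨ g = c := by
  have h1 : InfinitePlace.mk (w.embedding.comp (g : K →+* K)) = InfinitePlace.mk w.embedding := by
    have h2 : w.comap (g : K →+* K) = InfinitePlace.mk (w.embedding.comp (g : K →+* K)) := by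
      conv_lhs => rw [← InfinitePlace.mk_embedding w]
      rw [InfinitePlace.comap_mk]
    rw [← h2, hg, InfinitePlace.mk_embedding]
  rw [InfinitePlace.mk_eq_iff] at h1
  rcases h1 with h1 | h1
  · left
    apply AlgEquiv.ext
    intro x
    exact w.embedding.injective (DFunLike.congr_fun h1 x)
  · right
    apply AlgEquiv.ext
    intro x
    apply w.embedding.injective
    rw [embedding_conj w.embedding hζ hc, ← DFunLike.congr_fun h1 x]
    simp [ComplexEmbedding.conjugate_coe_eq]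

include hK in
lemma pow_half_apply (hp3 : 3 ≤ p) (σ : K ≃ₐ[ℚ] K) (hσ : ∀ τ : K ≃ₐ[ℚ] K, τ ∈ Subgroup.zpowers σ)
    {ζ : K} (hζ : IsPrimitiveRoot ζ p) : (σ ^ ((p - 1) / 2)) ζ = ζ⁻¹ := by
  have hcard : Nat.card (K ≃ₐ[ℚ] K) = p - 1 := by
    rw [Nat.card_congr (IsCyclotomicExtension.Rat.galEquivZMod p K).toEquiv, Nat.card_eq_fintype_card,
      ZMod.card_units_eq_totient, Nat.totient_prime hp.out]
  have hord : orderOf σ = p - 1 := by
    rw [← hcard]; exact orderOf_eq_card_of_forall_mem_zpowers hσ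
  obtain ⟨k, hk⟩ : Even (p - 1) := by
    have := hp.out.odd_of_ne_two (by omega)
    obtain ⟨m, hm⟩ := this
    exact ⟨m, by omega⟩
  have hN : (p - 1) / 2 = k := by omega
  rw [hN]
  set e := IsCyclotomicExtension.Rat.galEquivZMod p K with he
  have h1 : (e (σ ^ k)) ^ 2 = 1 := by
    rw [← map_pow, ← pow_mul, mul_two, ← hk, ← hord, pow_orderOf_eq_one, map_one]
  have h2 : e (σ ^ k) ≠ 1 := by
    intro h
    have h3 : σ ^ k = 1 := e.injective (by rw [h, map_one])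
    have := orderOf_dvd_of_pow_eq_one h3
    rw [hord, hk] at this
    have := Nat.le_of_dvd (by omega) this
    omega
  have h4 : ((e (σ ^ k) : (ZMod p)ˣ) : ZMod p) = -1 := by
    have h5 : ((e (σ ^ k) : (ZMod p)ˣ) : ZMod p) ^ 2 = 1 := by
      rw [← Units.val_pow_eq_pow_val, h1, Units.val_one]
    rcases (mul_self_eq_one_iff (a := ((e (σ ^ k) : (ZMod p)ˣ) : ZMod p))).mp
      (by rw [← sq]; exact h5) with h6 | h6
    · exact absurd (Units.ext h6) h2
    · exact h6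
  rw [IsCyclotomicExtension.Rat.galEquivZMod_apply_of_pow_eq p K _ hζ.pow_eq_one, ← he, h4]
  have h7 : ((-1 : ZMod p)).val + 1 = p := by
    have : p ≠ 0 := hp.out.ne_zero
    obtain ⟨m, rfl⟩ := Nat.exists_eq_succ_of_ne_zero this
    rw [ZMod.val_neg_one]
  apply eq_inv_of_mul_eq_one_left
  rw [← pow_succ, h7, hζ.pow_eq_one]

include hK in
lemma rank_eq (hp3 : 3 ≤ p) : NumberField.Units.rank K = (p - 1) / 2 - 1 := by
  rw [NumberField.Units.rank, InfinitePlace.card_eq_nrRealPlaces_add_nrComplexPlaces,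
    IsCyclotomicExtension.Rat.nrRealPlaces_eq_zero (n := p) K (by omega),
    IsCyclotomicExtension.Rat.nrComplexPlaces_eq_totient_div_two p K, Nat.totient_prime hp.out, zero_add]

include hK in
/-- independence of the first conjugates of a Minkowski unit -/
lemma aeval_gT_ne_zero (hp3 : 3 ≤ p) (σ : K ≃ₐ[ℚ] K) (hσ : ∀ τ : K ≃ₐ[ℚ] K, τ ∈ Subgroup.zpowers σ)
    (w₁ : InfinitePlace K) (u : (𝓞 K)ˣ) (hu : ∀ w : InfinitePlace K, w ≠ w₁ → Real.log (w (u : K)) < 0)
    (P : ℤ[X]) (hP0 : P ≠ 0) (hdeg : P.natDegree < NumberField.Units.rank K) :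
    aeval (gT σ) P (cls u) ≠ 0 := by
  intro hzero
  classical
  haveI : IsGalois ℚ K := IsCyclotomicExtension.isGalois {p} ℚ K
  have hζ := IsCyclotomicExtension.zeta_spec p ℚ K
  have hcard : Nat.card (K ≃ₐ[ℚ] K) = p - 1 := by
    rw [Nat.card_congr (IsCyclotomicExtension.Rat.galEquivZMod p K).toEquiv, Nat.card_eq_fintype_card,
      ZMod.card_units_eq_totient, Nat.totient_prime hp.out]
  have hord : orderOf σ = p - 1 := by
    rw [← hcard]; exact orderOf_eq_card_of_forall_mem_zpowers hσ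
  obtain ⟨N, hN⟩ : ∃ N, p - 1 = 2 * N := by
    have := hp.out.odd_of_ne_two (by omega)
    obtain ⟨m, hm⟩ := this
    exact ⟨m, by omega⟩
  have hN2 : (p - 1) / 2 = N := by omega
  rw [rank_eq hp3, hN2] at hdeg
  set c : K ≃ₐ[ℚ] K := σ ^ N with hc
  have hcζ : c (IsCyclotomicExtension.zeta p ℚ K) = (IsCyclotomicExtension.zeta p ℚ K)⁻¹ := by
    rw [hc, ← hN2]; exact pow_half_apply hp3 σ hσ hζ
  have hcomm : ∀ a b : K ≃ₐ[ℚ] K, a * b = b * a := by
    intro a b
    obtain ⟨i, rfl⟩ := hσ a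
    obtain ⟨j, rfl⟩ := hσ b
    simp only [← zpow_add, add_comm]
  have hcc : c * c = 1 := by
    rw [hc, ← pow_add, ← two_mul, ← hN, ← hord, pow_orderOf_eq_one]
  -- the discrete logarithm
  have hk : ∀ g : K ≃ₐ[ℚ] K, ∃ i, i < 2 * N ∧ σ ^ i = g := by
    intro g
    have h1 : g ∈ Submonoid.powers σ := mem_powers_iff_mem_zpowers.mpr (hσ g)
    have h2 := mem_powers_iff_mem_range_orderOf.mp h1
    rw [Finset.mem_image] at h2
    obtain ⟨i, hi, hi2⟩ := h2
    exact ⟨i, by rw [Finset.mem_range, hord, hN] at hi; exact hi, hi2⟩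
  choose k hk1 hk2 using hk
  have hinj : ∀ i < 2 * N, ∀ j < 2 * N, σ ^ i = σ ^ j → i = j := by
    intro i hi j hj hij
    have := pow_injOn_Iio_orderOf (x := σ)
    rw [hord, hN] at this
    exact this hi hj hij
  have hkσ : ∀ i < 2 * N, k (σ ^ i) = i := fun i hi => hinj _ (hk1 _) _ hi (hk2 _)
  set b : (K ≃ₐ[ℚ] K) → ℝ := fun g => Real.log (w₁ (g (u : K))) with hb
  set C : (K ≃ₐ[ℚ] K) → ℝ := fun g => (P.coeff (k g) : ℝ) with hC
  have hP2N : P.natDegree < 2 * N := by omega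
  -- the basic relation
  have H : ∀ h : K ≃ₐ[ℚ] K, ∑ g, C g * b (h * g) = 0 := by
    intro h
    have h1 := congrArg (logQ (w₁.comap (h : K →+* K))) hzero
    rw [map_zero, aeval_eq_sum_range' hP2N, LinearMap.sum_apply, map_sum] at h1
    rw [← h1]
    symm
    refine Finset.sum_bij (fun i _ => σ ^ i) (fun _ _ => Finset.mem_univ _) ?_ ?_ ?_
    · intro i hi j hj hij
      exact hinj i (Finset.mem_range.mp hi) j (Finset.mem_range.mp hj) hij
    · intro g _
      exact ⟨k g, Finset.mem_range.mpr (hk1 g), hk2 g⟩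
    · intro i hi
      rw [LinearMap.smul_apply, gT_pow_cls, map_zsmul, logQ_cls]
      simp only [hC, hb]
      rw [hkσ i (Finset.mem_range.mp hi), zsmul_eq_mul]
      rfl
  have hbc : ∀ g, b (c * g) = b g := by
    intro g
    simp only [hb]
    rw [AlgEquiv.mul_apply, place_conj w₁ hζ hcζ]
  have hsum : ∀ h : K ≃ₐ[ℚ] K, ∑ g, b (h * g) = 0 := by
    intro h
    rw [← sum_log w₁ u]
    exact Fintype.sum_equiv (Equiv.mulLeft h) _ _ (fun g => rfl)
  set D : (K ≃ₐ[ℚ] K) → ℝ := fun g => C g + C (c * g) with hD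
  have H2 : ∀ h : K ≃ₐ[ℚ] K, ∑ g, D g * b (h * g) = 0 := by
    intro h
    have h1 : ∑ g, C (c * g) * b (h * g) = ∑ g, C g * b (h * g) := by
      refine Fintype.sum_equiv (Equiv.mulLeft c) _ _ (fun g => ?_)
      rw [Equiv.coe_mulLeft, ← mul_assoc h, hcomm h c, mul_assoc, hbc]
    simp only [hD, add_mul]
    rw [Finset.sum_add_distrib, h1, H, add_zero]
  obtain ⟨g₀, hg₀⟩ := Finite.exists_max D
  have H3 : ∑ g, (D g - D g₀) * b (g₀⁻¹ * g) = 0 := by
    simp only [sub_mul]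
    rw [Finset.sum_sub_distrib, H2, ← Finset.mul_sum, hsum, mul_zero, sub_zero]
  have hneg : ∀ g, g ≠ 1 → g ≠ c → b g < 0 := by
    intro g h1 h2
    have h3 : w₁.comap (g : K →+* K) ≠ w₁ := by
      intro h
      rcases eq_one_or_conj_of_place w₁ hζ hcζ h with h | h
      · exact h1 h
      · exact h2 h
    exact hu _ h3
  have hDc : ∀ g, D (c * g) = D g := by
    intro g
    simp only [hD]
    rw [← mul_assoc, hcc, one_mul, add_comm]
  have hDeq : ∀ g, g₀⁻¹ * g = 1 ∨ g₀⁻¹ * g = c → D g = D g₀ := by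
    intro g hg
    rcases hg with hg | hg
    · rw [inv_mul_eq_one] at hg; rw [hg]
    · rw [inv_mul_eq_iff_eq_mul] at hg; rw [hg, hcomm, hDc]
  have hterm : ∀ g ∈ (Finset.univ : Finset (K ≃ₐ[ℚ] K)), 0 ≤ (D g - D g₀) * b (g₀⁻¹ * g) := by
    intro g _
    by_cases h : g₀⁻¹ * g = 1 ∨ g₀⁻¹ * g = c
    · rw [hDeq g h, sub_self, zero_mul]
    · push Not at h
      exact mul_nonneg_of_nonpos_of_nonpos (sub_nonpos.mpr (hg₀ g)) (hneg _ h.1 h.2).le
  have hall := (Finset.sum_eq_zero_iff_of_nonneg hterm).mp H3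
  have hconst : ∀ g, D g = D g₀ := by
    intro g
    by_cases h : g₀⁻¹ * g = 1 ∨ g₀⁻¹ * g = c
    · exact hDeq g h
    · push Not at h
      rcases mul_eq_zero.mp (hall g (Finset.mem_univ _)) with h2 | h2
      · linarith
      · exact absurd h2 (hneg _ h.1 h.2).ne
  -- value of `D` on `σ ^ i`
  have hDval : ∀ i < N, D (σ ^ i) = P.coeff i := by
    intro i hi
    have h1 : c * σ ^ i = σ ^ (i + N) := by rw [hc, ← pow_add, add_comm]
    simp only [hD, hC]
    rw [h1, hkσ i (by omega), hkσ (i + N) (by omega),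
      P.coeff_eq_zero_of_natDegree_lt (n := i + N) (by omega), Int.cast_zero, add_zero]
  have hD0 : ∀ g, D g = 0 := by
    intro g
    rw [hconst g, ← hconst (σ ^ (N - 1)), hDval _ (by omega),
      P.coeff_eq_zero_of_natDegree_lt (by omega), Int.cast_zero]
  apply hP0
  ext i
  rw [coeff_zero]
  by_cases hi : i < N
  · have := hDval i hi
    rw [hD0] at this
    exact_mod_cast this.symm
  · exact P.coeff_eq_zero_of_natDegree_lt (by omega)

include hK in
/-- The `a`-eigenspace of a generator of the Galois group on units modulo `p`-th powers (and modulo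
torsion) is at most one-dimensional. -/
theorem units_rel (hp3 : 3 ≤ p) (σ : K ≃ₐ[ℚ] K) (hσ : ∀ τ : K ≃ₐ[ℚ] K, τ ∈ Subgroup.zpowers σ)
    (a : ℤ) (u v x y : (𝓞 K)ˣ) (hu : gU σ u = u ^ a * x ^ p) (hv : gU σ v = v ^ a * y ^ p) :
    ∃ c d : ℤ, ¬ ((p : ℤ) ∣ c ∧ (p : ℤ) ∣ d) ∧ ∃ z : (𝓞 K)ˣ, ∃ t ∈ torsion K,
      u ^ c * v ^ d = t * z ^ p := by
  have hcard : Nat.card (K ≃ₐ[ℚ] K) = p - 1 := by
    rw [Nat.card_congr (IsCyclotomicExtension.Rat.galEquivZMod p K).toEquiv, Nat.card_eq_fintype_card,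
      ZMod.card_units_eq_totient, Nat.totient_prime hp.out]
  have hord : orderOf σ = p - 1 := by
    rw [← hcard]; exact orderOf_eq_card_of_forall_mem_zpowers hσ
  let w₁ : InfinitePlace K := Classical.arbitrary _
  obtain ⟨e, he⟩ := NumberField.Units.dirichletUnitTheorem.exists_unit K w₁
  have hT : (gT σ) ^ (p - 1) = 1 := by
    apply LinearMap.ext
    intro z
    obtain ⟨z, rfl⟩ := cls_surj z
    rw [gT_pow_cls, ← hord, pow_orderOf_eq_one, gU_one_apply]
    rfl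
  have hchar := charpoly_dvd (gT σ) (p - 1) hT (by omega) (cls e) (fun P hP0 hdeg =>
    aeval_gT_ne_zero hp3 σ hσ w₁ e he P hP0 (by rwa [finrank_UQ] at hdeg))
  obtain ⟨c, d, hcd, z, hz⟩ := eigen_rel (gT σ) (p - 1) (by omega) hchar p
    (fun h => by
      have := Nat.le_of_dvd (by omega) h
      omega) a (cls u) (cls v) (cls x) (cls y)
    (by rw [gT_cls, hu, cls_mul, cls_zpow, cls_pow, natCast_zsmul])
    (by rw [gT_cls, hv, cls_mul, cls_zpow, cls_pow, natCast_zsmul])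
  obtain ⟨z, rfl⟩ := cls_surj z
  refine ⟨c, d, hcd, z, ?_⟩
  rw [← cls_zpow, ← cls_zpow, ← cls_mul, natCast_zsmul, ← cls_pow, cls_eq_cls_iff] at hz
  exact hz

end Cyclo

end Fermat.Agent.ExtVan
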