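import Mathlib
import Fermat.Agent.ExtVan.UnitsRank
import Fermat.Agent.ExtVan.LogDeriv
set_option autoImplicit false

open NumberField Polynomial
open NumberField.Units (torsion mem_torsion pos_at_place)

namespace Fermat.Agent.ExtVan

section Cyclo

variable {p : ℕ} [hp : Fact p.Prime] {K : Type*} [Field K] [NumberField K]
  [hK : IsCyclotomicExtension {p} ℚ K]

/-- the class of `1 + X` -/
noncomputable def yR : R3 p := Ideal.Quotient.mk _ (1 + X)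

omit [NumberField K] hK in
lemma aeval_minpoly_eq_zero [CharZero K] (hp4 : 4 ≤ p) {ζ : 𝓞 K} (hζ : IsPrimitiveRoot ζ p) :
    aeval (yR : R3 p) (minpoly ℤ ζ) = 0 := by
  rw [← RingOfIntegers.minpoly_coe, ← cyclotomic_eq_minpoly
    (hζ.map_of_injective (RingOfIntegers.coe_injective (K := K))) hp.out.pos]
  have h1 : aeval (yR : R3 p) (cyclotomic p ℤ) = aeval (yR : R3 p) (cyclotomic p (ZMod p)) := by
    rw [aeval_def, aeval_def, ← map_cyclotomic p (Int.castRingHom (ZMod p)), eval₂_map]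
    congr 1
  have h2 : cyclotomic p (ZMod p) = (X - 1) ^ (p - 1) := by
    have := cyclotomic_mul_prime_eq_pow_of_not_dvd (ZMod p) (p := p) (n := 1)
      (by rw [Nat.dvd_one]; exact hp.out.one_lt.ne')
    rwa [one_mul, cyclotomic_one] at this
  rw [h1, h2]
  have h3 : aeval (yR : R3 p) ((X - 1 : (ZMod p)[X]) ^ (p - 1)) = Ideal.Quotient.mk _ (X ^ (p - 1)) := by
    rw [map_pow, map_sub, aeval_X, map_one, map_pow]
    congr 1
    show Ideal.Quotient.mk _ (1 + X) - 1 = _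
    rw [← map_one (Ideal.Quotient.mk _), ← map_sub, add_sub_cancel_left]
  rw [h3, Ideal.Quotient.eq_zero_iff_mem, Ideal.mem_span_singleton]
  exact pow_dvd_pow _ (by omega)

/-- the reduction map `𝓞 K → 𝔽_p[X]/X³`, `ζ ↦ 1 + X` -/
noncomputable def piR (hp4 : 4 ≤ p) {ζ : 𝓞 K} (hζ : IsPrimitiveRoot ζ p) : 𝓞 K →ₐ[ℤ] R3 p :=
  (IsPrimitiveRoot.integralPowerBasis (K := K) (ζ := (ζ : K)) (n := p)
    (hζ.map_of_injective (RingOfIntegers.coe_injective))).lift yR (by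
      have h : (IsPrimitiveRoot.integralPowerBasis (K := K) (ζ := (ζ : K)) (n := p)
        (hζ.map_of_injective (RingOfIntegers.coe_injective))).gen = ζ := by
        rw [IsPrimitiveRoot.integralPowerBasis_gen]; rfl
      rw [h]
      exact aeval_minpoly_eq_zero hp4 hζ)

lemma piR_zeta (hp4 : 4 ≤ p) {ζ : 𝓞 K} (hζ : IsPrimitiveRoot ζ p) : piR hp4 hζ ζ = yR := by
  have h : (IsPrimitiveRoot.integralPowerBasis (K := K) (ζ := (ζ : K)) (n := p)
        (hζ.map_of_injective (RingOfIntegers.coe_injective))).gen = ζ := by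
        rw [IsPrimitiveRoot.integralPowerBasis_gen]; rfl
  have h2 := PowerBasis.lift_gen (IsPrimitiveRoot.integralPowerBasis (K := K) (ζ := (ζ : K)) (n := p)
    (hζ.map_of_injective (RingOfIntegers.coe_injective))) (yR : R3 p) (by
      rw [h]; exact aeval_minpoly_eq_zero hp4 hζ)
  exact (congrArg (piR hp4 hζ) h.symm).trans h2

lemma piR_sub_one_pow (hp4 : 4 ≤ p) {ζ : 𝓞 K} (hζ : IsPrimitiveRoot ζ p) {x : 𝓞 K}
    (hx : (ζ - 1) ^ 3 ∣ x) : piR hp4 hζ x = 0 := by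
  obtain ⟨y, rfl⟩ := hx
  rw [map_mul, map_pow, map_sub, piR_zeta, map_one]
  have h3 : ((yR : R3 p) - 1) ^ 3 = 0 := by
    have : (yR : R3 p) - 1 = Ideal.Quotient.mk _ X := by
      show Ideal.Quotient.mk _ (1 + X) - 1 = _
      rw [← map_one (Ideal.Quotient.mk _), ← map_sub, add_sub_cancel_left]
    rw [this, ← map_pow, Ideal.Quotient.eq_zero_iff_mem]
    exact Ideal.mem_span_singleton_self _
  rw [h3, zero_mul]

/-- reduction modulo `ζ - 1` -/
noncomputable def c0 (hp4 : 4 ≤ p) {ζ : 𝓞 K} (hζ : IsPrimitiveRoot ζ p) : 𝓞 K →+* ZMod p where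
  toFun x := cf 0 (by norm_num) (piR hp4 hζ x)
  map_one' := by rw [map_one, cf0_one]
  map_mul' x y := by rw [map_mul, cf0_mul]
  map_zero' := by rw [map_zero, map_zero]
  map_add' x y := by rw [map_add, map_add]

lemma c0_apply (hp4 : 4 ≤ p) {ζ : 𝓞 K} (hζ : IsPrimitiveRoot ζ p) (x : 𝓞 K) :
    c0 hp4 hζ x = cf 0 (by norm_num) (piR hp4 hζ x) := rfl

lemma c0_ne_zero (hp4 : 4 ≤ p) {ζ : 𝓞 K} (hζ : IsPrimitiveRoot ζ p) {x : 𝓞 K} (hx : ¬ (ζ - 1) ∣ x) :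
    c0 hp4 hζ x ≠ 0 := by
  intro h
  have hprime : Prime (ζ - 1) :=
    (hζ.map_of_injective (RingOfIntegers.coe_injective (K := K))).zeta_sub_one_prime'
  have hmax : (Ideal.span {ζ - 1}).IsMaximal := by
    have h1 : (Ideal.span {ζ - 1}).IsPrime := (Ideal.span_singleton_prime hprime.ne_zero).mpr hprime
    exact h1.isMaximal (by rw [Ne, Ideal.span_singleton_eq_bot]; exact hprime.ne_zero)
  have hle : Ideal.span {ζ - 1} ≤ RingHom.ker (c0 hp4 hζ) := by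
    rw [Ideal.span_singleton_le_iff_mem, RingHom.mem_ker, c0_apply, map_sub, map_one, piR_zeta]
    have : (yR : R3 p) - 1 = Ideal.Quotient.mk _ X := by
      show Ideal.Quotient.mk _ (1 + X) - 1 = _
      rw [← map_one (Ideal.Quotient.mk _), ← map_sub, add_sub_cancel_left]
    rw [this, cf_mk, coeff_X_zero]
  have heq := hmax.eq_of_le (RingHom.ker_ne_top _) hle
  apply hx
  rw [← Ideal.mem_span_singleton, heq]
  exact h

lemma c0_unit (hp4 : 4 ≤ p) {ζ : 𝓞 K} (hζ : IsPrimitiveRoot ζ p) (u : (𝓞 K)ˣ) :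
    cf 0 (by norm_num) (piR hp4 hζ (u : 𝓞 K)) ≠ 0 := by
  rw [← c0_apply]
  exact (u.isUnit.map (c0 hp4 hζ)).ne_zero

/-- If `u` is, up to `p`-th powers, congruent to `1` modulo `(ζ - 1)³` then `l2 u = 0`. -/
lemma l2_eq_zero_of_close (hp4 : 4 ≤ p) {ζ : 𝓞 K} (hζ : IsPrimitiveRoot ζ p) (u : (𝓞 K)ˣ)
    (c d : 𝓞 K) (hc : ¬ (ζ - 1) ∣ c) (hd : ¬ (ζ - 1) ∣ d)
    (h : (ζ - 1) ^ 3 ∣ (u : 𝓞 K) * c ^ p - d ^ p) : l2 (piR hp4 hζ (u : 𝓞 K)) = 0 := by
  have h1 := piR_sub_one_pow hp4 hζ h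
  rw [map_sub, sub_eq_zero, map_mul, map_pow, map_pow] at h1
  have h2 := congrArg l2 h1
  have hc' := c0_ne_zero hp4 hζ hc
  have hd' := c0_ne_zero hp4 hζ hd
  rw [c0_apply] at hc' hd'
  rw [l2_mul _ _ (c0_unit hp4 hζ u) (by rw [cf0_pow]; exact pow_ne_zero _ hc'), l2_pow _ hc',
    l2_pow _ hd', CharP.cast_eq_zero, zero_mul, zero_mul, add_zero] at h2
  exact h2

omit [NumberField K] in
/-- a `p`-th root of a unit is a unit -/
lemma exists_unit_root {u v : (𝓞 K)ˣ} {x : K} (n : ℕ) (hn : 0 < n) (h : (v : K) = (u : K) * x ^ n) :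
    ∃ x' : (𝓞 K)ˣ, (x' : K) = x ∧ v = u * x' ^ n := by
  have hu0 : (u : K) ≠ 0 := NumberField.Units.coe_ne_zero u
  have hv0 : (v : K) ≠ 0 := NumberField.Units.coe_ne_zero v
  have h1 : x ^ n = ((u⁻¹ * v : (𝓞 K)ˣ) : K) := by
    rw [NumberField.Units.coe_mul, h, ← mul_assoc, ← NumberField.Units.coe_mul, inv_mul_cancel,
      NumberField.Units.coe_one, one_mul]
  have hx0 : x ≠ 0 := by
    rintro rfl
    rw [zero_pow hn.ne', mul_zero] at h
    exact hv0 h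
  have h2 : IsIntegral ℤ x := IsIntegral.of_pow hn (by rw [h1]; exact RingOfIntegers.isIntegral_coe _)
  have h3 : IsIntegral ℤ x⁻¹ := IsIntegral.of_pow hn (by
    rw [inv_pow, h1]
    have : (((u⁻¹ * v : (𝓞 K)ˣ) : K))⁻¹ = (((u⁻¹ * v)⁻¹ : (𝓞 K)ˣ) : K) := by
      rw [inv_eq_iff_eq_inv]
      symm
      apply inv_eq_of_mul_eq_one_left
      rw [← NumberField.Units.coe_mul, mul_inv_cancel, NumberField.Units.coe_one]
    rw [this]
    exact RingOfIntegers.isIntegral_coe _)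
  let x' : (𝓞 K)ˣ := ⟨⟨x, h2⟩, ⟨x⁻¹, h3⟩, RingOfIntegers.ext (mul_inv_cancel₀ hx0),
    RingOfIntegers.ext (inv_mul_cancel₀ hx0)⟩
  refine ⟨x', rfl, ?_⟩
  apply NumberField.Units.coe_injective
  show (v : K) = ((u * x' ^ n : (𝓞 K)ˣ) : K)
  rw [NumberField.Units.coe_mul, NumberField.Units.coe_pow]
  exact h

/-- exponents `≡ t⁻²` -/
def cexp (p : ℕ) (t : ℕ) : ℕ := (((t : ZMod p)⁻¹) ^ 2).val

omit [NumberField K] hK in
@[to_additive]
lemma prod_Ico_eq {M : Type*} [CommMonoid M] (g : ℕ → M) :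
    ∏ t ∈ Finset.Ico 1 p, g t = ∏ x : (ZMod p)ˣ, g ((x : ZMod p).val) := by
  symm
  refine Finset.prod_bij (fun x _ => (x : ZMod p).val) ?_ ?_ ?_ (fun _ _ => rfl)
  · intro x _
    rw [Finset.mem_Ico]
    refine ⟨Nat.one_le_iff_ne_zero.mpr ?_, ZMod.val_lt _⟩
    rw [Ne, ZMod.val_eq_zero]
    exact x.ne_zero
  · intro x _ y _ h
    exact Units.ext (ZMod.val_injective p h)
  · intro t ht
    rw [Finset.mem_Ico] at ht
    have hcop : t.Coprime p := (Nat.coprime_of_lt_prime (by omega) ht.2 hp.out).symm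
    refine ⟨ZMod.unitOfCoprime t hcop, Finset.mem_univ _, ?_⟩
    rw [ZMod.coe_unitOfCoprime, ZMod.val_natCast, Nat.mod_eq_of_lt ht.2]

lemma cexp_val (x : (ZMod p)ˣ) : ((cexp p (x : ZMod p).val : ℕ) : ZMod p) = ((x⁻¹ : (ZMod p)ˣ) : ZMod p) ^ 2 := by
  rw [cexp, ZMod.natCast_zmod_val, ZMod.natCast_zmod_val, Units.val_inv_eq_inv_val]

lemma cexp_spec (t : ℕ) (ht : t ∈ Finset.Ico 1 p) : ((cexp p t * t ^ 2 : ℕ) : ZMod p) = 1 := by
  have h0 : (t : ZMod p) ≠ 0 := by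
    rw [Ne, ZMod.natCast_eq_zero_iff]
    rw [Finset.mem_Ico] at ht
    intro h
    have := Nat.le_of_dvd (by omega) h
    omega
  rw [Nat.cast_mul, cexp, ZMod.natCast_zmod_val, Nat.cast_pow, ← mul_pow, inv_mul_cancel₀ h0, one_pow]

lemma sum_cexp (hp5 : 5 ≤ p) : ((∑ t ∈ Finset.Ico 1 p, cexp p t : ℕ) : ZMod p) = 0 := by
  rw [sum_Ico_eq, Nat.cast_sum]
  simp only [cexp_val]
  have h1 : ∑ x : (ZMod p)ˣ, (((x⁻¹ : (ZMod p)ˣ) : ZMod p)) ^ 2 = ∑ x : (ZMod p)ˣ, ((x : (ZMod p)ˣ) : ZMod p) ^ 2 :=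
    Fintype.sum_equiv (Equiv.inv _) _ _ (fun _ => rfl)
  rw [h1]
  have h2 := FiniteField.sum_pow_units (ZMod p) 2
  rw [h2, if_neg]
  rw [ZMod.card]
  intro h
  have := Nat.le_of_dvd (by norm_num) h
  omega

/-- the `ω²`-component of the cyclotomic units -/
noncomputable def epsO (p : ℕ) (ζ : 𝓞 K) (c : ℕ → ℕ) : 𝓞 K :=
  ∏ t ∈ Finset.Ico 1 p, (∑ i ∈ Finset.range t, ζ ^ i) ^ (c t)

omit [NumberField K] hK in
lemma epsO_isUnit (hp4 : 4 ≤ p) {ζ : 𝓞 K} (hζ : IsPrimitiveRoot ζ p) (c : ℕ → ℕ) :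
    IsUnit (epsO p ζ c) := by
  unfold epsO
  refine IsUnit.prod_iff.mpr fun t ht => IsUnit.pow _ ?_
  rw [Finset.mem_Ico] at ht
  exact hζ.geom_sum_isUnit (by omega)
    (Nat.coprime_of_lt_prime (by omega) ht.2 hp.out).symm

lemma twelve_l2_eps (hp5 : 5 ≤ p) {ζ : 𝓞 K} (hζ : IsPrimitiveRoot ζ p) :
    12 * l2 (piR (by omega) hζ (epsO p ζ (cexp p))) = -1 := by
  have hgeo : ∀ t, piR (by omega) hζ (∑ i ∈ Finset.range t, ζ ^ i) = (geo t : R3 p) := by
    intro t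
    rw [map_sum, geo, map_sum]
    refine Finset.sum_congr rfl fun i _ => ?_
    rw [map_pow, piR_zeta, map_pow]
    rfl
  have hne : ∀ t ∈ Finset.Ico 1 p, (t : ZMod p) ≠ 0 := by
    intro t ht
    rw [Ne, ZMod.natCast_eq_zero_iff]
    rw [Finset.mem_Ico] at ht
    intro h
    have := Nat.le_of_dvd (by omega) h
    omega
  have hne2 : ∀ t ∈ Finset.Ico 1 p, cf 0 (by norm_num) (geo t : R3 p) ≠ 0 := by
    intro t ht
    rw [cf_geo]
    simpa using hne t ht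
  have h1 : piR (by omega) hζ (epsO p ζ (cexp p)) = ∏ t ∈ Finset.Ico 1 p, (geo t : R3 p) ^ (cexp p t) := by
    rw [epsO, map_prod]
    refine Finset.prod_congr rfl fun t _ => ?_
    rw [map_pow, hgeo]
  rw [h1, l2_prod _ _ (fun t ht => by rw [cf0_pow]; exact pow_ne_zero _ (hne2 t ht)), Finset.mul_sum]
  have h2 : ∀ t ∈ Finset.Ico 1 p, 12 * l2 ((geo t : R3 p) ^ (cexp p t)) = 1 - (cexp p t : ZMod p) := by
    intro t ht
    rw [l2_pow _ (hne2 t ht)]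
    have h3 := l2_geo hp5 t (hne t ht)
    have h4 := cexp_spec t ht
    push_cast at h4
    linear_combination (cexp p t : ZMod p) * h3 + h4
  rw [Finset.sum_congr rfl h2, Finset.sum_sub_distrib, ← Nat.cast_sum, sum_cexp hp5]
  rw [Finset.sum_const, Nat.card_Ico, sub_zero, nsmul_eq_mul, mul_one, Nat.cast_sub hp.out.one_le]
  simp

lemma l2_eps_ne_zero (hp5 : 5 ≤ p) {ζ : 𝓞 K} (hζ : IsPrimitiveRoot ζ p) :
    l2 (piR (by omega) hζ (epsO p ζ (cexp p))) ≠ 0 := by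
  intro h
  have := twelve_l2_eps hp5 hζ
  rw [h, mul_zero] at this
  exact one_ne_zero (neg_eq_zero.mp this.symm)

/-- `1 - ζ^x` as a unit of the field -/
noncomputable def Fu {ζ : K} (hζ : IsPrimitiveRoot ζ p) (x : (ZMod p)ˣ) : Kˣ :=
  Units.mk0 (1 - ζ ^ (x : ZMod p).val) (by
    intro h
    have h1 : ζ ^ (x : ZMod p).val = 1 := (sub_eq_zero.mp h).symm
    have h2 := (hζ.pow_eq_one_iff_dvd _).mp h1
    have h3 : (x : ZMod p).val = 0 := Nat.eq_zero_of_dvd_of_lt h2 (ZMod.val_lt _)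
    rw [ZMod.val_eq_zero] at h3
    exact x.ne_zero h3)

omit hK [NumberField K] in
lemma zeta_pow_val {ζ : K} (hζ : IsPrimitiveRoot ζ p) (a b : ℕ) (h : (a : ZMod p) = (b : ZMod p)) :
    ζ ^ a = ζ ^ b := by
  rw [ZMod.natCast_eq_natCast_iff] at h
  rw [← pow_mod_orderOf, ← pow_mod_orderOf ζ b, ← hζ.eq_orderOf]
  congr 1

omit hK [NumberField K] in
lemma map_Fu {ζ : K} (hζ : IsPrimitiveRoot ζ p) (σ : K →* K) (hσ : ∀ x : K, σ (1 - x) = 1 - σ x)
    (g : (ZMod p)ˣ) (hg : σ ζ = ζ ^ (g : ZMod p).val) (x : (ZMod p)ˣ) :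
    Units.map σ (Fu hζ x) = Fu hζ (g * x) := by
  apply Units.ext
  show σ (1 - ζ ^ (x : ZMod p).val) = 1 - ζ ^ ((g * x : (ZMod p)ˣ) : ZMod p).val
  rw [hσ, map_pow, hg, ← pow_mul]
  congr 1
  apply zeta_pow_val hζ
  rw [Nat.cast_mul, ZMod.natCast_zmod_val, ZMod.natCast_zmod_val, ZMod.natCast_zmod_val]
  rfl

omit hK [NumberField K] in
lemma prod_zpow_congr {M : Type*} [CommGroup M] {ι : Type*} [Fintype ι] (F : ι → M) (a b : ι → ℤ)
    (h : ∀ x, (p : ℤ) ∣ a x - b x) : ∃ y : M, ∏ x, F x ^ a x = (∏ x, F x ^ b x) * y ^ p := by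
  choose k hk using h
  refine ⟨∏ x, F x ^ k x, ?_⟩
  rw [← Finset.prod_pow, ← Finset.prod_mul_distrib]
  refine Finset.prod_congr rfl fun x _ => ?_
  rw [← zpow_natCast, ← zpow_mul, ← zpow_add]
  congr 1
  have := hk x
  linarith [mul_comm (p : ℤ) (k x)]

/-- The `ω²`-eigenvector property of `epsO`. -/
lemma eps_eigen (hp5 : 5 ≤ p) {ζ : 𝓞 K} (hζ : IsPrimitiveRoot ζ p) (σ : K ≃ₐ[ℚ] K)
    (g : (ZMod p)ˣ) (hg : σ (ζ : K) = (ζ : K) ^ (g : ZMod p).val) :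
    ∃ y : Kˣ, (σ ((epsO p ζ (cexp p) : 𝓞 K) : K)) =
      ((epsO p ζ (cexp p) : 𝓞 K) : K) ^ ((g : ZMod p).val ^ 2) * (y : K) ^ p := by
  have hζK : IsPrimitiveRoot (ζ : K) p := hζ.map_of_injective RingOfIntegers.coe_injective
  set F := Fu hζK with hF
  set S := ∑ x : (ZMod p)ˣ, cexp p (x : ZMod p).val with hS
  have hS0 : p ∣ S := by
    have := sum_cexp (p := p) hp5
    rw [sum_Ico_eq, ZMod.natCast_eq_zero_iff] at this
    exact this
  obtain ⟨S', hS'⟩ := hS0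
  have hunit := epsO_isUnit (by omega) hζ (cexp p)
  have hne : ((epsO p ζ (cexp p) : 𝓞 K) : K) ≠ 0 :=
    RingOfIntegers.coe_ne_zero_iff.mpr hunit.ne_zero
  set ε : Kˣ := Units.mk0 _ hne with hε
  have h1 : ε * (F 1) ^ S = ∏ x, F x ^ (cexp p (x : ZMod p).val : ℤ) := by
    apply Units.ext
    rw [Units.val_mul, Units.val_pow_eq_pow_val, hε, Units.val_mk0, Units.coe_prod]
    have hF1 : ((F 1 : Kˣ) : K) = 1 - (ζ : K) := by
      show 1 - (ζ : K) ^ ((1 : (ZMod p)ˣ) : ZMod p).val = _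
      rw [Units.val_one, ZMod.val_one, pow_one]
    have h2 : ((epsO p ζ (cexp p) : 𝓞 K) : K) = ∏ x : (ZMod p)ˣ,
        (∑ i ∈ Finset.range (x : ZMod p).val, (ζ : K) ^ i) ^ (cexp p (x : ZMod p).val) := by
      rw [epsO, prod_Ico_eq]
      show algebraMap (𝓞 K) K _ = _
      rw [map_prod]
      refine Finset.prod_congr rfl fun x _ => ?_
      rw [map_pow, map_sum]
      simp only [map_pow]
    rw [hF1, h2, hS, ← Finset.prod_pow_eq_pow_sum, ← Finset.prod_mul_distrib]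
    refine Finset.prod_congr rfl fun x _ => ?_
    rw [zpow_natCast, Units.val_pow_eq_pow_val, ← mul_pow]
    congr 1
    rw [mul_comm, mul_neg_geom_sum]
    rfl
  let τ : K →* K := (σ : K →+* K)
  have hτ : ∀ x : K, τ (1 - x) = 1 - τ x := fun x => by
    show σ (1 - x) = 1 - σ x
    rw [map_sub, map_one]
  have hmapF : ∀ x, Units.map τ (F x) = F (g * x) := fun x => map_Fu hζK τ hτ g hg x
  have h2 := congrArg (Units.map τ) h1
  rw [map_mul, map_pow, map_prod, hmapF, mul_one] at h2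
  simp only [map_zpow, hmapF] at h2
  have h3 : ∏ x, F (g * x) ^ (cexp p (x : ZMod p).val : ℤ) =
      ∏ x, F x ^ (cexp p ((g⁻¹ * x : (ZMod p)ˣ) : ZMod p).val : ℤ) := by
    refine Fintype.prod_equiv (Equiv.mulLeft g) _ _ (fun x => ?_)
    rw [Equiv.coe_mulLeft, inv_mul_cancel_left]
  obtain ⟨y, hy⟩ := prod_zpow_congr (p := p) F
    (fun x => (cexp p ((g⁻¹ * x : (ZMod p)ˣ) : ZMod p).val : ℤ))
    (fun x => ((g : ZMod p).val ^ 2 : ℤ) * (cexp p (x : ZMod p).val : ℤ)) (by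
      intro x
      rw [← ZMod.intCast_zmod_eq_zero_iff_dvd]
      have e1 := cexp_val (g⁻¹ * x)
      have e2 := cexp_val x
      rw [Int.cast_sub, Int.cast_mul, Int.cast_pow, Int.cast_natCast, Int.cast_natCast,
        Int.cast_natCast, e1, e2, ZMod.natCast_zmod_val, mul_inv, inv_inv, Units.val_mul]
      ring)
  have h4 : ∏ x, F x ^ (((g : ZMod p).val ^ 2 : ℤ) * (cexp p (x : ZMod p).val : ℤ)) =
      (∏ x, F x ^ (cexp p (x : ZMod p).val : ℤ)) ^ ((g : ZMod p).val ^ 2) := by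
    rw [← Finset.prod_pow]
    refine Finset.prod_congr rfl fun x _ => ?_
    rw [← zpow_natCast, ← zpow_mul]
    congr 1
    push_cast
    ring
  rw [h3, hy, h4, ← h1, hS', mul_pow, ← pow_mul] at h2
  refine ⟨(F 1) ^ (S' * (g : ZMod p).val ^ 2) * y * ((F g) ^ S')⁻¹, ?_⟩
  have h5 : Units.map τ ε = ε ^ ((g : ZMod p).val ^ 2) *
      ((F 1) ^ (S' * (g : ZMod p).val ^ 2) * y * ((F g) ^ S')⁻¹) ^ p := by
    have h6 : ((F g) ^ S') ^ p * ((F g ^ S')⁻¹) ^ p = 1 := by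
      rw [← mul_pow, mul_inv_cancel, one_pow]
    calc Units.map τ ε = Units.map τ ε * F g ^ (p * S') * ((F g ^ S')⁻¹) ^ p := by
          rw [mul_assoc, mul_comm p S', pow_mul, h6, mul_one]
      _ = _ := by
          rw [h2, mul_pow, mul_pow, ← pow_mul]
          have e1 : p * S' * (g : ZMod p).val ^ 2 = S' * (g : ZMod p).val ^ 2 * p := by ring
          rw [e1]
          simp only [mul_assoc]
  have h7 := congrArg Units.val h5
  exact h7

include hK in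
/-- `ζ ^ k` is a `p`-th power in `K` only if `p ∣ k`. -/
lemma dvd_of_zeta_pow_eq (hp3 : 3 ≤ p) {ζ : K} (hζ : IsPrimitiveRoot ζ p) (k : ℤ) (w : K)
    (h : ζ ^ k = w ^ p) : (p : ℤ) ∣ k := by
  have hodd : Odd p := hp.out.odd_of_ne_two (by omega)
  have hζ0 : ζ ≠ 0 := hζ.ne_zero hp.out.ne_zero
  have hw : IsOfFinOrder w := by
    rw [isOfFinOrder_iff_pow_eq_one]
    refine ⟨p * p, Nat.mul_pos hp.out.pos hp.out.pos, ?_⟩
    rw [pow_mul, ← h, ← zpow_natCast, ← zpow_mul, mul_comm, zpow_mul, zpow_natCast, hζ.pow_eq_one,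
      one_zpow]
  obtain ⟨r, -, hr⟩ := hζ.exists_pow_or_neg_mul_pow_of_isOfFinOrder hodd hw
  have h1 : w ^ p = 1 ∨ w ^ p = -1 := by
    rcases hr with hr | hr
    · left; rw [hr, ← pow_mul, mul_comm, pow_mul, hζ.pow_eq_one, one_pow]
    · right; rw [hr, hodd.neg_pow, ← pow_mul, mul_comm, pow_mul, hζ.pow_eq_one, one_pow]
  rcases h1 with h1 | h1
  · rw [h1] at h
    exact (hζ.zpow_eq_one_iff_dvd k).mp h
  · exfalso
    rw [h1] at h
    have h2 : (-1 : K) ^ p = 1 := by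
      rw [← h, ← zpow_natCast, ← zpow_mul, mul_comm, zpow_mul, zpow_natCast, hζ.pow_eq_one, one_zpow]
    rw [hodd.neg_one_pow] at h2
    have h3 : (2 : K) = 0 := by linear_combination -h2
    exact two_ne_zero h3

include hK in
/-- **Units**: a unit in the `ω²`-eigenspace modulo `p`-th powers, which is locally a `p`-th power
at the prime above `p`, is a `p`-th power. -/
theorem unit_is_pow (hp5 : 5 ≤ p) {ζ : 𝓞 K} (hζ : IsPrimitiveRoot ζ p) (u : (𝓞 K)ˣ)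
    (hu : ∀ (σ : K ≃ₐ[ℚ] K) (g : (ZMod p)ˣ), σ (ζ : K) = (ζ : K) ^ (g : ZMod p).val →
      ∃ y : K, σ (u : K) = (u : K) ^ ((g : ZMod p).val ^ 2) * y ^ p)
    (c d : 𝓞 K) (hc : ¬ (ζ - 1) ∣ c) (hd : ¬ (ζ - 1) ∣ d)
    (h : (ζ - 1) ^ 3 ∣ (u : 𝓞 K) * c ^ p - d ^ p) : ∃ w : (𝓞 K)ˣ, u = w ^ p := by
  have hζK : IsPrimitiveRoot (ζ : K) p := hζ.map_of_injective RingOfIntegers.coe_injective
  have hζ0 : (ζ : K) ≠ 0 := hζK.ne_zero hp.out.ne_zero
  have hodd : Odd p := hp.out.odd_of_ne_two (by omega)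
  have hl2 := l2_eq_zero_of_close (by omega) hζ u c d hc hd h
  obtain ⟨g, hg⟩ := IsCyclic.exists_generator (α := (ZMod p)ˣ)
  set e := IsCyclotomicExtension.Rat.galEquivZMod p K with he
  set σ := e.symm g with hσ
  have hσζ : σ (ζ : K) = (ζ : K) ^ (g : ZMod p).val := by
    rw [IsCyclotomicExtension.Rat.galEquivZMod_apply_of_pow_eq p K σ hζK.pow_eq_one, ← he, hσ,
      MulEquiv.apply_symm_apply]
  have hgen : ∀ τ : K ≃ₐ[ℚ] K, τ ∈ Subgroup.zpowers σ := by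
    intro τ
    obtain ⟨k, hk⟩ := hg (e τ)
    refine ⟨k, e.injective ?_⟩
    show e (σ ^ k) = e τ
    rw [map_zpow, hσ, MulEquiv.apply_symm_apply]
    exact hk
  set G := (g : ZMod p).val ^ 2 with hG
  obtain ⟨x, hx⟩ := hu σ g hσζ
  have hx' : ((gU σ u : (𝓞 K)ˣ) : K) = ((u ^ G : (𝓞 K)ˣ) : K) * x ^ p := by
    rw [coe_gU', hx, NumberField.Units.coe_pow]
  obtain ⟨x', -, hx2⟩ := exists_unit_root p hp.out.pos hx'
  obtain ⟨ε, hε⟩ := epsO_isUnit (by omega) hζ (cexp p)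
  obtain ⟨y, hy⟩ := eps_eigen hp5 hζ σ g hσζ
  have hy' : ((gU σ ε : (𝓞 K)ˣ) : K) = ((ε ^ G : (𝓞 K)ˣ) : K) * (y : K) ^ p := by
    rw [coe_gU', hε, hy, NumberField.Units.coe_pow, hε]
  obtain ⟨y', -, hy2⟩ := exists_unit_root p hp.out.pos hy'
  obtain ⟨m, n, hmn, z, t, ht, hrel⟩ := units_rel (p := p) (by omega) σ hgen (G : ℤ) u ε x' y'
    (by rw [hx2, zpow_natCast]) (by rw [hy2, zpow_natCast])
  -- remove the torsion
  have htf : IsOfFinOrder (t : K) := by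
    have h1 : IsOfFinOrder t := by rwa [torsion, CommGroup.mem_torsion] at ht
    have h2 := (Units.coeHom (𝓞 K)).isOfFinOrder h1
    exact (algebraMap (𝓞 K) K).toMonoidHom.isOfFinOrder h2
  obtain ⟨r, -, hr⟩ := hζK.exists_pow_or_neg_mul_pow_of_isOfFinOrder hodd htf
  obtain ⟨s, hs1, hs⟩ : ∃ s : (𝓞 K)ˣ, s ^ p = s ∧ (t : K) = (ζ : K) ^ r * (s : K) := by
    rcases hr with hr | hr
    · exact ⟨1, one_pow _, by rw [hr, NumberField.Units.coe_one, mul_one]⟩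
    · exact ⟨-1, hodd.neg_one_pow, by rw [hr, NumberField.Units.coe_neg_one, mul_neg_one]⟩
  have hrelK : (u : K) ^ m * (ε : K) ^ n = (ζ : K) ^ r * ((s * z : (𝓞 K)ˣ) : K) ^ p := by
    have h1 : ((u ^ m * ε ^ n : (𝓞 K)ˣ) : K) = ((t * z ^ p : (𝓞 K)ˣ) : K) := by rw [hrel]
    rw [NumberField.Units.coe_mul, NumberField.Units.coe_zpow, NumberField.Units.coe_zpow,
      NumberField.Units.coe_mul, NumberField.Units.coe_pow, hs] at h1
    rw [h1, NumberField.Units.coe_mul, mul_pow, ← mul_assoc]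
    congr 2
    rw [← NumberField.Units.coe_pow, hs1]
  have hu0 : (u : K) ≠ 0 := NumberField.Units.coe_ne_zero u
  have hε0 : (ε : K) ≠ 0 := NumberField.Units.coe_ne_zero ε
  have hsz0 : ((s * z : (𝓞 K)ˣ) : K) ≠ 0 := NumberField.Units.coe_ne_zero _
  have hσu : σ (u : K) = (u : K) ^ (G : ℤ) * x ^ p := by rw [hx, zpow_natCast]
  have hσε : σ (ε : K) = (ε : K) ^ (G : ℤ) * (y : K) ^ p := by rw [hε, hy, zpow_natCast]
  have hrdvd : p ∣ r := by
    have h1 := congrArg σ hrelK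
    rw [map_mul, map_zpow₀, map_zpow₀, hσu, hσε, map_mul, map_pow, map_pow, hσζ] at h1
    -- `ζ^(g r - G r)` is a `p`-th power
    have h2 : (ζ : K) ^ (((g : ZMod p).val : ℤ) * r - G * r) =
        (x ^ m * (y : K) ^ n * ((s * z : (𝓞 K)ˣ) : K) ^ G * (σ ((s * z : (𝓞 K)ˣ) : K))⁻¹) ^ p := by
      have hσsz0 : σ ((s * z : (𝓞 K)ˣ) : K) ≠ 0 := by
        rw [Ne, map_eq_zero]; exact hsz0
      have h3 : ((u : K) ^ (G : ℤ) * x ^ p) ^ m * ((ε : K) ^ (G : ℤ) * (y : K) ^ p) ^ n =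
          ((u : K) ^ m * (ε : K) ^ n) ^ G * (x ^ m * (y : K) ^ n) ^ p := by
        rw [mul_zpow, mul_zpow, mul_pow, mul_pow, ← zpow_natCast x p, ← zpow_natCast (y : K) p,
          ← zpow_natCast (_ ^ m) G, ← zpow_natCast (_ ^ n) G, ← zpow_natCast (x ^ m) p,
          ← zpow_natCast ((y : K) ^ n) p, ← zpow_mul, ← zpow_mul, ← zpow_mul, ← zpow_mul,
          ← zpow_mul, ← zpow_mul, ← zpow_mul, ← zpow_mul]
        rw [mul_comm (G : ℤ) m, mul_comm (G : ℤ) n, mul_comm (p : ℤ) m, mul_comm (p : ℤ) n]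
        ring
      rw [h3, hrelK] at h1
      have h4 : (ζ : K) ^ (((g : ZMod p).val : ℤ) * r - G * r) =
          ((ζ : K) ^ (g : ZMod p).val) ^ r * (((ζ : K) ^ r) ^ G)⁻¹ := by
        rw [zpow_sub₀ hζ0, div_eq_mul_inv, ← pow_mul, ← pow_mul]
        congr 1
        · exact_mod_cast rfl
        · congr 1
          rw [mul_comm r G]
          exact_mod_cast rfl
      rw [h4]
      have hζr : ((ζ : K) ^ r) ^ G ≠ 0 := pow_ne_zero _ (pow_ne_zero _ hζ0)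
      have h1' : ((ζ : K) ^ (g : ZMod p).val) ^ r = ((ζ : K) ^ r) ^ G *
          (((s * z : (𝓞 K)ˣ) : K) ^ p) ^ G * (x ^ m * (y : K) ^ n) ^ p * ((σ ((s * z : (𝓞 K)ˣ) : K)) ^ p)⁻¹ := by
        rw [eq_mul_inv_iff_mul_eq₀ (pow_ne_zero _ hσsz0), ← h1, mul_pow ((ζ : K) ^ r)]
      set A := (x ^ m * (y : K) ^ n)
      set B := ((s * z : (𝓞 K)ˣ) : K)
      have e2 : (B ^ p) ^ G = (B ^ G) ^ p := by rw [← pow_mul, ← pow_mul, mul_comm]
      rw [h1', mul_pow _ _ p, mul_pow _ _ p, inv_pow, e2]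
      field_simp
      rw [mul_assoc, ← mul_pow (x ^ m), ← mul_pow]
    have h5 := dvd_of_zeta_pow_eq (by omega) hζK _ _ h2
    have h6 : (p : ℤ) ∣ ((g : ZMod p).val : ℤ) * (1 - (g : ZMod p).val) * r := by
      have h7 : ((g : ZMod p).val : ℤ) * (1 - (g : ZMod p).val) * r =
          ((g : ZMod p).val : ℤ) * r - G * r := by rw [hG]; push_cast; ring
      rw [h7]; exact h5
    have hpZ : Prime (p : ℤ) := Nat.prime_iff_prime_int.mp hp.out
    rcases hpZ.dvd_or_dvd h6 with h7 | h7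
    · exfalso
      rcases hpZ.dvd_or_dvd h7 with h8 | h8
      · rw [← ZMod.intCast_zmod_eq_zero_iff_dvd] at h8
        rw [Int.cast_natCast, ZMod.natCast_zmod_val] at h8
        exact g.ne_zero h8
      · rw [← ZMod.intCast_zmod_eq_zero_iff_dvd] at h8
        rw [Int.cast_sub, Int.cast_one, Int.cast_natCast, ZMod.natCast_zmod_val, sub_eq_zero] at h8
        have h9 : g = 1 := Units.ext h8.symm
        have h10 : Nat.card (ZMod p)ˣ = 1 := by
          rw [← orderOf_eq_card_of_forall_mem_zpowers hg, h9, orderOf_one]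
        rw [Nat.card_eq_fintype_card, ZMod.card_units_eq_totient, Nat.totient_prime hp.out] at h10
        omega
    · exact_mod_cast h7
  obtain ⟨r', rfl⟩ := hrdvd
  have hrel2 : u ^ m * ε ^ n = (s * z) ^ p := by
    apply NumberField.Units.coe_injective
    show ((u ^ m * ε ^ n : (𝓞 K)ˣ) : K) = (((s * z) ^ p : (𝓞 K)ˣ) : K)
    rw [NumberField.Units.coe_mul, NumberField.Units.coe_zpow, NumberField.Units.coe_zpow, hrelK,
      pow_mul, hζK.pow_eq_one, one_pow, one_mul, NumberField.Units.coe_pow]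
  -- apply `l2`
  let L : (𝓞 K)ˣ →* Multiplicative (ZMod p) :=
    { toFun := fun v => Multiplicative.ofAdd (l2 (piR (by omega) hζ (v : 𝓞 K)))
      map_one' := by rw [Units.val_one, map_one, l2_one]; rfl
      map_mul' := fun a b => by
        rw [Units.val_mul, map_mul, l2_mul _ _ (c0_unit _ hζ a) (c0_unit _ hζ b)]; rfl }
  have hLu : L u = 1 := by
    show Multiplicative.ofAdd (l2 (piR _ hζ (u : 𝓞 K))) = 1
    rw [hl2]; rfl
  have hLp : ∀ v, (L v) ^ p = 1 := by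
    intro v
    rw [← toAdd_eq_zero, toAdd_pow, nsmul_eq_mul, CharP.cast_eq_zero, zero_mul]
  have hn : (p : ℤ) ∣ n := by
    have h1 := congrArg L hrel2
    rw [map_mul, map_zpow, map_zpow, hLu, one_zpow, one_mul, map_pow, hLp] at h1
    have h2 : (n : ZMod p) * l2 (piR (by omega) hζ (ε : 𝓞 K)) = 0 := by
      have := congrArg Multiplicative.toAdd h1
      rw [toAdd_zpow, toAdd_one, zsmul_eq_mul] at this
      exact this
    rw [← ZMod.intCast_zmod_eq_zero_iff_dvd]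
    rcases mul_eq_zero.mp h2 with h3 | h3
    · exact h3
    · rw [hε] at h3
      exact absurd h3 (l2_eps_ne_zero hp5 hζ)
  have hm : ¬ (p : ℤ) ∣ m := fun h => hmn ⟨h, hn⟩
  obtain ⟨n', rfl⟩ := hn
  have hcop : IsCoprime m (p : ℤ) := by
    have hpZ : Prime (p : ℤ) := Nat.prime_iff_prime_int.mp hp.out
    exact (((Irreducible.coprime_iff_not_dvd hpZ.irreducible).mpr hm)).symm
  obtain ⟨a, b, hab⟩ := hcop
  refine ⟨(s * z * (ε ^ n')⁻¹) ^ a * u ^ b, ?_⟩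
  have h1 : u ^ m = (s * z * (ε ^ n')⁻¹) ^ p := by
    rw [mul_pow, ← hrel2, mul_assoc]
    have : ε ^ ((p : ℤ) * n') * ((ε ^ n')⁻¹) ^ p = 1 := by
      rw [mul_comm (p : ℤ) n', zpow_mul, zpow_natCast, ← mul_pow, mul_inv_cancel, one_pow]
    rw [this, mul_one]
  calc u = u ^ (a * m + b * p) := by rw [hab, zpow_one]
    _ = (u ^ m) ^ a * (u ^ b) ^ (p : ℤ) := by rw [zpow_add, mul_comm a m, zpow_mul, zpow_mul]
    _ = _ := by
      have e1 : ∀ A : (𝓞 K)ˣ, (A ^ p) ^ a = (A ^ a) ^ p := by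
        intro A
        rw [← zpow_natCast A p, ← zpow_mul, mul_comm, zpow_mul, zpow_natCast]
      rw [h1, e1, zpow_natCast, ← mul_pow]

end Cyclo

end Fermat.Agent.ExtVan
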