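import Mathlib
import Fermat.Agent.ExtVan.UnitsFinal
import Fermat.Agent.ExtVan.KummerFinal
import Fermat.Agent.ExtVan.EigenFunctional
import Fermat.Agent.ExtVan.Thaine
import Fermat.Prelude.Def_ClassGroup_GaloisAction
set_option autoImplicit false

open NumberField nonZeroDivisors IsDedekindDomain UniqueFactorizationMonoid ExtCitation

namespace Fermat.Agent.ExtVan

/-- the density statement (D) -/
def DensityStatement : Prop :=
  ∀ (K : Type) [Field K] [NumberField K] (p : ℕ) (_ : p.Prime) (_ : 3 ≤ p)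
    (ζ : K) (_ : IsPrimitiveRoot ζ p) (u : 𝓞 K) (_ : u ≠ 0) (_ : ∀ x : K, x ^ p ≠ (u : K))
    (χ : ClassGroup (𝓞 K) →* ℂˣ) (_ : χ ≠ 1),
    ∃ 𝔮 : (Ideal (𝓞 K))⁰, (𝔮 : Ideal (𝓞 K)).IsPrime ∧ (Ideal.absNorm (𝔮 : Ideal (𝓞 K))).Prime ∧
      (p : 𝓞 K) ∉ (𝔮 : Ideal (𝓞 K)) ∧ u ∉ (𝔮 : Ideal (𝓞 K)) ∧ χ (ClassGroup.mk0 𝔮) ≠ 1 ∧
      ¬ ∃ y : 𝓞 K, y ^ p - u ∈ (𝔮 : Ideal (𝓞 K))

/-- an element all of whose valuations are `n`-th powers generates the `n`-th power of an ideal -/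
lemma exists_ideal_pow {R : Type*} [CommRing R] [IsDedekindDomain R] (n : ℕ) (a : R) (ha : a ≠ 0)
    (h : ∀ v : HeightOneSpectrum R, ∃ γ : WithZero (Multiplicative ℤ), v.intValuation a = γ ^ n) :
    ∃ I : Ideal R, I ^ n = Ideal.span {a} := by
  classical
  have hspan : Ideal.span {a} ≠ (0 : Ideal R) := by
    rw [Ne, Ideal.zero_eq_bot, Ideal.span_singleton_eq_bot]; exact ha
  have hcount : ∀ P ∈ normalizedFactors (Ideal.span {a}), n ∣ Multiset.count P (normalizedFactors (Ideal.span {a})) := by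
    intro P hP
    have hPp : Prime P := prime_of_normalized_factor P hP
    let v : HeightOneSpectrum R := ⟨P, Ideal.isPrime_of_prime hPp, hPp.ne_zero⟩
    obtain ⟨γ, hγ⟩ := h v
    have h1 := v.intValuation_eq_exp_neg_multiplicity ha
    rw [hγ] at h1
    have h2 : emultiplicity P (Ideal.span {a}) = Multiset.count P (normalizedFactors (Ideal.span {a})) := by
      have := emultiplicity_eq_count_normalizedFactors hPp.irreducible hspan
      rwa [normalize_eq] at this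
    have h3 : multiplicity P (Ideal.span {a}) = Multiset.count P (normalizedFactors (Ideal.span {a})) := by
      have hfin : FiniteMultiplicity P (Ideal.span {a}) := FiniteMultiplicity.of_prime_left hPp hspan
      exact_mod_cast (hfin.emultiplicity_eq_multiplicity.symm.trans h2)
    change γ ^ n = WithZero.exp (-(multiplicity P (Ideal.span {a}) : ℤ)) at h1
    rw [h3] at h1
    have h4 := congrArg WithZero.log h1
    rw [WithZero.log_pow, WithZero.log_exp, nsmul_eq_mul] at h4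
    have h5 : (n : ℤ) ∣ (Multiset.count P (normalizedFactors (Ideal.span {a})) : ℤ) := by
      rw [← dvd_neg, ← h4]
      exact dvd_mul_right _ _
    exact_mod_cast h5
  obtain ⟨u, hu⟩ := Multiset.exists_smul_of_dvd_count _ hcount
  refine ⟨u.prod, ?_⟩
  rw [← Multiset.prod_nsmul, ← hu]
  exact Ideal.prod_normalizedFactors_eq_self hspan

section

variable {p : ℕ} [hp : Fact p.Prime] {K : Type*} [Field K] [NumberField K]
  [hK : IsCyclotomicExtension {p} ℚ K]

omit hp hK in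
/-- ring automorphisms of the integers come from field automorphisms -/
lemma exists_gO_eq (σ : 𝓞 K ≃+* 𝓞 K) : ∃ σ' : K ≃ₐ[ℚ] K, gO σ' = σ := by
  let σK : K ≃+* K := IsFractionRing.ringEquivOfRingEquiv σ
  have h1 : ∀ x : 𝓞 K, σK (x : K) = (σ x : K) := fun x => IsFractionRing.ringEquivOfRingEquiv_algebraMap σ x
  refine ⟨AlgEquiv.ofRingEquiv (f := σK) (fun q => ?_), RingEquiv.ext fun x => RingOfIntegers.ext ?_⟩
  · rw [eq_ratCast, map_ratCast]
  · exact h1 x

omit hp hK in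
/-- the image of the ideal root -/
lemma class_eigen (hp0 : p ≠ 0) (α : 𝓞 K) (hα0 : α ≠ 0) (I : (Ideal (𝓞 K))⁰)
    (hI : (I : Ideal (𝓞 K)) ^ p = Ideal.span {α}) (σ : K ≃ₐ[ℚ] K) (n : ℕ) (y : K)
    (h : σ (α : K) = (α : K) ^ n * y ^ p) :
    ClassGroup.mulEquiv (gO σ) (ClassGroup.mk0 I) = (ClassGroup.mk0 I) ^ n := by
  obtain ⟨a, b, hb, rfl⟩ := IsFractionRing.div_surjective (A := 𝓞 K) y
  have hb0 : (algebraMap (𝓞 K) K b) ≠ 0 := by
    rw [Ne, FaithfulSMul.algebraMap_eq_zero_iff]; exact nonZeroDivisors.ne_zero hb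
  have hαK : (algebraMap (𝓞 K) K α) ≠ 0 := by
    rw [Ne, FaithfulSMul.algebraMap_eq_zero_iff]; exact hα0
  have ha : a ≠ 0 := by
    rintro rfl
    rw [map_zero, zero_div, zero_pow hp0, mul_zero, map_eq_zero] at h
    exact hαK h
  have h1 : b ^ p * gO σ α = α ^ n * a ^ p := by
    apply RingOfIntegers.ext
    have h2 : algebraMap (𝓞 K) K (b ^ p * gO σ α) = algebraMap (𝓞 K) K (α ^ n * a ^ p) := by
      rw [map_mul, map_mul, map_pow, map_pow, map_pow]
      have h3 : algebraMap (𝓞 K) K (gO σ α) = σ (algebraMap (𝓞 K) K α) := rfl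
      have h4 : σ (algebraMap (𝓞 K) K α) = (algebraMap (𝓞 K) K α) ^ n *
          (algebraMap (𝓞 K) K a / algebraMap (𝓞 K) K b) ^ p := h
      rw [h3, h4, div_pow]
      field_simp
    exact h2
  have h2 : (Ideal.span {b} * (I : Ideal (𝓞 K)).map (gO σ : 𝓞 K →+* 𝓞 K)) ^ p =
      (Ideal.span {a} * (I : Ideal (𝓞 K)) ^ n) ^ p := by
    rw [mul_pow, mul_pow, Ideal.span_singleton_pow, Ideal.span_singleton_pow, ← Ideal.map_pow, hI,
      Ideal.map_span, Set.image_singleton, ← pow_mul, mul_comm n p, pow_mul, hI,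
      Ideal.span_singleton_pow, Ideal.span_singleton_mul_span_singleton,
      Ideal.span_singleton_mul_span_singleton]
    congr 2
    rw [mul_comm (a ^ p)]
    exact h1
  have h3 : Ideal.span {b} * (I : Ideal (𝓞 K)).map (gO σ : 𝓞 K →+* 𝓞 K) =
      Ideal.span {a} * (I : Ideal (𝓞 K)) ^ n := by
    apply dvd_antisymm
    · rw [← UniqueFactorizationMonoid.pow_dvd_pow_iff_dvd hp0, h2]
    · rw [← UniqueFactorizationMonoid.pow_dvd_pow_iff_dvd hp0, h2]
  rw [ClassGroup.mulEquiv_mk0, ← map_pow, ClassGroup.mk0_eq_mk0_iff]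
  exact ⟨b, a, nonZeroDivisors.ne_zero hb, ha, h3⟩

end

section

variable {p : ℕ} [hp : Fact p.Prime] {K : Type} [Field K] [NumberField K]
  [hK : IsCyclotomicExtension {p} ℚ K]

/-- the unit `ε` is not a `p`-th power -/
lemma eps_not_pow (hp5 : 5 ≤ p) {ζ : 𝓞 K} (hζ : IsPrimitiveRoot ζ p) (x : K) :
    x ^ p ≠ (epsO p ζ (cexp p) : K) := by
  intro h
  have hζK : IsPrimitiveRoot (ζ : K) p := hζ.map_of_injective RingOfIntegers.coe_injective
  obtain ⟨ε, hε⟩ := epsO_isUnit (by omega) hζ (cexp p)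
  obtain ⟨w, -, hw⟩ := exists_unit_root (u := (1 : (𝓞 K)ˣ)) (v := ε) (x := x) p hp.out.pos (by
    rw [NumberField.Units.coe_one, one_mul, h]
    exact congrArg (algebraMap (𝓞 K) K) hε)
  have hpr : Prime (ζ - 1) := hζK.zeta_sub_one_prime'
  have hnu : ¬ IsUnit (ζ - 1) := hpr.not_isUnit
  apply l2_eps_ne_zero hp5 hζ
  have h1 := l2_eq_zero_of_close (by omega) hζ ε 1 w
    (fun h2 => hnu (isUnit_of_dvd_one h2)) (fun h2 => hnu (isUnit_of_dvd_unit h2 w.isUnit)) (by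
      rw [hw, one_mul, one_pow, mul_one, Units.val_pow_eq_pow_val, sub_self]
      exact dvd_zero _)
  rw [hε] at h1
  exact h1

/-- the `ω²`-part of the class group has no `p`-torsion -/
theorem class_eq_one (hD : DensityStatement) (hp5 : 5 ≤ p) {ζ : 𝓞 K} (hζ : IsPrimitiveRoot ζ p)
    (c : ClassGroup (𝓞 K)) (hcp : c ^ p = 1)
    (hc : ∀ (σ : K ≃ₐ[ℚ] K) (t : ℕ), σ (ζ : K) = (ζ : K) ^ t →
      ClassGroup.mulEquiv (gO σ) c = c ^ (t ^ 2)) : c = 1 := by
  have : NeZero p := ⟨hp.out.ne_zero⟩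
  by_contra hne
  have hζK : IsPrimitiveRoot (ζ : K) p := hζ.map_of_injective RingOfIntegers.coe_injective
  set e := IsCyclotomicExtension.Rat.galEquivZMod p K with he
  have hσζ : ∀ g : (ZMod p)ˣ, (e.symm g) (ζ : K) = (ζ : K) ^ (g : ZMod p).val := by
    intro g
    rw [IsCyclotomicExtension.Rat.galEquivZMod_apply_of_pow_eq p K (e.symm g) hζK.pow_eq_one, ← he,
      MulEquiv.apply_symm_apply]
  let s : (ZMod p)ˣ → Additive (ClassGroup (𝓞 K)) →+ Additive (ClassGroup (𝓞 K)) := fun g =>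
    MonoidHom.toAdditive (ClassGroup.mulEquiv (gO (e.symm g))).toMonoidHom
  have hs : ∀ (g : (ZMod p)ˣ) (x : Additive (ClassGroup (𝓞 K))),
    s g x = Additive.ofMul (ClassGroup.mulEquiv (gO (e.symm g)) (Additive.toMul x)) := fun _ _ => rfl
  obtain ⟨f, hf0, hf⟩ := exists_eigen_functional (p := p) s (by
      intro g h x
      rw [hs, hs, hs, map_mul]
      have : gO (e.symm g * e.symm h) = (gO (e.symm h)).trans (gO (e.symm g)) := rfl
      rw [this, ClassGroup.mulEquiv_trans_apply]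
      rfl) (Additive.ofMul c) (fun h => hne (Additive.ofMul.injective h))
    (by rw [← ofMul_pow, hcp]; rfl) (by
      intro g
      rw [hs, toMul_ofMul, hc _ _ (hσζ g), ofMul_pow])
  let χ : ClassGroup (𝓞 K) →* Multiplicative (ZMod p) := AddMonoidHom.toMultiplicativeRight f
  have hχ : ∀ x, χ x = Multiplicative.ofAdd (f (Additive.ofMul x)) := fun _ => rfl
  have hχ1 : χ ≠ 1 := by
    intro h
    apply hf0
    ext x
    have := DFunLike.congr_fun h (Additive.toMul x)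
    exact Multiplicative.ofAdd.injective this
  have hχσ : ∀ (σ : 𝓞 K ≃+* 𝓞 K) (t : ℕ), σ ζ = ζ ^ t →
      ∀ c, χ (ClassGroup.mulEquiv σ c) = (χ c) ^ (t ^ 2) := by
    intro σ t hσt c
    obtain ⟨σ', rfl⟩ := exists_gO_eq σ
    have h1 : σ' (ζ : K) = (ζ : K) ^ t := by
      have := congrArg (algebraMap (𝓞 K) K) hσt
      rw [map_pow] at this
      exact this
    have h2 := IsCyclotomicExtension.Rat.galEquivZMod_apply_of_pow_eq p K σ' hζK.pow_eq_one
    rw [← he, h1] at h2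
    have h3 : (t : ZMod p) = (e σ' : ZMod p) := by
      rw [(hζK.isOfFinOrder (NeZero.ne p)).pow_eq_pow_iff_modEq, ← hζK.eq_orderOf] at h2
      rw [← ZMod.natCast_zmod_val (e σ' : ZMod p)]
      exact (ZMod.natCast_eq_natCast_iff _ _ _).mpr h2
    have h4 := hf (e σ') (Additive.ofMul c)
    rw [hs, MulEquiv.symm_apply_apply, ← h3, toMul_ofMul] at h4
    rw [hχ, hχ, h4, ← ofAdd_nsmul, nsmul_eq_mul]
    push_cast
    rfl
  -- the complex character
  let ψ : Multiplicative (ZMod p) →* ℂˣ := MonoidHom.toHomUnits (ZMod.stdAddChar (N := p)).toMonoidHom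
  have hψ : Function.Injective ψ := by
    intro x y hxy
    have := congrArg Units.val hxy
    exact ZMod.injective_stdAddChar this
  have hψχ : ψ.comp χ ≠ 1 := by
    intro h
    apply hχ1
    ext1 x
    apply hψ
    have := DFunLike.congr_fun h x
    rw [MonoidHom.comp_apply] at this
    rw [this, MonoidHom.one_apply, MonoidHom.one_apply, map_one]
  have hεu := epsO_isUnit (by omega) hζ (cexp p)
  obtain ⟨𝔮, h𝔮1, h𝔮2, h𝔮3, -, h𝔮5, h𝔮6⟩ := hD K p hp.out (by omega) ζ hζK (epsO p ζ (cexp p)) hεu.ne_zero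
    (eps_not_pow hp5 hζ) (ψ.comp χ) hψχ
  apply h𝔮6
  refine thaine hp5 K hζ χ hχσ 𝔮 h𝔮1 h𝔮2 h𝔮3 ?_ (cexp p) (cexp_spec)
  intro h
  apply h𝔮5
  rw [MonoidHom.comp_apply, h, map_one]

/-- units of `ℚ(ζ₃)` -/
theorem unit_is_cube [IsCyclotomicExtension {3} ℚ K] {ζ : 𝓞 K} (hζ : IsPrimitiveRoot ζ 3) (u : (𝓞 K)ˣ)
    (c d : 𝓞 K) (hc : ¬ (ζ - 1) ∣ c) (hd : ¬ (ζ - 1) ∣ d)
    (h : (ζ - 1) ^ 3 ∣ (u : 𝓞 K) * c ^ 3 - d ^ 3) : ∃ w : (𝓞 K)ˣ, u = w ^ 3 := by
  have hζK : IsPrimitiveRoot (ζ : K) 3 := hζ.map_of_injective RingOfIntegers.coe_injective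
  have h1 : u = 1 ∨ u = -1 := by
    apply IsCyclotomicExtension.Rat.Three.eq_one_or_neg_one_of_unit_of_congruent hζK
    have key : ∀ x : 𝓞 K, ¬ (ζ - 1) ∣ x → ∃ s : ℤ, s * s = 1 ∧ (ζ - 1) ^ 3 ∣ x ^ 3 - s := by
      intro x hx
      rcases IsCyclotomicExtension.Rat.Three.lambda_pow_four_dvd_cube_sub_one_or_add_one_of_lambda_not_dvd hζK hx with h | h
      · refine ⟨1, by norm_num, ?_⟩
        rw [Int.cast_one]
        exact (pow_dvd_pow _ (by norm_num)).trans h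
      · refine ⟨-1, by norm_num, ?_⟩
        rw [Int.cast_neg, Int.cast_one, sub_neg_eq_add]
        exact (pow_dvd_pow _ (by norm_num)).trans h
    obtain ⟨s, hs, hs2⟩ := key c hc
    obtain ⟨r, hr, hr2⟩ := key d hd
    refine ⟨s * r, ?_⟩
    have hsK : (s : 𝓞 K) * s = 1 := by exact_mod_cast congrArg (Int.cast : ℤ → 𝓞 K) hs
    have h2 : (ζ - 1) ^ 3 ∣ (u : 𝓞 K) - ((s * r : ℤ) : 𝓞 K) := by
      obtain ⟨x, hx⟩ := h
      obtain ⟨y, hy⟩ := hs2
      obtain ⟨w, hw⟩ := hr2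
      refine ⟨s * (x + w - u * y), ?_⟩
      push_cast
      linear_combination (s : 𝓞 K) * hx + (s : 𝓞 K) * hw - (s : 𝓞 K) * u * hy - (u : 𝓞 K) * hsK
    exact (pow_dvd_pow _ (by norm_num)).trans h2
  rcases h1 with h1 | h1
  · exact ⟨1, by rw [h1, one_pow]⟩
  · exact ⟨-1, by rw [h1]; rw [Odd.neg_one_pow (by decide)]⟩

theorem no_kummer_element (hD : DensityStatement) (hp3 : 3 ≤ p) {ζ : 𝓞 K} (hζ : IsPrimitiveRoot ζ p)
    (α : K) (hα0 : α ≠ 0) (hα : ∀ x : K, x ^ p ≠ α)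
    (h1 : ∀ (σ : K ≃ₐ[ℚ] K) (t : ℕ), σ (ζ : K) = (ζ : K) ^ t → ∃ y : K, σ α = α ^ (t ^ 2) * y ^ p)
    (h2 : ∀ v : HeightOneSpectrum (𝓞 K), ∃ k : K, k ≠ 0 ∧ v.valuation K (α / k ^ p) = 1)
    (h3 : ∃ (y : K) (α₁ d : 𝓞 K), y ≠ 0 ∧ (α₁ : K) = α * y ^ p ∧ ¬ (ζ - 1) ∣ d ∧ ¬ (ζ - 1) ∣ α₁ ∧
        (ζ - 1) ^ 3 ∣ α₁ - d ^ p) : False := by
  obtain ⟨y, α₁, d, hy0, hα₁, hd, hα₁v, hcong⟩ := h3
  have hα₁0 : α₁ ≠ 0 := by
    rintro rfl
    apply hα₁v
    exact dvd_zero _
  -- the ideal root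
  obtain ⟨I, hI⟩ := exists_ideal_pow p α₁ hα₁0 (by
    intro v
    obtain ⟨k, hk0, hk⟩ := h2 v
    refine ⟨v.valuation K (k * y), ?_⟩
    have h5 : v.intValuation α₁ = v.valuation K (algebraMap (𝓞 K) K α₁) :=
      (HeightOneSpectrum.valuation_of_algebraMap v α₁).symm
    have h4 : algebraMap (𝓞 K) K α₁ = (α / k ^ p) * (k * y) ^ p := by
      have : algebraMap (𝓞 K) K α₁ = α * y ^ p := hα₁
      rw [this, mul_pow]
      field_simp
    rw [h5, h4, map_mul, hk, one_mul, map_pow])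
  have hI0 : I ≠ 0 := by
    rintro rfl
    rw [zero_pow hp.out.ne_zero, eq_comm, Ideal.zero_eq_bot, Ideal.span_singleton_eq_bot] at hI
    exact hα₁0 hI
  let I' : (Ideal (𝓞 K))⁰ := ⟨I, mem_nonZeroDivisors_iff_ne_zero.mpr hI0⟩
  -- Galois action on `α₁`
  have h1' : ∀ (σ : K ≃ₐ[ℚ] K) (t : ℕ), σ (ζ : K) = (ζ : K) ^ t →
      ∃ y : K, σ (α₁ : K) = (α₁ : K) ^ (t ^ 2) * y ^ p := by
    intro σ t hσ
    obtain ⟨x, hx⟩ := h1 σ t hσ
    refine ⟨x * σ y / y ^ (t ^ 2), ?_⟩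
    rw [hα₁, map_mul, map_pow, hx, div_pow, mul_pow, mul_pow]
    have : (y ^ p) ^ (t ^ 2) = (y ^ t ^ 2) ^ p := by rw [← pow_mul, ← pow_mul, mul_comm]
    rw [this]
    field_simp
  -- the ideal is principal
  have hprin : I.IsPrincipal := by
    by_cases hp5 : 5 ≤ p
    · have hc : ClassGroup.mk0 I' = 1 := by
        refine class_eq_one hD hp5 hζ _ ?_ ?_
        · rw [← map_pow, ClassGroup.mk0_eq_one_iff]
          exact ⟨α₁, hI⟩
        · intro σ t hσ
          obtain ⟨x, hx⟩ := h1' σ t hσ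
          exact class_eigen hp.out.ne_zero α₁ hα₁0 I' hI σ (t ^ 2) x hx
      exact (ClassGroup.mk0_eq_one_iff I'.2).mp hc
    · have hp3' : p = 3 := by
        have := hp.out
        interval_cases p
        · rfl
        · exact absurd this (by norm_num)
      subst hp3'
      have := IsCyclotomicExtension.Rat.three_pid K
      exact IsPrincipalIdealRing.principal I
  obtain ⟨a, ha⟩ := hprin
  have hIa : I = Ideal.span {a} := ha
  rw [hIa, Ideal.span_singleton_pow, Ideal.span_singleton_eq_span_singleton] at hI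
  obtain ⟨u, hu⟩ := hI
  -- `a ^ p * u = α₁`
  have hu' : (u : 𝓞 K) * a ^ p = α₁ := by rw [mul_comm]; exact hu
  have hav : ¬ (ζ - 1) ∣ a := by
    intro h
    apply hα₁v
    rw [← hu']
    exact Dvd.dvd.mul_left (h.trans (dvd_pow_self _ hp.out.ne_zero)) _
  have ha0 : (a : K) ≠ 0 := by
    intro h
    apply hav
    rw [RingOfIntegers.coe_eq_zero_iff.mp h]
    exact dvd_zero _
  have huK : (u : K) * (a : K) ^ p = α₁ := by
    have := congrArg (algebraMap (𝓞 K) K) hu'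
    rw [map_mul, map_pow] at this
    exact this
  obtain ⟨w, hw⟩ : ∃ w : (𝓞 K)ˣ, u = w ^ p := by
    by_cases hp5 : 5 ≤ p
    · refine unit_is_pow hp5 hζ u ?_ a d hav hd (by rw [hu']; exact hcong)
      intro σ g hσ
      obtain ⟨x, hx⟩ := h1' σ _ hσ
      set T := (g : ZMod p).val ^ 2 with hT
      refine ⟨x * (a : K) ^ T / σ (a : K), ?_⟩
      have hσa : σ (a : K) ≠ 0 := by rw [Ne, map_eq_zero]; exact ha0
      rw [← huK, map_mul, map_pow, mul_pow] at hx
      have h5 : ((a : K) ^ p) ^ T = ((a : K) ^ T) ^ p := by rw [← pow_mul, ← pow_mul, mul_comm]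
      rw [h5] at hx
      rw [div_pow, mul_pow]
      field_simp
      linear_combination hx
    · have hp3' : p = 3 := by
        have := hp.out
        interval_cases p
        · rfl
        · exact absurd this (by norm_num)
      subst hp3'
      exact unit_is_cube hζ u a d hav hd (by rw [hu']; exact hcong)
  apply hα ((w : K) * (a : K) / y)
  rw [div_pow, mul_pow, ← NumberField.Units.coe_pow, ← hw, huK, hα₁]
  field_simp

end

lemma isCyclotomicExtension_rat (p : ℕ) [NeZero p] (inst : Algebra ℚ (CyclotomicField p ℚ)) :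
    @IsCyclotomicExtension {p} ℚ (CyclotomicField p ℚ) _ _ inst := by
  have h : inst = CyclotomicField.algebra p ℚ := Subsingleton.elim _ _
  subst h
  infer_instance

theorem extVanishingCts (hD : DensityStatement) {p : ℕ} [Fact p.Prime] (h3 : 3 ≤ p) :
    ExtCitation.ExtVanishingCts p := by
  intro V _ _ _ _ C hC
  by_contra hns
  have : NeZero p := ⟨(Fact.out : p.Prime).ne_zero⟩
  obtain ⟨D⟩ := exists_cocycleData h3 C hC hns
  have hcyc : IsCyclotomicExtension {p} ℚ (CyclotomicField p ℚ) := isCyclotomicExtension_rat p _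
  have hNF : NumberField (CyclotomicField p ℚ) := IsCyclotomicExtension.numberField {p} ℚ _
  have hζ := (IsCyclotomicExtension.zeta_spec p ℚ (CyclotomicField p ℚ)).toInteger_isPrimitiveRoot
  obtain ⟨α, hα0, hα, h1, h2, h3'⟩ := D.exists_kummer_element (K := CyclotomicField p ℚ) hζ
  exact no_kummer_element hD h3 hζ α hα0 hα h1 h2 h3'

end Fermat.Agent.ExtVan
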