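import Mathlib

/-!
A Lipschitz partition of unity for the action of the units of a number field on the
logarithmic space.
-/

set_option autoImplicit false

open NumberField NumberField.InfinitePlace NumberField.Units

namespace Fermat.Agent.ExtVanD

noncomputable section

variable {K : Type*} [Field K] [NumberField K]

/-- maximum coordinate -/
def MM (y : InfinitePlace K → ℝ) : ℝ := Finset.univ.sup' Finset.univ_nonempty y

/-- weighted average -/
def AA (y : InfinitePlace K → ℝ) : ℝ :=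
  (∑ w, (mult w : ℝ) * y w) / (Module.finrank ℚ K : ℝ)

lemma finrank_posR : (0 : ℝ) < (Module.finrank ℚ K : ℝ) := by
  exact_mod_cast Module.finrank_pos

lemma sum_mult_real : ∑ w : InfinitePlace K, (mult w : ℝ) = (Module.finrank ℚ K : ℝ) := by
  exact_mod_cast InfinitePlace.sum_mult_eq (K := K)

lemma le_MM (y : InfinitePlace K → ℝ) (w : InfinitePlace K) : y w ≤ MM y :=
  Finset.le_sup' y (Finset.mem_univ w)

lemma MM_le {y : InfinitePlace K → ℝ} {B : ℝ} (h : ∀ w, y w ≤ B) : MM y ≤ B :=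
  Finset.sup'_le _ _ fun w _ => h w

lemma MM_lip {y z : InfinitePlace K → ℝ} {δ : ℝ} (h : ∀ w, |y w - z w| ≤ δ) :
    |MM y - MM z| ≤ δ := by
  rw [abs_le]
  constructor
  · have : MM z ≤ MM y + δ := MM_le fun w => by
      have h1 := (abs_le.mp (h w)).1
      have h2 := le_MM y w
      linarith
    linarith
  · have : MM y ≤ MM z + δ := MM_le fun w => by
      have h1 := (abs_le.mp (h w)).2
      have h2 := le_MM z w
      linarith
    linarith

lemma AA_lip {y z : InfinitePlace K → ℝ} {δ : ℝ} (h : ∀ w, |y w - z w| ≤ δ) :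
    |AA y - AA z| ≤ δ := by
  unfold AA
  rw [← sub_div, ← Finset.sum_sub_distrib, abs_div, abs_of_pos finrank_posR,
    div_le_iff₀ finrank_posR]
  calc |∑ w, ((mult w : ℝ) * y w - (mult w : ℝ) * z w)|
      ≤ ∑ w, |(mult w : ℝ) * y w - (mult w : ℝ) * z w| := Finset.abs_sum_le_sum_abs _ _
    _ ≤ ∑ w : InfinitePlace K, (mult w : ℝ) * δ := by
        refine Finset.sum_le_sum fun w _ => ?_
        rw [← mul_sub, abs_mul, abs_of_nonneg (by positivity : (0 : ℝ) ≤ (mult w : ℝ))]
        exact mul_le_mul_of_nonneg_left (h w) (by positivity)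
    _ = δ * (Module.finrank ℚ K : ℝ) := by rw [← Finset.sum_mul, sum_mult_real, mul_comm]

/-- the bump function -/
def psi (T : ℝ) (y : InfinitePlace K → ℝ) : ℝ := max 0 (T - (MM y - AA y))

lemma psi_nonneg (T : ℝ) (y : InfinitePlace K → ℝ) : 0 ≤ psi T y := le_max_left _ _

lemma psi_lip (T : ℝ) {y z : InfinitePlace K → ℝ} {δ : ℝ} (h : ∀ w, |y w - z w| ≤ δ) :
    |psi T y - psi T z| ≤ 2 * δ := by
  have h1 := MM_lip h
  have h2 := AA_lip h
  unfold psi
  have h3 := abs_max_sub_max_le_max (0 : ℝ) (T - (MM y - AA y)) 0 (T - (MM z - AA z))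
  refine h3.trans (max_le ?_ ?_)
  · rw [sub_zero, abs_zero]
    have := (abs_nonneg _).trans h1
    linarith
  · rw [abs_le] at h1 h2 ⊢
    constructor <;> linarith [h1.1, h1.2, h2.1, h2.2]

/-- log vector of a field element -/
def lv (a : K) : InfinitePlace K → ℝ := fun w => Real.log (w a)

lemma lv_mul {a b : K} (ha : a ≠ 0) (hb : b ≠ 0) : lv (a * b) = lv a + lv b := by
  funext w
  simp only [lv, Pi.add_apply, map_mul]
  exact Real.log_mul (by simpa using ha) (by simpa using hb)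

lemma AA_add (y z : InfinitePlace K → ℝ) : AA (y + z) = AA y + AA z := by
  unfold AA
  rw [← add_div, ← Finset.sum_add_distrib]
  simp only [Pi.add_apply, mul_add]

lemma AA_unit (ε : (𝓞 K)ˣ) : AA (lv (ε : K)) = 0 := by
  unfold AA lv
  rw [sum_mult_mul_log, zero_div]

lemma AA_lv {a : K} (ha : a ≠ 0) :
    AA (lv a) = Real.log |(Algebra.norm ℚ a : ℝ)| / Module.finrank ℚ K := by
  unfold AA lv
  congr 1
  have h := InfinitePlace.prod_eq_abs_norm a
  have h2 : Real.log (∏ w : InfinitePlace K, w a ^ mult w) = ∑ w, (mult w : ℝ) * Real.log (w a) := by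
    rw [Real.log_prod]
    · refine Finset.sum_congr rfl fun w _ => ?_
      rw [Real.log_pow]
    · intro w _
      exact pow_ne_zero _ (by simpa using ha)
  rw [← h2, h]
  push_cast
  rfl

lemma AA_add_unit (y : InfinitePlace K → ℝ) (ε : (𝓞 K)ˣ) : AA (y + lv (ε : K)) = AA y := by
  rw [AA_add, AA_unit, add_zero]

lemma AA_sub_const (y : InfinitePlace K → ℝ) (t : ℝ) : AA (fun w => y w - t) = AA y - t := by
  unfold AA
  simp only [mul_sub, Finset.sum_sub_distrib, ← Finset.sum_mul, sum_mult_real, sub_div]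
  rw [mul_div_cancel_left₀ _ finrank_posR.ne']

lemma one_le_mult (w : InfinitePlace K) : (1 : ℝ) ≤ mult w := by
  exact_mod_cast Nat.one_le_iff_ne_zero.mpr (mult_pos (w := w)).ne'

/-- if all coordinates are bounded above relative to the average, they are bounded below -/
lemma lower_of_upper {y : InfinitePlace K → ℝ} {T : ℝ} (hT : 0 ≤ T) (h : MM y - AA y ≤ T)
    (w : InfinitePlace K) : AA y - Module.finrank ℚ K * T ≤ y w := by
  classical
  have hy : ∀ v, y v - AA y ≤ T := fun v => by linarith [le_MM y v]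
  have hsum : ∑ v, (mult v : ℝ) * (y v - AA y) = 0 := by
    have h1 : AA (fun v => y v - AA y) = 0 := by rw [AA_sub_const, sub_self]
    unfold AA at h1
    rw [div_eq_zero_iff] at h1
    exact h1.resolve_right finrank_posR.ne'
  rw [← Finset.add_sum_erase _ _ (Finset.mem_univ w)] at hsum
  have h2 : ∑ v ∈ Finset.univ.erase w, (mult v : ℝ) * (y v - AA y) ≤
      Module.finrank ℚ K * T := by
    calc ∑ v ∈ Finset.univ.erase w, (mult v : ℝ) * (y v - AA y)
        ≤ ∑ v ∈ Finset.univ.erase w, (mult v : ℝ) * T :=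
          Finset.sum_le_sum fun v _ => mul_le_mul_of_nonneg_left (hy v) (by positivity)
      _ ≤ ∑ v : InfinitePlace K, (mult v : ℝ) * T :=
          Finset.sum_le_sum_of_subset_of_nonneg (Finset.erase_subset _ _)
            fun v _ _ => by positivity
      _ = Module.finrank ℚ K * T := by rw [← Finset.sum_mul, sum_mult_real]
  have h3 : -(Module.finrank ℚ K * T) ≤ (mult w : ℝ) * (y w - AA y) := by linarith
  rcases le_or_gt 0 (y w - AA y) with h4 | h4
  · have : 0 ≤ (Module.finrank ℚ K : ℝ) * T := by positivity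
    linarith
  · have h5 : (mult w : ℝ) * (y w - AA y) ≤ 1 * (y w - AA y) :=
      mul_le_mul_of_nonpos_right (one_le_mult w) h4.le
    linarith

/-- the units of bounded size -/
def unitsLe (B : ℝ) : Set (𝓞 K)ˣ := {ε | ∀ w : InfinitePlace K, lv (ε : K) w ≤ B}

lemma unitsLe_finite (B : ℝ) : (unitsLe (K := K) B).Finite := by
  refine Set.Finite.of_finite_image (f := fun ε : (𝓞 K)ˣ => (ε : K)) ?_
    (Units.coe_injective K).injOn
  refine (Embeddings.finite_of_norm_le K ℂ (Real.exp B)).subset ?_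
  rintro _ ⟨ε, hε, rfl⟩
  refine ⟨(ε : 𝓞 K).isIntegral_coe, ?_⟩
  refine (InfinitePlace.le_iff_le (ε : K) (Real.exp B)).mp fun w => ?_
  have h1 := hε w
  unfold lv at h1
  rwa [Real.log_le_iff_le_exp (Units.pos_at_place ε w)] at h1

/-- translates of `y` by units in the support of the bump function -/
def nearSet (T : ℝ) (y : InfinitePlace K → ℝ) : Set (𝓞 K)ˣ :=
  {ε | MM (y + lv (ε : K)) - AA (y + lv (ε : K)) ≤ T}

lemma lv_unit_mul (ε η : (𝓞 K)ˣ) : lv ((ε * η : (𝓞 K)ˣ) : K) = lv (ε : K) + lv (η : K) := by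
  have h : ((ε * η : (𝓞 K)ˣ) : K) = (ε : K) * (η : K) := by simp
  rw [h, lv_mul (Units.coe_ne_zero ε) (Units.coe_ne_zero η)]

lemma lv_unit_inv (ε : (𝓞 K)ˣ) : lv ((ε⁻¹ : (𝓞 K)ˣ) : K) = - lv (ε : K) := by
  have h := lv_unit_mul ε ε⁻¹
  rw [mul_inv_cancel] at h
  have h2 : lv (((1 : (𝓞 K)ˣ) : 𝓞 K) : K) = (0 : InfinitePlace K → ℝ) := by
    funext w; simp [lv]
  rw [h2] at h
  exact (neg_eq_of_add_eq_zero_right h.symm).symm

lemma nearSet_subset {T : ℝ} (hT : 0 ≤ T) {y : InfinitePlace K → ℝ} {ε₀ : (𝓞 K)ˣ}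
    (h₀ : ε₀ ∈ nearSet T y) :
    (fun ε => ε * ε₀⁻¹) '' nearSet T y ⊆ unitsLe (T + Module.finrank ℚ K * T) := by
  rintro _ ⟨ε, hε, rfl⟩ w
  have h1 : (y + lv (ε : K)) w ≤ AA y + T := by
    have := le_MM (y + lv (ε : K)) w
    have h2 : MM (y + lv (ε : K)) - AA (y + lv (ε : K)) ≤ T := hε
    rw [AA_add_unit] at h2
    linarith
  have h2 := lower_of_upper hT h₀ w
  rw [AA_add_unit] at h2
  rw [lv_unit_mul, lv_unit_inv]
  simp only [Pi.add_apply, Pi.neg_apply] at h1 h2 ⊢
  linarith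

lemma nearSet_finite {T : ℝ} (hT : 0 ≤ T) (y : InfinitePlace K → ℝ) : (nearSet T y).Finite := by
  rcases (nearSet T y).eq_empty_or_nonempty with h | ⟨ε₀, h₀⟩
  · rw [h]; exact Set.finite_empty
  · refine Set.Finite.of_finite_image (f := fun ε => ε * ε₀⁻¹)
      ((unitsLe_finite _).subset (nearSet_subset hT h₀)) ?_
    exact (mul_left_injective ε₀⁻¹).injOn

/-- bound for the number of translates -/
def cardBound (K : Type*) [Field K] [NumberField K] (T : ℝ) : ℕ :=
  (unitsLe (K := K) (T + Module.finrank ℚ K * T)).ncard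

lemma nearSet_ncard_le {T : ℝ} (hT : 0 ≤ T) (y : InfinitePlace K → ℝ) :
    (nearSet T y).ncard ≤ cardBound K T := by
  rcases (nearSet T y).eq_empty_or_nonempty with h | ⟨ε₀, h₀⟩
  · rw [h]; simp
  · rw [← Set.ncard_image_of_injective (nearSet T y) (mul_left_injective ε₀⁻¹)]
    exact Set.ncard_le_ncard (nearSet_subset hT h₀) (unitsLe_finite _)

lemma psi_eq_zero {T : ℝ} {y : InfinitePlace K → ℝ} {ε : (𝓞 K)ˣ} (h : ε ∉ nearSet T y) :
    psi T (y + lv (ε : K)) = 0 := by
  unfold psi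
  have h' : ¬ (MM (y + lv (ε : K)) - AA (y + lv (ε : K)) ≤ T) := h
  rw [max_eq_left]
  linarith

open dirichletUnitTheorem in
/-- covering property from Dirichlet's unit theorem -/
lemma exists_cover (K : Type*) [Field K] [NumberField K] : ∃ T : ℝ, 1 ≤ T ∧
    ∀ y : InfinitePlace K → ℝ, ∃ ε : (𝓞 K)ˣ,
      MM (y + lv (ε : K)) - AA (y + lv (ε : K)) ≤ T - 1 := by
  classical
  let b := (Module.Free.chooseBasis ℤ (unitLattice K)).ofZLatticeBasis ℝ (unitLattice K)
  set R : ℝ := ∑ i, ‖b i‖ with hR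
  have hR0 : 0 ≤ R := Finset.sum_nonneg fun _ _ => norm_nonneg _
  refine ⟨Fintype.card (InfinitePlace K) * R + 1, ?_, fun y => ?_⟩
  · have : 0 ≤ (Fintype.card (InfinitePlace K) : ℝ) * R := by positivity
    linarith
  let v : logSpace K := fun w => (mult w.1 : ℝ) * (y w.1 - AA y)
  have hfl : ((ZSpan.floor b v : Submodule.span ℤ (Set.range b)) : logSpace K) ∈ unitLattice K := by
    have h1 := (ZSpan.floor b v).2
    have h2 : Submodule.span ℤ (Set.range b) = unitLattice K :=
      Module.Basis.ofZLatticeBasis_span ℝ (unitLattice K) _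
    exact h2.le h1
  obtain ⟨η, -, hη⟩ := hfl
  have hfr : ‖v - ((ZSpan.floor b v : Submodule.span ℤ (Set.range b)) : logSpace K)‖ ≤ R := by
    rw [← ZSpan.fract_apply]
    exact ZSpan.norm_fract_le b v
  rw [← hη] at hfr
  let ε : (𝓞 K)ˣ := (Additive.toMul η)⁻¹
  refine ⟨ε, ?_⟩
  rw [AA_add_unit, add_sub_cancel_right]
  have hlv : lv (ε : K) = - lv ((Additive.toMul η : (𝓞 K)ˣ) : K) := lv_unit_inv _
  have hcoord : ∀ w : InfinitePlace K, w ≠ w₀ →
      |(mult w : ℝ) * ((y + lv (ε : K)) w - AA y)| ≤ R := by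
    intro w hw
    have h1 := (norm_le_pi_norm (v - (logEmbedding K).toIntLinearMap η) ⟨w, hw⟩).trans hfr
    rw [Real.norm_eq_abs] at h1
    have h2 : (v - (logEmbedding K).toIntLinearMap η) ⟨w, hw⟩ =
        (mult w : ℝ) * ((y + lv (ε : K)) w - AA y) := by
      rw [hlv]
      simp only [Pi.sub_apply, Pi.add_apply, Pi.neg_apply, v, lv]
      have h3 : ((logEmbedding K).toIntLinearMap η) ⟨w, hw⟩ =
        (mult w : ℝ) * Real.log (w ((Additive.toMul η : (𝓞 K)ˣ) : K)) := rfl
      rw [h3]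
      ring
    rwa [h2] at h1
  have hsum : ∑ w, (mult w : ℝ) * ((y + lv (ε : K)) w - AA y) = 0 := by
    have h1 : AA (fun w => (y + lv (ε : K)) w - AA y) = 0 := by
      rw [AA_sub_const, AA_add_unit, sub_self]
    unfold AA at h1
    rw [div_eq_zero_iff] at h1
    exact h1.resolve_right finrank_posR.ne'
  have hcard : (1 : ℝ) ≤ Fintype.card (InfinitePlace K) := by
    exact_mod_cast Fintype.card_pos
  have hall : ∀ w : InfinitePlace K,
      |(mult w : ℝ) * ((y + lv (ε : K)) w - AA y)| ≤ Fintype.card (InfinitePlace K) * R := by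
    intro w
    by_cases hw : w = w₀
    · rw [← Finset.add_sum_erase _ _ (Finset.mem_univ w)] at hsum
      have h1 : (mult w : ℝ) * ((y + lv (ε : K)) w - AA y) =
        - ∑ w' ∈ Finset.univ.erase w, (mult w' : ℝ) * ((y + lv (ε : K)) w' - AA y) := by linarith
      rw [h1, abs_neg]
      refine (Finset.abs_sum_le_sum_abs _ _).trans ?_
      calc ∑ w' ∈ Finset.univ.erase w, |(mult w' : ℝ) * ((y + lv (ε : K)) w' - AA y)|
          ≤ ∑ w' ∈ Finset.univ.erase w, R := Finset.sum_le_sum fun w' hw' =>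
            hcoord w' (by rw [← hw]; exact Finset.ne_of_mem_erase hw')
        _ ≤ ∑ w' : InfinitePlace K, R :=
            Finset.sum_le_sum_of_subset_of_nonneg (Finset.erase_subset _ _) fun _ _ _ => hR0
        _ = Fintype.card (InfinitePlace K) * R := by simp
    · refine (hcoord w hw).trans ?_
      nlinarith
  have hfin : MM (y + lv (ε : K)) ≤ AA y + Fintype.card (InfinitePlace K) * R := by
    refine MM_le fun w => ?_
    have h1 := hall w
    rw [abs_mul, abs_of_nonneg (by positivity : (0 : ℝ) ≤ (mult w : ℝ))] at h1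
    have h2 : |(y + lv (ε : K)) w - AA y| ≤ (mult w : ℝ) * |(y + lv (ε : K)) w - AA y| :=
      le_mul_of_one_le_left (abs_nonneg _) (one_le_mult w)
    have h3 := le_abs_self ((y + lv (ε : K)) w - AA y)
    linarith
  linarith

/-- the cutoff -/
def TT (K : Type*) [Field K] [NumberField K] : ℝ := (exists_cover K).choose

lemma one_le_TT : 1 ≤ TT K := (exists_cover K).choose_spec.1

lemma exists_near (y : InfinitePlace K → ℝ) : ∃ ε : (𝓞 K)ˣ,
    MM (y + lv (ε : K)) - AA (y + lv (ε : K)) ≤ TT K - 1 := (exists_cover K).choose_spec.2 y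

/-- the periodisation of the bump function -/
def Psi (y : InfinitePlace K → ℝ) : ℝ := ∑' ε : (𝓞 K)ˣ, psi (TT K) (y + lv (ε : K))

lemma TT_nonneg : 0 ≤ TT K := zero_le_one.trans one_le_TT

lemma summable_psi (y : InfinitePlace K → ℝ) :
    Summable fun ε : (𝓞 K)ˣ => psi (TT K) (y + lv (ε : K)) :=
  summable_of_hasFiniteSupport <| (nearSet_finite TT_nonneg y).subset fun ε hε => by
    by_contra h
    exact hε (psi_eq_zero h)

lemma one_le_Psi (y : InfinitePlace K → ℝ) : 1 ≤ Psi y := by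
  obtain ⟨ε, hε⟩ := exists_near y
  have h1 : 1 ≤ psi (TT K) (y + lv (ε : K)) := by
    unfold psi
    refine le_max_of_le_right ?_
    linarith
  exact h1.trans ((summable_psi y).le_tsum ε fun _ _ => psi_nonneg _ _)

lemma Psi_pos (y : InfinitePlace K → ℝ) : 0 < Psi y := one_pos.trans_le (one_le_Psi y)

lemma Psi_add_unit (y : InfinitePlace K → ℝ) (ε : (𝓞 K)ˣ) : Psi (y + lv (ε : K)) = Psi y := by
  unfold Psi
  rw [← (Equiv.mulLeft ε).tsum_eq (fun η : (𝓞 K)ˣ => psi (TT K) (y + lv (η : K)))]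
  refine tsum_congr fun η => ?_
  rw [Equiv.coe_mulLeft, lv_unit_mul, add_assoc]

lemma Psi_lip {y z : InfinitePlace K → ℝ} {δ : ℝ} (h : ∀ w, |y w - z w| ≤ δ) :
    |Psi y - Psi z| ≤ 4 * cardBound K (TT K) * δ := by
  classical
  set A := (nearSet_finite (TT_nonneg (K := K)) y).toFinset with hA
  set B := (nearSet_finite (TT_nonneg (K := K)) z).toFinset with hB
  have h1 : Psi y = ∑ ε ∈ A ∪ B, psi (TT K) (y + lv (ε : K)) := by
    refine tsum_eq_sum fun ε hε => psi_eq_zero ?_
    intro h2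
    exact hε (Finset.mem_union_left _ (by rwa [hA, Set.Finite.mem_toFinset]))
  have h2 : Psi z = ∑ ε ∈ A ∪ B, psi (TT K) (z + lv (ε : K)) := by
    refine tsum_eq_sum fun ε hε => psi_eq_zero ?_
    intro h2
    exact hε (Finset.mem_union_right _ (by rwa [hB, Set.Finite.mem_toFinset]))
  have hcard : ((A ∪ B).card : ℝ) ≤ 2 * cardBound K (TT K) := by
    have hAc : A.card ≤ cardBound K (TT K) := by
      rw [hA, ← Set.ncard_eq_toFinset_card _ _]
      exact nearSet_ncard_le TT_nonneg y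
    have hBc : B.card ≤ cardBound K (TT K) := by
      rw [hB, ← Set.ncard_eq_toFinset_card _ _]
      exact nearSet_ncard_le TT_nonneg z
    have := Finset.card_union_le A B
    have h3 : (A ∪ B).card ≤ 2 * cardBound K (TT K) := by omega
    exact_mod_cast h3
  have hδ : 0 ≤ δ := (abs_nonneg _).trans (h (Classical.arbitrary _))
  rw [h1, h2, ← Finset.sum_sub_distrib]
  calc |∑ ε ∈ A ∪ B, (psi (TT K) (y + lv (ε : K)) - psi (TT K) (z + lv (ε : K)))|
      ≤ ∑ ε ∈ A ∪ B, |psi (TT K) (y + lv (ε : K)) - psi (TT K) (z + lv (ε : K))| :=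
        Finset.abs_sum_le_sum_abs _ _
    _ ≤ ∑ ε ∈ A ∪ B, 2 * δ := by
        refine Finset.sum_le_sum fun ε _ => psi_lip _ fun w => ?_
        simp only [Pi.add_apply, add_sub_add_right_eq_sub]
        exact h w
    _ = (A ∪ B).card * (2 * δ) := by rw [Finset.sum_const, nsmul_eq_mul]
    _ ≤ (2 * cardBound K (TT K)) * (2 * δ) := mul_le_mul_of_nonneg_right hcard (by positivity)
    _ = 4 * cardBound K (TT K) * δ := by ring

/-- the partition of unity -/
def phi (y : InfinitePlace K → ℝ) : ℝ := psi (TT K) y / Psi y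

lemma phi_nonneg (y : InfinitePlace K → ℝ) : 0 ≤ phi y := div_nonneg (psi_nonneg _ _) (Psi_pos y).le

lemma psi_le_Psi (y : InfinitePlace K → ℝ) : psi (TT K) y ≤ Psi y := by
  have h := (summable_psi y).le_tsum 1 fun _ _ => psi_nonneg _ _
  have h2 : y + lv (((1 : (𝓞 K)ˣ) : 𝓞 K) : K) = y := by
    funext w; simp [lv]
  rw [h2] at h
  exact h

lemma phi_le_one (y : InfinitePlace K → ℝ) : phi y ≤ 1 :=
  div_le_one_of_le₀ (psi_le_Psi y) (Psi_pos y).le

lemma hasSum_phi (y : InfinitePlace K → ℝ) :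
    HasSum (fun ε : (𝓞 K)ˣ => phi (y + lv (ε : K))) 1 := by
  have h := (summable_psi y).hasSum.div_const (Psi y)
  have h2 : (∑' ε : (𝓞 K)ˣ, psi (TT K) (y + lv (ε : K))) / Psi y = 1 := div_self (Psi_pos y).ne'
  rw [h2] at h
  have h3 : (fun ε : (𝓞 K)ˣ => phi (y + lv (ε : K))) =
      fun ε : (𝓞 K)ˣ => psi (TT K) (y + lv (ε : K)) / Psi y := by
    funext ε
    unfold phi
    rw [Psi_add_unit]
  rw [h3]
  exact h

/-- Lipschitz constant -/
def lipC (K : Type*) [Field K] [NumberField K] : ℝ := 2 + 4 * cardBound K (TT K)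

lemma lipC_nonneg : 0 ≤ lipC K := by unfold lipC; positivity

lemma phi_lip {y z : InfinitePlace K → ℝ} {δ : ℝ} (h : ∀ w, |y w - z w| ≤ δ) :
    |phi y - phi z| ≤ lipC K * δ := by
  have hy := Psi_pos y
  have hz := Psi_pos z
  have h1 : phi y - phi z = (psi (TT K) y - psi (TT K) z) / Psi y +
      phi z * ((Psi z - Psi y) / Psi y) := by
    unfold phi
    field_simp
    ring
  rw [h1]
  have h2 := psi_lip (TT K) h
  have h3 := Psi_lip h
  have h4 : |(psi (TT K) y - psi (TT K) z) / Psi y| ≤ 2 * δ := by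
    rw [abs_div, abs_of_pos hy]
    exact (div_le_self (abs_nonneg _) (one_le_Psi y)).trans h2
  have h5 : |phi z * ((Psi z - Psi y) / Psi y)| ≤ 4 * cardBound K (TT K) * δ := by
    rw [abs_mul, abs_of_nonneg (phi_nonneg z), abs_div, abs_of_pos hy, abs_sub_comm]
    refine (mul_le_of_le_one_left (by positivity) (phi_le_one z)).trans ?_
    exact (div_le_self (abs_nonneg _) (one_le_Psi y)).trans h3
  refine (abs_add_le _ _).trans ?_
  unfold lipC
  rw [add_mul]
  linarith

lemma near_of_phi_ne_zero {y : InfinitePlace K → ℝ} (h : phi y ≠ 0) : MM y - AA y ≤ TT K := by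
  by_contra h2
  apply h
  unfold phi psi
  rw [max_eq_left, zero_div]
  linarith

end

end Fermat.Agent.ExtVanD
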