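import Fermat.Agent.ExtVan.DensA

/-!
The weight function `ff s a` on a number field: unit-periodisation gives `|N a|^(-s)`,
and it is Lipschitz at infinity.
-/

set_option autoImplicit false

open NumberField NumberField.InfinitePlace NumberField.Units

namespace Fermat.Agent.ExtVanD

noncomputable section

variable {K : Type*} [Field K] [NumberField K]

/-- the absolute value of the norm -/
def nn (a : K) : ℝ := |(Algebra.norm ℚ a : ℝ)|

/-- the weight -/
def ff (s : ℝ) (a : K) : ℝ := phi (lv a) * nn a ^ (-s)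

lemma nn_nonneg (a : K) : 0 ≤ nn a := abs_nonneg _

lemma nn_zero : nn (0 : K) = 0 := by simp [nn, Algebra.norm_zero]

lemma nn_pos {a : K} (ha : a ≠ 0) : 0 < nn a := by
  unfold nn
  rw [abs_pos]
  exact_mod_cast (Algebra.norm_ne_zero_iff.mpr ha)

lemma ff_zero {s : ℝ} (hs : 0 < s) : ff s (0 : K) = 0 := by
  unfold ff
  rw [nn_zero, Real.zero_rpow (by linarith), mul_zero]

lemma ff_nonneg (s : ℝ) (a : K) : 0 ≤ ff s a :=
  mul_nonneg (phi_nonneg _) (Real.rpow_nonneg (nn_nonneg a) _)

lemma log_nn {a : K} (ha : a ≠ 0) : Real.log (nn a) = Module.finrank ℚ K * AA (lv a) := by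
  rw [AA_lv ha, nn, mul_div_cancel₀]
  exact finrank_posR.ne'

lemma nn_rpow {a : K} (ha : a ≠ 0) (s : ℝ) :
    nn a ^ (-s) = Real.exp (-(s * (Module.finrank ℚ K * AA (lv a)))) := by
  rw [Real.rpow_def_of_pos (nn_pos ha), log_nn ha]
  congr 1
  ring

/-- sum over units -/
lemma hasSum_ff {s : ℝ} {a : K} (ha : a ≠ 0) :
    HasSum (fun ε : (𝓞 K)ˣ => ff s ((ε : K) * a)) (nn a ^ (-s)) := by
  have h := (hasSum_phi (lv a)).mul_right (nn a ^ (-s))
  rw [one_mul] at h
  have h2 : (fun ε : (𝓞 K)ˣ => ff s ((ε : K) * a)) =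
      fun ε : (𝓞 K)ˣ => phi (lv a + lv (ε : K)) * nn a ^ (-s) := by
    funext ε
    unfold ff
    rw [mul_comm (ε : K) a, lv_mul ha (Units.coe_ne_zero ε)]
    congr 2
    unfold nn
    rw [map_mul, Rat.cast_mul, abs_mul]
    have h3 := NumberField.Units.norm (K := K) ε
    have h4 : |((Algebra.norm ℚ (ε : K) : ℚ) : ℝ)| = 1 := by
      have : |((Algebra.norm ℚ (ε : K) : ℚ))| = 1 := h3
      exact_mod_cast this
    rw [h4, mul_one]
  rw [h2]
  exact h

/-- the height -/
def HH (a : K) : ℝ := Real.exp (MM (lv a))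

lemma HH_pos (a : K) : 0 < HH a := Real.exp_pos _

lemma le_HH (a : K) (w : InfinitePlace K) : w a ≤ HH a := by
  rcases eq_or_ne a 0 with rfl | ha
  · rw [map_zero]; exact (HH_pos _).le
  · have h1 := le_MM (lv a) w
    have h2 : 0 < w a := InfinitePlace.pos_iff.mpr ha
    unfold HH
    rw [← Real.log_le_iff_le_exp h2]
    exact h1

lemma HH_le {a : K} (ha : a ≠ 0) {B : ℝ} (h : ∀ w : InfinitePlace K, w a ≤ B) : HH a ≤ B := by
  have hB : 0 < B := (InfinitePlace.pos_iff.mpr ha).trans_le (h (Classical.arbitrary _))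
  unfold HH
  rw [← Real.le_log_iff_exp_le hB]
  exact MM_le fun w => Real.log_le_log (InfinitePlace.pos_iff.mpr ha) (h w)

lemma abs_sub_place (w : InfinitePlace K) (a b : K) : |w a - w b| ≤ w (a - b) := by
  rw [← InfinitePlace.norm_embedding_eq, ← InfinitePlace.norm_embedding_eq,
    ← InfinitePlace.norm_embedding_eq, map_sub]
  exact abs_norm_sub_norm_le _ _

lemma abs_exp_sub_one_le' (x : ℝ) : |Real.exp x - 1| ≤ |x| * Real.exp |x| := by
  have h1 := Real.add_one_le_exp x
  have h2 := Real.add_one_le_exp (-x)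
  rw [Real.exp_neg] at h2
  have hpos := Real.exp_pos x
  have h3 : Real.exp x - 1 ≤ x * Real.exp x := by
    have h4 : (-x + 1) * Real.exp x ≤ 1 := by
      calc (-x + 1) * Real.exp x ≤ (Real.exp x)⁻¹ * Real.exp x :=
            mul_le_mul_of_nonneg_right h2 hpos.le
        _ = 1 := inv_mul_cancel₀ hpos.ne'
    linarith
  have h5 : Real.exp x ≤ Real.exp |x| := Real.exp_le_exp.mpr (le_abs_self x)
  have h6 : 1 ≤ Real.exp |x| := Real.one_le_exp (abs_nonneg x)
  have h7 : |x| ≤ |x| * Real.exp |x| := le_mul_of_one_le_right (abs_nonneg x) h6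
  rw [abs_le]
  constructor
  · have := neg_abs_le x
    linarith
  · rcases le_or_gt 0 x with hx | hx
    · rw [abs_of_nonneg hx]
      exact h3
    · have : Real.exp x < 1 := (Real.exp_lt_exp.mpr hx).trans_eq Real.exp_zero
      have : 0 ≤ |x| * Real.exp |x| := by positivity
      linarith

lemma abs_log_one_add_le {x : ℝ} (hx : |x| ≤ 1 / 2) : |Real.log (1 + x)| ≤ 2 * |x| := by
  have h0 := abs_le.mp hx
  have hpos : 0 < 1 + x := by linarith [h0.1]
  have h1 := Real.log_le_sub_one_of_pos hpos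
  have h2 := Real.one_sub_inv_le_log_of_pos hpos
  rw [abs_le]
  constructor
  · refine le_trans ?_ h2
    have h3 : (1 + x)⁻¹ ≤ 1 + 2 * |x| := by
      rw [inv_le_iff_one_le_mul₀ hpos]
      rcases le_or_gt 0 x with h | h
      · rw [abs_of_nonneg h]; nlinarith
      · rw [abs_of_neg h]; nlinarith [h0.1]
    linarith
  · have := le_abs_self x
    have := abs_nonneg x
    linarith

/-- the Lipschitz constant -/
def bigC (K : Type*) [Field K] [NumberField K] (R : ℝ) : ℝ :=
  (lipC K + 2 * Module.finrank ℚ K * Real.exp (2 * Module.finrank ℚ K)) *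
    (2 * R * Real.exp ((Module.finrank ℚ K + 1) * TT K)) *
    Real.exp (2 * Module.finrank ℚ K * TT K)

lemma bigC_nonneg {R : ℝ} (hR : 0 ≤ R) : 0 ≤ bigC K R := by
  unfold bigC
  have := lipC_nonneg (K := K)
  positivity

lemma lower_place {a : K} (ha : a ≠ 0) (h : phi (lv a) ≠ 0) (w : InfinitePlace K) :
    Real.exp (-((Module.finrank ℚ K + 1) * TT K)) * HH a ≤ w a := by
  have h1 := near_of_phi_ne_zero h
  have h2 := lower_of_upper TT_nonneg h1 w
  have h3 : 0 < w a := InfinitePlace.pos_iff.mpr ha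
  unfold HH
  rw [← Real.exp_add, ← Real.le_log_iff_exp_le h3]
  have h4 : lv a w = Real.log (w a) := rfl
  rw [← h4]
  linarith

lemma nn_rpow_le {a : K} (ha : a ≠ 0) (h : phi (lv a) ≠ 0) {s : ℝ} (hs0 : 0 ≤ s) :
    nn a ^ (-s) ≤ Real.exp (s * Module.finrank ℚ K * TT K) *
      Real.exp (-(s * Module.finrank ℚ K * MM (lv a))) := by
  rw [nn_rpow ha, ← Real.exp_add, Real.exp_le_exp]
  have h1 := near_of_phi_ne_zero h
  have h2 : s * Module.finrank ℚ K * (MM (lv a) - AA (lv a)) ≤ s * Module.finrank ℚ K * TT K :=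
    mul_le_mul_of_nonneg_left h1 (by positivity)
  linarith

lemma core_diff {R : ℝ} (hR : 0 ≤ R) {s : ℝ} (hs1 : 1 ≤ s) (hs2 : s ≤ 2) {a b : K}
    (ha : a ≠ 0) (hb : b ≠ 0) (hab : ∀ w : InfinitePlace K, w (a - b) ≤ R)
    (hphi : phi (lv a) ≠ 0) (hM : 0 ≤ MM (lv a))
    (hbig : 2 * R * Real.exp ((Module.finrank ℚ K + 1) * TT K) ≤ HH a) :
    |ff s a - ff s b| ≤ bigC K R * Real.exp (-((Module.finrank ℚ K + 1) * MM (lv a))) := by
  set d : ℝ := (Module.finrank ℚ K : ℝ) with hd
  have hd0 : 0 < d := finrank_posR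
  set E : ℝ := Real.exp ((d + 1) * TT K) with hE
  have hE0 : 0 < E := Real.exp_pos _
  set δ : ℝ := 2 * R * E / HH a with hδ
  have hδ0 : 0 ≤ δ := div_nonneg (by positivity) (HH_pos a).le
  have hδ1 : δ ≤ 1 := div_le_one_of_le₀ hbig (HH_pos a).le
  have hlow : ∀ w : InfinitePlace K, HH a / E ≤ w a := by
    intro w
    have h1 := lower_place ha hphi w
    rwa [Real.exp_neg, ← hE, inv_mul_eq_div] at h1
  have hlip : ∀ w, |lv a w - lv b w| ≤ δ := by
    intro w
    have hwa : 0 < w a := InfinitePlace.pos_iff.mpr ha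
    have hwb : 0 < w b := InfinitePlace.pos_iff.mpr hb
    have h1 : |w b - w a| ≤ R := by
      rw [abs_sub_comm]
      exact (abs_sub_place w a b).trans (hab w)
    have h2 : |w b / w a - 1| ≤ δ / 2 := by
      have h3 : w b / w a - 1 = (w b - w a) / w a := by field_simp
      rw [h3, abs_div, abs_of_pos hwa]
      calc |w b - w a| / w a ≤ R / (HH a / E) :=
            div_le_div₀ hR h1 (div_pos (HH_pos a) hE0) (hlow w)
        _ = δ / 2 := by
            rw [hδ]
            field_simp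
    have h4 : Real.log (w b) - Real.log (w a) = Real.log (1 + (w b / w a - 1)) := by
      rw [add_sub_cancel, Real.log_div hwb.ne' hwa.ne']
    rw [abs_sub_comm]
    show |Real.log (w b) - Real.log (w a)| ≤ δ
    rw [h4]
    refine (abs_log_one_add_le (h2.trans (by linarith))).trans ?_
    linarith
  have hphil := phi_lip hlip
  have hAA := AA_lip hlip
  have hg : nn a ^ (-s) ≤ Real.exp (2 * d * TT K) * Real.exp (-(d * MM (lv a))) := by
    refine (nn_rpow_le ha hphi (by linarith)).trans ?_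
    rw [← Real.exp_add, ← Real.exp_add, Real.exp_le_exp]
    have h1 : s * d * TT K ≤ 2 * d * TT K := by
      have := TT_nonneg (K := K)
      have h2 : 0 ≤ d * TT K := by positivity
      nlinarith
    have h2 : d * MM (lv a) ≤ s * d * MM (lv a) := by
      have h3 : 0 ≤ d * MM (lv a) := by positivity
      nlinarith
    linarith
  have hgb : |nn a ^ (-s) - nn b ^ (-s)| ≤ nn a ^ (-s) * (2 * d * δ * Real.exp (2 * d)) := by
    have h1 : nn b ^ (-s) = nn a ^ (-s) * Real.exp (s * d * (AA (lv a) - AA (lv b))) := by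
      rw [nn_rpow ha, nn_rpow hb, ← Real.exp_add]
      congr 1
      ring
    have h2 : nn a ^ (-s) - nn b ^ (-s) =
        -(nn a ^ (-s) * (Real.exp (s * d * (AA (lv a) - AA (lv b))) - 1)) := by
      rw [h1]; ring
    rw [h2, abs_neg, abs_mul, abs_of_nonneg (Real.rpow_nonneg (nn_nonneg a) _)]
    refine mul_le_mul_of_nonneg_left ?_ (Real.rpow_nonneg (nn_nonneg a) _)
    refine (abs_exp_sub_one_le' _).trans ?_
    have h3 : |s * d * (AA (lv a) - AA (lv b))| ≤ 2 * d * δ := by
      rw [abs_mul, abs_of_nonneg (by positivity : 0 ≤ s * d)]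
      exact mul_le_mul (by nlinarith) hAA (abs_nonneg _) (by positivity)
    have h4 : |s * d * (AA (lv a) - AA (lv b))| ≤ 2 * d := by
      refine h3.trans ?_
      nlinarith
    exact mul_le_mul h3 (Real.exp_le_exp.mpr h4) (Real.exp_pos _).le (by positivity)
  have hmain : |ff s a - ff s b| ≤
      nn a ^ (-s) * ((lipC K + 2 * d * Real.exp (2 * d)) * δ) := by
    have h1 : ff s a - ff s b = (phi (lv a) - phi (lv b)) * nn a ^ (-s) +
        phi (lv b) * (nn a ^ (-s) - nn b ^ (-s)) := by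
      unfold ff; ring
    rw [h1]
    refine (abs_add_le _ _).trans ?_
    rw [abs_mul, abs_mul, abs_of_nonneg (Real.rpow_nonneg (nn_nonneg a) _),
      abs_of_nonneg (phi_nonneg (lv b))]
    have h2 : |phi (lv a) - phi (lv b)| * nn a ^ (-s) ≤ lipC K * δ * nn a ^ (-s) :=
      mul_le_mul_of_nonneg_right hphil (Real.rpow_nonneg (nn_nonneg a) _)
    have h3 : phi (lv b) * |nn a ^ (-s) - nn b ^ (-s)| ≤
        nn a ^ (-s) * (2 * d * δ * Real.exp (2 * d)) :=
      (mul_le_of_le_one_left (abs_nonneg _) (phi_le_one _)).trans hgb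
    refine (add_le_add h2 h3).trans (le_of_eq ?_)
    ring
  refine hmain.trans ?_
  have hδ2 : δ = (2 * R * E) * Real.exp (-(MM (lv a))) := by
    rw [hδ, Real.exp_neg, HH, div_eq_mul_inv]
  have h9 : 0 ≤ (lipC K + 2 * d * Real.exp (2 * d)) * δ := by
    have := lipC_nonneg (K := K)
    positivity
  refine (mul_le_mul_of_nonneg_right hg h9).trans (le_of_eq ?_)
  have h10 : Real.exp (-((d + 1) * MM (lv a))) =
      Real.exp (-(d * MM (lv a))) * Real.exp (-(MM (lv a))) := by
    rw [← Real.exp_add]; congr 1; ring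
  rw [h10, hδ2, bigC, ← hd, ← hE]
  ring

/-- The Lipschitz estimate at infinity. -/
lemma diff_bound {R : ℝ} (hR : 0 ≤ R) {s : ℝ} (hs1 : 1 ≤ s) (hs2 : s ≤ 2) {a b : K}
    (ha : a ≠ 0) (hb : b ≠ 0) (hab : ∀ w : InfinitePlace K, w (a - b) ≤ R)
    (hbig : 2 + 4 * R * Real.exp ((Module.finrank ℚ K + 1) * TT K) ≤ HH a) :
    |ff s a - ff s b| ≤ 2 ^ (Module.finrank ℚ K + 1) * bigC K R *
      (HH a ^ (Module.finrank ℚ K + 1))⁻¹ := by
  have hT := TT_nonneg (K := K)
  have hE1 : 1 ≤ Real.exp ((Module.finrank ℚ K + 1) * TT K) := Real.one_le_exp (by positivity)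
  have hRE : R ≤ R * Real.exp ((Module.finrank ℚ K + 1) * TT K) :=
    le_mul_of_one_le_right hR hE1
  have hexp : ∀ c : K, Real.exp (-((Module.finrank ℚ K + 1) * MM (lv c))) =
      (HH c ^ (Module.finrank ℚ K + 1))⁻¹ := by
    intro c
    unfold HH
    rw [Real.exp_neg, ← Real.exp_nat_mul]
    push_cast
    rfl
  have hMa : 0 ≤ MM (lv a) := by
    have : 1 ≤ HH a := by linarith
    unfold HH at this
    exact Real.one_le_exp_iff.mp this
  have hHb : HH a / 2 ≤ HH b := by
    have h1 : HH a ≤ HH b + R := HH_le ha fun w => by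
      have h2 := (abs_le.mp ((abs_sub_place w a b).trans (hab w))).2
      have h3 := le_HH b w
      linarith
    linarith
  have hMb : 0 ≤ MM (lv b) := by
    have : 1 ≤ HH b := by linarith
    unfold HH at this
    exact Real.one_le_exp_iff.mp this
  have hC := bigC_nonneg (K := K) hR
  by_cases hphia : phi (lv a) = 0
  · by_cases hphib : phi (lv b) = 0
    · have h1 : ff s a = 0 := by rw [ff, hphia, zero_mul]
      have h2 : ff s b = 0 := by rw [ff, hphib, zero_mul]
      rw [h1, h2, sub_zero, abs_zero]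
      have := HH_pos a
      positivity
    · have h1 := core_diff hR hs1 hs2 hb ha
        (fun w => by
          rw [← neg_sub, ← InfinitePlace.norm_embedding_eq, map_neg, norm_neg,
            InfinitePlace.norm_embedding_eq]
          exact hab w) hphib hMb (by linarith)
      rw [abs_sub_comm]
      refine h1.trans ?_
      rw [hexp]
      have h2 : (HH b ^ (Module.finrank ℚ K + 1))⁻¹ ≤
          ((HH a / 2) ^ (Module.finrank ℚ K + 1))⁻¹ := by
        refine inv_anti₀ (by have := HH_pos a; positivity) ?_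
        exact pow_le_pow_left₀ (by have := HH_pos a; positivity) hHb _
      refine (mul_le_mul_of_nonneg_left h2 hC).trans (le_of_eq ?_)
      rw [div_pow, inv_div]
      ring
  · have h1 := core_diff hR hs1 hs2 ha hb hab hphia hMa (by linarith)
    refine h1.trans ?_
    rw [hexp]
    have h2 : (1 : ℝ) ≤ 2 ^ (Module.finrank ℚ K + 1) := one_le_pow₀ (by norm_num)
    have h3 : 0 ≤ (HH a ^ (Module.finrank ℚ K + 1))⁻¹ := by
      have := HH_pos a
      positivity
    have h4 : bigC K R ≤ 2 ^ (Module.finrank ℚ K + 1) * bigC K R :=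
      le_mul_of_one_le_left hC h2
    exact mul_le_mul_of_nonneg_right h4 h3

lemma ff_le_HH {s : ℝ} (hs0 : 0 ≤ s) {a : K} (ha : a ≠ 0) :
    ff s a ≤ Real.exp (s * Module.finrank ℚ K * TT K) *
      HH a ^ (-(s * Module.finrank ℚ K)) := by
  by_cases h : phi (lv a) = 0
  · rw [ff, h, zero_mul]
    have := HH_pos a
    positivity
  · have h1 := nn_rpow_le ha h hs0
    have h2 : HH a ^ (-(s * Module.finrank ℚ K)) =
        Real.exp (-(s * Module.finrank ℚ K * MM (lv a))) := by
      unfold HH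
      rw [← Real.exp_mul]
      congr 1
      ring
    rw [h2]
    exact (mul_le_of_le_one_left (Real.rpow_nonneg (nn_nonneg a) _) (phi_le_one _)).trans h1

lemma ff_le_one {s : ℝ} (hs : 0 < s) (a : 𝓞 K) : ff s (a : K) ≤ 1 := by
  rcases eq_or_ne a 0 with rfl | ha
  · have h0 : ((0 : 𝓞 K) : K) = 0 := by simp
    rw [h0, ff_zero hs]
    norm_num
  · have ha' : (a : K) ≠ 0 := by simpa using ha
    unfold ff
    refine mul_le_one₀ (phi_le_one _) (Real.rpow_nonneg (nn_nonneg _) _) ?_
    refine Real.rpow_le_one_of_one_le_of_nonpos ?_ (by linarith)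
    unfold nn
    have h1 : (Algebra.norm ℚ (a : K)) = ((Algebra.norm ℤ a : ℤ) : ℚ) :=
      (Algebra.coe_norm_int a).symm
    rw [h1]
    have h2 : Algebra.norm ℤ a ≠ 0 := Algebra.norm_ne_zero_iff.mpr ha
    have h3 : 1 ≤ |Algebra.norm ℤ a| := Int.one_le_abs h2
    have h4 : ((1 : ℤ) : ℝ) ≤ ((|Algebra.norm ℤ a| : ℤ) : ℝ) := by exact_mod_cast h3
    push_cast at h4
    rw [Rat.cast_intCast]
    exact h4

end

end Fermat.Agent.ExtVanD
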