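import Fermat.Agent.ExtVan.DensB

/-!
Comparison of the lattice sums of `ff s` over `𝓞 K` and over an ideal.
-/

set_option autoImplicit false
set_option maxHeartbeats 400000

open NumberField NumberField.InfinitePlace NumberField.Units

namespace Fermat.Agent.ExtVanD

noncomputable section

variable {K : Type*} [Field K] [NumberField K]

open scoped Classical in
/-- sup norm of the embedding -/
def NN (a : K) : ℝ := ‖mixedEmbedding K a‖

lemma NN_nonneg (a : K) : 0 ≤ NN a := by
  classical
  exact norm_nonneg _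

lemma le_NN (a : K) (w : InfinitePlace K) : w a ≤ NN a := by
  unfold NN
  rw [mixedEmbedding.norm_eq_sup'_normAtPlace, ← mixedEmbedding.normAtPlace_apply]
  exact Finset.le_sup' (fun w => mixedEmbedding.normAtPlace w (mixedEmbedding K a))
    (Finset.mem_univ w)

lemma NN_le {a : K} {B : ℝ} (h : ∀ w : InfinitePlace K, w a ≤ B) : NN a ≤ B := by
  unfold NN
  rw [mixedEmbedding.norm_eq_sup'_normAtPlace]
  refine Finset.sup'_le _ _ fun w _ => ?_
  rw [mixedEmbedding.normAtPlace_apply]
  exact h w

lemma HH_eq_NN {a : K} (ha : a ≠ 0) : HH a = NN a :=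
  le_antisymm (HH_le ha (le_NN a)) (NN_le (le_HH a))

lemma finite_NN_lt (B : ℝ) : {a : 𝓞 K | NN (a : K) < B}.Finite := by
  refine Set.Finite.of_finite_image (f := fun a : 𝓞 K => (a : K)) ?_
    RingOfIntegers.coe_injective.injOn
  refine (Embeddings.finite_of_norm_le K ℂ B).subset ?_
  rintro _ ⟨a, ha, rfl⟩
  refine ⟨a.isIntegral_coe, ?_⟩
  refine (InfinitePlace.le_iff_le (a : K) B).mp fun w => ?_
  exact (le_NN _ w).trans (le_of_lt ha)

open scoped Classical in
lemma finrank_lattice : Module.finrank ℤ (mixedEmbedding.integerLattice K) =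
    Module.finrank ℚ K := by
  rw [ZLattice.rank ℝ, mixedEmbedding.finrank]

lemma summable_NN_rpow {r : ℝ} (hr : r < -(Module.finrank ℚ K : ℝ)) :
    Summable fun a : 𝓞 K => NN (a : K) ^ r := by
  classical
  have h := ZLattice.summable_norm_rpow (mixedEmbedding.integerLattice K) r
    (by rw [finrank_lattice]; exact hr)
  let f : 𝓞 K → mixedEmbedding.integerLattice K := fun a =>
    ⟨mixedEmbedding K (a : K), ⟨a, rfl⟩⟩
  have hf : Function.Injective f := by
    intro a b hab
    have h1 : mixedEmbedding K (a : K) = mixedEmbedding K (b : K) := congrArg Subtype.val hab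
    exact RingOfIntegers.coe_injective (mixedEmbedding_injective K h1)
  have h2 := h.comp_injective hf
  have h3 : ((fun z : mixedEmbedding.integerLattice K => ‖z‖ ^ r) ∘ f) =
      fun a : 𝓞 K => NN (a : K) ^ r := by
    funext a
    have h4 : ‖f a‖ = NN (a : K) := by
      have h5 : ‖f a‖ = ‖((f a : mixedEmbedding.integerLattice K) : mixedEmbedding.mixedSpace K)‖ :=
        rfl
      rw [h5]
      rfl
    rw [Function.comp_apply, h4]
  rw [h3] at h2
  exact h2

lemma summable_NN_inv_pow : Summable fun a : 𝓞 K => (NN (a : K) ^ (Module.finrank ℚ K + 1))⁻¹ := by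
  have h := summable_NN_rpow (K := K) (r := -((Module.finrank ℚ K : ℝ) + 1)) (by linarith)
  refine h.congr fun a => ?_
  rw [Real.rpow_neg (NN_nonneg _)]
  congr 1
  exact_mod_cast Real.rpow_natCast (NN (a : K)) (Module.finrank ℚ K + 1)

lemma summable_ff {s : ℝ} (hs : 1 < s) : Summable fun a : 𝓞 K => ff s (a : K) := by
  have h := (summable_NN_rpow (K := K) (r := -(s * Module.finrank ℚ K)) (by
    have := finrank_posR (K := K)
    nlinarith)).mul_left (Real.exp (s * Module.finrank ℚ K * TT K))
  refine Summable.of_nonneg_of_le (fun a => ff_nonneg s _) (fun a => ?_) h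
  rcases eq_or_ne a 0 with rfl | ha
  · have h0 : ((0 : 𝓞 K) : K) = 0 := by simp
    rw [h0, ff_zero (by linarith)]
    have := NN_nonneg (0 : K)
    positivity
  · have ha' : (a : K) ≠ 0 := by simpa using ha
    rw [← HH_eq_NN ha']
    exact ff_le_HH (by linarith) ha'

/-- shifted difference bound -/
lemma shift_bound (c : 𝓞 K) : ∃ g : 𝓞 K → ℝ, Summable g ∧
    ∀ s : ℝ, 1 < s → s ≤ 2 → ∀ a : 𝓞 K, |ff s ((c + a : 𝓞 K) : K) - ff s (a : K)| ≤ g a := by
  classical
  set R : ℝ := NN (c : K) with hR
  have hR0 : 0 ≤ R := NN_nonneg _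
  set R' : ℝ := 2 + 4 * R * Real.exp ((Module.finrank ℚ K + 1) * TT K) with hR'
  set C : ℝ := 2 ^ (Module.finrank ℚ K + 1) * bigC K R with hC
  have hC0 : 0 ≤ C := by
    have := bigC_nonneg (K := K) hR0
    positivity
  refine ⟨fun a => (if NN (a : K) < R' then 1 else 0) +
    C * (NN (a : K) ^ (Module.finrank ℚ K + 1))⁻¹, ?_, ?_⟩
  · refine Summable.add ?_ (summable_NN_inv_pow.mul_left C)
    refine summable_of_hasFiniteSupport ((finite_NN_lt (K := K) R').subset fun a ha => ?_)
    by_contra h
    exact ha (if_neg h)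
  · intro s hs hs2 a
    have hNN : 0 ≤ (NN (a : K) ^ (Module.finrank ℚ K + 1))⁻¹ := by
      have := NN_nonneg (a : K)
      positivity
    by_cases h : NN (a : K) < R'
    · have h1 := ff_le_one (s := s) (by linarith) a
      have h2 := ff_le_one (s := s) (by linarith) (c + a)
      have h3 := ff_nonneg s (a : K)
      have h4 := ff_nonneg s ((c + a : 𝓞 K) : K)
      have h5 : |ff s ((c + a : 𝓞 K) : K) - ff s (a : K)| ≤ 1 := by
        rw [abs_le]; constructor <;> linarith
      simp only [h, if_true]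
      have := mul_nonneg hC0 hNN
      linarith
    · simp only [h, if_false, zero_add]
      rw [not_lt] at h
      have hT := TT_nonneg (K := K)
      have hE1 : 1 ≤ Real.exp ((Module.finrank ℚ K + 1) * TT K) := Real.one_le_exp (by positivity)
      have hRE : R ≤ R * Real.exp ((Module.finrank ℚ K + 1) * TT K) :=
        le_mul_of_one_le_right hR0 hE1
      have hRR' : R < R' := by linarith
      have ha0 : (a : K) ≠ 0 := by
        intro h0
        rw [h0] at h
        have h5 : NN (0 : K) ≤ 0 := by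
          unfold NN
          rw [map_zero]
          exact norm_zero.le
        linarith
      have hca0 : ((c + a : 𝓞 K) : K) ≠ 0 := by
        intro h0
        have h1 : (a : K) = -(c : K) := by
          have : (c : K) + (a : K) = 0 := by
            rw [← map_add]; exact h0
          exact eq_neg_of_add_eq_zero_right this
        have h2 : NN (a : K) = R := by
          rw [h1, hR]; unfold NN; rw [map_neg, norm_neg]
        linarith
      rw [abs_sub_comm, ← HH_eq_NN ha0]
      refine diff_bound hR0 hs.le hs2 ha0 hca0 (fun w => ?_) ?_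
      · have h1 : (a : K) - ((c + a : 𝓞 K) : K) = -(c : K) := by
          have h2 : ((c + a : 𝓞 K) : K) = (c : K) + (a : K) := map_add (algebraMap (𝓞 K) K) c a
          rw [h2]; ring
        rw [h1, ← InfinitePlace.norm_embedding_eq, map_neg, norm_neg,
            InfinitePlace.norm_embedding_eq]
        exact le_NN _ w
      · rw [HH_eq_NN ha0]
        exact h

/-- comparison of the sums over the full ring and over an ideal -/
theorem compare (J : Ideal (𝓞 K)) (hJ : J ≠ ⊥) : ∃ B : ℝ, ∀ s : ℝ, 1 < s → s ≤ 2 →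
    |∑' a : 𝓞 K, ff s (a : K) - (Ideal.absNorm J : ℝ) * ∑' a : J, ff s ((a : 𝓞 K) : K)| ≤ B := by
  classical
  haveI : Finite (𝓞 K ⧸ J) := Ideal.finiteQuotientOfFreeOfNeBot J hJ
  haveI : Fintype (𝓞 K ⧸ J) := Fintype.ofFinite _
  let out : 𝓞 K ⧸ J → 𝓞 K := fun q => (Ideal.Quotient.mk_surjective q).choose
  have hout : ∀ q, Ideal.Quotient.mk J (out q) = q := fun q =>
    (Ideal.Quotient.mk_surjective q).choose_spec
  let e : (𝓞 K ⧸ J) × J → 𝓞 K := fun x => out x.1 + x.2
  have he : Function.Bijective e := by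
    constructor
    · rintro ⟨q, a⟩ ⟨q', a'⟩ h
      have h' : out q + (a : 𝓞 K) = out q' + (a' : 𝓞 K) := h
      have h1 : q = q' := by
        have h2 := congrArg (Ideal.Quotient.mk J) h'
        rwa [map_add, map_add, hout, hout, Ideal.Quotient.eq_zero_iff_mem.mpr a.2,
          Ideal.Quotient.eq_zero_iff_mem.mpr a'.2, add_zero, add_zero] at h2
      subst h1
      rw [add_right_inj] at h'
      exact Prod.ext rfl (Subtype.ext h')
    · intro x
      refine ⟨⟨Ideal.Quotient.mk J x, ⟨x - out (Ideal.Quotient.mk J x), ?_⟩⟩, ?_⟩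
      · rw [← Ideal.Quotient.eq, hout]
      · show out _ + (x - out _) = x
        ring
  choose g hg hgb using fun q : 𝓞 K ⧸ J => shift_bound (out q)
  refine ⟨∑ q, ∑' a : J, g q a, fun s hs hs2 => ?_⟩
  have hsf := summable_ff (K := K) hs
  have hsJ : Summable fun a : J => ff s ((a : 𝓞 K) : K) :=
    hsf.comp_injective Subtype.val_injective
  have hse : Summable fun x : (𝓞 K ⧸ J) × J => ff s ((e x : 𝓞 K) : K) :=
    hsf.comp_injective he.1
  have hsq : ∀ q, Summable fun a : J => ff s ((out q + (a : 𝓞 K) : 𝓞 K) : K) := by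
    intro q
    exact hse.comp_injective (i := fun a : J => (q, a)) fun a b h => (Prod.ext_iff.mp h).2
  have h1 : ∑' a : 𝓞 K, ff s (a : K) =
      ∑ q, ∑' a : J, ff s ((out q + (a : 𝓞 K) : 𝓞 K) : K) := by
    rw [← (Equiv.ofBijective e he).tsum_eq (fun a : 𝓞 K => ff s (a : K))]
    have h2 : ∑' x : (𝓞 K ⧸ J) × J, ff s ((Equiv.ofBijective e he x : 𝓞 K) : K) =
      ∑' q, ∑' a : J, ff s ((e (q, a) : 𝓞 K) : K) := hse.tsum_prod
    rw [h2, tsum_fintype]
  have hcard : (Ideal.absNorm J : ℝ) = (Fintype.card (𝓞 K ⧸ J) : ℝ) := by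
    rw [Ideal.absNorm_apply, Submodule.cardQuot_apply, Nat.card_eq_fintype_card]
  have h3 : (Ideal.absNorm J : ℝ) * ∑' a : J, ff s ((a : 𝓞 K) : K) =
      ∑ _q : 𝓞 K ⧸ J, ∑' a : J, ff s ((a : 𝓞 K) : K) := by
    rw [Finset.sum_const, nsmul_eq_mul, hcard]
    rfl
  rw [h1, h3, ← Finset.sum_sub_distrib]
  refine (Finset.abs_sum_le_sum_abs _ _).trans (Finset.sum_le_sum fun q _ => ?_)
  rw [← (hsq q).tsum_sub hsJ, ← Real.norm_eq_abs]
  have hgJ : Summable fun a : J => g q a := (hg q).comp_injective Subtype.val_injective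
  refine tsum_of_norm_bounded hgJ.hasSum fun a => ?_
  rw [Real.norm_eq_abs]
  exact hgb q s hs hs2 a

end

end Fermat.Agent.ExtVanD
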