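import Fermat.Agent.ExtVan.DensC
import Fermat.Agent.FrobDensity.Analytic

/-!
Partial zeta functions of ideal classes: their pairwise differences are bounded near `s = 1`;
hence `L(s, χ)` is bounded for nontrivial class group characters `χ`.
-/

set_option autoImplicit false
set_option maxHeartbeats 400000

open NumberField NumberField.InfinitePlace NumberField.Units nonZeroDivisors

namespace Fermat.Agent.ExtVanD

noncomputable section

variable {K : Type*} [Field K] [NumberField K]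

/-- norm of an ideal to the power `-s` -/
def nrm (s : ℝ) (I : (Ideal (𝓞 K))⁰) : ℝ := (Ideal.absNorm (I : Ideal (𝓞 K)) : ℝ) ^ (-s)

lemma absNorm_pos' (I : (Ideal (𝓞 K))⁰) : (0 : ℝ) < Ideal.absNorm (I : Ideal (𝓞 K)) := by
  have h := Ideal.absNorm_pos_of_nonZeroDivisors I
  exact_mod_cast h

lemma nrm_pos (s : ℝ) (I : (Ideal (𝓞 K))⁰) : 0 < nrm s I := Real.rpow_pos_of_pos (absNorm_pos' I) _

lemma nrm_mul (s : ℝ) (I J : (Ideal (𝓞 K))⁰) : nrm s (I * J) = nrm s I * nrm s J := by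
  unfold nrm
  rw [Submonoid.coe_mul, map_mul, Nat.cast_mul,
    Real.mul_rpow (Nat.cast_nonneg _) (Nat.cast_nonneg _)]

lemma nrm_one (s : ℝ) : nrm s (1 : (Ideal (𝓞 K))⁰) = 1 := by
  unfold nrm
  simp

/-- The ideals in a given class -/
abbrev InClass (C : ClassGroup (𝓞 K)) : Type _ :=
  {I : (Ideal (𝓞 K))⁰ // ClassGroup.mk0 I = C}

/-- partial zeta function -/
def clz (s : ℝ) (C : ClassGroup (𝓞 K)) : ℝ := ∑' I : InClass C, nrm s I.1

lemma exists_gen (J : (Ideal (𝓞 K))⁰) (I : InClass (ClassGroup.mk0 J)⁻¹) :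
    ∃ g : 𝓞 K, g ≠ 0 ∧ Ideal.span {g} = (I.1 : Ideal (𝓞 K)) * (J : Ideal (𝓞 K)) := by
  have h1 : ClassGroup.mk0 (I.1 * J) = 1 := by
    rw [map_mul, I.2, inv_mul_cancel]
  rw [ClassGroup.mk0_eq_one_iff] at h1
  obtain ⟨g, hg⟩ := h1
  refine ⟨g, ?_, ?_⟩
  · rintro rfl
    have h2 : ((I.1 * J : (Ideal (𝓞 K))⁰) : Ideal (𝓞 K)) ≠ ⊥ := nonZeroDivisors.coe_ne_zero _
    apply h2
    rw [hg]
    simp
  · rw [← Submonoid.coe_mul, hg]

lemma gen_mem {I J : Ideal (𝓞 K)} {g : 𝓞 K} (hg : Ideal.span {g} = I * J) : g ∈ J := by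
  have h1 : Ideal.span {g} ≤ J := hg ▸ Ideal.mul_le_right
  exact (Ideal.span_singleton_le_iff_mem _).mp h1

/-- unfolding -/
theorem unfold_sum (J : (Ideal (𝓞 K))⁰) {s : ℝ} (hs : 1 < s) :
    Summable (fun I : InClass (ClassGroup.mk0 J)⁻¹ => nrm s I.1) ∧
    ∑' a : (J : Ideal (𝓞 K)), ff s ((a : 𝓞 K) : K) =
      nrm s J * clz s (ClassGroup.mk0 J)⁻¹ := by
  classical
  choose g hg0 hg using exists_gen J
  let X : Set (𝓞 K) := {a | a ∈ (J : Ideal (𝓞 K)) ∧ a ≠ 0}
  let e : InClass (ClassGroup.mk0 J)⁻¹ × (𝓞 K)ˣ → X := fun x =>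
    ⟨(x.2 : 𝓞 K) * g x.1, by
      constructor
      · exact Ideal.mul_mem_left _ _ (gen_mem (hg x.1))
      · exact mul_ne_zero (Units.ne_zero x.2) (hg0 x.1)⟩
  have hspan : ∀ (ε : (𝓞 K)ˣ) (a : 𝓞 K), Ideal.span {(ε : 𝓞 K) * a} = Ideal.span {a} := by
    intro ε a
    rw [Ideal.span_singleton_eq_span_singleton]
    exact (associated_unit_mul_left a _ ε.isUnit)
  have he : Function.Bijective e := by
    constructor
    · rintro ⟨I, ε⟩ ⟨I', ε'⟩ h
      have h' : (ε : 𝓞 K) * g I = (ε' : 𝓞 K) * g I' := congrArg Subtype.val h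
      have h1 : Ideal.span {g I} = Ideal.span {g I'} := by
        rw [← hspan ε (g I), ← hspan ε' (g I'), h']
      rw [hg, hg] at h1
      have hJ0 : (J : Ideal (𝓞 K)) ≠ 0 := nonZeroDivisors.coe_ne_zero J
      have h2 : (I.1 : Ideal (𝓞 K)) = I'.1 := mul_right_cancel₀ hJ0 h1
      have h3 : I = I' := Subtype.ext (Subtype.ext h2)
      subst h3
      have h4 : (ε : 𝓞 K) = ε' := mul_right_cancel₀ (hg0 I) h'
      exact Prod.ext rfl (Units.ext h4)
    · rintro ⟨a, haJ, ha0⟩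
      have hdvd : (J : Ideal (𝓞 K)) ∣ Ideal.span {a} := by
        rw [Ideal.dvd_iff_le, Ideal.span_singleton_le_iff_mem]
        exact haJ
      obtain ⟨I, hI⟩ := hdvd
      have hI0 : I ≠ 0 := by
        rintro rfl
        rw [mul_zero] at hI
        exact ha0 (Ideal.span_singleton_eq_bot.mp hI)
      let I₁ : (Ideal (𝓞 K))⁰ := ⟨I, mem_nonZeroDivisors_of_ne_zero hI0⟩
      have hcl : ClassGroup.mk0 I₁ = (ClassGroup.mk0 J)⁻¹ := by
        rw [eq_inv_iff_mul_eq_one, ← map_mul, ClassGroup.mk0_eq_one_iff]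
        refine ⟨a, ?_⟩
        rw [Submonoid.coe_mul, mul_comm]
        exact hI.symm
      have h1 : Ideal.span {a} = Ideal.span {g ⟨I₁, hcl⟩} := by
        rw [hg, hI, mul_comm]
      rw [Ideal.span_singleton_eq_span_singleton] at h1
      obtain ⟨u, hu⟩ := h1.symm
      refine ⟨(⟨I₁, hcl⟩, u), Subtype.ext ?_⟩
      show (u : 𝓞 K) * g _ = a
      rw [mul_comm]
      exact hu
  have hsf := summable_ff (K := K) hs
  have hse : Summable fun x : InClass (ClassGroup.mk0 J)⁻¹ × (𝓞 K)ˣ =>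
      ff s (((e x : X) : 𝓞 K) : K) :=
    (hsf.comp_injective (Subtype.val_injective (p := fun a => a ∈ X))).comp_injective he.1
  have hinner : ∀ I : InClass (ClassGroup.mk0 J)⁻¹,
      ∑' ε : (𝓞 K)ˣ, ff s (((e (I, ε) : X) : 𝓞 K) : K) = nrm s J * nrm s I.1 := by
    intro I
    have hgI : (g I : K) ≠ 0 := by simpa using hg0 I
    have h1 := (hasSum_ff (s := s) hgI).tsum_eq
    have h2 : (fun ε : (𝓞 K)ˣ => ff s (((e (I, ε) : X) : 𝓞 K) : K)) =
        fun ε : (𝓞 K)ˣ => ff s ((ε : K) * (g I : K)) := by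
      funext ε
      exact congrArg (ff s) (map_mul (algebraMap (𝓞 K) K) _ _)
    have h3 : (Algebra.norm ℚ (g I : K)) = ((Algebra.norm ℤ (g I) : ℤ) : ℚ) :=
      (Algebra.coe_norm_int (g I)).symm
    have h4 : nn (g I : K) = (Ideal.absNorm ((I.1 * J : (Ideal (𝓞 K))⁰) : Ideal (𝓞 K)) : ℝ) := by
      unfold nn
      rw [h3, Submonoid.coe_mul, ← hg I, Ideal.absNorm_span_singleton, Nat.cast_natAbs,
        Rat.cast_intCast, Int.cast_abs]
    rw [h2, h1, ← nrm_mul, mul_comm, h4]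
    rfl
  constructor
  · have h1 := hse.prod
    have h2 : (fun I : InClass (ClassGroup.mk0 J)⁻¹ =>
        ∑' ε : (𝓞 K)ˣ, ff s (((e (I, ε) : X) : 𝓞 K) : K)) =
        fun I => nrm s J * nrm s I.1 := funext hinner
    rw [h2] at h1
    exact (summable_mul_left_iff (nrm_pos s J).ne').mp h1
  · have h1 : ∑' a : (J : Ideal (𝓞 K)), ff s ((a : 𝓞 K) : K) =
        ∑' a : X, ff s ((a : 𝓞 K) : K) := by
      have hA := tsum_subtype ((J : Ideal (𝓞 K)) : Set (𝓞 K)) (fun a : 𝓞 K => ff s (a : K))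
      have hB := tsum_subtype X (fun a : 𝓞 K => ff s (a : K))
      refine hA.trans (Eq.trans ?_ hB.symm)
      refine tsum_congr fun a => ?_
      by_cases ha : a ∈ (J : Ideal (𝓞 K))
      · by_cases ha0 : a = 0
        · have h0 : ff s (a : K) = 0 := by
            rw [ha0]
            have h0 : ((0 : 𝓞 K) : K) = 0 := by simp
            rw [h0]
            exact ff_zero (by linarith)
          simp [Set.indicator, h0]
        · rw [Set.indicator_of_mem (show a ∈ ((J : Ideal (𝓞 K)) : Set (𝓞 K)) from ha),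
            Set.indicator_of_mem (show a ∈ X from ⟨ha, ha0⟩)]
      · rw [Set.indicator_of_notMem (show a ∉ ((J : Ideal (𝓞 K)) : Set (𝓞 K)) from ha),
            Set.indicator_of_notMem (show a ∉ X from fun h => ha h.1)]
    rw [h1, ← (Equiv.ofBijective e he).tsum_eq (fun a : X => ff s ((a : 𝓞 K) : K))]
    have h2 : ∑' x : InClass (ClassGroup.mk0 J)⁻¹ × (𝓞 K)ˣ,
        ff s (((Equiv.ofBijective e he x : X) : 𝓞 K) : K) =
        ∑' I, ∑' ε : (𝓞 K)ˣ, ff s (((e (I, ε) : X) : 𝓞 K) : K) := hse.tsum_prod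
    rw [h2]
    simp_rw [hinner]
    rw [tsum_mul_left]
    rfl

lemma summable_clz {s : ℝ} (hs : 1 < s) (C : ClassGroup (𝓞 K)) :
    Summable (fun I : InClass C => nrm s I.1) := by
  obtain ⟨J, hJ⟩ := ClassGroup.mk0_surjective C⁻¹
  have h := (unfold_sum J hs).1
  rw [hJ, inv_inv] at h
  exact h

/-! ### sums over fibres -/

lemma fiber_sum {X β : Type*} (N : X → β) [hfin : ∀ b, Finite {x // N x = b}] (F : β → ℝ)
    (hF : ∀ b, 0 ≤ F b) (hsum : Summable fun b => (Nat.card {x // N x = b} : ℝ) * F b) :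
    Summable (fun x => F (N x)) ∧
      ∑' x, F (N x) = ∑' b, (Nat.card {x // N x = b} : ℝ) * F b := by
  classical
  have hin : ∀ b, ∑' x : {x // N x = b}, F (N x.1) = (Nat.card {x // N x = b} : ℝ) * F b := by
    intro b
    haveI := Fintype.ofFinite {x // N x = b}
    rw [tsum_fintype, Nat.card_eq_fintype_card]
    have : ∀ x : {x // N x = b}, F (N x.1) = F b := fun x => by rw [x.2]
    simp_rw [this]
    rw [Finset.sum_const, nsmul_eq_mul]
    rfl
  have hs : Summable fun y : Σ b, {x // N x = b} => F (N y.2.1) := by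
    rw [summable_sigma_of_nonneg (fun y => hF _)]
    refine ⟨fun b => ?_, ?_⟩
    · haveI := Fintype.ofFinite {x // N x = b}
      exact (hasSum_fintype _).summable
    · simp_rw [hin]
      exact hsum
  have hs2 : Summable (fun x => F (N x)) := by
    rw [← (Equiv.sigmaFiberEquiv N).summable_iff]
    exact hs
  refine ⟨hs2, ?_⟩
  rw [← (Equiv.sigmaFiberEquiv N).tsum_eq]
  have h3 : ∑' y : Σ b, {x // N x = b}, F (N (Equiv.sigmaFiberEquiv N y)) =
      ∑' b, ∑' x : {x // N x = b}, F (N x.1) := hs.tsum_sigma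
  rw [h3]
  simp_rw [hin]

lemma all_ideals {s : ℝ} (hs : 1 < s) :
    Summable (fun I : Ideal (𝓞 K) => (Ideal.absNorm I : ℝ) ^ (-s)) ∧
      ∑' I : Ideal (𝓞 K), (Ideal.absNorm I : ℝ) ^ (-s) = FrobDensity.realZeta K s := by
  haveI : ∀ n : ℕ, Finite {I : Ideal (𝓞 K) // Ideal.absNorm I = n} := fun n =>
    (Ideal.finite_setOfPred_absNorm_eq n).to_subtype
  exact fiber_sum (fun I : Ideal (𝓞 K) => Ideal.absNorm I) (fun n : ℕ => (n : ℝ) ^ (-s))
    (fun n => by positivity) (FrobDensity.summable_dterm K hs)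

lemma summable_nrm {s : ℝ} (hs : 1 < s) : Summable (fun I : (Ideal (𝓞 K))⁰ => nrm s I) :=
  (all_ideals hs).1.comp_injective Subtype.val_injective

lemma tsum_nrm_le {s : ℝ} (hs : 1 < s) :
    ∑' I : (Ideal (𝓞 K))⁰, nrm s I ≤ FrobDensity.realZeta K s := by
  rw [← (all_ideals hs).2]
  exact (all_ideals (K := K) hs).1.tsum_subtype_le (fun I : Ideal (𝓞 K) =>
    (Ideal.absNorm I : ℝ) ^ (-s)) _ (fun I => by positivity)

lemma clz_le {s : ℝ} (hs : 1 < s) (C : ClassGroup (𝓞 K)) :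
    clz s C ≤ FrobDensity.realZeta K s := by
  refine le_trans ?_ (tsum_nrm_le hs)
  exact (summable_nrm (K := K) hs).tsum_subtype_le (fun I => nrm s I)
    {I | ClassGroup.mk0 I = C} (fun I => (nrm_pos s I).le)

lemma exists_zeta_bound (K : Type*) [Field K] [NumberField K] :
    ∃ B : ℝ, 0 ≤ B ∧ ∀ s : ℝ, 1 < s → s ≤ 2 → (s - 1) * FrobDensity.realZeta K s ≤ B := by
  obtain ⟨C, hC⟩ := FrobDensity.exists_bound_log_realZeta K
  refine ⟨Real.exp C, (Real.exp_pos _).le, fun s hs hs2 => ?_⟩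
  have h1 := (abs_le.mp (hC s hs hs2)).2
  have hz : 0 < FrobDensity.realZeta K s := one_pos.trans_le (FrobDensity.one_le_realZeta K hs)
  have hs0 : 0 < s - 1 := by linarith
  rw [one_div, Real.log_inv] at h1
  rw [← Real.log_le_iff_le_exp (mul_pos hs0 hz), Real.log_mul hs0.ne' hz.ne']
  linarith

/-- The differences of partial zeta functions are bounded. -/
theorem clz_diff (K : Type*) [Field K] [NumberField K] : ∃ B : ℝ, 0 ≤ B ∧
    ∀ s : ℝ, 1 < s → s ≤ 2 → ∀ C : ClassGroup (𝓞 K), |clz s C - clz s (1 : ClassGroup (𝓞 K))| ≤ B := by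
  classical
  obtain ⟨Z, hZ0, hZ⟩ := exists_zeta_bound K
  have key : ∀ C : ClassGroup (𝓞 K), ∃ B : ℝ, 0 ≤ B ∧
      ∀ s : ℝ, 1 < s → s ≤ 2 → |clz s C - clz s (1 : ClassGroup (𝓞 K))| ≤ B := by
    intro C
    obtain ⟨J, hJ⟩ := ClassGroup.mk0_surjective C⁻¹
    obtain ⟨B, hB⟩ := compare (J : Ideal (𝓞 K)) (nonZeroDivisors.coe_ne_zero J)
    set n : ℝ := (Ideal.absNorm (J : Ideal (𝓞 K)) : ℝ) with hn
    have hn1 : 1 ≤ n := by
      have := Ideal.absNorm_pos_of_nonZeroDivisors J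
      rw [hn]
      exact_mod_cast this
    have hn0 : 0 < n := by linarith
    have hlog : 0 ≤ Real.log n := Real.log_nonneg hn1
    refine ⟨n * |B| + n * Real.log n * Z, by positivity, fun s hs hs2 => ?_⟩
    have h1 := hB s hs hs2
    have h2 := (unfold_sum J hs).2
    rw [hJ, inv_inv] at h2
    have h3 : ∑' a : 𝓞 K, ff s (a : K) = clz s (1 : ClassGroup (𝓞 K)) := by
      have h4 := (unfold_sum (1 : (Ideal (𝓞 K))⁰) hs).2
      rw [map_one, inv_one, nrm_one, one_mul] at h4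
      rw [← h4]
      have h5 := tsum_univ (fun a : 𝓞 K => ff s (a : K))
      have h6 : (((1 : (Ideal (𝓞 K))⁰) : Ideal (𝓞 K)) : Set (𝓞 K)) = Set.univ := by simp
      rw [← h5, ← h6]
      rfl
    rw [h3, h2] at h1
    have h4 : n * (nrm s J * clz s C) = n ^ (1 - s) * clz s C := by
      unfold nrm
      rw [← hn, ← mul_assoc]
      congr 1
      rw [sub_eq_add_neg, Real.rpow_add hn0, Real.rpow_one]
    rw [h4] at h1
    -- multiply by `n ^ (s - 1)`
    set t : ℝ := n ^ (s - 1) with ht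
    have ht0 : 0 < t := Real.rpow_pos_of_pos hn0 _
    have htn : t ≤ n := by
      calc t ≤ n ^ (1 : ℝ) := Real.rpow_le_rpow_of_exponent_le hn1 (by linarith)
        _ = n := Real.rpow_one n
    have ht1 : n ^ (1 - s) = t⁻¹ := by
      rw [ht, ← Real.rpow_neg hn0.le]
      congr 1; ring
    rw [ht1] at h1
    have h5 : clz s C - t * clz s (1 : ClassGroup (𝓞 K)) = -(t * (clz s (1 : ClassGroup (𝓞 K)) - t⁻¹ * clz s C)) := by
      field_simp
      ring
    have h6 : |clz s C - t * clz s (1 : ClassGroup (𝓞 K))| ≤ n * |B| := by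
      rw [h5, abs_neg, abs_mul, abs_of_pos ht0]
      exact mul_le_mul htn (h1.trans (le_abs_self B)) (abs_nonneg _) hn0.le
    have h7 : |t * clz s (1 : ClassGroup (𝓞 K)) - clz s (1 : ClassGroup (𝓞 K))| ≤ n * Real.log n * Z := by
      have hx : |t - 1| ≤ (s - 1) * (n * Real.log n) := by
        have h8 := abs_exp_sub_one_le' ((s - 1) * Real.log n)
        have h9 : Real.exp ((s - 1) * Real.log n) = t := by
          rw [ht, Real.rpow_def_of_pos hn0, mul_comm]
        have h10 : |(s - 1) * Real.log n| = (s - 1) * Real.log n :=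
          abs_of_nonneg (mul_nonneg (by linarith) hlog)
        rw [h10, h9] at h8
        refine h8.trans ?_
        have : (s - 1) * Real.log n * t ≤ (s - 1) * Real.log n * n :=
          mul_le_mul_of_nonneg_left htn (mul_nonneg (by linarith) hlog)
        linarith
      have hc0 : 0 ≤ clz s (1 : ClassGroup (𝓞 K)) := tsum_nonneg fun I => (nrm_pos s I.1).le
      have h11 : t * clz s (1 : ClassGroup (𝓞 K)) - clz s (1 : ClassGroup (𝓞 K)) = (t - 1) * clz s (1 : ClassGroup (𝓞 K)) := by ring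
      rw [h11, abs_mul, abs_of_nonneg hc0]
      calc |t - 1| * clz s (1 : ClassGroup (𝓞 K))
          ≤ (s - 1) * (n * Real.log n) * FrobDensity.realZeta K s :=
            mul_le_mul hx (clz_le hs 1) hc0 (by
              have : 0 ≤ n * Real.log n := by positivity
              have h0 : 0 ≤ s - 1 := by linarith
              positivity)
        _ = n * Real.log n * ((s - 1) * FrobDensity.realZeta K s) := by ring
        _ ≤ n * Real.log n * Z := mul_le_mul_of_nonneg_left (hZ s hs hs2) (by positivity)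
    have h12 : clz s C - clz s (1 : ClassGroup (𝓞 K)) = (clz s C - t * clz s (1 : ClassGroup (𝓞 K))) + (t * clz s (1 : ClassGroup (𝓞 K)) - clz s (1 : ClassGroup (𝓞 K))) := by ring
    rw [h12]
    exact (abs_add_le _ _).trans (add_le_add h6 h7)
  choose B hB0 hB using key
  refine ⟨∑ C, B C, Finset.sum_nonneg fun C _ => hB0 C, fun s hs hs2 C => ?_⟩
  exact (hB C s hs hs2).trans (Finset.single_le_sum (f := B) (fun C _ => hB0 C) (Finset.mem_univ C))

/-! ### The `L`-function -/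

/-- The term of the Dirichlet series of a class group character -/
def gterm (χ : ClassGroup (𝓞 K) →* ℂˣ) (s : ℝ) (I : (Ideal (𝓞 K))⁰) : ℂ :=
  (χ (ClassGroup.mk0 I) : ℂ) * (nrm s I : ℂ)

lemma norm_char (χ : ClassGroup (𝓞 K) →* ℂˣ) (C : ClassGroup (𝓞 K)) : ‖(χ C : ℂ)‖ = 1 := by
  have h1 : C ^ Fintype.card (ClassGroup (𝓞 K)) = 1 := pow_card_eq_one
  have h2 : (χ C : ℂ) ^ Fintype.card (ClassGroup (𝓞 K)) = 1 := by
    rw [← Units.val_pow_eq_pow_val, ← map_pow, h1, map_one, Units.val_one]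
  exact Complex.norm_eq_one_of_pow_eq_one h2 Fintype.card_ne_zero

lemma norm_gterm (χ : ClassGroup (𝓞 K) →* ℂˣ) (s : ℝ) (I : (Ideal (𝓞 K))⁰) :
    ‖gterm χ s I‖ = nrm s I := by
  unfold gterm
  rw [norm_mul, norm_char, one_mul, Complex.norm_real, Real.norm_of_nonneg (nrm_pos s I).le]

lemma gterm_mul (χ : ClassGroup (𝓞 K) →* ℂˣ) (s : ℝ) (I J : (Ideal (𝓞 K))⁰) :
    gterm χ s (I * J) = gterm χ s I * gterm χ s J := by
  unfold gterm
  rw [map_mul, map_mul, nrm_mul]
  push_cast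
  ring

lemma gterm_one (χ : ClassGroup (𝓞 K) →* ℂˣ) (s : ℝ) : gterm χ s 1 = 1 := by
  unfold gterm
  rw [map_one, map_one, nrm_one]
  simp

lemma summable_gterm (χ : ClassGroup (𝓞 K) →* ℂˣ) {s : ℝ} (hs : 1 < s) :
    Summable (fun I => ‖gterm χ s I‖) := by
  simp_rw [norm_gterm]
  exact summable_nrm hs

theorem L_bounded (χ : ClassGroup (𝓞 K) →* ℂˣ) (hχ : χ ≠ 1) : ∃ B : ℝ, ∀ s : ℝ, 1 < s → s ≤ 2 →
    ‖∑' I, gterm χ s I‖ ≤ B := by
  classical
  obtain ⟨B, hB0, hB⟩ := clz_diff K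
  refine ⟨Fintype.card (ClassGroup (𝓞 K)) * B, fun s hs hs2 => ?_⟩
  have hsum : Summable fun I : (Ideal (𝓞 K))⁰ => gterm χ s I := (summable_gterm χ hs).of_norm
  have h1 : ∑' I, gterm χ s I = ∑ C : ClassGroup (𝓞 K), (χ C : ℂ) * (clz s C : ℂ) := by
    rw [← (Equiv.sigmaFiberEquiv (fun I : (Ideal (𝓞 K))⁰ => ClassGroup.mk0 I)).tsum_eq]
    have hs2 : Summable fun y : Σ C, {I : (Ideal (𝓞 K))⁰ // ClassGroup.mk0 I = C} =>
        gterm χ s y.2.1 := by
      have := (Equiv.sigmaFiberEquiv (fun I : (Ideal (𝓞 K))⁰ => ClassGroup.mk0 I)).summable_iff.mpr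
        hsum
      exact this
    have h3 : ∑' y : Σ C, {I : (Ideal (𝓞 K))⁰ // ClassGroup.mk0 I = C},
        gterm χ s (Equiv.sigmaFiberEquiv (fun I : (Ideal (𝓞 K))⁰ => ClassGroup.mk0 I) y) =
        ∑' C, ∑' I : InClass C, gterm χ s I.1 := hs2.tsum_sigma
    rw [h3, tsum_fintype]
    refine Finset.sum_congr rfl fun C _ => ?_
    unfold clz
    rw [Complex.ofReal_tsum, ← tsum_mul_left]
    refine tsum_congr fun I => ?_
    unfold gterm
    rw [I.2]
  have h2 : ∑ C : ClassGroup (𝓞 K), (χ C : ℂ) = 0 := by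
    have hne : (Units.coeHom ℂ).comp χ ≠ 1 := by
      intro h
      apply hχ
      ext C
      have := DFunLike.congr_fun h C
      simpa using this
    exact sum_hom_units_eq_zero ((Units.coeHom ℂ).comp χ) hne
  have h3 : ∑' I, gterm χ s I =
      ∑ C : ClassGroup (𝓞 K), (χ C : ℂ) * ((clz s C - clz s (1 : ClassGroup (𝓞 K)) : ℝ) : ℂ) := by
    rw [h1]
    have : ∑ C : ClassGroup (𝓞 K), (χ C : ℂ) * ((clz s C - clz s (1 : ClassGroup (𝓞 K)) : ℝ) : ℂ) =
        ∑ C : ClassGroup (𝓞 K), (χ C : ℂ) * (clz s C : ℂ) -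
        (∑ C : ClassGroup (𝓞 K), (χ C : ℂ)) * (clz s (1 : ClassGroup (𝓞 K)) : ℂ) := by
      rw [Finset.sum_mul, ← Finset.sum_sub_distrib]
      refine Finset.sum_congr rfl fun C _ => ?_
      push_cast
      ring
    rw [this, h2, zero_mul, sub_zero]
  rw [h3]
  refine (norm_sum_le _ _).trans ?_
  calc ∑ C : ClassGroup (𝓞 K), ‖(χ C : ℂ) * ((clz s C - clz s (1 : ClassGroup (𝓞 K)) : ℝ) : ℂ)‖
      ≤ ∑ _C : ClassGroup (𝓞 K), B := by
        refine Finset.sum_le_sum fun C _ => ?_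
        rw [norm_mul, norm_char, one_mul, Complex.norm_real, Real.norm_eq_abs]
        exact hB s hs hs2 C
    _ = Fintype.card (ClassGroup (𝓞 K)) * B := by simp

end

end Fermat.Agent.ExtVanD
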