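import Fermat.Agent.ExtVan.DensD

/-!
Sieve identity for Dirichlet series over ideals and the lower bound for `L(s, χ)`.
-/

set_option autoImplicit false
set_option maxHeartbeats 400000

open NumberField NumberField.InfinitePlace NumberField.Units nonZeroDivisors

namespace Fermat.Agent.ExtVanD

noncomputable section

variable {K : Type*} [Field K] [NumberField K]

/-- `I` is divisible by no element of `S`. -/
def cop (S : Finset ((Ideal (𝓞 K))⁰)) (I : (Ideal (𝓞 K))⁰) : Prop :=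
  ∀ q ∈ S, ¬ ((q : Ideal (𝓞 K)) ∣ (I : Ideal (𝓞 K)))

/-- primes -/
def isP (q : (Ideal (𝓞 K))⁰) : Prop := (q : Ideal (𝓞 K)).IsPrime

open scoped Classical in
/-- the sieved sum -/
def LS (g : (Ideal (𝓞 K))⁰ → ℂ) (S : Finset ((Ideal (𝓞 K))⁰)) : ℂ :=
  ∑' I, if cop S I then g I else 0

lemma dvd_mul_prime {q q' I : (Ideal (𝓞 K))⁰} (hq : isP q) (hq' : isP q') (hne : q' ≠ q) :
    (q' : Ideal (𝓞 K)) ∣ ((q * I : (Ideal (𝓞 K))⁰) : Ideal (𝓞 K)) ↔
      (q' : Ideal (𝓞 K)) ∣ (I : Ideal (𝓞 K)) := by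
  rw [Submonoid.coe_mul]
  constructor
  · intro h
    rw [Ideal.dvd_iff_le] at h ⊢
    rcases (Ideal.IsPrime.mul_le hq').mp h with h1 | h1
    · exfalso
      have hmax : (q : Ideal (𝓞 K)).IsMaximal :=
        Ideal.IsPrime.isMaximal hq (nonZeroDivisors.coe_ne_zero q)
      have h2 := hmax.eq_of_le hq'.ne_top h1
      exact hne (Subtype.ext h2.symm)
    · exact h1
  · intro h
    exact h.mul_left _

variable (g : (Ideal (𝓞 K))⁰ → ℂ)

lemma LS_insert (hmul : ∀ I J, g (I * J) = g I * g J) (hsum : Summable fun I => ‖g I‖)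
    {S : Finset ((Ideal (𝓞 K))⁰)} (hS : ∀ q ∈ S, isP q) {q : (Ideal (𝓞 K))⁰} (hq : isP q)
    [DecidableEq ((Ideal (𝓞 K))⁰)]
    (hqS : q ∉ S) : LS g (insert q S) = (1 - g q) * LS g S := by
  classical
  have hs1 : Summable fun I => if cop S I then g I else 0 := by
    refine Summable.of_norm_bounded hsum fun I => ?_
    split_ifs
    · exact le_rfl
    · rw [norm_zero]; exact norm_nonneg _
  have hs2 : Summable fun I : (Ideal (𝓞 K))⁰ =>
      if cop S I ∧ (q : Ideal (𝓞 K)) ∣ (I : Ideal (𝓞 K)) then g I else 0 := by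
    refine Summable.of_norm_bounded hsum fun I => ?_
    split_ifs
    · exact le_rfl
    · rw [norm_zero]; exact norm_nonneg _
  have h1 : LS g (insert q S) = LS g S -
      ∑' I : (Ideal (𝓞 K))⁰, if cop S I ∧ (q : Ideal (𝓞 K)) ∣ (I : Ideal (𝓞 K)) then g I else 0 := by
    unfold LS
    rw [← hs1.tsum_sub hs2]
    refine tsum_congr fun I => ?_
    have h2 : cop (insert q S) I ↔ (¬ ((q : Ideal (𝓞 K)) ∣ (I : Ideal (𝓞 K))) ∧ cop S I) := by
      unfold cop
      rw [Finset.forall_mem_insert]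
    by_cases hc : cop S I <;> by_cases hd : (q : Ideal (𝓞 K)) ∣ (I : Ideal (𝓞 K)) <;>
      simp [h2, hc, hd]
  have hinj : Function.Injective fun I : (Ideal (𝓞 K))⁰ => q * I := by
    intro I J h
    have h' : ((q * I : (Ideal (𝓞 K))⁰) : Ideal (𝓞 K)) = ((q * J : (Ideal (𝓞 K))⁰) : Ideal (𝓞 K)) :=
      congrArg Subtype.val h
    rw [Submonoid.coe_mul, Submonoid.coe_mul] at h'
    exact Subtype.ext (mul_left_cancel₀ (nonZeroDivisors.coe_ne_zero q) h')
  have h3 : ∑' I : (Ideal (𝓞 K))⁰,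
      (if cop S I ∧ (q : Ideal (𝓞 K)) ∣ (I : Ideal (𝓞 K)) then g I else 0) = g q * LS g S := by
    rw [← hinj.tsum_eq]
    · unfold LS
      rw [← tsum_mul_left]
      refine tsum_congr fun I => ?_
      have h4 : (q : Ideal (𝓞 K)) ∣ ((q * I : (Ideal (𝓞 K))⁰) : Ideal (𝓞 K)) := by
        rw [Submonoid.coe_mul]; exact Dvd.intro _ rfl
      have h5 : cop S (q * I) ↔ cop S I := by
        unfold cop
        refine forall_congr' fun q' => forall_congr' fun hq' => ?_
        rw [dvd_mul_prime hq (hS q' hq') (fun h => hqS (h ▸ hq'))]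
      simp only [h4, h5, and_true, hmul]
      split_ifs <;> simp
    · intro I hI
      have h6 : (q : Ideal (𝓞 K)) ∣ (I : Ideal (𝓞 K)) := by
        by_contra h
        exact hI (if_neg fun h' => h h'.2)
      obtain ⟨J, hJ⟩ := h6
      have hJ0 : J ≠ 0 := by
        rintro rfl
        rw [mul_zero] at hJ
        exact nonZeroDivisors.coe_ne_zero I hJ
      exact ⟨⟨J, mem_nonZeroDivisors_of_ne_zero hJ0⟩, Subtype.ext hJ.symm⟩
  rw [h1, h3]
  ring

lemma LS_eq (hmul : ∀ I J, g (I * J) = g I * g J) (hsum : Summable fun I => ‖g I‖)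
    (S : Finset ((Ideal (𝓞 K))⁰)) (hS : ∀ q ∈ S, isP q) :
    LS g S = (∏ q ∈ S, (1 - g q)) * ∑' I, g I := by
  classical
  induction S using Finset.induction with
  | empty =>
    unfold LS cop
    simp
  | insert q S hqS ih =>
    rw [LS_insert g hmul hsum (fun x hx => hS x (Finset.mem_insert_of_mem hx))
      (hS q (Finset.mem_insert_self _ _)) hqS,
      ih (fun x hx => hS x (Finset.mem_insert_of_mem hx)), Finset.prod_insert hqS, mul_assoc]

lemma exists_prime_factor {I : (Ideal (𝓞 K))⁰} (hI : I ≠ 1) :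
    ∃ q : (Ideal (𝓞 K))⁰, isP q ∧ (q : Ideal (𝓞 K)) ∣ (I : Ideal (𝓞 K)) := by
  have h1 : (I : Ideal (𝓞 K)) ≠ ⊤ := by
    intro h
    apply hI
    apply Subtype.ext
    rw [h]
    simp
  obtain ⟨M, hM, hIM⟩ := Ideal.exists_le_maximal _ h1
  have hM0 : M ≠ 0 := by
    rintro rfl
    apply nonZeroDivisors.coe_ne_zero I
    exact le_bot_iff.mp hIM
  exact ⟨⟨M, mem_nonZeroDivisors_of_ne_zero hM0⟩, hM.isPrime, Ideal.dvd_iff_le.mpr hIM⟩

lemma cop_one {S : Finset ((Ideal (𝓞 K))⁰)} (hS : ∀ q ∈ S, isP q) : cop S 1 := by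
  intro q hq h
  have := hS q hq
  rw [Submonoid.coe_one, Ideal.one_eq_top, Ideal.dvd_iff_le] at h
  exact this.ne_top (top_le_iff.mp h)

lemma LS_tendsto (h1 : g 1 = 1) (hsum : Summable fun I => ‖g I‖) {ε : ℝ} (hε : 0 < ε) :
    ∃ S₀ : Finset ((Ideal (𝓞 K))⁰), (∀ q ∈ S₀, isP q) ∧
      ∀ S : Finset ((Ideal (𝓞 K))⁰), (∀ q ∈ S, isP q) → S₀ ⊆ S → ‖LS g S - 1‖ ≤ ε := by
  classical
  obtain ⟨F, hF⟩ : ∃ F : Finset ((Ideal (𝓞 K))⁰), ∑' I : {x // x ∉ F}, ‖g I‖ < ε := by
    have h := tendsto_tsum_compl_atTop_zero (fun I : (Ideal (𝓞 K))⁰ => ‖g I‖)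
    have h2 := (h.eventually (gt_mem_nhds hε)).exists
    exact h2
  choose! pf hpf1 hpf2 using fun (I : (Ideal (𝓞 K))⁰) (hI : I ≠ 1) => exists_prime_factor hI
  refine ⟨(F.filter (· ≠ 1)).image pf, ?_, ?_⟩
  · intro q hq
    obtain ⟨I, hI, rfl⟩ := Finset.mem_image.mp hq
    exact hpf1 I (Finset.mem_filter.mp hI).2
  · intro S hS hsub
    have hs1 : Summable fun I => if cop S I then g I else 0 := by
      refine Summable.of_norm_bounded hsum fun I => ?_
      split_ifs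
      · exact le_rfl
      · rw [norm_zero]; exact norm_nonneg _
    have hs2 : Summable fun I : (Ideal (𝓞 K))⁰ => if I = 1 then (1 : ℂ) else 0 :=
      (hasSum_ite_eq 1 1).summable
    have h3 : LS g S - 1 = ∑' I : (Ideal (𝓞 K))⁰,
        ((if cop S I then g I else 0) - if I = 1 then (1 : ℂ) else 0) := by
      rw [hs1.tsum_sub hs2, tsum_ite_eq]
      rfl
    have hF2 : Summable fun I => (({x | x ∉ F} : Set ((Ideal (𝓞 K))⁰)).indicator
        (fun I => ‖g I‖)) I := hsum.indicator _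
    rw [h3]
    have h4 : ∑' I, (({x | x ∉ F} : Set ((Ideal (𝓞 K))⁰)).indicator (fun I => ‖g I‖)) I ≤ ε := by
      rw [← tsum_subtype]
      exact hF.le
    refine le_trans (tsum_of_norm_bounded hF2.hasSum fun I => ?_) h4
    by_cases hI1 : I = 1
    · rw [hI1, if_pos (cop_one hS), if_pos rfl, h1, sub_self, norm_zero]
      exact Set.indicator_nonneg (fun _ _ => norm_nonneg _) _
    · rw [if_neg hI1, sub_zero]
      by_cases hc : cop S I
      · rw [if_pos hc]
        have hIF : I ∉ F := by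
          intro hIF
          refine hc (pf I) (hsub ?_) (hpf2 I hI1)
          exact Finset.mem_image_of_mem _ (Finset.mem_filter.mpr ⟨hIF, hI1⟩)
        rw [Set.indicator_of_mem (show I ∈ {x | x ∉ F} from hIF)]
      · rw [if_neg hc, norm_zero]
        exact Set.indicator_nonneg (fun _ _ => norm_nonneg _) _

lemma norm_one_sub_le (z : ℂ) : ‖1 - z‖ ≤ Real.exp (-z.re + ‖z‖ ^ 2 / 2) := by
  have h1 : ‖1 - z‖ ^ 2 = 1 - 2 * z.re + ‖z‖ ^ 2 := by
    rw [← Complex.normSq_eq_norm_sq, ← Complex.normSq_eq_norm_sq, Complex.normSq_apply,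
      Complex.normSq_apply]
    simp
    ring
  have h2 : ‖1 - z‖ ^ 2 ≤ (Real.exp (-z.re + ‖z‖ ^ 2 / 2)) ^ 2 := by
    rw [h1, ← Real.exp_nat_mul]
    have h3 := Real.add_one_le_exp (((2 : ℕ) : ℝ) * (-z.re + ‖z‖ ^ 2 / 2))
    push_cast at h3 ⊢
    linarith
  exact (pow_le_pow_iff_left₀ (norm_nonneg _) (Real.exp_pos _).le (by norm_num)).mp h2

/-- main lower bound -/
lemma lower_bound (χ : ClassGroup (𝓞 K) →* ℂˣ) {s : ℝ} (hs : 1 < s) {a b : ℝ}
    (S₁ : Finset ((Ideal (𝓞 K))⁰))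
    (hS₁ : ∀ q ∈ S₁, isP q)
    (hS₁' : ∀ q ∈ S₁, (Ideal.absNorm (q : Ideal (𝓞 K))).Prime)
    (hA : a ≤ ∑ q ∈ S₁, nrm s q)
    (hB : ∀ S : Finset ((Ideal (𝓞 K))⁰), (∀ q ∈ S, isP q ∧
      (Ideal.absNorm (q : Ideal (𝓞 K))).Prime ∧ χ (ClassGroup.mk0 q) ≠ 1) →
        ∑ q ∈ S, nrm s q ≤ b) :
    1 / 2 * Real.exp (2 * a - Real.log (FrobDensity.realZeta K s) - 2 * b -
      FrobDensity.realZeta K 2) ≤ ‖∑' I, gterm χ s I‖ := by
  classical
  obtain ⟨S₀, hS₀, hlim⟩ := LS_tendsto (gterm χ s) (gterm_one χ s) (summable_gterm χ hs)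
    (ε := 1 / 2) (by norm_num)
  set S := S₀ ∪ S₁ with hSdef
  have hS : ∀ q ∈ S, isP q := by
    intro q hq
    rcases Finset.mem_union.mp hq with h | h
    · exact hS₀ q h
    · exact hS₁ q h
  have h1 := hlim S hS Finset.subset_union_left
  have h2 : 1 / 2 ≤ ‖LS (gterm χ s) S‖ := by
    have h3 := norm_sub_norm_le (1 : ℂ) (LS (gterm χ s) S)
    rw [norm_one, norm_sub_rev] at h3
    linarith
  rw [LS_eq (gterm χ s) (gterm_mul χ s) (summable_gterm χ hs) S hS, norm_mul,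
    norm_prod] at h2
  have h4 : ∏ q ∈ S, ‖1 - gterm χ s q‖ ≤
      Real.exp (∑ q ∈ S, (-(gterm χ s q).re + ‖gterm χ s q‖ ^ 2 / 2)) := by
    rw [Real.exp_sum]
    exact Finset.prod_le_prod (fun _ _ => norm_nonneg _) fun q _ => norm_one_sub_le _
  -- trivial character
  have h5 : 1 ≤ ‖LS (gterm (1 : ClassGroup (𝓞 K) →* ℂˣ) s) S‖ := by
    have h6 : LS (gterm (1 : ClassGroup (𝓞 K) →* ℂˣ) s) S =
        ((∑' I : (Ideal (𝓞 K))⁰, (if cop S I then nrm s I else 0) : ℝ) : ℂ) := by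
      unfold LS
      rw [Complex.ofReal_tsum]
      refine tsum_congr fun I => ?_
      split_ifs
      · unfold gterm; simp
      · simp
    rw [h6, Complex.norm_real, Real.norm_eq_abs]
    refine le_trans ?_ (le_abs_self _)
    have h7 : Summable fun I : (Ideal (𝓞 K))⁰ => if cop S I then nrm s I else 0 := by
      refine Summable.of_nonneg_of_le (fun I => ?_) (fun I => ?_) (summable_nrm (K := K) hs)
      · split_ifs
        · exact (nrm_pos s I).le
        · exact le_rfl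
      · split_ifs
        · exact le_rfl
        · exact (nrm_pos s I).le
    have h8 := h7.le_tsum 1 (fun I _ => by
      split_ifs
      · exact (nrm_pos s I).le
      · exact le_rfl)
    rwa [if_pos (cop_one hS), nrm_one] at h8
  rw [LS_eq (gterm 1 s) (gterm_mul 1 s) (summable_gterm 1 hs) S hS, norm_mul, norm_prod] at h5
  have hzeta : ‖∑' I, gterm (1 : ClassGroup (𝓞 K) →* ℂˣ) s I‖ ≤ FrobDensity.realZeta K s := by
    refine le_trans ?_ (tsum_nrm_le hs)
    have := norm_tsum_le_tsum_norm (summable_gterm (1 : ClassGroup (𝓞 K) →* ℂˣ) hs)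
    simp_rw [norm_gterm] at this
    exact this
  have h9 : ∏ q ∈ S, ‖1 - gterm (1 : ClassGroup (𝓞 K) →* ℂˣ) s q‖ ≤
      Real.exp (-∑ q ∈ S, nrm s q) := by
    rw [← Finset.sum_neg_distrib, Real.exp_sum]
    refine Finset.prod_le_prod (fun _ _ => norm_nonneg _) fun q _ => ?_
    have h10 : (1 : ℂ) - gterm (1 : ClassGroup (𝓞 K) →* ℂˣ) s q = ((1 - nrm s q : ℝ) : ℂ) := by
      unfold gterm; simp
    have hle1 : nrm s q ≤ 1 := by
      unfold nrm
      refine Real.rpow_le_one_of_one_le_of_nonpos ?_ (by linarith)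
      have := Ideal.absNorm_pos_of_nonZeroDivisors q
      exact_mod_cast this
    rw [h10, Complex.norm_real, Real.norm_of_nonneg (by linarith)]
    have := Real.add_one_le_exp (-nrm s q)
    linarith
  have hz0 : 0 < FrobDensity.realZeta K s := one_pos.trans_le (FrobDensity.one_le_realZeta K hs)
  have h11 : ∑ q ∈ S, nrm s q ≤ Real.log (FrobDensity.realZeta K s) := by
    have h12 : 1 ≤ Real.exp (-∑ q ∈ S, nrm s q) * FrobDensity.realZeta K s :=
      h5.trans (mul_le_mul h9 hzeta (norm_nonneg _) (Real.exp_pos _).le)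
    have h13 := Real.log_le_log one_pos h12
    rw [Real.log_one, Real.log_mul (Real.exp_pos _).ne' hz0.ne', Real.log_exp] at h13
    linarith
  -- estimate of the exponent
  set D : Finset ((Ideal (𝓞 K))⁰) := S.filter fun q => (Ideal.absNorm (q : Ideal (𝓞 K))).Prime with hD
  set X : Finset ((Ideal (𝓞 K))⁰) := D.filter fun q => χ (ClassGroup.mk0 q) ≠ 1 with hX
  have hDa : a ≤ ∑ q ∈ D, nrm s q := by
    refine hA.trans (Finset.sum_le_sum_of_subset_of_nonneg ?_ fun q _ _ => (nrm_pos s q).le)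
    intro q hq
    rw [hD, Finset.mem_filter]
    exact ⟨Finset.mem_union_right _ hq, hS₁' q hq⟩
  have hXb : ∑ q ∈ X, nrm s q ≤ b := by
    apply hB
    intro q hq
    rw [hX, Finset.mem_filter, hD, Finset.mem_filter] at hq
    exact ⟨hS q hq.1.1, hq.1.2, hq.2⟩
  have hsq : ∑ q ∈ S, ‖gterm χ s q‖ ^ 2 / 2 ≤ FrobDensity.realZeta K 2 := by
    have h13 : ∀ q : (Ideal (𝓞 K))⁰, ‖gterm χ s q‖ ^ 2 / 2 ≤ nrm 2 q := by
      intro q
      rw [norm_gterm]
      have hn1 : (1 : ℝ) ≤ (Ideal.absNorm (q : Ideal (𝓞 K)) : ℝ) := by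
        have := Ideal.absNorm_pos_of_nonZeroDivisors q
        exact_mod_cast this
      have h14 : nrm s q ^ 2 = nrm (2 * s) q := by
        unfold nrm
        rw [← Real.rpow_natCast, ← Real.rpow_mul (by linarith)]
        congr 1
        push_cast
        ring
      have h15 : nrm (2 * s) q ≤ nrm 2 q := by
        unfold nrm
        exact Real.rpow_le_rpow_of_exponent_le hn1 (by linarith)
      rw [h14]
      have := nrm_pos 2 q
      have := nrm_pos (2 * s) q
      linarith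
    calc ∑ q ∈ S, ‖gterm χ s q‖ ^ 2 / 2 ≤ ∑ q ∈ S, nrm 2 q := Finset.sum_le_sum fun q _ => h13 q
      _ ≤ ∑' q, nrm 2 q := (summable_nrm (K := K) (by norm_num)).sum_le_tsum _
          fun q _ => (nrm_pos 2 q).le
      _ ≤ FrobDensity.realZeta K 2 := tsum_nrm_le (by norm_num)
  have hre : 2 * ∑ q ∈ D, nrm s q - ∑ q ∈ S, nrm s q - 2 * ∑ q ∈ X, nrm s q ≤
      ∑ q ∈ S, (gterm χ s q).re := by
    have hD' : ∑ q ∈ D, nrm s q = ∑ q ∈ S,
        if (Ideal.absNorm (q : Ideal (𝓞 K))).Prime then nrm s q else 0 := by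
      rw [hD, Finset.sum_filter]
    have hX' : ∑ q ∈ X, nrm s q = ∑ q ∈ S,
        if (Ideal.absNorm (q : Ideal (𝓞 K))).Prime then
          (if χ (ClassGroup.mk0 q) ≠ 1 then nrm s q else 0) else 0 := by
      rw [hX, Finset.sum_filter, hD, Finset.sum_filter]
    rw [hD', hX', Finset.mul_sum, Finset.mul_sum, ← Finset.sum_sub_distrib,
      ← Finset.sum_sub_distrib]
    refine Finset.sum_le_sum fun q _ => ?_
    have hpos := nrm_pos s q
    have hlow : -nrm s q ≤ (gterm χ s q).re := by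
      have h16 := Complex.abs_re_le_norm (gterm χ s q)
      rw [norm_gterm] at h16
      exact (abs_le.mp h16).1
    by_cases hp : (Ideal.absNorm (q : Ideal (𝓞 K))).Prime
    · by_cases hc : χ (ClassGroup.mk0 q) = 1
      · have h17 : (gterm χ s q).re = nrm s q := by
          unfold gterm; rw [hc]; simp
        rw [h17]
        simp only [hp, hc, if_true, ne_eq, not_true_eq_false, if_false]
        linarith
      · simp only [hp, hc, if_true, ne_eq, not_false_eq_true]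
        linarith
    · simp only [hp, if_false]
      linarith
  have h20 : 2 * a - Real.log (FrobDensity.realZeta K s) - 2 * b - FrobDensity.realZeta K 2 ≤
      -∑ q ∈ S, (-(gterm χ s q).re + ‖gterm χ s q‖ ^ 2 / 2) := by
    rw [Finset.sum_add_distrib, Finset.sum_neg_distrib]
    linarith
  have h21 : 1 / 2 ≤ Real.exp (∑ q ∈ S, (-(gterm χ s q).re + ‖gterm χ s q‖ ^ 2 / 2)) *
      ‖∑' I, gterm χ s I‖ := h2.trans (mul_le_mul_of_nonneg_right h4 (norm_nonneg _))
  calc 1 / 2 * Real.exp (2 * a - Real.log (FrobDensity.realZeta K s) - 2 * b -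
      FrobDensity.realZeta K 2)
      ≤ 1 / 2 * Real.exp (-∑ q ∈ S, (-(gterm χ s q).re + ‖gterm χ s q‖ ^ 2 / 2)) :=
        mul_le_mul_of_nonneg_left (Real.exp_le_exp.mpr h20) (by norm_num)
    _ ≤ (Real.exp (∑ q ∈ S, (-(gterm χ s q).re + ‖gterm χ s q‖ ^ 2 / 2)) *
      ‖∑' I, gterm χ s I‖) * Real.exp (-∑ q ∈ S, (-(gterm χ s q).re + ‖gterm χ s q‖ ^ 2 / 2)) :=
        mul_le_mul_of_nonneg_right h21 (Real.exp_pos _).le
    _ = ‖∑' I, gterm χ s I‖ := by
        rw [mul_right_comm, ← Real.exp_add, add_neg_cancel, Real.exp_zero, one_mul]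

end

end Fermat.Agent.ExtVanD
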