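import Fermat.Agent.ExtVan.DensE

/-!
Splitting of degree one primes in a Kummer extension of prime degree.
-/

set_option autoImplicit false
set_option maxHeartbeats 400000
set_option linter.deprecated false

open NumberField nonZeroDivisors

namespace Fermat.Agent.ExtVanD

noncomputable section

section Split

variable {K L : Type*} [Field K] [NumberField K] [Field L] [NumberField L] [Algebra K L]

/-- powers of a primitive root are distinct modulo a prime not dividing `p` -/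
lemma zeta_pow_sub_notMem {p : ℕ} (hp : p.Prime) {ζ : 𝓞 K} (hζ : IsPrimitiveRoot ζ p)
    {q : Ideal (𝓞 K)} (hq : q.IsPrime) (hpq : (p : 𝓞 K) ∉ q) {m : ℕ} (hm : ¬ p ∣ m) :
    ζ ^ m - 1 ∉ q := by
  intro h
  have h1 : ∃ r : ℕ, m * r ≡ 1 [MOD p] := by
    have hc : Nat.Coprime m p := ((Nat.Prime.coprime_iff_not_dvd hp).mpr hm).symm
    obtain ⟨r, hr⟩ := Nat.exists_mul_mod_eq_one_of_coprime hc hp.one_lt
    refine ⟨r, ?_⟩
    rw [Nat.ModEq, hr.2, Nat.mod_eq_of_lt hp.one_lt]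
  obtain ⟨r, hr⟩ := h1
  have h2 : ζ - 1 ∈ q := by
    have h3 : ζ ^ (m * r) = ζ := by
      have : ζ ^ (m * r) = ζ ^ 1 := by
        rw [← pow_mod_orderOf ζ (m * r), ← pow_mod_orderOf ζ 1, ← hζ.eq_orderOf]
        rw [hr]
      rw [this, pow_one]
    have h4 : ζ ^ m - 1 ∣ ζ ^ (m * r) - 1 := by
      rw [pow_mul]
      exact sub_one_dvd_pow_sub_one _ _
    rw [h3] at h4
    exact q.mem_of_dvd h4 h
  apply hpq
  have h5 : ∑ i ∈ Finset.range p, ζ ^ i = 0 := hζ.geom_sum_eq_zero hp.one_lt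
  have h6 : (p : 𝓞 K) = -∑ i ∈ Finset.range p, (ζ ^ i - 1) := by
    rw [Finset.sum_sub_distrib, h5]
    simp
  rw [h6]
  refine q.neg_mem (Ideal.sum_mem _ fun i _ => ?_)
  exact q.mem_of_dvd (sub_one_dvd_pow_sub_one ζ i) h2

theorem split_primes {p : ℕ} (hp : p.Prime) {ζ : 𝓞 K} (hζ : IsPrimitiveRoot ζ p)
    (hdeg : Module.finrank K L = p) {u : 𝓞 K} {α : 𝓞 L} (hα : α ^ p = algebraMap (𝓞 K) (𝓞 L) u)
    (σ : ℕ → (𝓞 L →ₐ[𝓞 K] 𝓞 L)) (hσ : ∀ k, σ k α = algebraMap (𝓞 K) (𝓞 L) (ζ ^ k) * α)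
    {q : Ideal (𝓞 K)} (hq : q.IsPrime) (hq0 : q ≠ ⊥) (hpq : (p : 𝓞 K) ∉ q) (huq : u ∉ q)
    {y : 𝓞 K} (hy : y ^ p - u ∈ q) :
    ∃ Q : Fin p → Ideal (𝓞 L), Function.Injective Q ∧ ∀ k, (Q k).IsPrime ∧ Q k ≠ ⊥ ∧
      (Q k).comap (algebraMap (𝓞 K) (𝓞 L)) = q ∧ Ideal.absNorm (Q k) = Ideal.absNorm q := by
  classical
  have hmax : q.IsMaximal := Ideal.IsPrime.isMaximal hq hq0
  obtain ⟨⟨Q₀, hQ₀, hQ₀q⟩⟩ := Ideal.nonempty_primesOver (S := 𝓞 L) q
  have hover : ∀ x : 𝓞 K, algebraMap (𝓞 K) (𝓞 L) x ∈ Q₀ ↔ x ∈ q := by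
    intro x
    rw [hQ₀q.over]
    rfl
  have hyq : y ∉ q := by
    intro h
    apply huq
    have h1 : y ^ p ∈ q := Ideal.pow_mem_of_mem q h p hp.pos
    have : u = y ^ p - (y ^ p - u) := by ring
    rw [this]
    exact q.sub_mem h1 hy
  -- find `i` with `α ≡ ζ ^ i y` modulo `Q₀`
  obtain ⟨i, hi⟩ : ∃ i : ℕ, α - algebraMap (𝓞 K) (𝓞 L) (ζ ^ i * y) ∈ Q₀ := by
    have hζL : IsPrimitiveRoot (algebraMap (𝓞 K) (𝓞 L) ζ) p :=
      hζ.map_of_injective (FaithfulSMul.algebraMap_injective (𝓞 K) (𝓞 L))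
    have h1 : α ^ p - (algebraMap (𝓞 K) (𝓞 L) y) ^ p ∈ Q₀ := by
      rw [hα, ← map_pow, ← map_sub, hover]
      have : u - y ^ p = -(y ^ p - u) := by ring
      rw [this]
      exact q.neg_mem hy
    rw [hζL.pow_sub_pow_eq_prod_sub_mul _ _ hp.pos] at h1
    obtain ⟨η, hη, hη2⟩ := (Ideal.IsPrime.prod_mem_iff (hp := hQ₀)).mp h1
    rw [Polynomial.mem_nthRootsFinset hp.pos] at hη
    haveI : NeZero p := ⟨hp.ne_zero⟩
    obtain ⟨i, -, hi⟩ := hζL.eq_pow_of_pow_eq_one hη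
    refine ⟨i, ?_⟩
    rw [map_mul, map_pow, hi]
    exact hη2
  let Q : Fin p → Ideal (𝓞 L) := fun k => Q₀.comap (σ k : 𝓞 L →+* 𝓞 L)
  have hQmem : ∀ (k : Fin p) (x : 𝓞 L), x ∈ Q k ↔ σ k x ∈ Q₀ := fun k x => Iff.rfl
  have hQp : ∀ k, (Q k).IsPrime := fun k => Ideal.comap_isPrime _ _
  have hQc : ∀ k, (Q k).comap (algebraMap (𝓞 K) (𝓞 L)) = q := by
    intro k
    ext x
    rw [Ideal.mem_comap, hQmem, AlgHom.commutes, hover]
  have hQl : ∀ k, (Q k).LiesOver q := fun k => ⟨(hQc k).symm⟩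
  have hQα : ∀ k : Fin p, α - algebraMap (𝓞 K) (𝓞 L) (ζ ^ (i + k : ℕ) * y) ∈ Q k := by
    intro k
    rw [hQmem, map_sub, hσ, AlgHom.commutes]
    have : algebraMap (𝓞 K) (𝓞 L) (ζ ^ (k : ℕ)) * α -
        algebraMap (𝓞 K) (𝓞 L) (ζ ^ (i + k : ℕ) * y) =
        algebraMap (𝓞 K) (𝓞 L) (ζ ^ (k : ℕ)) *
          (α - algebraMap (𝓞 K) (𝓞 L) (ζ ^ i * y)) := by
      simp only [map_mul, map_pow]
      ring
    rw [this]
    exact Q₀.mul_mem_left _ hi
  have hinj : Function.Injective Q := by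
    have key : ∀ k l : Fin p, (k : ℕ) < l → Q k ≠ Q l := by
      intro k l hkl h
      have h1 := hQα k
      rw [h] at h1
      have h2 := (Q l).sub_mem h1 (hQα l)
      have h3 : α - algebraMap (𝓞 K) (𝓞 L) (ζ ^ (i + k : ℕ) * y) -
          (α - algebraMap (𝓞 K) (𝓞 L) (ζ ^ (i + l : ℕ) * y)) =
          algebraMap (𝓞 K) (𝓞 L) (ζ ^ (i + k : ℕ) * y * (ζ ^ ((l : ℕ) - k) - 1)) := by
        have h4 : ζ ^ (i + l : ℕ) = ζ ^ (i + k : ℕ) * ζ ^ ((l : ℕ) - k) := by
          rw [← pow_add]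
          congr 1
          omega
        rw [h4]
        simp only [map_mul, map_pow, map_sub, map_one]
        ring
      rw [h3, ← Ideal.mem_comap, hQc] at h2
      rcases hq.mem_or_mem h2 with h5 | h5
      · rcases hq.mem_or_mem h5 with h6 | h6
        · have h7 : ζ ^ (i + k : ℕ) * ζ ^ ((i + k : ℕ) * (p - 1)) = 1 := by
            rw [← pow_add]
            have : (i + k : ℕ) + (i + k : ℕ) * (p - 1) = p * (i + k : ℕ) := by
              obtain ⟨p', rfl⟩ := Nat.exists_eq_succ_of_ne_zero hp.ne_zero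
              simp only [Nat.succ_eq_add_one, Nat.add_sub_cancel]
              ring
            rw [this, pow_mul, hζ.pow_eq_one, one_pow]
          apply hq.ne_top
          rw [Ideal.eq_top_iff_one, ← h7]
          exact q.mul_mem_right _ h6
        · exact hyq h6
      · refine zeta_pow_sub_notMem hp hζ hq hpq ?_ h5
        intro hd
        have := Nat.le_of_dvd (by omega) hd
        have := l.2
        omega
    intro k l h
    by_contra hne
    rcases lt_or_gt_of_ne (fun h' => hne (Fin.ext h') : (k : ℕ) ≠ l) with h1 | h1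
    · exact key k l h1 h
    · exact key l k h1 h.symm
  -- counting
  have hsum := Ideal.sum_ramification_inertia (𝓞 L) K L (p := q) hq0
  rw [hdeg] at hsum
  have hmemF : ∀ P : Ideal (𝓞 L), P ∈ IsDedekindDomain.primesOverFinset q (𝓞 L) ↔
      P ∈ q.primesOver (𝓞 L) := fun P => IsDedekindDomain.mem_primesOverFinset_iff hq0 _
  have hQF : ∀ k, Q k ∈ IsDedekindDomain.primesOverFinset q (𝓞 L) := fun k =>
    (hmemF _).mpr ⟨hQp k, hQl k⟩
  have hpos : ∀ P ∈ IsDedekindDomain.primesOverFinset q (𝓞 L),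
      1 ≤ Ideal.ramificationIdx' q P * Ideal.inertiaDeg' q P := by
    intro P hP
    obtain ⟨h1, h2⟩ := (hmemF P).mp hP
    refine Right.one_le_mul ?_ ?_
    · exact Nat.pos_iff_ne_zero.mpr <|
        Ideal.IsDedekindDomain.ramificationIdx'_ne_zero_of_liesOver _ hq0
    · exact Nat.pos_iff_ne_zero.mpr <| Ideal.inertiaDeg'_ne_zero q P
  have hf : ∀ k, Ideal.inertiaDeg' q (Q k) = 1 := by
    intro k
    by_contra hne
    have h1 : 2 ≤ Ideal.ramificationIdx' q (Q k) * Ideal.inertiaDeg' q (Q k) := by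
      have h2 := hpos _ (hQF k)
      have h3 : Ideal.inertiaDeg' q (Q k) ≠ 0 := by
        haveI := hQl k
        exact Ideal.inertiaDeg'_ne_zero q (Q k)
      have h4 : 2 ≤ Ideal.inertiaDeg' q (Q k) := by omega
      have h5 : 1 ≤ Ideal.ramificationIdx' q (Q k) := by
        by_contra h6
        have : Ideal.ramificationIdx' q (Q k) = 0 := by omega
        rw [this, zero_mul] at h2
        omega
      calc 2 = 1 * 2 := rfl
        _ ≤ _ := Nat.mul_le_mul h5 h4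
    have h6 : (Finset.univ.image Q).card = p := by
      rw [Finset.card_image_of_injective _ hinj]
      simp
    have h7 : Finset.univ.image Q ⊆ IsDedekindDomain.primesOverFinset q (𝓞 L) := by
      intro P hP
      obtain ⟨k, -, rfl⟩ := Finset.mem_image.mp hP
      exact hQF k
    have h8 : ∑ P ∈ Finset.univ.image Q,
        Ideal.ramificationIdx' q P * Ideal.inertiaDeg' q P ≤ p := by
      calc _ ≤ ∑ P ∈ IsDedekindDomain.primesOverFinset q (𝓞 L),
          Ideal.ramificationIdx' q P * Ideal.inertiaDeg' q P :=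
          Finset.sum_le_sum_of_subset h7
        _ = p := hsum
    have h9 : Q k ∈ Finset.univ.image Q := Finset.mem_image_of_mem _ (Finset.mem_univ k)
    rw [← Finset.add_sum_erase _ _ h9] at h8
    have h10 : (Finset.univ.image Q).card - 1 ≤ ∑ P ∈ (Finset.univ.image Q).erase (Q k),
        Ideal.ramificationIdx' q P * Ideal.inertiaDeg' q P := by
      rw [← Finset.card_erase_of_mem h9, Finset.card_eq_sum_ones]
      exact Finset.sum_le_sum fun P hP => hpos P (h7 (Finset.mem_of_mem_erase hP))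
    have := hp.pos
    omega
  refine ⟨Q, hinj, fun k => ⟨hQp k, ?_, hQc k, ?_⟩⟩
  · intro h
    apply hq0
    rw [← hQc k, h]
    rw [← RingHom.ker_eq_comap_bot, ← RingHom.injective_iff_ker_eq_bot]
    exact FaithfulSMul.algebraMap_injective (𝓞 K) (𝓞 L)
  · haveI := hQl k
    rw [Ideal.absNorm_eq_pow_inertiaDeg'_of_liesOver (Q k) q hq hq0, hf k, pow_one]

end Split

end

end Fermat.Agent.ExtVanD
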