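import Fermat.Agent.ExtVan.DensF

/-!
The density theorem (D) needed for the vanishing of extensions.
-/

set_option autoImplicit false
set_option maxHeartbeats 400000

open NumberField nonZeroDivisors Polynomial

namespace Fermat.Agent.ExtVanD

noncomputable section

/-- degree one primes -/
abbrev DP (K : Type*) [Field K] [NumberField K] : Type _ :=
  {q : (Ideal (𝓞 K))⁰ // (Ideal.absNorm (q : Ideal (𝓞 K))).Prime}

/-- fibres -/
def fibEquiv (K : Type*) [Field K] [NumberField K] (p : Nat.Primes) :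
    {q : DP K // (⟨Ideal.absNorm (q.1 : Ideal (𝓞 K)), q.2⟩ : Nat.Primes) = p} ≃
      {I : Ideal (𝓞 K) // Ideal.absNorm I = (p : ℕ)} where
  toFun q := ⟨q.1.1.1, congrArg Subtype.val q.2⟩
  invFun I := ⟨⟨⟨I.1, mem_nonZeroDivisors_of_ne_zero (by
    rintro h
    have h2 := I.2
    rw [h, Ideal.zero_eq_bot, Ideal.absNorm_bot] at h2
    exact p.2.ne_zero h2.symm)⟩, by
      show (Ideal.absNorm I.1).Prime
      rw [I.2]; exact p.2⟩, Subtype.ext I.2⟩
  left_inv q := rfl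
  right_inv I := rfl

lemma deg1_sum (K : Type*) [Field K] [NumberField K] : ∃ C : ℝ, ∀ s : ℝ, 1 < s → s ≤ 2 →
    Summable (fun q : DP K => nrm s q.1) ∧
      |∑' q : DP K, nrm s q.1 - Real.log (1 / (s - 1))| ≤ C := by
  obtain ⟨C, hC⟩ := FrobDensity.exists_bound_log K
  refine ⟨C, fun s hs hs2 => ?_⟩
  obtain ⟨h1, h2⟩ := hC s hs hs2
  let N : DP K → Nat.Primes := fun q => ⟨Ideal.absNorm (q.1 : Ideal (𝓞 K)), q.2⟩
  haveI : ∀ p : Nat.Primes, Finite {q : DP K // N q = p} := fun p => by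
    haveI : Finite {I : Ideal (𝓞 K) // Ideal.absNorm I = (p : ℕ)} :=
      (Ideal.finite_setOfPred_absNorm_eq (p : ℕ)).to_subtype
    exact Finite.of_equiv _ (fibEquiv K p).symm
  have hcard : ∀ p : Nat.Primes, Nat.card {q : DP K // N q = p} =
      Nat.card {I : Ideal (𝓞 K) // Ideal.absNorm I = (p : ℕ)} := fun p =>
    Nat.card_congr (fibEquiv K p)
  have h3 := fiber_sum N (fun p : Nat.Primes => ((p : ℕ) : ℝ) ^ (-s)) (fun p => by positivity)
    (by simp_rw [hcard]; exact h1)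
  simp_rw [hcard] at h3
  refine ⟨h3.1, ?_⟩
  have h4 : ∑' q : DP K, nrm s q.1 = ∑' q : DP K, ((N q : ℕ) : ℝ) ^ (-s) := rfl
  rw [h4, h3.2]
  exact h2

/-- the analytic contradiction -/
theorem analytic_core {K : Type*} [Field K] [NumberField K] (χ : ClassGroup (𝓞 K) →* ℂˣ)
    (hχ : χ ≠ 1) {p : ℕ} (hp3 : 3 ≤ p) (C₂ : ℝ)
    (hX : ∀ s : ℝ, 1 < s → s ≤ 2 → ∀ S : Finset ((Ideal (𝓞 K))⁰), (∀ q ∈ S, isP q ∧
      (Ideal.absNorm (q : Ideal (𝓞 K))).Prime ∧ χ (ClassGroup.mk0 q) ≠ 1) →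
        p * ∑ q ∈ S, nrm s q ≤ Real.log (1 / (s - 1)) + C₂) : False := by
  classical
  obtain ⟨B, hB⟩ := L_bounded χ hχ
  obtain ⟨C₁, hC₁⟩ := deg1_sum K
  obtain ⟨C₃, hC₃⟩ := FrobDensity.exists_bound_log_realZeta K
  have hp0 : (0 : ℝ) < p := by
    have : 0 < p := by omega
    exact_mod_cast this
  have hp3' : (3 : ℝ) ≤ p := by exact_mod_cast hp3
  set Z := FrobDensity.realZeta K 2 with hZ
  set E : ℝ := 2 * C₁ + 2 + C₃ + |C₂| + Z with hE
  set ℓ : ℝ := 3 * (|E| + (2 * |B| + 2)) with hℓ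
  have hℓ0 : 0 < ℓ := by positivity
  set s : ℝ := 1 + Real.exp (-ℓ) with hs
  have hs1 : 1 < s := by
    have := Real.exp_pos (-ℓ)
    linarith
  have hs2 : s ≤ 2 := by
    have : Real.exp (-ℓ) ≤ 1 := by
      rw [Real.exp_le_one_iff]; linarith
    linarith
  have hlog : Real.log (1 / (s - 1)) = ℓ := by
    rw [hs, add_sub_cancel_left, one_div, Real.log_inv, Real.log_exp, neg_neg]
  obtain ⟨hsum, hbd⟩ := hC₁ s hs1 hs2
  rw [hlog] at hbd
  -- choose a finite set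
  obtain ⟨T, hT⟩ : ∃ T : Finset (DP K), ℓ - C₁ - 1 ≤ ∑ q ∈ T, nrm s q.1 := by
    have h1 : ℓ - C₁ - 1 < ∑' q : DP K, nrm s q.1 := by
      have := (abs_le.mp hbd).1
      linarith
    exact ((hsum.hasSum.eventually (lt_mem_nhds h1)).exists).imp fun T hT => hT.le
  let S₁ : Finset ((Ideal (𝓞 K))⁰) := T.map (Function.Embedding.subtype _)
  have hS₁sum : ∑ q ∈ S₁, nrm s q = ∑ q ∈ T, nrm s q.1 := by
    rw [Finset.sum_map]; rfl
  have hS₁p : ∀ q ∈ S₁, (Ideal.absNorm (q : Ideal (𝓞 K))).Prime := by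
    intro q hq
    obtain ⟨x, -, rfl⟩ := Finset.mem_map.mp hq
    exact x.2
  have hS₁ : ∀ q ∈ S₁, isP q := fun q hq =>
    Ideal.isPrime_of_irreducible_absNorm (hS₁p q hq)
  have hlow := lower_bound χ hs1 (a := ℓ - C₁ - 1) (b := (ℓ + C₂) / p) S₁ hS₁ hS₁p
    (by rw [hS₁sum]; exact hT) (fun S hS => by
      have := hX s hs1 hs2 S hS
      rw [hlog] at this
      rw [le_div_iff₀ hp0, mul_comm]
      exact this)
  have hBs := hB s hs1 hs2
  have hz := (abs_le.mp (hC₃ s hs1 hs2)).2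
  rw [hlog] at hz
  have hb : 2 * ((ℓ + C₂) / p) ≤ 2 / 3 * ℓ + |C₂| := by
    have h1 : (ℓ + C₂) / p ≤ (ℓ + |C₂|) / p := by
      apply div_le_div_of_nonneg_right _ hp0.le
      have := le_abs_self C₂
      linarith
    have h2 : (ℓ + |C₂|) / p ≤ (ℓ + |C₂|) / 3 := by
      apply div_le_div_of_nonneg_left _ (by norm_num) hp3'
      positivity
    have := abs_nonneg C₂
    linarith
  have hexp : ℓ / 3 - E ≤ 2 * (ℓ - C₁ - 1) - Real.log (FrobDensity.realZeta K s) -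
      2 * ((ℓ + C₂) / p) - Z := by
    rw [hE]
    linarith
  have h3 : 2 * |B| + 2 ≤ ℓ / 3 - E := by
    have := le_abs_self E
    rw [hℓ]
    linarith
  have h4 := Real.add_one_le_exp (2 * (ℓ - C₁ - 1) - Real.log (FrobDensity.realZeta K s) -
      2 * ((ℓ + C₂) / p) - Z)
  have h5 := le_abs_self B
  linarith

section Kummer

variable {K : Type*} [Field K] [NumberField K]

/-- The Kummer extension contributes enough degree one primes. -/
lemma kummer_bound {p : ℕ} (hp : p.Prime) {ζ : K} (hζ : IsPrimitiveRoot ζ p) (u : 𝓞 K)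
    (hu : ∀ x : K, x ^ p ≠ (u : K)) : ∃ C : ℝ, ∀ s : ℝ, 1 < s → s ≤ 2 →
      ∀ S : Finset ((Ideal (𝓞 K))⁰), (∀ q ∈ S, isP q ∧
        (Ideal.absNorm (q : Ideal (𝓞 K))).Prime ∧ (p : 𝓞 K) ∉ (q : Ideal (𝓞 K)) ∧
        u ∉ (q : Ideal (𝓞 K)) ∧ ∃ y : 𝓞 K, y ^ p - u ∈ (q : Ideal (𝓞 K))) →
        p * ∑ q ∈ S, nrm s q ≤ Real.log (1 / (s - 1)) + C := by
  classical
  haveI : NeZero p := ⟨hp.ne_zero⟩
  have hirr : Irreducible (X ^ p - C (u : K) : K[X]) :=
    X_pow_sub_C_irreducible_of_prime hp hu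
  haveI : Fact (Irreducible (X ^ p - C (u : K) : K[X])) := ⟨hirr⟩
  have hmonic : (X ^ p - C (u : K) : K[X]).Monic := monic_X_pow_sub_C _ hp.ne_zero
  let L := AdjoinRoot (X ^ p - C (u : K) : K[X])
  haveI hfin : Module.Finite K L := hmonic.finite_adjoinRoot
  haveI : CharZero L := charZero_of_injective_algebraMap (algebraMap K L).injective
  haveI : IsScalarTower ℚ K L := IsScalarTower.of_algebraMap_eq fun x => by
    simp
  haveI : Module.Finite ℚ L := Module.Finite.trans K L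
  haveI : NumberField L := ⟨⟩
  have hdeg : Module.finrank K L = p := by
    have h1 := (AdjoinRoot.powerBasis hirr.ne_zero).finrank
    rw [AdjoinRoot.powerBasis_dim, natDegree_X_pow_sub_C] at h1
    exact h1
  let α₀ : L := AdjoinRoot.root (X ^ p - C (u : K) : K[X])
  have hα₀ : α₀ ^ p = algebraMap K L (u : K) := by
    have h1 : aeval α₀ (X ^ p - C (u : K) : K[X]) = 0 := by
      rw [AdjoinRoot.aeval_eq, AdjoinRoot.mk_self]
    rw [map_sub, map_pow, aeval_X, aeval_C, sub_eq_zero] at h1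
    exact h1
  have hα₀int : IsIntegral ℤ α₀ := by
    refine IsIntegral.of_pow hp.pos ?_
    rw [hα₀]
    exact map_isIntegral_int (algebraMap K L) u.isIntegral_coe
  let α : 𝓞 L := ⟨α₀, hα₀int⟩
  have hα : α ^ p = algebraMap (𝓞 K) (𝓞 L) u := by
    apply RingOfIntegers.ext
    show α₀ ^ p = _
    rw [hα₀]
    rfl
  let ζ' : 𝓞 K := hζ.toInteger
  have hζ' : IsPrimitiveRoot ζ' p := hζ.toInteger_isPrimitiveRoot
  have hζ'c : (ζ' : K) = ζ := rfl
  have hσex : ∀ k : ℕ, ∃ τ : 𝓞 L →ₐ[𝓞 K] 𝓞 L, τ α = algebraMap (𝓞 K) (𝓞 L) (ζ' ^ k) * α := by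
    intro k
    have h1 : (X ^ p - C (u : K) : K[X]).eval₂ (Algebra.ofId K L)
        (algebraMap K L (ζ ^ k) * α₀) = 0 := by
      rw [eval₂_sub, eval₂_pow, eval₂_X, eval₂_C, mul_pow, hα₀, ← map_pow, ← pow_mul, mul_comm k p,
        pow_mul, hζ.pow_eq_one, one_pow, map_one, one_mul]
      exact sub_self _
    let τ₀ : L →ₐ[K] L := AdjoinRoot.liftAlgHom _ (Algebra.ofId K L)
      (algebraMap K L (ζ ^ k) * α₀) h1
    refine ⟨RingOfIntegers.mapAlgHom τ₀, ?_⟩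
    apply RingOfIntegers.ext
    have h2 : ((RingOfIntegers.mapAlgHom τ₀ α : 𝓞 L) : L) = τ₀ α₀ := rfl
    rw [h2]
    have h3 : τ₀ α₀ = algebraMap K L (ζ ^ k) * α₀ := AdjoinRoot.liftAlgHom_root _ _ _ h1
    rw [h3]
    rfl
  choose σ hσ using hσex
  obtain ⟨C, hC⟩ := deg1_sum L
  refine ⟨C, fun s hs hs2 S hS => ?_⟩
  obtain ⟨hsum, hbd⟩ := hC s hs hs2
  have hex : ∀ q : S, ∃ Q : Fin p → Ideal (𝓞 L), Function.Injective Q ∧ ∀ k, (Q k).IsPrime ∧
      Q k ≠ ⊥ ∧ (Q k).comap (algebraMap (𝓞 K) (𝓞 L)) = (q.1 : Ideal (𝓞 K)) ∧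
      Ideal.absNorm (Q k) = Ideal.absNorm (q.1 : Ideal (𝓞 K)) := by
    intro q
    obtain ⟨h1, -, h3, h4, y, hy⟩ := hS q.1 q.2
    exact split_primes hp hζ' hdeg hα σ hσ h1 (nonZeroDivisors.coe_ne_zero _) h3 h4 hy
  choose Q hQinj hQ using hex
  let ι : S × Fin p → DP L := fun x =>
    ⟨⟨Q x.1 x.2, mem_nonZeroDivisors_of_ne_zero (hQ x.1 x.2).2.1⟩, by
      show (Ideal.absNorm (Q x.1 x.2)).Prime
      rw [(hQ x.1 x.2).2.2.2]
      exact (hS x.1.1 x.1.2).2.1⟩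
  have hι : Function.Injective ι := by
    rintro ⟨q, k⟩ ⟨q', k'⟩ h
    have h1 : Q q k = Q q' k' := congrArg (fun z : DP L => (z.1 : Ideal (𝓞 L))) h
    have h2 : q = q' := by
      apply Subtype.ext
      apply Subtype.ext
      rw [← (hQ q k).2.2.1, ← (hQ q' k').2.2.1, h1]
    subst h2
    rw [hQinj q h1]
  have hnrm : ∀ x, nrm s (ι x).1 = nrm s x.1.1 := by
    intro x
    unfold nrm
    have : Ideal.absNorm (((ι x).1 : (Ideal (𝓞 L))⁰) : Ideal (𝓞 L)) =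
      Ideal.absNorm (x.1.1 : Ideal (𝓞 K)) := (hQ x.1 x.2).2.2.2
    rw [this]
  have h5 : (p : ℝ) * ∑ q ∈ S, nrm s q = ∑ x : S × Fin p, nrm s (ι x).1 := by
    simp_rw [hnrm]
    rw [Fintype.sum_prod_type]
    simp only [Finset.sum_const, Finset.card_univ, Fintype.card_fin, nsmul_eq_mul]
    rw [← Finset.mul_sum, Finset.sum_coe_sort S (fun q => nrm s q)]
  have h6 : ∑ x : S × Fin p, nrm s (ι x).1 ≤ ∑' q : DP L, nrm s q.1 := by
    have h6' : ∑ x : S × Fin p, nrm s (ι x).1 =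
        ∑ q ∈ Finset.univ.map ⟨ι, hι⟩, nrm s q.1 :=
      (Finset.sum_map Finset.univ (⟨ι, hι⟩ : S × Fin p ↪ DP L)
        (fun q : DP L => nrm s q.1)).symm
    rw [h6']
    exact hsum.sum_le_tsum _ fun q _ => (nrm_pos s q.1).le
  have h7 := (abs_le.mp hbd).2
  rw [h5]
  linarith

lemma finite_dvd (I : Ideal (𝓞 K)) (hI : I ≠ ⊥) :
    {q : (Ideal (𝓞 K))⁰ | I ≤ (q : Ideal (𝓞 K))}.Finite := by
  have h1 : {J : Ideal (𝓞 K) | I ≤ J}.Finite := by
    have h2 := Ideal.finite_setOfPred_absNorm_le (S := 𝓞 K) (Ideal.absNorm I)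
    refine h2.subset fun J hJ => ?_
    have h3 : Ideal.absNorm J ∣ Ideal.absNorm I := Ideal.absNorm_dvd_absNorm_of_le hJ
    refine Nat.le_of_dvd ?_ h3
    rw [Nat.pos_iff_ne_zero, Ne, Ideal.absNorm_eq_zero_iff]
    exact hI
  exact h1.preimage Subtype.val_injective.injOn

theorem density {p : ℕ} (hp : p.Prime) (hp3 : 3 ≤ p)
    {ζ : K} (hζ : IsPrimitiveRoot ζ p) (u : 𝓞 K) (hu0 : u ≠ 0) (hu : ∀ x : K, x ^ p ≠ (u : K))
    (χ : ClassGroup (𝓞 K) →* ℂˣ) (hχ : χ ≠ 1) :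
    ∃ 𝔮 : (Ideal (𝓞 K))⁰, (𝔮 : Ideal (𝓞 K)).IsPrime ∧
      (Ideal.absNorm (𝔮 : Ideal (𝓞 K))).Prime ∧
      (p : 𝓞 K) ∉ (𝔮 : Ideal (𝓞 K)) ∧ u ∉ (𝔮 : Ideal (𝓞 K)) ∧ χ (ClassGroup.mk0 𝔮) ≠ 1 ∧
      ¬ ∃ y : 𝓞 K, y ^ p - u ∈ (𝔮 : Ideal (𝓞 K)) := by
  classical
  by_contra hcon
  push Not at hcon
  obtain ⟨C, hC⟩ := kummer_bound hp hζ u hu
  -- exceptional set
  set I : Ideal (𝓞 K) := Ideal.span {(p : 𝓞 K) * u} with hI
  have hI0 : I ≠ ⊥ := by
    rw [hI, Ne, Ideal.span_singleton_eq_bot]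
    refine mul_ne_zero ?_ hu0
    exact_mod_cast hp.ne_zero
  have hfin := finite_dvd I hI0
  set E := hfin.toFinset with hE
  refine analytic_core χ hχ hp3 (C + p * E.card) ?_
  intro s hs hs2 S hS
  rw [← Finset.sum_filter_add_sum_filter_not S (fun q => q ∈ E), mul_add]
  have h1 : ∑ q ∈ S.filter (fun q => q ∈ E), nrm s q ≤ E.card := by
    calc ∑ q ∈ S.filter (fun q => q ∈ E), nrm s q
        ≤ ∑ q ∈ S.filter (fun q => q ∈ E), (1 : ℝ) := by
          refine Finset.sum_le_sum fun q _ => ?_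
          unfold nrm
          refine Real.rpow_le_one_of_one_le_of_nonpos ?_ (by linarith)
          have := Ideal.absNorm_pos_of_nonZeroDivisors q
          exact_mod_cast this
      _ = ((S.filter (fun q => q ∈ E)).card : ℝ) := by simp
      _ ≤ E.card := by
          have : (S.filter (fun q => q ∈ E)).card ≤ E.card := by
            refine Finset.card_le_card fun q hq => ?_
            exact (Finset.mem_filter.mp hq).2
          exact_mod_cast this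
  have h2 := hC s hs hs2 (S.filter (fun q => ¬ q ∈ E)) (by
    intro q hq
    rw [Finset.mem_filter] at hq
    obtain ⟨hqS, hqE⟩ := hq
    obtain ⟨h3, h4, h5⟩ := hS q hqS
    have h6 : ¬ I ≤ (q : Ideal (𝓞 K)) := by
      intro h
      apply hqE
      rw [hE, Set.Finite.mem_toFinset]
      exact h
    rw [hI, Ideal.span_singleton_le_iff_mem] at h6
    have h7 : (p : 𝓞 K) ∉ (q : Ideal (𝓞 K)) := fun h => h6 (Ideal.mul_mem_right _ _ h)
    have h8 : u ∉ (q : Ideal (𝓞 K)) := fun h => h6 (Ideal.mul_mem_left _ _ h)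
    exact ⟨h3, h4, h7, h8, hcon q h3 h4 h7 h8 h5⟩)
  have h9 : (p : ℝ) * ∑ q ∈ S.filter (fun q => q ∈ E), nrm s q ≤ p * E.card :=
    mul_le_mul_of_nonneg_left h1 (by positivity)
  linarith

end Kummer

end

end Fermat.Agent.ExtVanD
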