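import Mathlib
import Fermat.Agent.FrobDensity.Analytic
set_option autoImplicit false

open NumberField Filter Topology nonZeroDivisors

namespace Fermat.Agent.ExtVan

section Euler

variable {R : Type*} [CommRing R] [IsDedekindDomain R]

/-- nonzero ideals not divisible by any element of `T` -/
def coprimeTo (T : Finset (Ideal R)⁰) : Set (Ideal R)⁰ :=
  {I | ∀ q ∈ T, ¬ (q : Ideal R) ∣ (I : Ideal R)}

omit [IsDedekindDomain R] in
lemma dvd_coe_mul (q I : (Ideal R)⁰) : (q : Ideal R) ∣ ((q * I : (Ideal R)⁰) : Ideal R) :=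
  ⟨I, rfl⟩

/-- finite Euler product -/
theorem tsum_coprimeTo (w : (Ideal R)⁰ →* ℂ) (hw : Summable fun I => ‖w I‖) (T : Finset (Ideal R)⁰)
    (hT : ∀ q ∈ T, Prime (q : Ideal R)) :
    ∑' I, (coprimeTo T).indicator w I = (∑' I, w I) * ∏ q ∈ T, (1 - w q) := by
  classical
  induction T using Finset.induction_on with
  | empty =>
    have : coprimeTo (∅ : Finset (Ideal R)⁰) = Set.univ := by
      ext I; simp [coprimeTo]
    rw [this, Set.indicator_univ, Finset.prod_empty, mul_one]
  | insert q T hq ih =>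
    have ih' := ih (fun r hr => hT r (Finset.mem_insert_of_mem hr))
    have hqp : Prime (q : Ideal R) := hT q (Finset.mem_insert_self q T)
    rw [Finset.prod_insert hq, mul_left_comm, ← ih', sub_mul, one_mul]
    let A : Set (Ideal R)⁰ := {I | I ∈ coprimeTo T ∧ (q : Ideal R) ∣ (I : Ideal R)}
    have hsplit : (coprimeTo T).indicator w = (coprimeTo (insert q T)).indicator w + A.indicator w := by
      funext I
      rw [Pi.add_apply]
      by_cases h1 : I ∈ coprimeTo T
      · by_cases h2 : (q : Ideal R) ∣ (I : Ideal R)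
        · have h3 : I ∉ coprimeTo (insert q T) := fun h => h q (Finset.mem_insert_self q T) h2
          have h4 : I ∈ A := ⟨h1, h2⟩
          rw [Set.indicator_of_mem h1, Set.indicator_of_notMem h3, Set.indicator_of_mem h4, zero_add]
        · have h3 : I ∈ coprimeTo (insert q T) := by
            intro r hr
            rw [Finset.mem_insert] at hr
            rcases hr with rfl | hr
            · exact h2
            · exact h1 r hr
          have h4 : I ∉ A := fun h => h2 h.2
          rw [Set.indicator_of_mem h1, Set.indicator_of_mem h3, Set.indicator_of_notMem h4, add_zero]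
      · have h3 : I ∉ coprimeTo (insert q T) := fun h => h1 fun r hr => h r (Finset.mem_insert_of_mem hr)
        have h4 : I ∉ A := fun h => h1 h.1
        rw [Set.indicator_of_notMem h1, Set.indicator_of_notMem h3, Set.indicator_of_notMem h4, add_zero]
    have hwS : Summable w := hw.of_norm
    have hsum : ∑' I, (coprimeTo T).indicator w I =
        ∑' I, (coprimeTo (insert q T)).indicator w I + ∑' I, A.indicator w I := by
      rw [hsplit]
      exact (hwS.indicator _).tsum_add (hwS.indicator _)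
    have hA : ∑' I, A.indicator w I = w q * ∑' I, (coprimeTo T).indicator w I := by
      have hinj : Function.Injective (fun I : (Ideal R)⁰ => q * I) := by
        intro I J h
        apply Subtype.ext
        have := congrArg Subtype.val h
        exact mul_left_cancel₀ hqp.ne_zero this
      rw [← hinj.tsum_eq (f := A.indicator w), ← tsum_mul_left]
      · refine tsum_congr fun I => ?_
        have hiff : q * I ∈ A ↔ I ∈ coprimeTo T := by
          constructor
          · intro h r hr hrI
            exact h.1 r hr (hrI.trans ⟨q, mul_comm _ _⟩)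
          · intro h
            refine ⟨fun r hr hrI => ?_, dvd_coe_mul q I⟩
            have hrp : Prime (r : Ideal R) := hT r (Finset.mem_insert_of_mem hr)
            have hrI' : (r : Ideal R) ∣ (q : Ideal R) * (I : Ideal R) := hrI
            rcases hrp.dvd_or_dvd hrI' with h1 | h1
            · have h2 : (r : Ideal R) = q := by
                have := (hrp.dvd_prime_iff_associated hqp).mp h1
                exact associated_iff_eq.mp this
              exact hq (Subtype.ext h2 ▸ hr)
            · exact h r hr h1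
        by_cases h : I ∈ coprimeTo T
        · rw [Set.indicator_of_mem (hiff.mpr h), Set.indicator_of_mem h, map_mul]
        · rw [Set.indicator_of_notMem (fun h' => h (hiff.mp h')), Set.indicator_of_notMem h, mul_zero]
      · intro I hI
        have hIA : I ∈ A := by
          by_contra h
          exact hI (Set.indicator_of_notMem h _)
        obtain ⟨J, hJ⟩ := hIA.2
        have hJ0 : J ≠ 0 := by
          rintro rfl
          rw [mul_zero] at hJ
          exact nonZeroDivisors.ne_zero I.2 hJ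
        exact ⟨⟨J, mem_nonZeroDivisors_iff_ne_zero.mpr hJ0⟩, Subtype.ext hJ.symm⟩
    rw [hA] at hsum
    rw [eq_sub_iff_add_eq]
    exact hsum.symm

end Euler

section NF

variable (K : Type*) [Field K] [NumberField K]

/-- the set of prime ideals, inside nonzero ideals -/
def primeSet : Set (Ideal (𝓞 K))⁰ := {I | Prime (I : Ideal (𝓞 K))}

variable {K}

theorem eventually_prod_ge (w : (Ideal (𝓞 K))⁰ →* ℂ) (hw : Summable fun I => ‖w I‖) :
    ∃ T₀ : Finset (Ideal (𝓞 K))⁰, (∀ q ∈ T₀, Prime (q : Ideal (𝓞 K))) ∧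
      ∀ T : Finset (Ideal (𝓞 K))⁰, T₀ ⊆ T →
      (∀ q ∈ T, Prime (q : Ideal (𝓞 K))) →
      1 / 2 ≤ ‖∑' I, w I‖ * ∏ q ∈ T, ‖1 - w q‖ := by
  classical
  have h1 := tendsto_tsum_compl_atTop_zero (fun I => ‖w I‖)
  have h2 : ∀ᶠ F : Finset (Ideal (𝓞 K))⁰ in atTop, ∑' I : {x // x ∉ F}, ‖w I‖ < 1 / 2 :=
    h1.eventually (gt_mem_nhds (by norm_num))
  obtain ⟨F, hF⟩ := h2.exists
  -- primes of small norm
  let X : ℕ := F.sup (fun I => Ideal.absNorm (I : Ideal (𝓞 K)))
  have hfin : {I : (Ideal (𝓞 K))⁰ | Ideal.absNorm (I : Ideal (𝓞 K)) ≤ X ∧ Prime (I : Ideal (𝓞 K))}.Finite := by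
    apply Set.Finite.of_finite_image (f := Subtype.val) _ Subtype.val_injective.injOn
    refine (Ideal.finite_setOfPred_absNorm_le (S := 𝓞 K) X).subset ?_
    rintro _ ⟨I, hI, rfl⟩
    exact hI.1
  refine ⟨hfin.toFinset, fun q hq => ((Set.Finite.mem_toFinset _).mp hq).2, fun T hT₀ hT => ?_⟩
  have h3 := congrArg norm (tsum_coprimeTo w hw T hT)
  rw [norm_mul, norm_prod] at h3
  rw [← h3]
  -- the sum over ideals coprime to `T`
  have h4 : ∀ I ∈ F, I ∈ coprimeTo T → I = 1 := by
    intro I hI hIT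
    by_contra hI1
    have hIu : ¬ IsUnit (I : Ideal (𝓞 K)) := by
      rw [Ideal.isUnit_iff]
      intro h
      exact hI1 (Subtype.ext (h.trans Ideal.one_eq_top.symm))
    obtain ⟨P, hP, hPI⟩ := WfDvdMonoid.exists_irreducible_factor hIu (nonZeroDivisors.ne_zero I.2)
    have hPp : Prime P := hP.prime
    have hPmem : (⟨P, mem_nonZeroDivisors_iff_ne_zero.mpr hPp.ne_zero⟩ : (Ideal (𝓞 K))⁰) ∈ T := by
      apply hT₀
      rw [Set.Finite.mem_toFinset]
      refine ⟨?_, hPp⟩
      have h5 : Ideal.absNorm P ≤ Ideal.absNorm (I : Ideal (𝓞 K)) := by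
        apply Nat.le_of_dvd
        · exact Nat.pos_of_ne_zero (by rw [Ne, Ideal.absNorm_eq_zero_iff]; exact nonZeroDivisors.ne_zero I.2)
        · exact Ideal.absNorm_dvd_absNorm_of_le (Ideal.le_of_dvd hPI)
      exact h5.trans (Finset.le_sup (f := fun I : (Ideal (𝓞 K))⁰ => Ideal.absNorm (I : Ideal (𝓞 K))) hI)
    exact hIT _ hPmem hPI
  have h1T : (1 : (Ideal (𝓞 K))⁰) ∈ coprimeTo T := by
    intro q hq hdvd
    exact (hT q hq).not_isUnit (isUnit_of_dvd_one hdvd)
  have hwS : Summable w := hw.of_norm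
  have h5 : ∑' I, (coprimeTo T).indicator w I = 1 + ∑' I, (coprimeTo T \ {1}).indicator w I := by
    have h6 : (coprimeTo T).indicator w = ({1} : Set (Ideal (𝓞 K))⁰).indicator w +
        (coprimeTo T \ {1}).indicator w := by
      have h7 := Set.indicator_union_of_disjoint (s := ({1} : Set (Ideal (𝓞 K))⁰)) (t := coprimeTo T \ {1})
        Set.disjoint_sdiff_right w
      rw [Set.union_sdiff_cancel (Set.singleton_subset_iff.mpr h1T)] at h7
      exact h7
    rw [h6]
    have h7 : ∑' I, (({1} : Set (Ideal (𝓞 K))⁰).indicator w + (coprimeTo T \ {1}).indicator w) I =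
      ∑' I, ({1} : Set (Ideal (𝓞 K))⁰).indicator w I + ∑' I, (coprimeTo T \ {1}).indicator w I :=
      (hwS.indicator _).tsum_add (hwS.indicator _)
    rw [h7]
    congr 1
    rw [tsum_eq_single 1]
    · rw [Set.indicator_of_mem (Set.mem_singleton _), map_one]
    · intro I hI
      exact Set.indicator_of_notMem (by simpa using hI) _
  have h8 : ‖∑' I, (coprimeTo T \ {1}).indicator w I‖ ≤ 1 / 2 := by
    have h9 : Summable fun I => ‖(coprimeTo T \ {1}).indicator w I‖ := by
      have := hw.indicator (coprimeTo T \ {1})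
      refine this.congr fun I => ?_
      rw [norm_indicator_eq_indicator_norm]
    refine (norm_tsum_le_tsum_norm h9).trans ?_
    have h10 : ∑' I, ‖(coprimeTo T \ {1}).indicator w I‖ ≤ ∑' I, ({x | x ∉ F} : Set (Ideal (𝓞 K))⁰).indicator (fun I => ‖w I‖) I := by
      refine Summable.tsum_le_tsum (fun I => ?_) h9 (hw.indicator _)
      rw [norm_indicator_eq_indicator_norm]
      by_cases hI : I ∈ coprimeTo T \ {1}
      · have hIF : I ∉ F := fun h => hI.2 (h4 I h hI.1)
        rw [Set.indicator_of_mem hI, Set.indicator_of_mem hIF]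
      · rw [Set.indicator_of_notMem hI]
        exact Set.indicator_nonneg (fun _ _ => norm_nonneg _) _
    refine h10.trans ?_
    rw [← tsum_subtype]
    exact hF.le
  rw [h5]
  have h11 := norm_sub_norm_le (1 : ℂ) (-∑' I, (coprimeTo T \ {1}).indicator w I)
  rw [sub_neg_eq_add, norm_neg, norm_one] at h11
  linarith

/-- `|1 - w| ≤ exp (- Re w + |w|²/2)` -/
lemma norm_one_sub_le (w : ℂ) : ‖1 - w‖ ≤ Real.exp (-w.re + ‖w‖ ^ 2 / 2) := by
  have h1 : ‖1 - w‖ ^ 2 ≤ Real.exp (-w.re + ‖w‖ ^ 2 / 2) ^ 2 := by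
    rw [← Real.exp_nat_mul]
    have h2 : ‖1 - w‖ ^ 2 = 1 + (2 : ℕ) * (-w.re + ‖w‖ ^ 2 / 2) := by
      rw [← Complex.normSq_eq_norm_sq, ← Complex.normSq_eq_norm_sq, Complex.normSq_apply,
        Complex.normSq_apply]
      simp
      ring
    rw [h2, add_comm]
    exact Real.add_one_le_exp _
  exact (pow_le_pow_iff_left₀ (norm_nonneg _) (Real.exp_pos _).le two_ne_zero).mp h1

/-- the main upper bound for the real part of the sum over primes -/
theorem tsum_re_le (w : (Ideal (𝓞 K))⁰ →* ℂ) (hw : Summable fun I => ‖w I‖) (C B : ℝ)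
    (hC : ‖∑' I, w I‖ ≤ C) (hw2 : ∀ T : Finset (Ideal (𝓞 K))⁰, ∑ q ∈ T, ‖w q‖ ^ 2 ≤ B) :
    ∑' I, (primeSet K).indicator (fun J : (Ideal (𝓞 K))⁰ => (w J).re) I ≤ Real.log (2 * C) + B / 2 := by
  classical
  obtain ⟨T₀, hT₀p, hT₀⟩ := eventually_prod_ge w hw
  have hwS : Summable fun I => (w I).re := by
    refine Summable.of_norm_bounded hw fun I => ?_
    exact Complex.abs_re_le_norm _
  have hlim := (hwS.indicator (primeSet K)).hasSum
  refine le_of_tendsto hlim ?_
  filter_upwards [eventually_ge_atTop T₀] with T hT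
  let T' : Finset (Ideal (𝓞 K))⁰ := T.filter (fun I : (Ideal (𝓞 K))⁰ => Prime (I : Ideal (𝓞 K)))
  have hsum : ∑ I ∈ T, (primeSet K).indicator (fun J : (Ideal (𝓞 K))⁰ => (w J).re) I =
      ∑ I ∈ T', (w I).re := by
    rw [Finset.sum_filter]
    refine Finset.sum_congr rfl fun I _ => ?_
    rw [Set.indicator_apply]
    rfl
  rw [hsum]
  have h1 := hT₀ T' (fun q hq => Finset.mem_filter.mpr ⟨hT hq, hT₀p q hq⟩)
    (fun q hq => (Finset.mem_filter.mp hq).2)
  have h2 : ∏ q ∈ T', ‖1 - w q‖ ≤ Real.exp (-∑ I ∈ T', (w I).re + B / 2) := by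
    calc ∏ q ∈ T', ‖1 - w q‖ ≤ ∏ q ∈ T', Real.exp (-(w q).re + ‖w q‖ ^ 2 / 2) :=
          Finset.prod_le_prod (fun _ _ => norm_nonneg _) fun q _ => norm_one_sub_le (w q)
      _ = Real.exp (∑ q ∈ T', (-(w q).re + ‖w q‖ ^ 2 / 2)) := (Real.exp_sum _ _).symm
      _ ≤ _ := by
          apply Real.exp_le_exp.mpr
          rw [Finset.sum_add_distrib, Finset.sum_neg_distrib, ← Finset.sum_div]
          have := hw2 T'
          linarith
  have h0 : 0 ≤ ‖∑' I, w I‖ := norm_nonneg _
  have h3 : 1 / 2 ≤ C * Real.exp (-∑ I ∈ T', (w I).re + B / 2) := by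
    refine h1.trans (mul_le_mul hC h2 (Finset.prod_nonneg fun _ _ => norm_nonneg _) (h0.trans hC))
  have hC0 : 0 < C := by
    by_contra hcon
    push Not at hcon
    have := mul_nonpos_of_nonpos_of_nonneg hcon (Real.exp_pos (-∑ I ∈ T', (w I).re + B / 2)).le
    linarith
  rw [Real.exp_add, Real.exp_neg] at h3
  have hE := Real.exp_pos (∑ I ∈ T', (w I).re)
  have h4 : Real.exp (∑ I ∈ T', (w I).re) ≤ 2 * C * Real.exp (B / 2) := by
    have h5 := mul_le_mul_of_nonneg_left h3 hE.le
    have h6 : Real.exp (∑ I ∈ T', (w I).re) * (C * ((Real.exp (∑ I ∈ T', (w I).re))⁻¹ * Real.exp (B / 2))) =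
        C * Real.exp (B / 2) := by field_simp
    rw [h6] at h5
    linarith
  have h7 := Real.log_le_log hE h4
  rw [Real.log_exp, Real.log_mul (by positivity) (Real.exp_pos _).ne', Real.log_exp] at h7
  exact h7

end NF

end Fermat.Agent.ExtVan
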