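import Mathlib
import Fermat.Agent.ExtVan.DensityEuler
set_option autoImplicit false

open NumberField Filter Topology nonZeroDivisors
open Fermat.Agent.FrobDensity

namespace Fermat.Agent.ExtVan

variable (K : Type*) [Field K] [NumberField K]

/-- real powers of the norm -/
noncomputable def gN (s : ℝ) (I : (Ideal (𝓞 K))⁰) : ℝ := (Ideal.absNorm (I : Ideal (𝓞 K)) : ℝ) ^ (-s)

variable {K}

lemma absNorm_pos' (I : (Ideal (𝓞 K))⁰) : 0 < Ideal.absNorm (I : Ideal (𝓞 K)) :=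
  Nat.pos_of_ne_zero (by rw [Ne, Ideal.absNorm_eq_zero_iff]; exact nonZeroDivisors.ne_zero I.2)

lemma gN_pos (s : ℝ) (I : (Ideal (𝓞 K))⁰) : 0 < gN K s I :=
  Real.rpow_pos_of_pos (by exact_mod_cast absNorm_pos' I) _

lemma gN_nonneg (s : ℝ) (I : (Ideal (𝓞 K))⁰) : 0 ≤ gN K s I := (gN_pos s I).le

lemma gN_mul (s : ℝ) (I J : (Ideal (𝓞 K))⁰) : gN K s (I * J) = gN K s I * gN K s J := by
  unfold gN
  rw [Submonoid.coe_mul, map_mul, Nat.cast_mul, Real.mul_rpow (Nat.cast_nonneg _) (Nat.cast_nonneg _)]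

lemma gN_one (s : ℝ) : gN K s 1 = 1 := by
  unfold gN
  rw [Submonoid.coe_one, map_one, Nat.cast_one, Real.one_rpow]

/-- number of elements of norm `n` of a set of ideals -/
noncomputable def cnt (Q : Set (Ideal (𝓞 K))⁰) (n : ℕ) : ℕ :=
  Nat.card {I : (Ideal (𝓞 K))⁰ // Ideal.absNorm (I : Ideal (𝓞 K)) = n ∧ I ∈ Q}

instance finite_fiber (n : ℕ) : Finite {I : (Ideal (𝓞 K))⁰ // Ideal.absNorm (I : Ideal (𝓞 K)) = n} := by
  have h := Ideal.finite_setOfPred_absNorm_eq (S := 𝓞 K) n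
  have h2 : Finite {I : Ideal (𝓞 K) // Ideal.absNorm I = n} := h.to_subtype
  exact Finite.of_injective (fun I : {I : (Ideal (𝓞 K))⁰ // Ideal.absNorm (I : Ideal (𝓞 K)) = n} =>
    (⟨I.1.1, I.2⟩ : {I : Ideal (𝓞 K) // Ideal.absNorm I = n}))
    fun I J h => Subtype.ext (Subtype.ext (congrArg (fun x : {I : Ideal (𝓞 K) // Ideal.absNorm I = n} => x.1) h))

lemma tsum_fiber (Q : Set (Ideal (𝓞 K))⁰) (s : ℝ) (n : ℕ) :
    ∑' x : {I : (Ideal (𝓞 K))⁰ // Ideal.absNorm (I : Ideal (𝓞 K)) = n}, Q.indicator (gN K s) x =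
      (cnt Q n : ℝ) * (n : ℝ) ^ (-s) := by
  classical
  have : Fintype {I : (Ideal (𝓞 K))⁰ // Ideal.absNorm (I : Ideal (𝓞 K)) = n} := Fintype.ofFinite _
  rw [tsum_fintype]
  have h1 : ∀ x : {I : (Ideal (𝓞 K))⁰ // Ideal.absNorm (I : Ideal (𝓞 K)) = n},
      Q.indicator (gN K s) x = if (x : (Ideal (𝓞 K))⁰) ∈ Q then (n : ℝ) ^ (-s) else 0 := by
    intro x
    rw [Set.indicator_apply]
    unfold gN
    rw [x.2]
  rw [Finset.sum_congr rfl fun x _ => h1 x, ← Finset.sum_filter, Finset.sum_const, nsmul_eq_mul]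
  congr 2
  unfold cnt
  have e : {I : (Ideal (𝓞 K))⁰ // Ideal.absNorm (I : Ideal (𝓞 K)) = n ∧ I ∈ Q} ≃
      {x : {I : (Ideal (𝓞 K))⁰ // Ideal.absNorm (I : Ideal (𝓞 K)) = n} // (x : (Ideal (𝓞 K))⁰) ∈ Q} :=
    (Equiv.subtypeSubtypeEquivSubtypeInter _ _).symm
  rw [Nat.card_congr e, Nat.card_eq_fintype_card, Fintype.card_subtype]

lemma cnt_le (Q : Set (Ideal (𝓞 K))⁰) (n : ℕ) : cnt Q n ≤ idealCount K n := by
  unfold cnt idealCount
  have h := Ideal.finite_setOfPred_absNorm_eq (S := 𝓞 K) n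
  have h2 : Finite {I : Ideal (𝓞 K) // Ideal.absNorm I = n} := h.to_subtype
  exact Nat.card_le_card_of_injective (fun I : {I : (Ideal (𝓞 K))⁰ // Ideal.absNorm (I : Ideal (𝓞 K)) = n ∧ I ∈ Q} =>
    (⟨I.1.1, I.2.1⟩ : {I : Ideal (𝓞 K) // Ideal.absNorm I = n}))
    fun I J h => Subtype.ext (Subtype.ext (congrArg (fun x : {I : Ideal (𝓞 K) // Ideal.absNorm I = n} => x.1) h))

lemma cnt_univ (n : ℕ) (hn : n ≠ 0) : cnt (Set.univ : Set (Ideal (𝓞 K))⁰) n = idealCount K n := by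
  unfold cnt idealCount
  refine Nat.card_congr
    { toFun := fun I => ⟨I.1.1, I.2.1⟩
      invFun := fun I => ⟨⟨I.1, mem_nonZeroDivisors_iff_ne_zero.mpr (by
        intro h
        apply hn
        rw [← I.2, h]
        exact Ideal.absNorm_bot)⟩, I.2, Set.mem_univ _⟩
      left_inv := fun _ => rfl
      right_inv := fun _ => rfl }

lemma summable_cnt (Q : Set (Ideal (𝓞 K))⁰) {s : ℝ} (hs : 1 < s) :
    Summable fun n : ℕ => (cnt Q n : ℝ) * (n : ℝ) ^ (-s) := by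
  refine Summable.of_nonneg_of_le (fun n => by positivity) (fun n => ?_) (summable_dterm K hs)
  unfold dterm
  gcongr
  exact cnt_le Q n

theorem hasSum_gN (Q : Set (Ideal (𝓞 K))⁰) {s : ℝ} (hs : 1 < s) :
    HasSum (Q.indicator (gN K s)) (∑' n : ℕ, (cnt Q n : ℝ) * (n : ℝ) ^ (-s)) := by
  let N : (Ideal (𝓞 K))⁰ → ℕ := fun I => Ideal.absNorm (I : Ideal (𝓞 K))
  rw [← (Equiv.sigmaFiberEquiv N).hasSum_iff]
  have hsum : Summable (Q.indicator (gN K s) ∘ (Equiv.sigmaFiberEquiv N)) := by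
    have h0 : ∀ x, 0 ≤ (Q.indicator (gN K s) ∘ (Equiv.sigmaFiberEquiv N)) x :=
      fun x => Set.indicator_nonneg (fun _ _ => gN_nonneg s _) _
    rw [summable_sigma_of_nonneg h0]
    refine ⟨fun n => ?_, ?_⟩
    · have : Finite {I : (Ideal (𝓞 K))⁰ // N I = n} := finite_fiber n
      exact Summable.of_finite
    · refine (summable_cnt Q hs).congr fun n => ?_
      exact (tsum_fiber Q s n).symm
  have h2 := hsum.tsum_sigma' (fun n => by
    have : Finite {I : (Ideal (𝓞 K))⁰ // N I = n} := finite_fiber n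
    exact Summable.of_finite)
  have h3 : ∑' n : ℕ, ∑' x : {I : (Ideal (𝓞 K))⁰ // N I = n},
      (Q.indicator (gN K s) ∘ (Equiv.sigmaFiberEquiv N)) ⟨n, x⟩ = ∑' n : ℕ, (cnt Q n : ℝ) * (n : ℝ) ^ (-s) :=
    tsum_congr fun n => tsum_fiber Q s n
  rw [h3] at h2
  rw [← h2]
  exact hsum.hasSum

lemma summable_gN {s : ℝ} (hs : 1 < s) : Summable (gN K s) := by
  have := (hasSum_gN (Set.univ : Set (Ideal (𝓞 K))⁰) hs).summable
  rwa [Set.indicator_univ] at this

lemma tsum_gN {s : ℝ} (hs : 1 < s) : ∑' I, gN K s I = realZeta K s := by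
  have := (hasSum_gN (Set.univ : Set (Ideal (𝓞 K))⁰) hs).tsum_eq
  rw [Set.indicator_univ] at this
  rw [this]
  unfold realZeta dterm
  refine tsum_congr fun n => ?_
  by_cases hn : n = 0
  · subst hn
    have : cnt (Set.univ : Set (Ideal (𝓞 K))⁰) 0 = 0 := by
      unfold cnt
      rw [Nat.card_eq_zero]
      left
      exact ⟨fun I => (absNorm_pos' I.1).ne' I.2.1⟩
    rw [this, Nat.cast_zero, Real.zero_rpow (by linarith)]
    ring
  · rw [cnt_univ n hn]

/-- sets of ideals of prime norm: the sum is a sum over prime numbers -/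
theorem tsum_gN_prime (Q : Set (Ideal (𝓞 K))⁰) (hQ : ∀ I ∈ Q, (Ideal.absNorm (I : Ideal (𝓞 K))).Prime)
    {s : ℝ} (hs : 1 < s) :
    ∑' I, Q.indicator (gN K s) I = ∑' q : Nat.Primes, (cnt Q (q : ℕ) : ℝ) * ((q : ℕ) : ℝ) ^ (-s) := by
  rw [(hasSum_gN Q hs).tsum_eq]
  have h1 : Function.support (fun n : ℕ => (cnt Q n : ℝ) * (n : ℝ) ^ (-s)) ⊆ Set.range (fun q : Nat.Primes => (q : ℕ)) := by
    intro n hn
    have h2 : cnt Q n ≠ 0 := by
      intro h
      apply hn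
      show (cnt Q n : ℝ) * (n : ℝ) ^ (-s) = 0
      rw [h, Nat.cast_zero, zero_mul]
    unfold cnt at h2
    have h3 : Nonempty {I : (Ideal (𝓞 K))⁰ // Ideal.absNorm (I : Ideal (𝓞 K)) = n ∧ I ∈ Q} := by
      by_contra hcon
      rw [not_nonempty_iff] at hcon
      exact h2 Nat.card_of_isEmpty
    obtain ⟨I, hI1, hI2⟩ := h3
    exact ⟨⟨n, hI1 ▸ hQ I hI2⟩, rfl⟩
  exact (Function.Injective.tsum_eq (g := fun q : Nat.Primes => (q : ℕ)) (fun a b h => Subtype.ext h) h1).symm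

/-- the ideals of prime norm -/
def degOne (K : Type*) [Field K] [NumberField K] : Set (Ideal (𝓞 K))⁰ :=
  {I | (Ideal.absNorm (I : Ideal (𝓞 K))).Prime}

lemma degOne_subset : degOne K ⊆ primeSet K := by
  intro I hI
  exact Ideal.prime_of_isPrime (nonZeroDivisors.ne_zero I.2) (Ideal.isPrime_of_irreducible_absNorm hI)

lemma cnt_degOne (q : Nat.Primes) : cnt (degOne K) (q : ℕ) = idealCount K q := by
  rw [← cnt_univ (q : ℕ) q.2.ne_zero]
  unfold cnt
  refine Nat.card_congr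
    { toFun := fun I => ⟨I.1, I.2.1, Set.mem_univ _⟩
      invFun := fun I => ⟨I.1, I.2.1, by
        show (Ideal.absNorm (I.1 : Ideal (𝓞 K))).Prime
        rw [I.2.1]; exact q.2⟩
      left_inv := fun _ => rfl
      right_inv := fun _ => rfl }

variable (K) in
theorem exists_bound_degOne : ∃ C : ℝ, ∀ s : ℝ, 1 < s → s ≤ 2 →
    |∑' I, (degOne K).indicator (gN K s) I - Real.log (1 / (s - 1))| ≤ C := by
  obtain ⟨C, hC⟩ := exists_bound_log K
  refine ⟨C, fun s hs hs2 => ?_⟩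
  rw [tsum_gN_prime (degOne K) (fun I hI => hI) hs]
  have := (hC s hs hs2).2
  have h2 : ∑' q : Nat.Primes, (cnt (degOne K) (q : ℕ) : ℝ) * ((q : ℕ) : ℝ) ^ (-s) =
      ∑' p : Nat.Primes, (Nat.card {I : Ideal (𝓞 K) // Ideal.absNorm I = (p : ℕ)} : ℝ) * ((p : ℕ) : ℝ) ^ (-s) := by
    refine tsum_congr fun q => ?_
    rw [cnt_degOne]
    rfl
  rw [h2]
  exact this

lemma sum_gN_sq_le {s : ℝ} (hs : 1 < s) (T : Finset (Ideal (𝓞 K))⁰) :
    ∑ q ∈ T, (gN K s q) ^ 2 ≤ ∑' I, gN K 2 I := by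
  have h1 : ∀ q : (Ideal (𝓞 K))⁰, (gN K s q) ^ 2 ≤ gN K 2 q := by
    intro q
    unfold gN
    have h0 : (1 : ℝ) ≤ Ideal.absNorm (q : Ideal (𝓞 K)) := by exact_mod_cast absNorm_pos' q
    rw [← Real.rpow_natCast, ← Real.rpow_mul (by linarith)]
    apply Real.rpow_le_rpow_of_exponent_le h0
    push_cast
    linarith
  calc ∑ q ∈ T, (gN K s q) ^ 2 ≤ ∑ q ∈ T, gN K 2 q := Finset.sum_le_sum fun q _ => h1 q
    _ ≤ _ := (summable_gN (K := K) one_lt_two).sum_le_tsum T fun _ _ => gN_nonneg 2 _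

/-- the weight attached to a class group character -/
noncomputable def wt (χ : ClassGroup (𝓞 K) →* ℂˣ) (s : ℝ) : (Ideal (𝓞 K))⁰ →* ℂ where
  toFun I := (χ (ClassGroup.mk0 I) : ℂ) * (gN K s I : ℂ)
  map_one' := by rw [map_one, map_one, gN_one]; simp
  map_mul' I J := by
    rw [map_mul, map_mul, gN_mul]
    push_cast
    ring

lemma norm_chi (χ : ClassGroup (𝓞 K) →* ℂˣ) (c : ClassGroup (𝓞 K)) : ‖(χ c : ℂ)‖ = 1 := by
  have h1 : c ^ Fintype.card (ClassGroup (𝓞 K)) = 1 := pow_card_eq_one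
  have h2 : (χ c : ℂ) ^ Fintype.card (ClassGroup (𝓞 K)) = 1 := by
    rw [← Units.val_pow_eq_pow_val, ← map_pow, h1, map_one, Units.val_one]
  exact Complex.norm_eq_one_of_pow_eq_one h2 Fintype.card_ne_zero

lemma norm_wt (χ : ClassGroup (𝓞 K) →* ℂˣ) (s : ℝ) (I : (Ideal (𝓞 K))⁰) : ‖wt χ s I‖ = gN K s I := by
  show ‖(χ (ClassGroup.mk0 I) : ℂ) * (gN K s I : ℂ)‖ = _
  rw [norm_mul, norm_chi, one_mul, Complex.norm_real, Real.norm_of_nonneg (gN_nonneg s I)]

lemma wt_re (χ : ClassGroup (𝓞 K) →* ℂˣ) (s : ℝ) (I : (Ideal (𝓞 K))⁰) :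
    (wt χ s I).re = (χ (ClassGroup.mk0 I) : ℂ).re * gN K s I := by
  show ((χ (ClassGroup.mk0 I) : ℂ) * (gN K s I : ℂ)).re = _
  rw [Complex.re_mul_ofReal]

lemma summable_norm_wt (χ : ClassGroup (𝓞 K) →* ℂˣ) {s : ℝ} (hs : 1 < s) : Summable fun I => ‖wt χ s I‖ := by
  simp only [norm_wt]
  exact summable_gN hs

variable (K) in
/-- the primes of norm not prime contribute a bounded amount -/
theorem exists_bound_nonDegOne : ∃ C : ℝ, ∀ s : ℝ, 1 < s → s ≤ 2 →
    ∑' I, (primeSet K \ degOne K).indicator (gN K s) I ≤ C := by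
  obtain ⟨C₁, hC₁⟩ := exists_bound_log_realZeta K
  obtain ⟨C₂, hC₂⟩ := exists_bound_degOne K
  refine ⟨Real.log 2 + (∑' I, gN K 2 I) / 2 + C₁ + C₂, fun s hs hs2 => ?_⟩
  have hw : Summable fun I => ‖wt (1 : ClassGroup (𝓞 K) →* ℂˣ) s I‖ := summable_norm_wt 1 hs
  have h1 : ∀ I, wt (1 : ClassGroup (𝓞 K) →* ℂˣ) s I = (gN K s I : ℂ) := by
    intro I
    show (((1 : ClassGroup (𝓞 K) →* ℂˣ) (ClassGroup.mk0 I) : ℂˣ) : ℂ) * (gN K s I : ℂ) = _
    rw [MonoidHom.one_apply, Units.val_one, one_mul]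
  have hz : ‖∑' I, wt (1 : ClassGroup (𝓞 K) →* ℂˣ) s I‖ ≤ realZeta K s := by
    have : ∑' I, wt (1 : ClassGroup (𝓞 K) →* ℂˣ) s I = ((realZeta K s : ℝ) : ℂ) := by
      rw [tsum_congr h1, ← tsum_gN hs, Complex.ofReal_tsum]
    rw [this, Complex.norm_real, Real.norm_of_nonneg]
    exact zero_le_one.trans (one_le_realZeta K hs)
  have h2 := tsum_re_le (wt (1 : ClassGroup (𝓞 K) →* ℂˣ) s) hw (realZeta K s) (∑' I, gN K 2 I) hz
    (fun T => by simp only [norm_wt]; exact sum_gN_sq_le hs T)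
  have h3 : ∀ I, (primeSet K).indicator (fun J : (Ideal (𝓞 K))⁰ => (wt (1 : ClassGroup (𝓞 K) →* ℂˣ) s J).re) I =
      (primeSet K).indicator (gN K s) I := by
    intro I
    simp only [h1, Complex.ofReal_re]
  rw [tsum_congr h3] at h2
  have h4 : ∑' I, (primeSet K).indicator (gN K s) I =
      ∑' I, (degOne K).indicator (gN K s) I + ∑' I, (primeSet K \ degOne K).indicator (gN K s) I := by
    rw [← ((summable_gN hs).indicator _).tsum_add ((summable_gN hs).indicator _)]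
    refine tsum_congr fun I => ?_
    have h5 := Set.indicator_union_of_disjoint (s := degOne K) (t := primeSet K \ degOne K)
        Set.disjoint_sdiff_right (gN K s)
    rw [Set.union_sdiff_cancel degOne_subset] at h5
    exact congrFun h5 I
  have h5 := abs_le.mp (hC₁ s hs hs2)
  have h6 := abs_le.mp (hC₂ s hs hs2)
  rw [h4, Real.log_mul two_ne_zero (by have := one_le_realZeta K hs; linarith)] at h2
  linarith [h5.1, h5.2, h6.1, h6.2]

/-- the boundedness of `L(s, χ)` near `1` -/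
def LBound (χ : ClassGroup (𝓞 K) →* ℂˣ) : Prop :=
  ∃ C : ℝ, ∀ s : ℝ, 1 < s → s ≤ 2 → ‖∑' I : (Ideal (𝓞 K))⁰, wt χ s I‖ ≤ C

theorem exists_lower_bound (χ : ClassGroup (𝓞 K) →* ℂˣ) (hχ : LBound χ) :
    ∃ C : ℝ, ∀ s : ℝ, 1 < s → s ≤ 2 →
      Real.log (1 / (s - 1)) / 2 - C ≤
        ∑' I, ({I | I ∈ degOne K ∧ χ (ClassGroup.mk0 I) ≠ 1} : Set (Ideal (𝓞 K))⁰).indicator (gN K s) I := by
  obtain ⟨C₁, hC₁⟩ := hχ
  obtain ⟨C₂, hC₂⟩ := exists_bound_degOne K
  obtain ⟨C₃, hC₃⟩ := exists_bound_nonDegOne K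
  refine ⟨(C₂ + (Real.log (2 * C₁) + (∑' I, gN K 2 I) / 2) + C₃) / 2, fun s hs hs2 => ?_⟩
  set A : Set (Ideal (𝓞 K))⁰ := {I | I ∈ degOne K ∧ χ (ClassGroup.mk0 I) ≠ 1} with hA
  have h1 := tsum_re_le (wt χ s) (summable_norm_wt χ hs) C₁ (∑' I, gN K 2 I) (hC₁ s hs hs2)
    (fun T => by simp only [norm_wt]; exact sum_gN_sq_le hs T)
  have hS := summable_gN (K := K) hs
  have hSw : Summable fun I => (wt χ s I).re :=
    Summable.of_norm_bounded (summable_norm_wt χ hs) fun I => Complex.abs_re_le_norm _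
  have h2 : ∑' I, (degOne K).indicator (gN K s) I ≤
      ∑' I, (primeSet K).indicator (fun J : (Ideal (𝓞 K))⁰ => (wt χ s J).re) I +
      2 * ∑' I, A.indicator (gN K s) I + ∑' I, (primeSet K \ degOne K).indicator (gN K s) I := by
    rw [← tsum_mul_left, ← (hSw.indicator _).tsum_add ((hS.indicator _).mul_left 2),
      ← ((hSw.indicator _).add ((hS.indicator _).mul_left 2)).tsum_add (hS.indicator _)]
    refine Summable.tsum_le_tsum (fun I => ?_) (hS.indicator _)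
      (((hSw.indicator _).add ((hS.indicator _).mul_left 2)).add (hS.indicator _))
    have hg := gN_nonneg s I
    have hre := wt_re χ s I
    have hre1 : -gN K s I ≤ (wt χ s I).re := by
      have := Complex.abs_re_le_norm (wt χ s I)
      rw [norm_wt] at this
      exact (abs_le.mp this).1
    by_cases hd : I ∈ degOne K
    · have hp : I ∈ primeSet K := degOne_subset hd
      have hnd : I ∉ primeSet K \ degOne K := fun h => h.2 hd
      rw [Set.indicator_of_mem hd, Set.indicator_of_mem hp, Set.indicator_of_notMem hnd]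
      by_cases hc : χ (ClassGroup.mk0 I) = 1
      · have hnA : I ∉ A := fun h => h.2 hc
        rw [Set.indicator_of_notMem hnA, hre, hc]
        simp
      · have hIA : I ∈ A := ⟨hd, hc⟩
        rw [Set.indicator_of_mem hIA]
        linarith
    · have hnA : I ∉ A := fun h => hd h.1
      rw [Set.indicator_of_notMem hd, Set.indicator_of_notMem hnA]
      by_cases hp : I ∈ primeSet K
      · rw [Set.indicator_of_mem hp, Set.indicator_of_mem (show I ∈ primeSet K \ degOne K from ⟨hp, hd⟩)]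
        linarith
      · rw [Set.indicator_of_notMem hp, Set.indicator_of_notMem (fun h => hp h.1)]
        simp
  have h6 := abs_le.mp (hC₂ s hs hs2)
  have h7 := hC₃ s hs hs2
  linarith [h6.1]

end Fermat.Agent.ExtVan
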