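import Mathlib
import Fermat.Agent.ExtVan.DensityLower
set_option autoImplicit false

open NumberField Filter Topology nonZeroDivisors Polynomial
open Fermat.Agent.FrobDensity

namespace Fermat.Agent.ExtVan

/-- extending a homomorphism to an overring with controlled denominators -/
lemma exists_hom_extension {P S k : Type*} [CommRing P] [CommRing S] [Field k] (f : P →+* S) (π : P →+* k)
    (hker : ∀ g, f g = 0 → π g = 0) (d : P) (hd : π d ≠ 0) (hS : ∀ x, ∃ g, f g = f d * x) :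
    ∃ ψ : S →+* k, ∀ g, ψ (f g) = π g := by
  choose g hg using hS
  have hwd : ∀ x h, f h = f d * x → π h = π (g x) := by
    intro x h hh
    have := hker (h - g x) (by rw [map_sub, hh, hg, sub_self])
    rwa [map_sub, sub_eq_zero] at this
  refine ⟨
    { toFun := fun x => π (g x) / π d
      map_one' := by
        rw [← hwd 1 d (by rw [mul_one]), div_self hd]
      map_zero' := by
        rw [← hwd 0 0 (by rw [map_zero, mul_zero]), map_zero, zero_div]
      map_add' := fun x y => by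
        rw [← hwd (x + y) (g x + g y) (by rw [map_add, hg, hg, mul_add]), map_add, add_div]
      map_mul' := fun x y => by
        have h1 : π (d * g (x * y)) = π (g x * g y) := by
          have h2 := hker (d * g (x * y) - g x * g y) (by
            rw [map_sub, map_mul, map_mul, hg, hg, hg]; ring)
          rwa [map_sub, sub_eq_zero] at h2
        rw [map_mul, map_mul] at h1
        field_simp
        rw [← h1, mul_comm] }, fun h => ?_⟩
  show π (g (f h)) / π d = π h
  rw [← hwd (f h) (d * h) (by rw [map_mul]), map_mul, mul_div_cancel_left₀ _ hd]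

section

variable (K : Type*) [Field K] [NumberField K]

/-- degree one primes, prime to `p u`, modulo which `u` is a `p`-th power -/
def splitSet (p : ℕ) (u : 𝓞 K) : Set (Ideal (𝓞 K))⁰ :=
  {I | I ∈ degOne K ∧ (p : 𝓞 K) ∉ (I : Ideal (𝓞 K)) ∧ u ∉ (I : Ideal (𝓞 K)) ∧
    ∃ y : 𝓞 K, y ^ p - u ∈ (I : Ideal (𝓞 K))}

variable {K}

/-- the homomorphisms `𝓞 F → 𝓞 K / 𝔮` -/
lemma exists_hom_to_residue {F : Type*} [Field F] [NumberField F] [Algebra K F] {p : ℕ} (hp : p.Prime)
    (u : 𝓞 K) (B : PowerBasis K F) (hBm : minpoly K B.gen = X ^ p - C (u : K))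
    (β : 𝓞 F) (hβ : (β : F) = B.gen)
    (I : Ideal (𝓞 K)) (hI : I.IsPrime) (hI0 : I ≠ ⊥) (hpI : (p : 𝓞 K) ∉ I) (huI : u ∉ I)
    (c : 𝓞 K) (hc : c ^ p - u ∈ I) :
    ∃ ψ : 𝓞 F →+* 𝓞 K ⧸ I, (∀ a : 𝓞 K, ψ (algebraMap (𝓞 K) (𝓞 F) a) = Ideal.Quotient.mk I a) ∧
      ψ β = Ideal.Quotient.mk I c := by
  have hmax : I.IsMaximal := hI.isMaximal hI0
  let _ : Field (𝓞 K ⧸ I) := Ideal.Quotient.field I
  have hβint : IsIntegral (𝓞 K) B.gen := by
    rw [← hβ]
    exact (RingOfIntegers.isIntegral_coe β).tower_top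
  have hmonic : (X ^ p - C u : (𝓞 K)[X]).Monic := monic_X_pow_sub_C u hp.ne_zero
  have hmin : minpoly (𝓞 K) B.gen = X ^ p - C u := by
    have h1 := minpoly.isIntegrallyClosed_eq_field_fractions' K hβint
    rw [hBm] at h1
    have h2 : (X ^ p - C (u : K) : K[X]) = (X ^ p - C u : (𝓞 K)[X]).map (algebraMap (𝓞 K) K) := by
      rw [Polynomial.map_sub, Polynomial.map_pow, Polynomial.map_X, Polynomial.map_C]
    rw [h2] at h1
    exact (Polynomial.map_injective _ (FaithfulSMul.algebraMap_injective (𝓞 K) K) h1).symm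
  let f : (𝓞 K)[X] →+* 𝓞 F := (aeval β : (𝓞 K)[X] →ₐ[𝓞 K] 𝓞 F)
  let π : (𝓞 K)[X] →+* 𝓞 K ⧸ I := (Ideal.Quotient.mk I).comp (evalRingHom c)
  have hfF : ∀ g : (𝓞 K)[X], ((f g : 𝓞 F) : F) = aeval B.gen g := by
    intro g
    show algebraMap (𝓞 F) F (aeval β g) = _
    rw [← hβ, ← aeval_algebraMap_apply]
  have hker : ∀ g, f g = 0 → π g = 0 := by
    intro g hg
    have h1 : aeval B.gen g = 0 := by rw [← hfF, hg]; rfl
    have h2 : X ^ p - C u ∣ g := by
      rw [← hmin]
      exact minpoly.isIntegrallyClosed_dvd hβint h1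
    obtain ⟨h, rfl⟩ := h2
    show Ideal.Quotient.mk I (eval c _) = 0
    rw [Ideal.Quotient.eq_zero_iff_mem, eval_mul, eval_sub, eval_pow, eval_X, eval_C]
    exact I.mul_mem_right _ hc
  -- the discriminant
  have hdim : B.dim = p := by
    rw [← B.natDegree_minpoly, hBm, natDegree_X_pow_sub_C]
  have hdiscr : ∃ e : ℤ, (e = 1 ∨ e = -1) ∧
      Algebra.discr K B.basis = (e : K) * ((p : K) ^ p * (u : K) ^ (p - 1)) := by
    rw [Algebra.discr_powerBasis_eq_norm, hBm]
    have h1 : aeval B.gen (derivative (X ^ p - C (u : K) : K[X])) = algebraMap K F p * B.gen ^ (p - 1) := by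
      rw [derivative_sub, derivative_X_pow, derivative_C, sub_zero, map_mul, aeval_C, map_pow, aeval_X]
    have h2 : Module.finrank K F = p := by rw [B.finrank, hdim]
    rw [h1, map_mul, Algebra.norm_algebraMap, map_pow, Algebra.PowerBasis.norm_gen_eq_coeff_zero_minpoly,
      hBm, h2, hdim]
    have h3 : coeff (X ^ p - C (u : K) : K[X]) 0 = -(u : K) := by
      rw [coeff_sub, coeff_X_pow, coeff_C_zero, if_neg hp.ne_zero.symm, zero_sub]
    rw [h3]
    refine ⟨(-1) ^ (p * (p - 1) / 2) * (-1) ^ (p * (p - 1)) * (-1) ^ (p - 1), ?_, ?_⟩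
    · rw [← pow_add, ← pow_add]
      exact neg_one_pow_eq_or ℤ _
    · push_cast
      rw [mul_pow ((-1) ^ p) (-(u : K)), neg_pow (u : K), ← pow_mul]
      ring
  obtain ⟨e, he, hdiscr⟩ := hdiscr
  let d : (𝓞 K)[X] := C ((p : 𝓞 K) ^ p * u ^ (p - 1))
  have hS : ∀ x, ∃ g, f g = f d * x := by
    intro x
    have h1 := Algebra.discr_mul_isIntegral_mem_adjoin (R := 𝓞 K) (K := K) (L := F) (B := B) hβint
      (z := (x : F)) ((RingOfIntegers.isIntegral_coe x).tower_top)
    have h2 : (algebraMap (𝓞 F) F (f d * x)) ∈ Algebra.adjoin (𝓞 K) ({B.gen} : Set F) := by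
      have h3 : algebraMap (𝓞 F) F (f d * x) = (e : F) * (Algebra.discr K B.basis • (x : F)) := by
        rw [map_mul]
        have h4 : algebraMap (𝓞 F) F (f d) = algebraMap K F ((p : K) ^ p * (u : K) ^ (p - 1)) := by
          rw [show algebraMap (𝓞 F) F (f d) = _ from hfF d, aeval_C]
          rw [IsScalarTower.algebraMap_apply (𝓞 K) K F]
          congr 1
        rw [h4, hdiscr, Algebra.smul_def, map_mul (algebraMap K F) (e : K), map_intCast, ← mul_assoc,
          ← mul_assoc]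
        congr 1
        rcases he with rfl | rfl <;> simp
      rw [h3]
      exact Subalgebra.mul_mem _ (intCast_mem _ _) h1
    rw [Algebra.adjoin_singleton_eq_range_aeval] at h2
    obtain ⟨g, hg⟩ := h2
    refine ⟨g, RingOfIntegers.ext ?_⟩
    exact (hfF g).trans hg
  have hd : π d ≠ 0 := by
    show Ideal.Quotient.mk I (eval c (C _)) ≠ 0
    rw [eval_C, Ne, Ideal.Quotient.eq_zero_iff_mem]
    intro h
    rcases hI.mem_or_mem h with h | h
    · exact hpI (hI.mem_of_pow_mem _ h)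
    · exact huI (hI.mem_of_pow_mem _ h)
  obtain ⟨ψ, hψ⟩ := exists_hom_extension f π hker d hd hS
  refine ⟨ψ, fun a => ?_, ?_⟩
  · have h1 : f (C a) = algebraMap (𝓞 K) (𝓞 F) a := aeval_C _ _
    rw [← h1, hψ]
    show Ideal.Quotient.mk I (eval c (C a)) = _
    rw [eval_C]
  · have h1 : f X = β := aeval_X _
    have h2 : ψ β = ψ (f X) := by rw [h1]
    rw [h2, hψ]
    show Ideal.Quotient.mk I (eval c X) = _
    rw [eval_X]


omit [NumberField K] in
/-- the difference of two distinct powers of `ζ` is prime to `I` if `p ∉ I` -/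
lemma zeta_pow_sub_notMem {p : ℕ} (hp : p.Prime) {ζ : 𝓞 K} (hζ : IsPrimitiveRoot ζ p) (I : Ideal (𝓞 K))
    (hI : I.IsPrime) (hpI : (p : 𝓞 K) ∉ I) (i j : ℕ) (hi : i < p) (hj : j < p) (hij : i < j) :
    ζ ^ i - ζ ^ j ∉ I := by
  intro h
  obtain ⟨m, rfl⟩ : ∃ m, p = m + 1 := ⟨p - 1, by have := hp.pos; omega⟩
  have h1 : ζ ^ i - ζ ^ j = ζ ^ i * (1 - ζ ^ (j - i)) := by
    rw [mul_sub, mul_one, ← pow_add]
    congr 2
    omega
  rw [h1] at h
  rcases hI.mem_or_mem h with h2 | h2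
  · have h3 : ζ ∈ I := hI.mem_of_pow_mem _ h2
    apply hI.ne_top
    rw [Ideal.eq_top_iff_one, ← hζ.pow_eq_one]
    exact I.pow_mem_of_mem h3 _ (Nat.succ_pos _)
  · apply hpI
    have h3 := hζ.prod_one_sub_pow_eq_order
    push_cast
    rw [← h3]
    have h4 : (1 - ζ ^ (j - i)) ∣ ∏ k ∈ Finset.range m, (1 - ζ ^ (k + 1)) := by
      have := Finset.dvd_prod_of_mem (fun k => (1 - ζ ^ (k + 1))) (s := Finset.range m) (a := j - i - 1)
        (Finset.mem_range.mpr (by omega))
      have h5 : j - i - 1 + 1 = j - i := by omega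
      simpa only [h5] using this
    exact I.mem_of_dvd h4 h2

/-- counting: above every prime of degree one modulo which `u` is a `p`-th power there are at least
`p` primes of degree one of `F`. -/
theorem card_mul_le {F : Type*} [Field F] [NumberField F] [Algebra K F] {p : ℕ} (hp : p.Prime)
    {ζ : 𝓞 K} (hζ : IsPrimitiveRoot ζ p)
    (u : 𝓞 K) (B : PowerBasis K F) (hBm : minpoly K B.gen = X ^ p - C (u : K))
    (q : ℕ) : cnt (splitSet K p u) q * p ≤ idealCount F q := by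
  have hβint : IsIntegral ℤ B.gen := by
    have h1 : B.gen ^ p = algebraMap K F (u : K) := by
      have := minpoly.aeval K B.gen
      rw [hBm, map_sub, map_pow, aeval_X, aeval_C, sub_eq_zero] at this
      exact this
    apply IsIntegral.of_pow hp.pos
    rw [h1]
    exact (RingOfIntegers.isIntegral_coe u).map (algebraMap K F).toIntAlgHom
  obtain ⟨β, hβ⟩ : ∃ β : 𝓞 F, (β : F) = B.gen := ⟨⟨B.gen, hβint⟩, rfl⟩
  let X' := {I : (Ideal (𝓞 K))⁰ // Ideal.absNorm (I : Ideal (𝓞 K)) = q ∧ I ∈ splitSet K p u}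
  have hprime : ∀ I : X', (I.1 : Ideal (𝓞 K)).IsPrime := fun I =>
    Ideal.isPrime_of_irreducible_absNorm I.2.2.1
  have hne : ∀ I : X', (I.1 : Ideal (𝓞 K)) ≠ ⊥ := fun I => nonZeroDivisors.ne_zero I.1.2
  choose y hy using fun I : X' => I.2.2.2.2.2
  have hc : ∀ (I : X') (i : Fin p), (ζ ^ (i : ℕ) * y I) ^ p - u ∈ (I.1 : Ideal (𝓞 K)) := by
    intro I i
    rw [mul_pow, ← pow_mul, mul_comm (i : ℕ), pow_mul, hζ.pow_eq_one, one_pow, one_mul]
    exact hy I
  choose ψ hψ1 hψ2 using fun (I : X') (i : Fin p) => exists_hom_to_residue hp u B hBm β hβ (I.1 : Ideal (𝓞 K))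
    (hprime I) (hne I) I.2.2.2.1 I.2.2.2.2.1 (ζ ^ (i : ℕ) * y I) (hc I i)
  have hsurj : ∀ I i, Function.Surjective (ψ I i) := by
    intro I i x
    obtain ⟨a, rfl⟩ := Ideal.Quotient.mk_surjective x
    exact ⟨_, hψ1 I i a⟩
  have hnorm : ∀ I i, Ideal.absNorm (RingHom.ker (ψ I i)) = q := by
    intro I i
    refine Eq.trans ?_ I.2.1
    rw [Ideal.absNorm_apply, Ideal.absNorm_apply, Submodule.cardQuot_apply, Submodule.cardQuot_apply]
    exact Nat.card_congr (RingHom.quotientKerEquivOfSurjective (hsurj I i)).toEquiv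
  have hmem : ∀ I i (a : 𝓞 K), algebraMap (𝓞 K) (𝓞 F) a ∈ RingHom.ker (ψ I i) ↔ a ∈ (I.1 : Ideal (𝓞 K)) := by
    intro I i a
    rw [RingHom.mem_ker, hψ1, Ideal.Quotient.eq_zero_iff_mem]
  have hfin : Finite {J : Ideal (𝓞 F) // Ideal.absNorm J = q} :=
    (Ideal.finite_setOfPred_absNorm_eq (S := 𝓞 F) q).to_subtype
  have hcard : cnt (splitSet K p u) q * p = Nat.card (X' × Fin p) := by
    rw [Nat.card_prod, Nat.card_eq_fintype_card (α := Fin p), Fintype.card_fin]
    rfl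
  rw [hcard]
  unfold idealCount
  refine Nat.card_le_card_of_injective
    (fun x : X' × Fin p => (⟨RingHom.ker (ψ x.1 x.2), hnorm x.1 x.2⟩ : {J : Ideal (𝓞 F) // Ideal.absNorm J = q})) ?_
  rintro ⟨I, i⟩ ⟨J, j⟩ h
  have hker : RingHom.ker (ψ I i) = RingHom.ker (ψ J j) := congrArg Subtype.val h
  have hIJ : I = J := by
    apply Subtype.ext
    apply Subtype.ext
    ext a
    rw [← hmem I i, hker, hmem]
  subst hIJ
  refine Prod.ext rfl ?_
  by_contra hij
  have key : ∀ i j : Fin p, RingHom.ker (ψ I i) = RingHom.ker (ψ I j) → ¬ (i : ℕ) < j := by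
    intro i j hker hlt
    have h1 : β - algebraMap (𝓞 K) (𝓞 F) (ζ ^ (i : ℕ) * y I) ∈ RingHom.ker (ψ I i) := by
      rw [RingHom.mem_ker, map_sub, hψ1, hψ2, sub_self]
    have h2 : β - algebraMap (𝓞 K) (𝓞 F) (ζ ^ (j : ℕ) * y I) ∈ RingHom.ker (ψ I i) := by
      rw [hker, RingHom.mem_ker, map_sub, hψ1, hψ2, sub_self]
    have h3 := Ideal.sub_mem _ h2 h1
    rw [sub_sub_sub_cancel_left, ← map_sub, hmem, ← sub_mul] at h3
    rcases (hprime I).mem_or_mem h3 with h4 | h4
    · exact zeta_pow_sub_notMem hp hζ _ (hprime I) I.2.2.2.1 i j i.2 j.2 hlt h4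
    · apply I.2.2.2.2.1
      have h5 : y I ^ p ∈ (I.1 : Ideal (𝓞 K)) := Ideal.pow_mem_of_mem _ h4 _ hp.pos
      have h6 := Ideal.sub_mem _ h5 (hy I)
      rwa [sub_sub_cancel] at h6
  rcases lt_trichotomy (i : ℕ) j with h1 | h1 | h1
  · exact key i j hker h1
  · exact hij (Fin.ext h1)
  · exact key j i hker.symm h1

/-- the upper bound -/
theorem exists_upper_bound {p : ℕ} (hp : p.Prime) {ζ : 𝓞 K} (hζ : IsPrimitiveRoot ζ p)
    (u : 𝓞 K) (hu : ∀ x : K, x ^ p ≠ (u : K)) :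
    ∃ C : ℝ, ∀ s : ℝ, 1 < s → s ≤ 2 →
      (p : ℝ) * ∑' I, (splitSet K p u).indicator (gN K s) I ≤ Real.log (1 / (s - 1)) + C := by
  have hirr : Irreducible (X ^ p - C (u : K) : K[X]) := X_pow_sub_C_irreducible_of_prime hp hu
  have : Fact (Irreducible (X ^ p - C (u : K) : K[X])) := ⟨hirr⟩
  let F := AdjoinRoot (X ^ p - C (u : K) : K[X])
  let B : PowerBasis K F := AdjoinRoot.powerBasis hirr.ne_zero
  have hfd : Module.Finite K F := B.finite
  have hNF : NumberField F := NumberField.of_module_finite K F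
  have hBm : minpoly K B.gen = X ^ p - C (u : K) := by
    have h1 : B.gen = AdjoinRoot.root (X ^ p - C (u : K) : K[X]) := AdjoinRoot.powerBasis_gen _
    have hmonic : (X ^ p - C (u : K) : K[X]).Monic := monic_X_pow_sub_C _ hp.ne_zero
    rw [h1, AdjoinRoot.minpoly_root hirr.ne_zero, hmonic.leadingCoeff, inv_one, C_1, mul_one]
  obtain ⟨C, hC⟩ := exists_bound_log F
  refine ⟨C, fun s hs hs2 => ?_⟩
  rw [tsum_gN_prime (splitSet K p u) (fun I hI => hI.1) hs, ← tsum_mul_left]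
  have h1 := hC s hs hs2
  have h2 : ∑' q : Nat.Primes, (p : ℝ) * ((cnt (splitSet K p u) (q : ℕ) : ℝ) * ((q : ℕ) : ℝ) ^ (-s)) ≤
      ∑' q : Nat.Primes, (Nat.card {I : Ideal (𝓞 F) // Ideal.absNorm I = (q : ℕ)} : ℝ) * ((q : ℕ) : ℝ) ^ (-s) := by
    refine Summable.tsum_le_tsum (fun q => ?_) ?_ h1.1
    · rw [← mul_assoc]
      refine mul_le_mul_of_nonneg_right ?_ (by positivity)
      have := card_mul_le hp hζ u B hBm q
      rw [mul_comm]
      exact_mod_cast this
    · refine Summable.mul_left _ ?_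
      exact (summable_cnt (splitSet K p u) hs).comp_injective Subtype.val_injective
  have h3 := abs_le.mp h1.2
  linarith [h3.2]

end

end Fermat.Agent.ExtVan
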