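import Mathlib
import Fermat.Agent.ExtVan.DensityKummer
set_option autoImplicit false

open NumberField Filter Topology nonZeroDivisors Polynomial
open Fermat.Agent.FrobDensity

namespace Fermat.Agent.ExtVan

variable {K : Type*} [Field K] [NumberField K]

lemma gN_le_one {s : ℝ} (hs : 1 < s) (I : (Ideal (𝓞 K))⁰) : gN K s I ≤ 1 := by
  unfold gN
  exact Real.rpow_le_one_of_one_le_of_nonpos (by exact_mod_cast absNorm_pos' I) (by linarith)

lemma tsum_finite_le (E : Set (Ideal (𝓞 K))⁰) (hE : E.Finite) {s : ℝ} (hs : 1 < s) :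
    ∑' I, E.indicator (gN K s) I ≤ hE.toFinset.card := by
  rw [tsum_eq_sum (s := hE.toFinset)]
  · calc ∑ I ∈ hE.toFinset, E.indicator (gN K s) I ≤ ∑ I ∈ hE.toFinset, (1 : ℝ) := by
          refine Finset.sum_le_sum fun I _ => ?_
          refine Set.indicator_apply_le' (fun _ => gN_le_one hs I) (fun _ => zero_le_one)
      _ = _ := by simp
  · intro I hI
    exact Set.indicator_of_notMem (fun h => hI ((Set.Finite.mem_toFinset hE).mpr h)) _

theorem density_of_LBound {p : ℕ} (hp : p.Prime) (hp3 : 3 ≤ p) {ζ : 𝓞 K} (hζ : IsPrimitiveRoot ζ p)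
    (u : 𝓞 K) (hu0 : u ≠ 0) (hu : ∀ x : K, x ^ p ≠ (u : K))
    (χ : ClassGroup (𝓞 K) →* ℂˣ) (hχ : LBound χ) :
    ∃ 𝔮 : (Ideal (𝓞 K))⁰, (𝔮 : Ideal (𝓞 K)).IsPrime ∧ (Ideal.absNorm (𝔮 : Ideal (𝓞 K))).Prime ∧
      (p : 𝓞 K) ∉ (𝔮 : Ideal (𝓞 K)) ∧ u ∉ (𝔮 : Ideal (𝓞 K)) ∧ χ (ClassGroup.mk0 𝔮) ≠ 1 ∧
      ¬ ∃ y : 𝓞 K, y ^ p - u ∈ (𝔮 : Ideal (𝓞 K)) := by
  by_contra hcon
  push Not at hcon
  obtain ⟨C₁, hC₁⟩ := exists_lower_bound χ hχ
  obtain ⟨C₂, hC₂⟩ := exists_upper_bound hp hζ u hu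
  set A : Set (Ideal (𝓞 K))⁰ := {I | I ∈ degOne K ∧ χ (ClassGroup.mk0 I) ≠ 1} with hA
  let E : Set (Ideal (𝓞 K))⁰ := {I | (I : Ideal (𝓞 K)).IsPrime ∧ ((p : 𝓞 K) ∈ (I : Ideal (𝓞 K)) ∨ u ∈ (I : Ideal (𝓞 K)))}
  have hE : E.Finite := by
    apply Set.Finite.of_finite_image (f := Subtype.val) _ Subtype.val_injective.injOn
    refine (Ideal.finite_setOfPred_absNorm_le (S := 𝓞 K) (Ideal.absNorm (Ideal.span {(p : 𝓞 K) * u}))).subset ?_
    rintro _ ⟨I, ⟨hI1, hI2⟩, rfl⟩
    have h1 : (p : 𝓞 K) * u ∈ (I : Ideal (𝓞 K)) := by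
      rcases hI2 with h | h
      · exact Ideal.mul_mem_right _ _ h
      · exact Ideal.mul_mem_left _ _ h
    apply Nat.le_of_dvd
    · apply Nat.pos_of_ne_zero
      rw [Ne, Ideal.absNorm_eq_zero_iff, Ideal.span_singleton_eq_bot]
      exact mul_ne_zero (Nat.cast_ne_zero.mpr hp.ne_zero) hu0
    · apply Ideal.absNorm_dvd_absNorm_of_le
      rwa [Ideal.span_singleton_le_iff_mem]
  have key : ∀ s : ℝ, 1 < s → s ≤ 2 →
      Real.log (1 / (s - 1)) / 2 - C₁ ≤ (Real.log (1 / (s - 1)) + C₂) / p + hE.toFinset.card := by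
    intro s hs hs2
    have hS := summable_gN (K := K) hs
    have h1 : ∑' I, A.indicator (gN K s) I ≤
        ∑' I, (splitSet K p u).indicator (gN K s) I + ∑' I, E.indicator (gN K s) I := by
      rw [← (hS.indicator _).tsum_add (hS.indicator _)]
      refine Summable.tsum_le_tsum (fun I => ?_) (hS.indicator _) ((hS.indicator _).add (hS.indicator _))
      by_cases hIA : I ∈ A
      · rw [Set.indicator_of_mem hIA]
        by_cases hIE : I ∈ E
        · rw [Set.indicator_of_mem hIE]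
          have := Set.indicator_nonneg (s := splitSet K p u) (f := gN K s) (fun x _ => gN_nonneg s x) I
          linarith
        · have hIp : (I : Ideal (𝓞 K)).IsPrime := Ideal.isPrime_of_irreducible_absNorm hIA.1
          have h2 : (p : 𝓞 K) ∉ (I : Ideal (𝓞 K)) := fun h => hIE ⟨hIp, Or.inl h⟩
          have h3 : u ∉ (I : Ideal (𝓞 K)) := fun h => hIE ⟨hIp, Or.inr h⟩
          have h4 : I ∈ splitSet K p u := ⟨hIA.1, h2, h3, hcon I hIp hIA.1 h2 h3 hIA.2⟩
          rw [Set.indicator_of_mem h4, Set.indicator_of_notMem hIE, add_zero]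
      · rw [Set.indicator_of_notMem hIA]
        have h5 := Set.indicator_nonneg (s := splitSet K p u) (f := gN K s) (fun x _ => gN_nonneg s x) I
        have h6 := Set.indicator_nonneg (s := E) (f := gN K s) (fun x _ => gN_nonneg s x) I
        linarith
    have h2 := hC₁ s hs hs2
    have h3 := hC₂ s hs hs2
    have h4 := tsum_finite_le E hE hs
    have hp0 : (0 : ℝ) < p := by exact_mod_cast hp.pos
    have h5 : ∑' I, (splitSet K p u).indicator (gN K s) I ≤ (Real.log (1 / (s - 1)) + C₂) / p := by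
      rw [le_div_iff₀ hp0, mul_comm]
      exact h3
    linarith
  -- let `s → 1`
  have hp3' : (3 : ℝ) ≤ p := by exact_mod_cast hp3
  have hp0 : (0 : ℝ) < p := by linarith
  have key2 : ∀ M : ℝ, 0 ≤ M → M / 2 - C₁ ≤ (M + C₂) / p + hE.toFinset.card := by
    intro M hM
    have h1 := Real.exp_pos (-M)
    have h2 : Real.exp (-M) ≤ 1 := Real.exp_le_one_iff.mpr (by linarith)
    have h3 := key (1 + Real.exp (-M)) (by linarith) (by linarith)
    have h4 : Real.log (1 / (1 + Real.exp (-M) - 1)) = M := by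
      rw [add_sub_cancel_left, one_div, Real.log_inv, Real.log_exp, neg_neg]
    rwa [h4] at h3
  have key3 : ∀ M : ℝ, 0 ≤ M → M / 6 ≤ C₁ + |C₂| + hE.toFinset.card := by
    intro M hM
    have h1 := key2 M hM
    have h2 : (M + C₂) / p ≤ M / 3 + |C₂| := by
      rw [add_div]
      have h3 : M / p ≤ M / 3 := div_le_div_of_nonneg_left hM (by norm_num) hp3'
      have h4 : C₂ / p ≤ |C₂| := by
        calc C₂ / p ≤ |C₂| / p := div_le_div_of_nonneg_right (le_abs_self _) hp0.le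
          _ ≤ |C₂| := div_le_self (abs_nonneg _) (by linarith)
      linarith
    linarith
  have h0 := key3 0 le_rfl
  have := key3 (6 * (C₁ + |C₂| + hE.toFinset.card) + 6) (by linarith)
  linarith

end Fermat.Agent.ExtVan
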