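import Fermat.Agent.ExtVan.ThaineAux

set_option autoImplicit false
set_option linter.unusedSectionVars false

/-!
Automorphisms of `𝓞 L` and the primes above `q` for Thaine's theorem.
-/

namespace Fermat.Agent.Thaine

open NumberField Ideal Polynomial
open scoped Pointwise

section aut

variable {p q : ℕ} [hp : Fact p.Prime] [hq : Fact q.Prime]
variable {K : Type*} (L : Type*) [Field K] [NumberField K] [hK : IsCyclotomicExtension {p} ℚ K]
  [Field L] [NumberField L] [Algebra K L] [hL : IsCyclotomicExtension {q} K L]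
variable {ζ : 𝓞 K} (hζ : IsPrimitiveRoot ζ p)

include hζ hK hL in
/-- Ring homomorphisms agreeing on the generator modulo `Q` agree modulo `Q`. -/
theorem sub_mem_of_gen (hpq : p ≠ q) (Q : Ideal (𝓞 L)) (f g : 𝓞 L →+* 𝓞 L)
    (h : f (algebraMap (𝓞 K) (𝓞 L) ζ * zq q K L) - g (algebraMap (𝓞 K) (𝓞 L) ζ * zq q K L) ∈ Q)
    (x : 𝓞 L) : f x - g x ∈ Q := by
  have hx : x ∈ Algebra.adjoin ℤ {algebraMap (𝓞 K) (𝓞 L) ζ * zq q K L} := by
    rw [adjoin_eq_top L hζ hpq]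
    trivial
  induction hx using Algebra.adjoin_induction with
  | mem x hx =>
    rw [Set.mem_singleton_iff] at hx
    subst hx
    exact h
  | algebraMap r => simp
  | add x y _ _ hx hy =>
    rw [map_add, map_add, add_sub_add_comm]
    exact Q.add_mem hx hy
  | mul x y _ _ hx hy =>
    have : f (x * y) - g (x * y) = (f x - g x) * f y + g x * (f y - g y) := by
      rw [map_mul, map_mul]; ring
    rw [this]
    exact Q.add_mem (Q.mul_mem_right _ hx) (Q.mul_mem_left _ hy)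

include hζ hK hL in
theorem exists_auts (hpq : p ≠ q) {t : ℕ} (ht : t.Coprime p) :
    ∃ (S : 𝓞 L ≃+* 𝓞 L) (s : 𝓞 K ≃+* 𝓞 K),
      S (algebraMap (𝓞 K) (𝓞 L) ζ) = algebraMap (𝓞 K) (𝓞 L) ζ ^ t ∧
      S (zq q K L) = zq q K L ∧ s ζ = ζ ^ t ∧
      ∀ x : 𝓞 K, S (algebraMap (𝓞 K) (𝓞 L) x) = algebraMap (𝓞 K) (𝓞 L) (s x) := by
  have := cyc_mul (p := p) (q := q) K L hpq
  have : NeZero (p * q) := ⟨mul_ne_zero hp.out.ne_zero hq.out.ne_zero⟩
  have hcop : p.Coprime q := (Nat.coprime_primes hp.out hq.out).mpr hpq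
  obtain ⟨m, hm1, hm2⟩ := Nat.chineseRemainder hcop t 1
  have hmp : m.Coprime p := by
    rw [Nat.coprime_iff_gcd_eq_one, hm1.gcd_eq]
    exact ht
  have hmq : m.Coprime q := by
    rw [Nat.coprime_iff_gcd_eq_one, hm2.gcd_eq]
    exact Nat.coprime_one_left q
  obtain ⟨σ, hσ⟩ := exists_aut_pow (n := p * q) L (Nat.Coprime.mul_right hmp hmq)
  obtain ⟨σ', hσ'⟩ := exists_aut_pow (n := p) K ht
  have hzp := zp_prim (q := q) L hζ
  have hzq := zq_prim (q := q) K L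
  have hS : ∀ x : 𝓞 L, x ^ (p * q) = 1 →
      RingOfIntegers.mapRingEquiv (σ : L ≃+* L) x = x ^ m := by
    intro x hx
    apply RingOfIntegers.ext
    have e1 : ((RingOfIntegers.mapRingEquiv (σ : L ≃+* L) x : 𝓞 L) : L) = σ x := rfl
    have e2 : (x : L) ^ (p * q) = 1 := by
      have e3 := congrArg (algebraMap (𝓞 L) L) hx
      rw [map_pow, map_one] at e3
      exact e3
    rw [e1, hσ _ e2]
    exact (map_pow (algebraMap (𝓞 L) L) x m).symm
  have hs : ∀ x : 𝓞 K, x ^ p = 1 →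
      RingOfIntegers.mapRingEquiv (σ' : K ≃+* K) x = x ^ t := by
    intro x hx
    apply RingOfIntegers.ext
    have e1 : ((RingOfIntegers.mapRingEquiv (σ' : K ≃+* K) x : 𝓞 K) : K) = σ' x := rfl
    have e2 : (x : K) ^ p = 1 := by
      have e3 := congrArg (algebraMap (𝓞 K) K) hx
      rw [map_pow, map_one] at e3
      exact e3
    rw [e1, hσ' _ e2]
    exact (map_pow (algebraMap (𝓞 K) K) x t).symm
  have hpm : ∀ {R : Type _} [CommRing R] {z : R} {n : ℕ} {a b : ℕ}, z ^ n = 1 → a ≡ b [MOD n] →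
      z ^ a = z ^ b := by
    intro R _ z n a b hz hab
    rw [← Nat.mod_add_div a n, ← Nat.mod_add_div b n, pow_add, pow_add, pow_mul, pow_mul, hz,
      one_pow, one_pow, hab]
  have hS1 : RingOfIntegers.mapRingEquiv (σ : L ≃+* L) (algebraMap (𝓞 K) (𝓞 L) ζ) =
      algebraMap (𝓞 K) (𝓞 L) ζ ^ t := by
    rw [hS _ (by rw [pow_mul, hzp.pow_eq_one, one_pow])]
    exact hpm hzp.pow_eq_one hm1
  have hS2 : RingOfIntegers.mapRingEquiv (σ : L ≃+* L) (zq q K L) = zq q K L := by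
    rw [hS _ (by rw [mul_comm, pow_mul, hzq.pow_eq_one, one_pow])]
    rw [hpm hzq.pow_eq_one hm2, pow_one]
  have hs1 := hs ζ hζ.pow_eq_one
  refine ⟨_, _, hS1, hS2, hs1, ?_⟩
  intro x
  have hζ' : IsPrimitiveRoot (ζ : K) p := hζ.map_of_injective RingOfIntegers.coe_injective
  have hx : x ∈ Algebra.adjoin ℤ {ζ} := by
    have h1 := IsCyclotomicExtension.Rat.adjoin_singleton_eq_top hζ'
    have h2 : hζ'.toInteger = ζ := RingOfIntegers.ext rfl
    rw [h2] at h1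
    rw [h1]
    trivial
  induction hx using Algebra.adjoin_induction with
  | mem x hx =>
    rw [Set.mem_singleton_iff] at hx
    subst hx
    rw [hS1, hs1, map_pow]
  | algebraMap r => simp
  | add x y _ _ hx hy => rw [map_add, map_add, map_add, map_add, hx, hy]
  | mul x y _ _ hx hy => rw [map_mul, map_mul, map_mul, map_mul, hx, hy]

include hζ hK hL in
/-- Every prime above `q` is a pull-back of a given one `Q`. -/
theorem exists_comap_eq (hpq : p ≠ q) {P Q : Ideal (𝓞 L)} (hP : P.IsPrime) (hQ : Q.IsPrime)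
    (hqP : (q : 𝓞 L) ∈ P) (hqQ : (q : 𝓞 L) ∈ Q) (S : ℕ → (𝓞 L ≃+* 𝓞 L))
    (hS1 : ∀ t ∈ Finset.Ico 1 p, S t (algebraMap (𝓞 K) (𝓞 L) ζ) = algebraMap (𝓞 K) (𝓞 L) ζ ^ t)
    (hS2 : ∀ t ∈ Finset.Ico 1 p, S t (zq q K L) = zq q K L) :
    ∃ t ∈ Finset.Ico 1 p, P = comap (S t : 𝓞 L →+* 𝓞 L) Q := by
  have := cyc_mul (p := p) (q := q) K L hpq
  have : IsGalois ℚ L := IsCyclotomicExtension.isGalois {p * q} ℚ L
  have := liesOver_q (q := q) L hP hqP
  have := liesOver_q (q := q) L hQ hqQ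
  obtain ⟨σ, hσ⟩ := exists_smul_eq_of_isGaloisGroup (span {(q : ℤ)}) P Q (L ≃ₐ[ℚ] L)
  have hzp := zp_prim (q := q) L hζ
  have hzq := zq_prim (q := q) K L
  have h1 : (σ • (algebraMap (𝓞 K) (𝓞 L) ζ)) ^ p = 1 := by
    rw [← smul_pow', hzp.pow_eq_one, smul_one]
  have h2 : (σ • (zq q K L)) ^ q = 1 := by
    rw [← smul_pow', hzq.pow_eq_one, smul_one]
  obtain ⟨t, ht, ht'⟩ := hzp.eq_pow_of_pow_eq_one h1
  obtain ⟨m, hm, hm'⟩ := hzq.eq_pow_of_pow_eq_one h2
  have ht0 : t ≠ 0 := by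
    rintro rfl
    rw [pow_zero] at ht'
    have h3 : algebraMap (𝓞 K) (𝓞 L) ζ = 1 := by
      have h4 := congrArg (fun y => σ⁻¹ • y) ht'
      simp only [smul_one, inv_smul_smul] at h4
      exact h4.symm
    exact hzp.ne_one hp.out.one_lt h3
  have htI : t ∈ Finset.Ico 1 p := Finset.mem_Ico.mpr ⟨Nat.pos_of_ne_zero ht0, ht⟩
  refine ⟨t, htI, ?_⟩
  have hz1 := one_sub_zq_mem (K := K) L hQ hqQ
  have hz : Ideal.Quotient.mk Q (zq q K L) = 1 := by
    rw [← map_one (Ideal.Quotient.mk Q), eq_comm, Ideal.Quotient.eq]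
    exact hz1
  have hcong := sub_mem_of_gen L hζ hpq Q (MulSemiringAction.toRingHom (L ≃ₐ[ℚ] L) (𝓞 L) σ)
    (S t : 𝓞 L →+* 𝓞 L) (by
      have e1 : MulSemiringAction.toRingHom (L ≃ₐ[ℚ] L) (𝓞 L) σ
        (algebraMap (𝓞 K) (𝓞 L) ζ * zq q K L) =
          algebraMap (𝓞 K) (𝓞 L) ζ ^ t * zq q K L ^ m := by
        rw [map_mul, ht', hm']
        rfl
      have e2 : (S t : 𝓞 L →+* 𝓞 L) (algebraMap (𝓞 K) (𝓞 L) ζ * zq q K L) =
          algebraMap (𝓞 K) (𝓞 L) ζ ^ t * zq q K L := by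
        rw [map_mul]
        change S t _ * S t _ = _
        rw [hS1 t htI, hS2 t htI]
      rw [e1, e2, ← Ideal.Quotient.eq_zero_iff_mem]
      simp [hz])
  ext x
  rw [mem_comap]
  have h3 : x ∈ P ↔ σ • x ∈ Q := by
    rw [← hσ]
    exact (Ideal.smul_mem_pointwise_smul_iff).symm
  rw [h3]
  have h4 := hcong x
  constructor
  · intro h
    have h5 : (S t : 𝓞 L →+* 𝓞 L) x = σ • x - (σ • x - (S t : 𝓞 L →+* 𝓞 L) x) := by ring
    rw [h5]
    exact Q.sub_mem h h4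
  · intro h
    have h5 : σ • x = (σ • x - (S t : 𝓞 L →+* 𝓞 L) x) + (S t : 𝓞 L →+* 𝓞 L) x := by ring
    rw [h5]
    exact Q.add_mem h4 h

end aut

end Fermat.Agent.Thaine
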