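import Fermat.Agent.ExtVan.ThaineClass
import Fermat.Prelude.Def_ClassGroup_GaloisAction

set_option autoImplicit false
set_option linter.unusedSectionVars false

/-!
Auxiliary facts for Thaine's theorem.
-/

namespace Fermat.Agent.Thaine

open NumberField Ideal Polynomial
open scoped Pointwise

section aux

/-- A prime of prime norm has residue field generated by `ℤ`. -/
theorem exists_int_sub_mem_of_prime_norm {K : Type*} [Field K] [NumberField K]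
    {𝔮 : Ideal (𝓞 K)} (hq : (absNorm 𝔮).Prime) :
    ∀ x : 𝓞 K, ∃ n : ℤ, x - n ∈ 𝔮 := by
  intro x
  have hcard : Nat.card (𝓞 K ⧸ 𝔮) = absNorm 𝔮 := by
    rw [absNorm_apply, Submodule.cardQuot_apply]
  have hfin : Finite (𝓞 K ⧸ 𝔮) := Nat.finite_of_card_ne_zero (by rw [hcard]; exact hq.ne_zero)
  have : Fintype (𝓞 K ⧸ 𝔮) := Fintype.ofFinite _
  have : Fact (absNorm 𝔮).Prime := ⟨hq⟩
  let e := ZMod.ringEquivOfPrime (𝓞 K ⧸ 𝔮) hq (by rw [← Nat.card_eq_fintype_card, hcard])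
  refine ⟨((e.symm (Ideal.Quotient.mk 𝔮 x)).val : ℤ), ?_⟩
  rw [← Ideal.Quotient.eq, Int.cast_natCast, map_natCast]
  have h1 : (((e.symm (Ideal.Quotient.mk 𝔮 x)).val : ZMod (absNorm 𝔮))) =
      e.symm (Ideal.Quotient.mk 𝔮 x) := ZMod.natCast_zmod_val _
  have h2 := congrArg e h1
  rw [map_natCast, RingEquiv.apply_symm_apply] at h2
  exact h2.symm

variable {p : ℕ} [hp : Fact p.Prime] {K : Type*} [Field K] [NumberField K] {ζ : 𝓞 K}
  (hζ : IsPrimitiveRoot ζ p)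

include hζ in
theorem one_sub_pow_notMem {𝔮 : Ideal (𝓞 K)} (hpq : (p : 𝓞 K) ∉ 𝔮) {t : ℕ} (ht : ¬ p ∣ t) :
    1 - ζ ^ t ∉ 𝔮 := by
  classical
  intro h
  apply hpq
  have hcop : t.Coprime p := ((Nat.Prime.coprime_iff_not_dvd hp.out).mpr ht).symm
  have h1 : IsPrimitiveRoot (ζ ^ t) p := hζ.pow_of_coprime t hcop
  have h2 := eval_one_cyclotomic_prime (R := 𝓞 K) (p := p)
  rw [cyclotomic_eq_prod_X_sub_primitiveRoots h1, eval_prod] at h2
  rw [← h2]
  have h3 : ζ ^ t ∈ primitiveRoots p (𝓞 K) := (mem_primitiveRoots hp.out.pos).mpr h1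
  rw [← Finset.mul_prod_erase _ _ h3]
  refine Ideal.mul_mem_right _ _ ?_
  simpa using h

include hζ in
theorem dvd_norm_sub_one {𝔮 : Ideal (𝓞 K)} (hq : (absNorm 𝔮).Prime) (hpq : (p : 𝓞 K) ∉ 𝔮) :
    p ∣ absNorm 𝔮 - 1 := by
  have hcard : Nat.card (𝓞 K ⧸ 𝔮) = absNorm 𝔮 := by
    rw [absNorm_apply, Submodule.cardQuot_apply]
  have hfin : Finite (𝓞 K ⧸ 𝔮) := Nat.finite_of_card_ne_zero (by rw [hcard]; exact hq.ne_zero)
  have : Fintype (𝓞 K ⧸ 𝔮) := Fintype.ofFinite _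
  have : Fact (absNorm 𝔮).Prime := ⟨hq⟩
  let e := ZMod.ringEquivOfPrime (𝓞 K ⧸ 𝔮) hq (by rw [← Nat.card_eq_fintype_card, hcard])
  set z := e.symm (Ideal.Quotient.mk 𝔮 ζ) with hz
  have hzp : z ^ p = 1 := by
    rw [hz, ← map_pow, ← map_pow, hζ.pow_eq_one, map_one, map_one]
  have hz1 : z ≠ 1 := by
    intro h
    have h1 := congrArg e h
    rw [hz, RingEquiv.apply_symm_apply, map_one, ← map_one (Ideal.Quotient.mk 𝔮),
      eq_comm, Ideal.Quotient.eq] at h1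
    have h2 := one_sub_pow_notMem hζ hpq (t := 1) (fun h => hp.out.one_lt.ne'
      (Nat.dvd_one.mp h))
    rw [pow_one] at h2
    exact h2 h1
  have hord : orderOf z = p := orderOf_eq_prime hzp hz1
  rw [← hord]
  apply orderOf_dvd_of_pow_eq_one
  apply ZMod.pow_card_sub_one_eq_one
  rintro h0
  rw [h0, zero_pow hp.out.ne_zero] at hzp
  exact zero_ne_one hzp

end aux

section sums

variable {p : ℕ} [hp : Fact p.Prime]

theorem sum_Ico_eq (f : ZMod p → ZMod p) (hf : f 0 = 0) :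
    ∑ t ∈ Finset.Ico 1 p, f (t : ZMod p) = ∑ x : ZMod p, f x := by
  have : NeZero p := ⟨hp.out.ne_zero⟩
  rw [← Finset.sum_erase Finset.univ hf]
  refine Finset.sum_bij (fun t _ => (t : ZMod p)) ?_ ?_ ?_ ?_
  · intro t ht
    rw [Finset.mem_Ico] at ht
    rw [Finset.mem_erase]
    refine ⟨?_, Finset.mem_univ _⟩
    rw [Ne, ZMod.natCast_eq_zero_iff]
    exact Nat.not_dvd_of_pos_of_lt ht.1 ht.2
  · intro a ha b hb hab
    rw [Finset.mem_Ico] at ha hb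
    rw [ZMod.natCast_eq_natCast_iff', Nat.mod_eq_of_lt ha.2, Nat.mod_eq_of_lt hb.2] at hab
    exact hab
  · intro x hx
    rw [Finset.mem_erase] at hx
    refine ⟨x.val, ?_, ZMod.natCast_zmod_val x⟩
    rw [Finset.mem_Ico]
    refine ⟨?_, ZMod.val_lt x⟩
    apply Nat.pos_of_ne_zero
    rw [Ne, ZMod.val_eq_zero]
    exact hx.1
  · intro t _
    rfl

theorem dvd_sum_c (hp5 : 5 ≤ p) (c : ℕ → ℕ)
    (hc : ∀ t ∈ Finset.Ico 1 p, ((c t * t ^ 2 : ℕ) : ZMod p) = 1) :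
    p ∣ ∑ t ∈ Finset.Ico 1 p, c t := by
  rw [← ZMod.natCast_eq_zero_iff, Nat.cast_sum]
  have h1 : ∀ t ∈ Finset.Ico 1 p, ((c t : ℕ) : ZMod p) = (t : ZMod p) ^ (p - 3) := by
    intro t ht
    have h2 := hc t ht
    rw [Finset.mem_Ico] at ht
    have ht0 : (t : ZMod p) ≠ 0 := by
      rw [Ne, ZMod.natCast_eq_zero_iff]
      exact Nat.not_dvd_of_pos_of_lt ht.1 ht.2
    have h3 := ZMod.pow_card_sub_one_eq_one ht0
    have h4 : (t : ZMod p) ^ (p - 3) * (t : ZMod p) ^ 2 = 1 := by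
      rw [← pow_add, ← h3]; congr 1; omega
    push_cast at h2
    have h5 : (t : ZMod p) ^ 2 ≠ 0 := pow_ne_zero _ ht0
    exact mul_right_cancel₀ h5 (h2.trans h4.symm)
  rw [Finset.sum_congr rfl h1, sum_Ico_eq (fun x => x ^ (p - 3))
    (zero_pow (by omega))]
  have h2 := FiniteField.sum_pow_lt_card_sub_one (K := ZMod p) (p - 3)
    (by rw [ZMod.card]; omega)
  exact h2

end sums

end Fermat.Agent.Thaine
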