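import Fermat.Agent.ExtVan.ThaineRing

set_option autoImplicit false
set_option linter.unusedSectionVars false

/-!
Characters of the class group evaluated on norms of Galois-invariant ideals.
-/

namespace Fermat.Agent.Thaine

open NumberField Ideal Polynomial
open scoped Pointwise

section cls

variable {A : Type*} [CommRing A] [IsDedekindDomain A] {M : Type*} [CommGroup M]
  (χ : ClassGroup A →* M)

open Classical in
/-- A class group character as a function on ideals (with value `1` at `⊥`). -/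
noncomputable def chi (I : Ideal A) : M :=
  if h : I = ⊥ then 1 else χ (ClassGroup.mk0 ⟨I, mem_nonZeroDivisors_iff_ne_zero.mpr h⟩)

theorem chi_of_ne {I : Ideal A} (h : I ≠ ⊥) :
    chi χ I = χ (ClassGroup.mk0 ⟨I, mem_nonZeroDivisors_iff_ne_zero.mpr h⟩) :=
  dif_neg h

theorem chi_mul {I J : Ideal A} (hI : I ≠ ⊥) (hJ : J ≠ ⊥) :
    chi χ (I * J) = chi χ I * chi χ J := by
  rw [chi_of_ne χ hI, chi_of_ne χ hJ, chi_of_ne χ (mul_ne_zero hI hJ), ← map_mul, ← map_mul]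
  rfl

theorem chi_span {a : A} : chi χ (span {a}) = 1 := by
  by_cases ha : span {a} = ⊥
  · rw [chi, dif_pos ha]
  · rw [chi_of_ne χ ha, (ClassGroup.mk0_eq_one_iff _).mpr ⟨a, rfl⟩, map_one]

theorem chi_top : chi χ (⊤ : Ideal A) = 1 := by
  rw [← span_singleton_one, chi_span]

theorem chi_one : chi χ (1 : Ideal A) = 1 := by
  rw [one_eq_top, chi_top]

theorem chi_pow {I : Ideal A} (hI : I ≠ ⊥) (n : ℕ) : chi χ (I ^ n) = chi χ I ^ n := by
  induction n with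
  | zero => rw [pow_zero, pow_zero, chi_one]
  | succ n ih => rw [pow_succ, chi_mul χ (pow_ne_zero _ hI) hI, ih, pow_succ]

theorem chi_prod {ι : Type*} (s : Finset ι) (f : ι → Ideal A) (h : ∀ i ∈ s, f i ≠ ⊥) :
    chi χ (∏ i ∈ s, f i) = ∏ i ∈ s, chi χ (f i) := by
  classical
  induction s using Finset.induction_on with
  | empty => simp [chi_top]
  | insert a s ha ih =>
    rw [Finset.prod_insert ha, Finset.prod_insert ha, chi_mul χ (h a (Finset.mem_insert_self a s)),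
      ih (fun i hi => h i (Finset.mem_insert_of_mem hi))]
    exact Finset.prod_ne_zero_iff.mpr (fun i hi => h i (Finset.mem_insert_of_mem hi))

end cls

section inv

variable {p q : ℕ} [hp : Fact p.Prime] [hq : Fact q.Prime]
variable (K L : Type*) [Field K] [NumberField K] [hK : IsCyclotomicExtension {p} ℚ K]
  [Field L] [NumberField L] [Algebra K L] [hL : IsCyclotomicExtension {q} K L]
variable {M : Type*} [CommGroup M] (χ : ClassGroup (𝓞 K) →* M)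

include hK hL in
theorem chi_relNorm_invariant (hpq : p ≠ q) (hM : ∀ x : M, x ^ (q - 1) = 1)
    (J : Ideal (𝓞 L)) (hJ0 : J ≠ ⊥) (hJinv : ∀ σ : L ≃ₐ[K] L, σ • J = J)
    (hJq : ∀ P : Ideal (𝓞 L), P.IsPrime → P ∣ J → (q : 𝓞 L) ∉ P) :
    chi χ (relNorm (𝓞 K) J) = 1 := by
  have hgal : IsGalois K L := IsCyclotomicExtension.isGalois {q} K L
  induction hn : absNorm J using Nat.strong_induction_on generalizing J with
  | _ n ih =>
  subst hn
  by_cases hJ1 : J = ⊤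
  · rw [hJ1, relNorm_top, chi_top]
  obtain ⟨P, hPmax, hJP⟩ := Ideal.exists_le_maximal J hJ1
  have hP : P.IsPrime := hPmax.isPrime
  have hP0 : P ≠ ⊥ := fun h => hJ0 (le_bot_iff.mp (h ▸ hJP))
  set 𝔯 : Ideal (𝓞 K) := P.under (𝓞 K) with h𝔯
  have hPr : P.LiesOver 𝔯 := ⟨rfl⟩
  have h𝔯p : 𝔯.IsPrime := IsPrime.under (𝓞 K) P
  have h𝔯0 : 𝔯 ≠ ⊥ := by
    intro h
    have : P.LiesOver (⊥ : Ideal (𝓞 K)) := h ▸ hPr
    exact hP0 (eq_bot_of_liesOver_bot (𝓞 K) P)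
  have h𝔯max : 𝔯.IsMaximal := h𝔯p.isMaximal h𝔯0
  have hmap0 : map (algebraMap (𝓞 K) (𝓞 L)) 𝔯 ≠ ⊥ := map_ne_bot_of_ne_bot h𝔯0
  -- all primes over `𝔯` divide `J`
  have hall : ∀ P' ∈ 𝔯.primesOver (𝓞 L), P' ∣ J := by
    intro P' hP'
    have : P'.IsPrime := hP'.1
    have : P'.LiesOver 𝔯 := hP'.2
    obtain ⟨σ, rfl⟩ := exists_smul_eq_of_isGaloisGroup 𝔯 P P' (L ≃ₐ[K] L)
    rw [dvd_iff_le, ← hJinv σ]
    exact smul_mono_right σ hJP
  have hdvd : map (algebraMap (𝓞 K) (𝓞 L)) 𝔯 ∣ J := by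
    rw [Ideal.map_algebraMap_eq_finsetProd_pow h𝔯0]
    refine Finset.prod_dvd_of_coprime ?_ ?_
    · intro P₁ hP₁ P₂ hP₂ hne
      simp only [Set.coe_toFinset] at hP₁ hP₂
      apply IsCoprime.pow
      have h1 : P₁.IsPrime := hP₁.1
      have h2 : P₂.IsPrime := hP₂.1
      have h1' : P₁.LiesOver 𝔯 := hP₁.2
      have h2' : P₂.LiesOver 𝔯 := hP₂.2
      have m1 : P₁.IsMaximal := IsMaximal.of_liesOver_isMaximal P₁ 𝔯
      have m2 : P₂.IsMaximal := IsMaximal.of_liesOver_isMaximal P₂ 𝔯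
      exact Ideal.isCoprime_of_isMaximal hne
    · intro P' hP'
      rw [Set.mem_toFinset] at hP'
      have h1 : P'.IsPrime := hP'.1
      have h1' : P'.LiesOver 𝔯 := hP'.2
      have h3 : P' ≠ ⊥ := by
        rintro rfl
        exact h𝔯0 (by rw [over_def (⊥ : Ideal (𝓞 L)) 𝔯]; exact under_bot (𝓞 K) (𝓞 L))
      rw [ramificationIdx_eq_one (p := p) (q := q) L hpq h1 h3 (hJq P' h1 (hall P' hP')), pow_one]
      exact hall P' hP'
  obtain ⟨J', hJ'⟩ := hdvd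
  have hJ'0 : J' ≠ ⊥ := by
    rintro rfl
    rw [mul_bot] at hJ'
    exact hJ0 hJ'
  have hN1 : 1 < absNorm (map (algebraMap (𝓞 K) (𝓞 L)) 𝔯) := by
    have h1 : absNorm (map (algebraMap (𝓞 K) (𝓞 L)) 𝔯) ≠ 0 := by
      rwa [Ne, absNorm_eq_zero_iff]
    have h2 : absNorm (map (algebraMap (𝓞 K) (𝓞 L)) 𝔯) ≠ 1 := by
      rw [Ne, absNorm_eq_one_iff]
      intro h
      have h3 : map (algebraMap (𝓞 K) (𝓞 L)) 𝔯 ≤ P := map_le_iff_le_comap.mpr le_rfl
      rw [h] at h3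
      exact hP.ne_top (top_le_iff.mp h3)
    omega
  have hN2 : 0 < absNorm J' := by
    apply Nat.pos_of_ne_zero
    rwa [Ne, absNorm_eq_zero_iff]
  have hlt : absNorm J' < absNorm J := by
    rw [hJ', map_mul]
    exact (Nat.lt_mul_iff_one_lt_left hN2).mpr hN1
  have hsm : ∀ σ : L ≃ₐ[K] L, σ • (map (algebraMap (𝓞 K) (𝓞 L)) 𝔯) =
      map (algebraMap (𝓞 K) (𝓞 L)) 𝔯 := by
    intro σ
    rw [pointwise_smul_def, Ideal.map_map]
    congr 1
    ext x
    change σ (algebraMap (𝓞 K) (𝓞 L) x : 𝓞 L) = ((algebraMap (𝓞 K) (𝓞 L) x : 𝓞 L) : L)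
    exact AlgEquiv.commutes σ (x : K)
  have hJ'inv : ∀ σ : L ≃ₐ[K] L, σ • J' = J' := by
    intro σ
    have h1 := hJinv σ
    rw [hJ', smul_mul', hsm] at h1
    exact mul_left_cancel₀ hmap0 h1
  have hJ'q : ∀ P : Ideal (𝓞 L), P.IsPrime → P ∣ J' → (q : 𝓞 L) ∉ P :=
    fun P hP h => hJq P hP (h.trans ⟨_, by rw [hJ', mul_comm]⟩)
  have h1 := ih (absNorm J') hlt J' hJ'0 hJ'inv hJ'q rfl
  have h2 : relNorm (𝓞 K) (map (algebraMap (𝓞 K) (𝓞 L)) 𝔯) = 𝔯 ^ (q - 1) := by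
    have h3 := relNorm_algebraMap (𝓞 L) 𝔯
    rw [h3]
    congr 1
    rw [← finrank_eq (p := p) (q := q) K L hpq]
    exact (IsFractionRing.finrank_eq (𝓞 K) K (𝓞 L) L).symm
  rw [hJ', map_mul, h2, chi_mul χ (pow_ne_zero _ h𝔯0), chi_pow χ h𝔯0, hM, h1, one_mul]
  rwa [Ne, relNorm_eq_bot_iff]

end inv

end Fermat.Agent.Thaine
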