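import Mathlib

set_option autoImplicit false

/-!
Field-theoretic preliminaries for Thaine's theorem: the extension `L = K(ζ_q)` of `K = ℚ(ζ_p)`.
-/

namespace Fermat.Agent.Thaine

open NumberField Ideal Polynomial

theorem prim_mul {R : Type*} [CommRing R] {a b : ℕ} {x y : R}
    (hx : IsPrimitiveRoot x a) (hy : IsPrimitiveRoot y b) (hab : a.Coprime b) :
    IsPrimitiveRoot (x * y) (a * b) := by
  rw [IsPrimitiveRoot.iff_orderOf, (Commute.all _ _).orderOf_mul_eq_mul_orderOf_of_coprime,
    ← hx.eq_orderOf, ← hy.eq_orderOf]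
  rw [← hx.eq_orderOf, ← hy.eq_orderOf]
  exact hab

section cyc

variable {p q : ℕ} [hp : Fact p.Prime] [hq : Fact q.Prime]
variable (K L : Type*) [Field K] [NumberField K] [hK : IsCyclotomicExtension {p} ℚ K]
  [Field L] [NumberField L] [Algebra K L] [hL : IsCyclotomicExtension {q} K L]

include hK hL in
theorem cyc_mul (hpq : p ≠ q) : IsCyclotomicExtension {p * q} ℚ L := by
  have h1 : IsCyclotomicExtension ({p} ∪ {q}) ℚ L :=
    IsCyclotomicExtension.trans {p} {q} ℚ K L (algebraMap K L).injective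
  have hcop : p.Coprime q := (Nat.coprime_primes hp.out hq.out).mpr hpq
  have hzp := (IsCyclotomicExtension.zeta_spec p ℚ K).map_of_injective (algebraMap K L).injective
  have hzq := IsCyclotomicExtension.zeta_spec q K L
  have hz := prim_mul hzp hzq hcop
  have h2 := IsCyclotomicExtension.union_of_isPrimitiveRoot (S := ({p} ∪ {q} : Set ℕ)) ℚ L
    (n := p * q) hz
  have h3 : IsCyclotomicExtension (({p * q} ∪ {p} : Set ℕ) ∪ {q}) ℚ L := by
    have : (({p * q} ∪ {p} : Set ℕ) ∪ {q}) = ({p} ∪ {q} : Set ℕ) ∪ {p * q} := by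
      ext; simp; tauto
    rw [this]; exact h2
  rw [← IsCyclotomicExtension.iff_union_of_dvd, ← IsCyclotomicExtension.iff_union_of_dvd] at h3
  · exact h3
  · exact ⟨p * q, by simp, mul_ne_zero hp.out.ne_zero hq.out.ne_zero, dvd_mul_right _ _⟩
  · exact ⟨p * q, by simp, mul_ne_zero hp.out.ne_zero hq.out.ne_zero, dvd_mul_left _ _⟩

include hK hL in
theorem finrank_eq (hpq : p ≠ q) : Module.finrank K L = q - 1 := by
  have := cyc_mul (p := p) (q := q) K L hpq
  have : NeZero (p * q) := ⟨mul_ne_zero hp.out.ne_zero hq.out.ne_zero⟩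
  have h1 := IsCyclotomicExtension.Rat.finrank (p * q) L
  have h2 := IsCyclotomicExtension.Rat.finrank p K
  have h3 := Module.finrank_mul_finrank ℚ K L
  have hcop : p.Coprime q := (Nat.coprime_primes hp.out hq.out).mpr hpq
  rw [h1, h2, Nat.totient_mul hcop, Nat.totient_prime hp.out, Nat.totient_prime hq.out] at h3
  have h4 : 0 < p - 1 := by have := hp.out.two_le; omega
  exact Nat.eq_of_mul_eq_mul_left h4 h3

include hK hL in
theorem irreducible_cyclotomic (hpq : p ≠ q) : Irreducible (cyclotomic q K) := by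
  have hzq := IsCyclotomicExtension.zeta_spec q K L
  have hmin := minpoly.irreducible (IsIntegral.of_finite K (IsCyclotomicExtension.zeta q K L))
  have hdvd : minpoly K (IsCyclotomicExtension.zeta q K L) ∣ cyclotomic q K := by
    apply minpoly.dvd
    rw [aeval_def, eval₂_eq_eval_map, map_cyclotomic, ← IsRoot.def]
    exact hzq.isRoot_cyclotomic hq.out.pos
  have hdeg : (minpoly K (IsCyclotomicExtension.zeta q K L)).natDegree = q - 1 := by
    rw [← finrank_eq (p := p) (q := q) K L hpq]
    have h1 := IsCyclotomicExtension.adjoin_primitive_root_eq_top (n := q) (A := K) (B := L) hzq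
    have h2 := IntermediateField.adjoin_simple_toSubalgebra_of_isAlgebraic
      (IsIntegral.of_finite K (IsCyclotomicExtension.zeta q K L)).isAlgebraic
    rw [h1] at h2
    have h3 : IntermediateField.adjoin K {IsCyclotomicExtension.zeta q K L} = ⊤ := by
      rw [← IntermediateField.toSubalgebra_injective.eq_iff, h2]
      rfl
    rw [← IntermediateField.adjoin.finrank (IsIntegral.of_finite K _), h3,
      IntermediateField.finrank_top']
  have heq : cyclotomic q K = minpoly K (IsCyclotomicExtension.zeta q K L) := by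
    apply Polynomial.eq_of_monic_of_dvd_of_natDegree_le (minpoly.monic (IsIntegral.of_finite K _))
      (cyclotomic.monic q K) hdvd
    rw [natDegree_cyclotomic, hdeg, Nat.totient_prime hq.out]
  rw [heq]
  exact hmin

include hK hL in
/-- A generator `τ` of `Gal(L/K)` with `τ ζ_q = ζ_q ^ s`, `s` a primitive root modulo `q`. -/
theorem exists_generator (hpq : p ≠ q) :
    ∃ (τ : L ≃ₐ[K] L) (g : (ZMod q)ˣ), (∀ x, x ∈ Subgroup.zpowers τ) ∧
      (∀ x, x ∈ Subgroup.zpowers g) ∧
      τ (IsCyclotomicExtension.zeta q K L) =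
        IsCyclotomicExtension.zeta q K L ^ (g : ZMod q).val := by
  have hirr := irreducible_cyclotomic (p := p) (q := q) K L hpq
  obtain ⟨g, hg⟩ := IsCyclic.exists_generator (α := (ZMod q)ˣ)
  let e := IsCyclotomicExtension.autEquivPow L hirr
  refine ⟨e.symm g, g, ?_, hg, ?_⟩
  · intro x
    obtain ⟨k, hk⟩ := hg (e x)
    refine ⟨k, ?_⟩
    simp only at hk ⊢
    rw [← map_zpow, hk, MulEquiv.symm_apply_apply]
  · have h := (IsCyclotomicExtension.zeta_spec q K L).autToPow_spec K (e.symm g)
    rw [← h]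
    congr 2
    have h2 : (IsCyclotomicExtension.zeta_spec q K L).autToPow K (e.symm g) = e (e.symm g) := rfl
    rw [h2, MulEquiv.apply_symm_apply]

end cyc

/-- Automorphisms of a cyclotomic field acting on roots of unity by a given exponent. -/
theorem exists_aut_pow {n : ℕ} [NeZero n] (L : Type*) [Field L] [NumberField L]
    [IsCyclotomicExtension {n} ℚ L] {m : ℕ} (hm : m.Coprime n) :
    ∃ σ : L ≃ₐ[ℚ] L, ∀ x : L, x ^ n = 1 → σ x = x ^ m := by
  have hirr := cyclotomic.irreducible_rat (NeZero.pos n)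
  let e := IsCyclotomicExtension.autEquivPow L hirr
  have hz := IsCyclotomicExtension.zeta_spec n ℚ L
  refine ⟨e.symm (ZMod.unitOfCoprime m hm), fun x hx => ?_⟩
  obtain ⟨i, -, rfl⟩ := hz.eq_pow_of_pow_eq_one hx
  have h := hz.autToPow_spec ℚ (e.symm (ZMod.unitOfCoprime m hm))
  have h2 : hz.autToPow ℚ (e.symm (ZMod.unitOfCoprime m hm)) =
    e (e.symm (ZMod.unitOfCoprime m hm)) := rfl
  rw [h2, MulEquiv.apply_symm_apply, ZMod.coe_unitOfCoprime, ZMod.val_natCast] at h
  rw [map_pow, ← h, ← pow_mul, ← pow_mul]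
  rw [mul_comm (m % n) i, mul_comm i m, pow_mul', pow_mul _ m i, ← pow_mul, mul_comm]
  have : (IsCyclotomicExtension.zeta n ℚ L) ^ m = (IsCyclotomicExtension.zeta n ℚ L) ^ (m % n) := by
    rw [← pow_mod_orderOf, ← hz.eq_orderOf]
  rw [this, ← pow_mul, mul_comm]

end Fermat.Agent.Thaine
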