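import Mathlib

set_option autoImplicit false

/-!
Hilbert 90 for cyclic extensions of number fields, in arbitrary universes.
-/

namespace Fermat.Agent.Thaine

open NumberField

theorem hilbert90 {K L : Type*} [Field K] [Field L] [Algebra K L] [FiniteDimensional K L]
    [IsGalois K L] (g : L ≃ₐ[K] L) (hg : ∀ x, x ∈ Subgroup.zpowers g) (x : L)
    (hx : Algebra.norm K x = 1) : ∃ β : L, β ≠ 0 ∧ x * g β = β := by
  classical
  set n := orderOf g with hn
  have hnorm : ∏ j ∈ Finset.range n, (g ^ j) x = 1 := by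
    have h1 := Algebra.norm_eq_prod_automorphisms K x
    rw [hx, map_one] at h1
    rw [h1, ← IsCyclic.image_range_orderOf hg, Finset.prod_image]
    intro a ha b hb hab
    simp only [Finset.coe_range, Set.mem_Iio] at ha hb
    exact pow_injOn_Iio_orderOf ha hb hab
  let c : ℕ → L := fun i => ∏ j ∈ Finset.range i, (g ^ j) x
  have hc0 : c 0 = 1 := rfl
  have hcn : c n = 1 := hnorm
  have hcs : ∀ i, x * g (c i) = c (i + 1) := by
    intro i
    simp only [c]
    rw [Finset.prod_range_succ', map_prod, mul_comm]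
    simp only [pow_zero, AlgEquiv.one_apply]
    congr 1
    refine Finset.prod_congr rfl fun j _ => ?_
    rw [pow_succ']
    rfl
  have hnpos : 0 < n := orderOf_pos g
  obtain ⟨z, hz⟩ : ∃ z : L, ∑ i ∈ Finset.range n, c i * (g ^ i) z ≠ 0 := by
    by_contra hall
    push Not at hall
    have hli : LinearIndependent L (fun (f : L →* L) => (f : L → L)) :=
      linearIndependent_monoidHom L L
    let F : Fin n → (L →* L) := fun i => ((g ^ (i : ℕ) : L ≃ₐ[K] L) : L →* L)
    have hF : Function.Injective F := by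
      intro i j hij
      have h1 : g ^ (i : ℕ) = g ^ (j : ℕ) := by
        ext y
        exact DFunLike.congr_fun hij y
      have h2 := pow_injOn_Iio_orderOf (x := g) (show (i : ℕ) ∈ Set.Iio (orderOf g) from i.2)
        (show (j : ℕ) ∈ Set.Iio (orderOf g) from j.2) h1
      exact Fin.ext h2
    have hli2 := hli.comp F hF
    rw [Fintype.linearIndependent_iff] at hli2
    have h3 := hli2 (fun i => c i) (by
      funext y
      have h4 := hall y
      rw [Finset.sum_range] at h4
      simpa [F, Finset.sum_apply] using h4) ⟨0, hnpos⟩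
    simp only [hc0] at h3
    exact one_ne_zero h3
  refine ⟨_, hz, ?_⟩
  rw [map_sum, Finset.mul_sum]
  have h1 : ∀ i ∈ Finset.range n, x * g (c i * (g ^ i) z) = c (i + 1) * (g ^ (i + 1)) z := by
    intro i _
    rw [map_mul, ← mul_assoc, hcs, pow_succ']
    rfl
  rw [Finset.sum_congr rfl h1]
  have h2 := Finset.sum_range_succ (fun i => c i * (g ^ i) z) n
  have h3 := Finset.sum_range_succ' (fun i => c i * (g ^ i) z) n
  have h4 : c n * (g ^ n) z = c 0 * (g ^ 0) z := by
    rw [hcn, hc0, hn, pow_orderOf_eq_one, pow_zero]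
  rw [h2, h4] at h3
  exact (add_right_cancel h3).symm

/-- Integral Hilbert 90 for number fields. -/
theorem hilbert90_integral {K L : Type*} [Field K] [NumberField K] [Field L] [NumberField L]
    [Algebra K L] [IsGalois K L] (g : L ≃ₐ[K] L) (hg : ∀ x, x ∈ Subgroup.zpowers g) (x : 𝓞 L)
    (hx : Algebra.norm K (x : L) = 1) : ∃ β : 𝓞 L, β ≠ 0 ∧ x * (g • β) = β := by
  obtain ⟨β, hβ0, hβ⟩ := hilbert90 g hg (x : L) hx
  obtain ⟨⟨b, d⟩, hbd⟩ :=
    IsLocalization.surj (Algebra.algebraMapSubmonoid (𝓞 L) (nonZeroDivisors ℤ)) β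
  obtain ⟨d, m, hm, rfl⟩ := d
  simp only at hbd
  have hm0 : (m : L) ≠ 0 := by
    have := nonZeroDivisors.ne_zero hm
    exact_mod_cast this
  have hbd' : β * (m : L) = (b : L) := by
    have h1 : (algebraMap (𝓞 L) L) ((algebraMap ℤ (𝓞 L)) m) = (m : L) := by simp
    rw [h1] at hbd
    exact hbd
  refine ⟨b, ?_, ?_⟩
  · rintro rfl
    exact (mul_ne_zero hβ0 hm0) hbd'
  · apply RingOfIntegers.ext
    have h1 : ((x * (g • b) : 𝓞 L) : L) = (x : L) * g (b : L) := rfl
    rw [h1, ← hbd', map_mul, map_intCast, ← mul_assoc, hβ]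

end Fermat.Agent.Thaine
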