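import Mathlib

set_option autoImplicit false

/-!
The local computation in Thaine's theorem (general Dedekind domain version).
-/

namespace Fermat.Agent.Thaine

open Ideal

section local_

variable {B : Type*} [CommRing B] [IsDedekindDomain B]

/-- Local computation: if `η * T β = β`, `T` acts trivially modulo `Q`, `T π = π c` with `c = s`
modulo `Q` for a uniformizer `π` at `Q`, then `η * s ^ a = 1` modulo `Q`, `a` the valuation
of `β` at `Q`. -/
theorem local_computation (T : B ≃+* B) (Q : Ideal B) [hQ : Q.IsPrime] (hQ0 : Q ≠ ⊥)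
    (π c s η β : B) (hπ : π ∈ Q) (hπ2 : π ∉ Q ^ 2) (hTπ : T π = π * c) (hc : c - s ∈ Q)
    (hT : ∀ x, T x - x ∈ Q) (hη : η * T β = β) (a : ℕ) (𝔠 : Ideal B)
    (h𝔠 : span {β} = Q ^ a * 𝔠) (hQ𝔠 : ¬ Q ∣ 𝔠) : η * s ^ a - 1 ∈ Q := by
  have hQp : Prime Q := prime_of_isPrime hQ0 hQ
  have hπ0 : π ≠ 0 := fun h => hπ2 (h ▸ Ideal.zero_mem _)
  obtain ⟨𝔡, h𝔡⟩ : Q ∣ span {π} := by
    rw [dvd_span_singleton]; exact hπ
  have hQ𝔡 : ¬ Q ∣ 𝔡 := by
    rintro ⟨𝔢, rfl⟩
    apply hπ2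
    have : Q ^ 2 ∣ span {π} := ⟨𝔢, by rw [h𝔡]; ring⟩
    rwa [dvd_span_singleton] at this
  have hQ𝔡a : ¬ Q ∣ 𝔡 ^ a := fun h => hQ𝔡 (hQp.dvd_of_dvd_pow h)
  obtain ⟨u, hu, huQ⟩ : ∃ u ∈ 𝔡 ^ a, u ∉ Q := by
    by_contra h
    push Not at h
    exact hQ𝔡a (dvd_iff_le.mpr h)
  have hβu : π ^ a ∣ β * u := by
    rw [← mem_span_singleton, ← span_singleton_pow, h𝔡, mul_pow]
    have h1 : β ∈ Q ^ a := by
      have : β ∈ span {β} := mem_span_singleton_self β
      rw [h𝔠] at this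
      exact (Ideal.mul_le_left : Q ^ a * 𝔠 ≤ Q ^ a) this
    exact Ideal.mul_mem_mul h1 hu
  obtain ⟨v, hv⟩ := hβu
  have hvQ : v ∉ Q := by
    intro hvQ
    have h1 : Q ^ (a + 1) ∣ span {β * u} := by
      rw [hv, ← span_singleton_mul_span_singleton, ← span_singleton_pow, h𝔡, mul_pow, pow_succ]
      have h2 : Q ∣ span {v} := by rw [dvd_span_singleton]; exact hvQ
      exact mul_dvd_mul (dvd_mul_right _ _) h2
    rw [← span_singleton_mul_span_singleton, h𝔠, pow_succ, mul_assoc,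
      mul_dvd_mul_iff_left (pow_ne_zero _ hQ0)] at h1
    rcases hQp.dvd_or_dvd h1 with h2 | h2
    · exact hQ𝔠 h2
    · rw [dvd_span_singleton] at h2
      exact huQ h2
  have hkey : η * c ^ a * T v * u = v * T u := by
    have h1 : π ^ a * (η * c ^ a * T v * u) = π ^ a * (v * T u) := by
      have h2 := congrArg T hv
      rw [map_mul, map_mul, map_pow, hTπ, mul_pow] at h2
      calc π ^ a * (η * c ^ a * T v * u) = η * (π ^ a * c ^ a * T v) * u := by ring
        _ = η * (T β * T u) * u := by rw [h2]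
        _ = (η * T β) * T u * u := by ring
        _ = β * u * T u := by rw [hη]; ring
        _ = π ^ a * (v * T u) := by rw [hv]; ring
    exact mul_left_cancel₀ (pow_ne_zero _ hπ0) h1
  have hmem : (η * s ^ a - 1) * (v * u) ∈ Q := by
    rw [← Ideal.Quotient.eq_zero_iff_mem]
    have e1 : Ideal.Quotient.mk Q (T v) = Ideal.Quotient.mk Q v :=
      Ideal.Quotient.eq.mpr (hT v)
    have e2 : Ideal.Quotient.mk Q (T u) = Ideal.Quotient.mk Q u :=
      Ideal.Quotient.eq.mpr (hT u)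
    have e3 : Ideal.Quotient.mk Q c = Ideal.Quotient.mk Q s :=
      Ideal.Quotient.eq.mpr hc
    have e4 := congrArg (Ideal.Quotient.mk Q) hkey
    simp only [map_mul, map_pow, e1, e2, e3] at e4
    simp only [map_mul, map_sub, map_pow, map_one]
    linear_combination e4
  rcases hQ.mem_or_mem hmem with h | h
  · exact h
  · rcases hQ.mem_or_mem h with h | h
    · exact absurd h hvQ
    · exact absurd h huQ

/-- Splitting off finitely many primes from an ideal. -/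
theorem exists_eq_prod_pow_mul (S : Finset (Ideal B)) (hS : ∀ P ∈ S, Prime P) (I : Ideal B)
    (hI : I ≠ 0) : ∃ (a : Ideal B → ℕ) (J : Ideal B), I = (∏ P ∈ S, P ^ a P) * J ∧
      (∀ P ∈ S, ¬ P ∣ J) ∧ (∀ P ∈ S, ∃ 𝔠, I = P ^ a P * 𝔠 ∧ ¬ P ∣ 𝔠) := by
  classical
  have h : ∀ P : Ideal B, ∃ n : ℕ, P ∈ S → (P ^ n ∣ I ∧ ¬ P ^ (n + 1) ∣ I) := by
    intro P
    by_cases hP : P ∈ S
    · have hfin : FiniteMultiplicity P I :=
        FiniteMultiplicity.of_prime_left (hS P hP) hI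
      exact ⟨multiplicity P I, fun _ => ⟨pow_multiplicity_dvd P I,
        hfin.not_pow_dvd_of_multiplicity_lt (Nat.lt_succ_self _)⟩⟩
    · exact ⟨0, fun h => absurd h hP⟩
  choose a ha using h
  have hprod : ∏ P ∈ S, P ^ a P ∣ I := by
    refine Finset.prod_dvd_of_coprime ?_ (fun P hP => (ha P hP).1)
    intro P hP P' hP' hne
    apply IsCoprime.pow
    rw [isCoprime_iff_gcd, (hS P hP).irreducible.gcd_eq_one_iff]
    intro hdvd
    exact hne (associated_iff_eq.mp (((hS P hP).dvd_prime_iff_associated (hS P' hP')).mp hdvd))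
  obtain ⟨J, hJ⟩ := hprod
  refine ⟨a, J, hJ, ?_, ?_⟩
  · intro P hP hPJ
    obtain ⟨J', rfl⟩ := hPJ
    apply (ha P hP).2
    rw [hJ, ← Finset.mul_prod_erase S _ hP]
    exact ⟨(∏ x ∈ S.erase P, x ^ a x) * J', by ring⟩
  · intro P hP
    obtain ⟨𝔠, h𝔠⟩ := (ha P hP).1
    refine ⟨𝔠, h𝔠, ?_⟩
    rintro ⟨𝔡, rfl⟩
    apply (ha P hP).2
    rw [h𝔠]
    exact ⟨𝔡, by ring⟩

end local_

end Fermat.Agent.Thaine
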