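import Fermat.Agent.ExtVan.ThaineAut

set_option autoImplicit false
set_option linter.unusedSectionVars false

/-!
The relation in the class group produced by Thaine's argument.
-/

namespace Fermat.Agent.Thaine

open NumberField Ideal Polynomial
open scoped Pointwise nonZeroDivisors

section main

variable {p : ℕ} [hp : Fact p.Prime]
variable {K : Type*} [Field K] [NumberField K] [hK : IsCyclotomicExtension {p} ℚ K]
variable {ζ : 𝓞 K} (hζ : IsPrimitiveRoot ζ p)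

/-- In a group of order `p`. -/
theorem dvd_of_pow_eq_one {x : Multiplicative (ZMod p)} (hx : x ≠ 1) {n : ℕ} (h : x ^ n = 1) :
    p ∣ n := by
  have h1 := congrArg Multiplicative.toAdd h
  rw [toAdd_pow, toAdd_one, nsmul_eq_mul, mul_eq_zero] at h1
  rcases h1 with h1 | h1
  · exact (ZMod.natCast_eq_zero_iff n p).mp h1
  · exact absurd (by rw [← ofAdd_toAdd x, h1, ofAdd_zero]) hx

theorem pow_p_eq_one (x : Multiplicative (ZMod p)) {n : ℕ} (h : p ∣ n) : x ^ n = 1 := by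
  rw [← ofAdd_toAdd x, ← ofAdd_nsmul, nsmul_eq_mul, (ZMod.natCast_eq_zero_iff n p).mpr h, zero_mul,
    ofAdd_zero]

theorem pow_eq_of_cast_eq (x : Multiplicative (ZMod p)) {n m : ℕ}
    (h : (n : ZMod p) = (m : ZMod p)) : x ^ n = x ^ m := by
  rw [← ofAdd_toAdd x, ← ofAdd_nsmul, ← ofAdd_nsmul, nsmul_eq_mul, nsmul_eq_mul, h]

/-- The norm of a prime with residue field generated by `ℤ`. -/
theorem relNorm_eq {q : ℕ} [hq : Fact q.Prime] (L : Type*) [Field L] [NumberField L] [Algebra K L]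
    {P : Ideal (𝓞 L)} (hP : P.IsPrime) (hqP : (q : 𝓞 L) ∈ P) (hint : ∀ x : 𝓞 L, ∃ n : ℤ, x - n ∈ P)
    {𝔭 : Ideal (𝓞 K)} (h𝔭 : P.under (𝓞 K) = 𝔭) (hnorm : absNorm 𝔭 = q) :
    relNorm (𝓞 K) P = 𝔭 := by
  have hlies : P.LiesOver 𝔭 := ⟨h𝔭.symm⟩
  have h𝔭p : 𝔭.IsPrime := h𝔭 ▸ IsPrime.under (𝓞 K) P
  have hP0 := ne_bot_of_q_mem (q := q) L hqP
  obtain ⟨k, hk⟩ := exists_relNorm_eq_pow_of_isPrime P 𝔭
  have h1 := absNorm_relNorm (𝓞 K) (𝓞 L) P
  rw [hk, map_pow, hnorm] at h1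
  -- `absNorm P = q`
  have hcard : Nat.card (𝓞 L ⧸ P) = absNorm P := by
    rw [absNorm_apply, Submodule.cardQuot_apply]
  have hPmax : P.IsMaximal := hP.isMaximal hP0
  have hchar : CharP (𝓞 L ⧸ P) q := by
    have h0 : ((q : ℕ) : 𝓞 L ⧸ P) = 0 := by
      rw [← map_natCast (Ideal.Quotient.mk P), Ideal.Quotient.eq_zero_iff_mem]
      exact hqP
    exact (CharP.charP_iff_prime_eq_zero hq.out).mpr h0
  have hsurj : Function.Surjective (ZMod.castHom (dvd_refl q) (𝓞 L ⧸ P)) := by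
    intro y
    obtain ⟨x, rfl⟩ := Ideal.Quotient.mk_surjective y
    obtain ⟨n, hn⟩ := hint x
    refine ⟨(n : ZMod q), ?_⟩
    rw [map_intCast, ← map_intCast (Ideal.Quotient.mk P), eq_comm, Ideal.Quotient.eq]
    exact hn
  have hinj : Function.Injective (ZMod.castHom (dvd_refl q) (𝓞 L ⧸ P)) :=
    RingHom.injective _
  have h2 : absNorm P = q := by
    rw [← hcard, ← Nat.card_zmod q]
    exact (Nat.card_congr (Equiv.ofBijective _ ⟨hinj, hsurj⟩)).symm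
  rw [h2] at h1
  have h3 : k = 1 := by
    have h4 : q ^ k = q ^ 1 := by rw [h1, pow_one]
    exact Nat.pow_right_injective hq.out.two_le h4
  rw [hk, h3, pow_one]

include hζ hK in
/-- The relation in the class group obtained from Hilbert 90 applied to `1 - ζ_p ζ_q`. -/
theorem relation (χ : ClassGroup (𝓞 K) →* Multiplicative (ZMod p))
    (hχ : ∀ (σ : 𝓞 K ≃+* 𝓞 K) (t : ℕ), σ ζ = ζ ^ t →
      ∀ c, χ (ClassGroup.mulEquiv σ c) = (χ c) ^ (t ^ 2))
    (𝔮 : Ideal (𝓞 K)) (hprime : 𝔮.IsPrime) (hq : (absNorm 𝔮).Prime) (hpq : (p : 𝓞 K) ∉ 𝔮)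
    (hne : chi χ 𝔮 ≠ 1)
    (c : ℕ → ℕ) (hc : ∀ t ∈ Finset.Ico 1 p, ((c t * t ^ 2 : ℕ) : ZMod p) = 1) :
    ∃ (s : ℕ) (a : ℕ → ℕ), (∀ t ∈ Finset.Ico 1 p, (1 - ζ ^ t) * (s : 𝓞 K) ^ (a t) - 1 ∈ 𝔮) ∧
      p ∣ ∑ t ∈ Finset.Ico 1 p, c t * a t := by
  classical
  set q := absNorm 𝔮 with hqdef
  have hqf : Fact q.Prime := ⟨hq⟩
  have hqmem : (q : 𝓞 K) ∈ 𝔮 := absNorm_mem 𝔮
  have hpneq : p ≠ q := by
    intro h
    apply hpq
    rw [h]
    exact hqmem
  have hq1 : p ∣ q - 1 := dvd_norm_sub_one hζ hq hpq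
  let L := CyclotomicField q K
  have hNL : NumberField L := IsCyclotomicExtension.numberField {q} K L
  have hL : IsCyclotomicExtension {q} K L := inferInstance
  have hgal : IsGalois K L := IsCyclotomicExtension.isGalois {q} K L
  obtain ⟨τ, g, hτ, -, hτq⟩ := exists_generator (p := p) (q := q) K L hpneq
  set s : ℕ := (g : ZMod q).val with hs
  set zp : 𝓞 L := algebraMap (𝓞 K) (𝓞 L) ζ with hzp
  have hζ' : IsPrimitiveRoot (ζ : K) p := hζ.map_of_injective RingOfIntegers.coe_injective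
  have hnorm := norm_eq_one (p := p) (q := q) K L hpneq hq1 hζ'
  obtain ⟨β, hβ0, hβ⟩ := hilbert90_integral τ hτ (1 - zp * zq q K L) (by
    have : (((1 - zp * zq q K L : 𝓞 L)) : L) =
        1 - algebraMap K L (ζ : K) * IsCyclotomicExtension.zeta q K L := by
      change algebraMap (𝓞 L) L (1 - zp * zq q K L) = _
      rw [hzp, map_sub, map_one, map_mul]
      rfl
    rw [this]
    exact hnorm)
  -- the ring automorphism
  let T : 𝓞 L ≃+* 𝓞 L := MulSemiringAction.toRingEquiv (L ≃ₐ[K] L) (𝓞 L) τ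
  have hT1 : T zp = zp := RingOfIntegers.ext (AlgEquiv.commutes τ (ζ : K))
  have hT2 : T (zq q K L) = zq q K L ^ s := by
    apply RingOfIntegers.ext
    have e1 : ((T (zq q K L) : 𝓞 L) : L) = τ (IsCyclotomicExtension.zeta q K L) := rfl
    rw [e1, hτq]
    exact (map_pow (algebraMap (𝓞 L) L) (zq q K L) s).symm
  have hTβ : (1 - zp * zq q K L) * T β = β := hβ
  -- inertia
  have hinert : ∀ P : Ideal (𝓞 L), P.IsPrime → (q : 𝓞 L) ∈ P → ∀ x, T x - x ∈ P :=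
    fun P hP hqP x => aut_sub_mem L hζ hpneq hP hqP (T : 𝓞 L →+* 𝓞 L) hT1 hT2 x
  -- local relation
  have hlocal : ∀ (P : Ideal (𝓞 L)) (a : ℕ) (𝔠 : Ideal (𝓞 L)), P.IsPrime → (q : 𝓞 L) ∈ P →
      span {β} = P ^ a * 𝔠 → ¬ P ∣ 𝔠 →
      (1 - zp * zq q K L) * (s : 𝓞 L) ^ a - 1 ∈ P := by
    intro P a 𝔠 hP hqP h𝔠 hP𝔠
    have hP0 := ne_bot_of_q_mem (q := q) L hqP
    have h1 := one_sub_zq_mem (K := K) L hP hqP
    have hz : Ideal.Quotient.mk P (zq q K L) = 1 := by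
      rw [← map_one (Ideal.Quotient.mk P), eq_comm, Ideal.Quotient.eq]
      exact h1
    refine local_computation T P hP0 (1 - zq q K L) (∑ i ∈ Finset.range s, zq q K L ^ i)
      (s : 𝓞 L) (1 - zp * zq q K L) β h1 (one_sub_zq_notMem_sq (p := p) L hpneq hP hqP) ?_ ?_
      (hinert P hP hqP) hTβ a 𝔠 h𝔠 hP𝔠
    · rw [map_sub, map_one, hT2, mul_neg_geom_sum]
    · rw [← Ideal.Quotient.eq_zero_iff_mem]
      simp [hz]
  -- the prime `Q` above `𝔮`
  have h𝔮0 : 𝔮 ≠ ⊥ := by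
    intro h
    rw [hqdef, h, absNorm_bot] at hq
    exact hq.ne_zero rfl
  have h𝔮max : 𝔮.IsMaximal := hprime.isMaximal h𝔮0
  obtain ⟨Q, hQmax, hQlies⟩ := exists_maximal_ideal_liesOver_of_isIntegral (S := 𝓞 L) 𝔮
  have hQ : Q.IsPrime := hQmax.isPrime
  have hQunder : Q.under (𝓞 K) = 𝔮 := hQlies.over.symm
  have hqQ : (q : 𝓞 L) ∈ Q := by
    have h1 : (q : 𝓞 K) ∈ Q.under (𝓞 K) := hQunder ▸ hqmem
    rw [under_def, mem_comap, map_natCast] at h1
    exact h1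
  have hmemQ : ∀ x : 𝓞 K, algebraMap (𝓞 K) (𝓞 L) x ∈ Q → x ∈ 𝔮 := by
    intro x hx
    rw [← hQunder, under_def, mem_comap]
    exact hx
  -- automorphisms
  have hex : ∀ t : ℕ, ∃ (S : 𝓞 L ≃+* 𝓞 L) (s' : 𝓞 K ≃+* 𝓞 K), t ∈ Finset.Ico 1 p →
      S (algebraMap (𝓞 K) (𝓞 L) ζ) = algebraMap (𝓞 K) (𝓞 L) ζ ^ t ∧
      S (zq q K L) = zq q K L ∧ s' ζ = ζ ^ t ∧
      ∀ x : 𝓞 K, S (algebraMap (𝓞 K) (𝓞 L) x) = algebraMap (𝓞 K) (𝓞 L) (s' x) := by
    intro t
    by_cases ht : t ∈ Finset.Ico 1 p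
    · have ht' := Finset.mem_Ico.mp ht
      have hcop : t.Coprime p :=
        ((Nat.Prime.coprime_iff_not_dvd hp.out).mpr (Nat.not_dvd_of_pos_of_lt ht'.1 ht'.2)).symm
      obtain ⟨S, s', h⟩ := exists_auts (q := q) L hζ hpneq hcop
      exact ⟨S, s', fun _ => h⟩
    · exact ⟨RingEquiv.refl _, RingEquiv.refl _, fun h => absurd h ht⟩
  choose S s' hSs using hex
  let P : ℕ → Ideal (𝓞 L) := fun t => comap (S t : 𝓞 L →+* 𝓞 L) Q
  have hPprime : ∀ t, (P t).IsPrime := fun t => comap_isPrime _ _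
  have hqP : ∀ t, (q : 𝓞 L) ∈ P t := by
    intro t
    rw [mem_comap, map_natCast]
    exact hqQ
  -- the prime below
  have hunder : ∀ t ∈ Finset.Ico 1 p, (P t).under (𝓞 K) = comap (s' t : 𝓞 K →+* 𝓞 K) 𝔮 := by
    intro t ht
    obtain ⟨-, -, -, h4⟩ := hSs t ht
    ext x
    rw [under_def, mem_comap, mem_comap, mem_comap, ← hQunder, under_def, mem_comap]
    change (S t) _ ∈ Q ↔ _
    rw [h4]
    rfl
  have hnormt : ∀ t, absNorm (comap (s' t : 𝓞 K →+* 𝓞 K) 𝔮) = q := by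
    intro t
    rw [hqdef, absNorm_apply, absNorm_apply, Submodule.cardQuot_apply, Submodule.cardQuot_apply]
    refine Nat.card_congr (Ideal.quotientEquiv _ _ (s' t) ?_).toEquiv
    exact (Ideal.map_comap_of_surjective _ (s' t).surjective 𝔮).symm
  -- integers are dense modulo `P t`
  have hint : ∀ t ∈ Finset.Ico 1 p, ∀ x : 𝓞 L, ∃ n : ℤ, x - n ∈ P t := by
    intro t ht
    obtain ⟨n₀, hn₀⟩ := exists_int_sub_mem_of_prime_norm (𝔮 := comap (s' t : 𝓞 K →+* 𝓞 K) 𝔮)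
      (by rw [hnormt]; exact hq) ζ
    refine exists_int_sub_mem L hζ hpneq (hPprime t) (hqP t) n₀ ?_
    rw [← hunder t ht, under_def, mem_comap] at hn₀
    simpa using hn₀
  have hrel : ∀ t ∈ Finset.Ico 1 p, relNorm (𝓞 K) (P t) = comap (s' t : 𝓞 K →+* 𝓞 K) 𝔮 :=
    fun t ht => relNorm_eq L (hPprime t) (hqP t) (hint t ht) (hunder t ht) (hnormt t)
  -- injectivity
  have hinj : Set.InjOn P (Finset.Ico 1 p : Set ℕ) := by
    intro t₁ ht₁ t₂ ht₂ h12
    have ht₁' := Finset.mem_Ico.mp (Finset.mem_coe.mp ht₁)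
    have ht₂' := Finset.mem_Ico.mp (Finset.mem_coe.mp ht₂)
    have h1 := hrel t₁ ht₁
    have h2 := hrel t₂ ht₂
    rw [h12, h2] at h1
    obtain ⟨n₀, hn₀⟩ := exists_int_sub_mem_of_prime_norm (𝔮 := comap (s' t₁ : 𝓞 K →+* 𝓞 K) 𝔮)
      (by rw [hnormt]; exact hq) ζ
    have hn₀' := hn₀
    rw [← h1] at hn₀'
    rw [mem_comap, map_sub, map_intCast] at hn₀ hn₀'
    change s' t₁ ζ - _ ∈ 𝔮 at hn₀
    change s' t₂ ζ - _ ∈ 𝔮 at hn₀'
    rw [(hSs t₁ ht₁).2.2.1] at hn₀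
    rw [(hSs t₂ ht₂).2.2.1] at hn₀'
    have h3 : ζ ^ t₁ - ζ ^ t₂ ∈ 𝔮 := by
      have := 𝔮.sub_mem hn₀ hn₀'
      rwa [sub_sub_sub_cancel_right] at this
    have hunit : ∀ m : ℕ, ζ ^ m ∉ 𝔮 := by
      intro m hm
      apply hprime.ne_top
      exact Ideal.eq_top_of_isUnit_mem _ hm ((hζ.isUnit hp.out.ne_zero).pow m)
    by_contra hne'
    rcases lt_or_gt_of_ne hne' with hlt | hlt
    · have h4 : ζ ^ t₁ - ζ ^ t₂ = ζ ^ t₁ * (1 - ζ ^ (t₂ - t₁)) := by
        rw [mul_sub, mul_one, ← pow_add, Nat.add_sub_cancel' hlt.le]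
      rw [h4] at h3
      rcases hprime.mem_or_mem h3 with h5 | h5
      · exact hunit _ h5
      · exact one_sub_pow_notMem hζ hpq (Nat.not_dvd_of_pos_of_lt (by omega) (by omega)) h5
    · have h4 : ζ ^ t₁ - ζ ^ t₂ = -(ζ ^ t₂ * (1 - ζ ^ (t₁ - t₂))) := by
        rw [mul_sub, mul_one, ← pow_add, Nat.add_sub_cancel' hlt.le]; ring
      rw [h4, neg_mem_iff] at h3
      rcases hprime.mem_or_mem h3 with h5 | h5
      · exact hunit _ h5
      · exact one_sub_pow_notMem hζ hpq (Nat.not_dvd_of_pos_of_lt (by omega) (by omega)) h5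
  -- decomposition of `(β)`
  have hβI : span {β} ≠ (0 : Ideal (𝓞 L)) := by
    rw [Ideal.zero_eq_bot, Ne, span_singleton_eq_bot]
    exact hβ0
  obtain ⟨a, J, hprod, hJ, h𝔠⟩ := exists_eq_prod_pow_mul ((Finset.Ico 1 p).image P) (by
    intro P' hP'
    obtain ⟨t, -, rfl⟩ := Finset.mem_image.mp hP'
    exact prime_of_isPrime (ne_bot_of_q_mem (q := q) L (hqP t)) (hPprime t)) (span {β}) hβI
  rw [Finset.prod_image hinj] at hprod
  -- invariance
  have hPinv : ∀ t, ∀ σ : L ≃ₐ[K] L, σ • (P t) = P t := by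
    intro t
    have h1 : ∀ n : ℕ, τ ^ n • (P t) = P t := by
      intro n
      induction n with
      | zero => rw [pow_zero, one_smul]
      | succ n ih =>
        rw [pow_succ', mul_smul, ih]
        have hle : τ⁻¹ • (P t) ≤ P t := by
          intro x hx
          rw [Ideal.mem_inv_pointwise_smul_iff] at hx
          have h2 := hinert (P t) (hPprime t) (hqP t) x
          have h3 : x = T x - (T x - x) := by ring
          rw [h3]
          exact (P t).sub_mem hx h2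
        have hle2 : P t ≤ τ • (P t) := by
          have := smul_mono_right τ hle
          rwa [smul_inv_smul] at this
        refine le_antisymm ?_ hle2
        intro x hx
        rw [Ideal.mem_pointwise_smul_iff_inv_smul_mem] at hx
        have h2 := hinert (P t) (hPprime t) (hqP t) (τ⁻¹ • x)
        have h3 : T (τ⁻¹ • x) = x := smul_inv_smul τ x
        rw [h3] at h2
        have h4 : x = (x - τ⁻¹ • x) + τ⁻¹ • x := by ring
        rw [h4]
        exact (P t).add_mem h2 hx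
    intro σ
    obtain ⟨n, rfl⟩ := Submonoid.mem_powers_iff σ τ |>.mp
      ((mem_powers_iff_mem_zpowers (x := τ) (y := σ)).mpr (hτ σ))
    exact h1 n
  have hIinv : ∀ σ : L ≃ₐ[K] L, σ • (span {β} : Ideal (𝓞 L)) = span {β} := by
    have h1 : (span {β} : Ideal (𝓞 L)) ≤ τ • (span {β} : Ideal (𝓞 L)) := by
      rw [Ideal.pointwise_smul_def, Ideal.map_span, Set.image_singleton,
        span_singleton_le_span_singleton]
      exact ⟨1 - zp * zq q K L, by rw [mul_comm]; exact hTβ.symm⟩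
    have h2 : ∀ n : ℕ, (span {β} : Ideal (𝓞 L)) ≤ τ ^ n • (span {β} : Ideal (𝓞 L)) := by
      intro n
      induction n with
      | zero => rw [pow_zero, one_smul]
      | succ n ih =>
        rw [pow_succ', mul_smul]
        exact h1.trans (smul_mono_right τ ih)
    have h3 : ∀ σ : L ≃ₐ[K] L, (span {β} : Ideal (𝓞 L)) ≤ σ • (span {β} : Ideal (𝓞 L)) := by
      intro σ
      obtain ⟨n, rfl⟩ := Submonoid.mem_powers_iff σ τ |>.mp
        ((mem_powers_iff_mem_zpowers (x := τ) (y := σ)).mpr (hτ σ))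
      exact h2 n
    intro σ
    refine le_antisymm ?_ (h3 σ)
    have h4 := smul_mono_right σ (h3 σ⁻¹)
    rwa [smul_inv_smul] at h4
  have hprod0 : ∏ t ∈ Finset.Ico 1 p, P t ^ a (P t) ≠ (0 : Ideal (𝓞 L)) := by
    intro h
    rw [h, zero_mul] at hprod
    exact hβI hprod
  have hJ0 : J ≠ ⊥ := by
    rintro rfl
    rw [mul_bot] at hprod
    exact hβI hprod
  have hJinv : ∀ σ : L ≃ₐ[K] L, σ • J = J := by
    intro σ
    have h1 := hIinv σ
    rw [hprod, smul_mul'] at h1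
    have h2 : σ • (∏ t ∈ Finset.Ico 1 p, P t ^ a (P t)) = ∏ t ∈ Finset.Ico 1 p, P t ^ a (P t) := by
      rw [Finset.smul_prod']
      refine Finset.prod_congr rfl fun t _ => ?_
      rw [smul_pow', hPinv]
    rw [h2] at h1
    exact mul_left_cancel₀ hprod0 h1
  have hJq : ∀ P' : Ideal (𝓞 L), P'.IsPrime → P' ∣ J → (q : 𝓞 L) ∉ P' := by
    intro P' hP' hdvd hq'
    obtain ⟨t, ht, rfl⟩ := exists_comap_eq (K := K) L hζ hpneq hP' hQ hq' hqQ S
      (fun t ht => (hSs t ht).1) (fun t ht => (hSs t ht).2.1)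
    exact hJ _ (Finset.mem_image_of_mem P ht) hdvd
  have hM : ∀ x : Multiplicative (ZMod p), x ^ (q - 1) = 1 := fun x => pow_p_eq_one x hq1
  have hJchi := chi_relNorm_invariant (p := p) (q := q) K L χ hpneq hM J hJ0 hJinv hJq
  -- the relation
  have hcomap0 : ∀ t, comap (s' t : 𝓞 K →+* 𝓞 K) 𝔮 ≠ ⊥ := by
    intro t h
    have h1 := hnormt t
    rw [h, absNorm_bot] at h1
    exact hq.ne_zero h1.symm
  have hchit : ∀ t ∈ Finset.Ico 1 p, chi χ (comap (s' t : 𝓞 K →+* 𝓞 K) 𝔮) = chi χ 𝔮 ^ c t := by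
    intro t ht
    have h1 := hχ (s' t) t (hSs t ht).2.2.1
      (ClassGroup.mk0 ⟨comap (s' t : 𝓞 K →+* 𝓞 K) 𝔮,
        mem_nonZeroDivisors_iff_ne_zero.mpr (hcomap0 t)⟩)
    rw [ClassGroup.mulEquiv_mk0, ← chi_of_ne χ (hcomap0 t)] at h1
    have h2 : Ideal.mapNonZero (s' t) ⟨comap (s' t : 𝓞 K →+* 𝓞 K) 𝔮,
        mem_nonZeroDivisors_iff_ne_zero.mpr (hcomap0 t)⟩ =
        ⟨𝔮, mem_nonZeroDivisors_iff_ne_zero.mpr h𝔮0⟩ := by
      apply Subtype.ext
      rw [Ideal.coe_mapNonZero]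
      exact Ideal.map_comap_of_surjective _ (s' t).surjective 𝔮
    rw [h2, ← chi_of_ne χ h𝔮0] at h1
    rw [h1, ← pow_mul]
    have h3 := pow_eq_of_cast_eq (chi χ (comap (s' t : 𝓞 K →+* 𝓞 K) 𝔮)) (n := t ^ 2 * c t) (m := 1)
      (by rw [mul_comm, hc t ht, Nat.cast_one])
    rw [h3, pow_one]
  have hfinal : chi χ 𝔮 ^ (∑ t ∈ Finset.Ico 1 p, c t * a (P t)) = 1 := by
    have h1 : chi χ (relNorm (𝓞 K) (span {β})) = 1 := by
      rw [relNorm_singleton, chi_span]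
    rw [hprod, map_mul, map_prod, chi_mul χ, hJchi, mul_one, chi_prod] at h1
    · rw [← Finset.prod_pow_eq_pow_sum, ← h1]
      refine Finset.prod_congr rfl fun t ht => ?_
      rw [map_pow, hrel t ht, chi_pow χ (hcomap0 t), hchit t ht, ← pow_mul]
    · intro t ht
      rw [map_pow, hrel t ht]
      exact pow_ne_zero _ (hcomap0 t)
    · rw [← map_prod, Ne, relNorm_eq_bot_iff]
      exact hprod0
    · rwa [Ne, relNorm_eq_bot_iff]
  refine ⟨s, fun t => a (P t), ?_, dvd_of_pow_eq_one hne hfinal⟩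
  -- the congruences
  intro t ht
  obtain ⟨𝔠, h1, h2⟩ := h𝔠 (P t) (Finset.mem_image_of_mem P ht)
  have h3 := hlocal (P t) (a (P t)) 𝔠 (hPprime t) (hqP t) h1 h2
  rw [mem_comap] at h3
  change (S t) _ ∈ Q at h3
  rw [map_sub, map_mul, map_sub, map_one, map_mul, map_pow, map_natCast, hzp, (hSs t ht).1,
    (hSs t ht).2.1] at h3
  apply hmemQ
  have h4 := one_sub_zq_mem (K := K) L hQ hqQ
  have h5 : algebraMap (𝓞 K) (𝓞 L) ((1 - ζ ^ t) * (s : 𝓞 K) ^ (a (P t)) - 1) =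
      ((1 - algebraMap (𝓞 K) (𝓞 L) ζ ^ t * zq q K L) * (s : 𝓞 L) ^ (a (P t)) - 1)
      - (algebraMap (𝓞 K) (𝓞 L) ζ ^ t * (s : 𝓞 L) ^ (a (P t))) * (1 - zq q K L) := by
    simp only [map_sub, map_mul, map_pow, map_one, map_natCast]
    ring
  rw [h5]
  exact Q.sub_mem h3 (Q.mul_mem_left _ h4)

end main

end Fermat.Agent.Thaine
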