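import Fermat.Agent.ExtVan.ThaineField

set_option autoImplicit false

/-!
The unit `1 - ζ_p ζ_q` has norm one, and Hilbert 90 for it.
-/

namespace Fermat.Agent.Thaine

open NumberField Ideal Polynomial

section cyc

variable {p q : ℕ} [hp : Fact p.Prime] [hq : Fact q.Prime]
variable (K L : Type*) [Field K] [NumberField K] [hK : IsCyclotomicExtension {p} ℚ K]
  [Field L] [NumberField L] [Algebra K L] [hL : IsCyclotomicExtension {q} K L]

include hK hL in
theorem norm_eq_one (hpq : p ≠ q) (hq1 : p ∣ q - 1) {z : K} (hz : IsPrimitiveRoot z p) :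
    Algebra.norm K (1 - algebraMap K L z * IsCyclotomicExtension.zeta q K L) = 1 := by
  have hgal : IsGalois K L := IsCyclotomicExtension.isGalois {q} K L
  have hirr := irreducible_cyclotomic (p := p) (q := q) K L hpq
  apply (algebraMap K L).injective
  rw [Algebra.norm_eq_prod_automorphisms, map_one]
  simp only [map_sub, map_one, map_mul, AlgEquiv.commutes]
  set x := algebraMap K L z with hx
  have hxp : IsPrimitiveRoot x p := hz.map_of_injective (algebraMap K L).injective
  have hx0 : x ≠ 0 := hxp.ne_zero hp.out.ne_zero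
  have hzq := IsCyclotomicExtension.zeta_spec q K L
  have h1 : ∏ σ : L ≃ₐ[K] L, (1 - x * σ (IsCyclotomicExtension.zeta q K L)) =
      ∏ μ ∈ primitiveRoots q L, (1 - x * μ) := by
    refine Finset.prod_bij (fun σ _ => σ (IsCyclotomicExtension.zeta q K L)) ?_ ?_ ?_ ?_
    · intro σ _
      rw [mem_primitiveRoots hq.out.pos]
      exact hzq.map_of_injective σ.injective
    · intro σ _ σ' _ h
      have := hzq.autToPow_injective K
      apply this
      apply Units.ext
      have h2 := hzq.autToPow_spec K σ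
      have h3 := hzq.autToPow_spec K σ'
      rw [h, ← h3] at h2
      have h4 := hzq.pow_inj (ZMod.val_lt _) (ZMod.val_lt _) h2
      exact ZMod.val_injective _ h4
    · intro μ hμ
      rw [mem_primitiveRoots hq.out.pos] at hμ
      exact ⟨IsCyclotomicExtension.fromZetaAut hμ hirr, Finset.mem_univ _,
        IsCyclotomicExtension.fromZetaAut_spec hμ hirr⟩
    · intro σ _
      rfl
  rw [h1]
  have h2 : ∏ μ ∈ primitiveRoots q L, (1 - x * μ) =
      x ^ (q - 1) * eval x⁻¹ (cyclotomic q L) := by
    rw [cyclotomic_eq_prod_X_sub_primitiveRoots hzq, eval_prod, ← Nat.totient_prime hq.out,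
      ← hzq.card_primitiveRoots, ← Finset.prod_const, ← Finset.prod_mul_distrib]
    refine Finset.prod_congr rfl fun μ _ => ?_
    simp only [eval_sub, eval_X, eval_C]
    field_simp
  rw [h2, cyclotomic_prime, eval_geom_sum]
  obtain ⟨k, hk⟩ := hq1
  have h3 : x ^ (q - 1) = 1 := by rw [hk, pow_mul, hxp.pow_eq_one, one_pow]
  have h4 : x⁻¹ ^ q = x⁻¹ := by
    have : q = (q - 1) + 1 := by have := hq.out.two_le; omega
    rw [this, pow_succ, inv_pow, h3, inv_one, one_mul]
  have h5 : x⁻¹ - 1 ≠ 0 := by
    rw [sub_ne_zero]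
    intro h
    rw [inv_eq_one] at h
    exact hxp.ne_one hp.out.one_lt h
  have h6 : (∑ i ∈ Finset.range q, x⁻¹ ^ i) * (x⁻¹ - 1) = 1 * (x⁻¹ - 1) := by
    rw [geom_sum_mul, h4, one_mul]
  rw [h3, mul_right_cancel₀ h5 h6, one_mul]

end cyc

end Fermat.Agent.Thaine
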