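import Fermat.Agent.ExtVan.ThaineNorm
import Fermat.Agent.ExtVan.ThaineLocal
import Fermat.Agent.ExtVan.ThaineH90

set_option autoImplicit false
set_option linter.unusedSectionVars false

/-!
Facts on the ring of integers of `L = K(ζ_q)` for Thaine's theorem.
-/

namespace Fermat.Agent.Thaine

open NumberField Ideal Polynomial

section ring

variable {p q : ℕ} [hp : Fact p.Prime] [hq : Fact q.Prime]
variable (K L : Type*) [Field K] [NumberField K] [hK : IsCyclotomicExtension {p} ℚ K]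
  [Field L] [NumberField L] [Algebra K L] [hL : IsCyclotomicExtension {q} K L]

variable (q) in
/-- `ζ_q` as an algebraic integer of `L`. -/
noncomputable def zq : 𝓞 L := (IsCyclotomicExtension.zeta_spec q K L).toInteger

omit hp [NumberField K] hK [NumberField L] in
theorem coe_zq : ((zq q K L : 𝓞 L) : L) = IsCyclotomicExtension.zeta q K L := rfl

omit hp [NumberField K] hK [NumberField L] in
theorem zq_prim : IsPrimitiveRoot (zq q K L) q :=
  (IsCyclotomicExtension.zeta_spec q K L).toInteger_isPrimitiveRoot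

variable {K} {ζ : 𝓞 K} (hζ : IsPrimitiveRoot ζ p)

include hζ hL in
omit hK hp hq [NumberField L] [NumberField K] in
theorem zp_prim : IsPrimitiveRoot (algebraMap (𝓞 K) (𝓞 L) ζ) p :=
  hζ.map_of_injective (FaithfulSMul.algebraMap_injective (𝓞 K) (𝓞 L))

include hζ hK in
theorem adjoin_eq_top (hpq : p ≠ q) :
    Algebra.adjoin ℤ {algebraMap (𝓞 K) (𝓞 L) ζ * zq q K L} = ⊤ := by
  have := cyc_mul (p := p) (q := q) K L hpq
  have : NeZero (p * q) := ⟨mul_ne_zero hp.out.ne_zero hq.out.ne_zero⟩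
  have hcop : p.Coprime q := (Nat.coprime_primes hp.out hq.out).mpr hpq
  have h1 := prim_mul (zp_prim (q := q) L hζ) (zq_prim (q := q) K L) hcop
  have h2 : IsPrimitiveRoot ((algebraMap (𝓞 K) (𝓞 L) ζ * zq q K L : 𝓞 L) : L) (p * q) :=
    h1.map_of_injective RingOfIntegers.coe_injective
  have h3 := IsCyclotomicExtension.Rat.adjoin_singleton_eq_top h2
  have h4 : h2.toInteger = algebraMap (𝓞 K) (𝓞 L) ζ * zq q K L := by
    exact RingOfIntegers.ext rfl
  rw [h4] at h3
  exact h3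

/-- `1 - ζ_q` lies in every prime above `q`. -/
theorem one_sub_zq_mem {Q : Ideal (𝓞 L)} (hQ : Q.IsPrime) (hqQ : (q : 𝓞 L) ∈ Q) :
    1 - zq q K L ∈ Q := by
  have h := IsCyclotomicExtension.Rat.associated_zeta_sub_one_pow_prime q
    (IsCyclotomicExtension.zeta_spec q K L)
  have h1 : ((zq q K L) - 1) ^ (q - 1) ∈ Q := by
    obtain ⟨u, hu⟩ := h.symm
    change _ = (zq q K L - 1) ^ (q - 1) at hu
    rw [← hu]
    exact Q.mul_mem_right _ hqQ
  have h2 := hQ.mem_of_pow_mem _ h1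
  rw [← neg_mem_iff, neg_sub]
  exact h2

theorem span_q_map (M : Type*) [Field M] [NumberField M] :
    (span {(q : ℤ)}).map (algebraMap ℤ (𝓞 M)) = span {(q : 𝓞 M)} := by
  rw [Ideal.map_span, Set.image_singleton]; simp

theorem liesOver_q (M : Type*) [Field M] [NumberField M] {Q : Ideal (𝓞 M)} (hQ : Q.IsPrime)
    (hqQ : (q : 𝓞 M) ∈ Q) : Q.LiesOver (span {(q : ℤ)}) := by
  rw [liesOver_iff]
  refine IsMaximal.eq_of_le (Int.ideal_span_isMaximal_of_prime q) IsPrime.ne_top' ?_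
  rw [span_singleton_le_iff_mem, mem_comap, algebraMap_int_eq, map_natCast]
  exact hqQ

theorem ne_bot_of_q_mem (M : Type*) [Field M] [NumberField M] {Q : Ideal (𝓞 M)}
    (hqQ : (q : 𝓞 M) ∈ Q) : Q ≠ ⊥ := by
  rintro rfl
  rw [Submodule.mem_bot] at hqQ
  exact hq.out.ne_zero (by exact_mod_cast hqQ)

include hK in
theorem one_sub_zq_notMem_sq (hpq : p ≠ q) {Q : Ideal (𝓞 L)} (hQ : Q.IsPrime)
    (hqQ : (q : 𝓞 L) ∈ Q) : 1 - zq q K L ∉ Q ^ 2 := by
  intro hmem
  have := cyc_mul (p := p) (q := q) K L hpq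
  have := liesOver_q L hQ hqQ
  have hQ0 := ne_bot_of_q_mem L hqQ
  have hndvd : ¬ q ∣ p := fun h => hpq ((Nat.prime_dvd_prime_iff_eq hq.out hp.out).mp h).symm
  have h1 := IsCyclotomicExtension.Rat.ramificationIdx_eq (p * q) (m := p) (p := q) (k := 0)
    L Q (by ring) hndvd
  have hmap : (span {(q : ℤ)}).map (algebraMap ℤ (𝓞 L)) ≠ ⊥ := by
    rw [span_q_map]
    simp [hq.out.ne_zero]
  rw [IsDedekindDomain.ramificationIdx_eq_multiplicity (span {(q : ℤ)}) Q hmap, pow_zero,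
    one_mul, span_q_map] at h1
  have h2 : Q ^ (2 * (q - 1)) ∣ span {(q : 𝓞 L)} := by
    rw [dvd_span_singleton]
    have h := IsCyclotomicExtension.Rat.associated_zeta_sub_one_pow_prime q
      (IsCyclotomicExtension.zeta_spec q K L)
    obtain ⟨u, hu⟩ := h
    change (zq q K L - 1) ^ (q - 1) * _ = _ at hu
    rw [← hu, pow_mul]
    refine Ideal.mul_mem_right _ _ (Ideal.pow_mem_pow ?_ _)
    rw [← neg_mem_iff, neg_sub]
    exact hmem
  have h3 : FiniteMultiplicity Q (span {(q : 𝓞 L)}) := by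
    refine FiniteMultiplicity.of_prime_left (prime_of_isPrime hQ0 hQ) ?_
    rw [span_q_map] at hmap
    exact hmap
  have h4 := h3.le_multiplicity_of_pow_dvd h2
  rw [h1] at h4
  have := hq.out.two_le
  omega

include hζ hK in
/-- The inertia property: `τ` acts trivially modulo every prime above `q`. -/
theorem aut_sub_mem (hpq : p ≠ q) {Q : Ideal (𝓞 L)} (hQ : Q.IsPrime) (hqQ : (q : 𝓞 L) ∈ Q)
    (T : 𝓞 L →+* 𝓞 L) (hT1 : T (algebraMap (𝓞 K) (𝓞 L) ζ) = algebraMap (𝓞 K) (𝓞 L) ζ) {s : ℕ}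
    (hT2 : T (zq q K L) = zq q K L ^ s) (x : 𝓞 L) : T x - x ∈ Q := by
  have hx : x ∈ Algebra.adjoin ℤ {algebraMap (𝓞 K) (𝓞 L) ζ * zq q K L} := by
    rw [adjoin_eq_top L hζ hpq]
    trivial
  have h1 := one_sub_zq_mem (K := K) L hQ hqQ
  have hz : Ideal.Quotient.mk Q (zq q K L) = 1 := by
    rw [← map_one (Ideal.Quotient.mk Q), eq_comm, Ideal.Quotient.eq]
    exact h1
  induction hx using Algebra.adjoin_induction with
  | mem x hx =>
    rw [Set.mem_singleton_iff] at hx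
    subst hx
    rw [← Ideal.Quotient.eq_zero_iff_mem, map_mul, hT1, hT2]
    simp [hz]
  | algebraMap r => simp
  | add x y _ _ hx hy =>
    rw [map_add, add_sub_add_comm]
    exact Q.add_mem hx hy
  | mul x y _ _ hx hy =>
    have : T (x * y) - x * y = (T x - x) * T y + x * (T y - y) := by rw [map_mul]; ring
    rw [this]
    exact Q.add_mem (Q.mul_mem_right _ hx) (Q.mul_mem_left _ hy)

include hζ hK in
/-- Every element is congruent to an integer modulo a prime of residue field `𝔽_q`. -/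
theorem exists_int_sub_mem (hpq : p ≠ q) {Q : Ideal (𝓞 L)} (hQ : Q.IsPrime)
    (hqQ : (q : 𝓞 L) ∈ Q) (n₀ : ℤ) (hn₀ : algebraMap (𝓞 K) (𝓞 L) ζ - n₀ ∈ Q) (x : 𝓞 L) :
    ∃ n : ℤ, x - n ∈ Q := by
  have hx : x ∈ Algebra.adjoin ℤ {algebraMap (𝓞 K) (𝓞 L) ζ * zq q K L} := by
    rw [adjoin_eq_top L hζ hpq]
    trivial
  have h1 := one_sub_zq_mem (K := K) L hQ hqQ
  induction hx using Algebra.adjoin_induction with
  | mem x hx =>
    rw [Set.mem_singleton_iff] at hx
    subst hx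
    refine ⟨n₀, ?_⟩
    have : algebraMap (𝓞 K) (𝓞 L) ζ * zq q K L - n₀ =
        (algebraMap (𝓞 K) (𝓞 L) ζ - n₀) - algebraMap (𝓞 K) (𝓞 L) ζ * (1 - zq q K L) := by ring
    rw [this]
    exact Q.sub_mem hn₀ (Q.mul_mem_left _ h1)
  | algebraMap r => exact ⟨r, by simp⟩
  | add x y _ _ hx hy =>
    obtain ⟨a, ha⟩ := hx
    obtain ⟨b, hb⟩ := hy
    refine ⟨a + b, ?_⟩
    push_cast
    rw [add_sub_add_comm]
    exact Q.add_mem ha hb
  | mul x y _ _ hx hy =>
    obtain ⟨a, ha⟩ := hx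
    obtain ⟨b, hb⟩ := hy
    refine ⟨a * b, ?_⟩
    push_cast
    have : x * y - a * b = (x - a) * y + a * (y - b) := by ring
    rw [this]
    exact Q.add_mem (Q.mul_mem_right _ ha) (Q.mul_mem_left _ hb)

include hK in
/-- `L/K` is unramified outside `q`. -/
theorem ramificationIdx_eq_one (hpq : p ≠ q) {P : Ideal (𝓞 L)} (hP : P.IsPrime) (hP0 : P ≠ ⊥)
    (hqP : (q : 𝓞 L) ∉ P) : P.ramificationIdx (𝓞 K) = 1 := by
  have := cyc_mul (p := p) (q := q) K L hpq
  have : NeZero (p * q) := ⟨mul_ne_zero hp.out.ne_zero hq.out.ne_zero⟩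
  -- the rational prime below
  have hmax : P.IsMaximal := hP.isMaximal hP0
  obtain ⟨r, hr, hrP⟩ : ∃ r : ℕ, r.Prime ∧ (r : 𝓞 L) ∈ P := by
    have h1 : (absNorm P : 𝓞 L) ∈ P := absNorm_mem P
    have h2 : absNorm P ≠ 1 := by
      rw [Ne, absNorm_eq_one_iff]
      exact hP.ne_top
    have h3 : absNorm P ≠ 0 := by rwa [Ne, absNorm_eq_zero_iff]
    rw [← Nat.prod_primeFactorsList h3] at h1
    push_cast at h1
    have h4 := (hP.multiset_prod_mem_iff_exists_mem
      ((absNorm P).primeFactorsList.map (Nat.cast : ℕ → 𝓞 L))).mp (by simpa using h1)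
    obtain ⟨y, hy, hyP⟩ := h4
    simp only [Multiset.mem_coe, List.mem_map] at hy
    obtain ⟨r, hr, rfl⟩ := hy
    exact ⟨r, Nat.prime_of_mem_primeFactorsList hr, hyP⟩
  have : Fact r.Prime := ⟨hr⟩
  have hrq : r ≠ q := by rintro rfl; exact hqP hrP
  have hlies := liesOver_q (q := r) L hP hrP
  set 𝔯 : Ideal (𝓞 K) := P.under (𝓞 K) with h𝔯
  have hPr : P.LiesOver 𝔯 := ⟨rfl⟩
  have h𝔯p : 𝔯.IsPrime := IsPrime.under (𝓞 K) P
  have hr𝔯 : (r : 𝓞 K) ∈ 𝔯 := by
    rw [h𝔯, under_def, mem_comap, map_natCast]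
    exact hrP
  have hlies' := liesOver_q (q := r) K h𝔯p hr𝔯
  have htower := ramificationIdx_tower (R := ℤ) 𝔯 P
  by_cases hrp : r = p
  · subst hrp
    have h1 := IsCyclotomicExtension.Rat.ramificationIdx_eq (r * q) (m := q) (p := r) (k := 0)
      L P (by ring) (fun h => hpq ((Nat.prime_dvd_prime_iff_eq hr hq.out).mp h))
    have h2 := IsCyclotomicExtension.Rat.ramificationIdx_eq_of_prime r K 𝔯
    rw [h1, h2, pow_zero, one_mul] at htower
    have h3 : 0 < r - 1 := by have := hr.two_le; omega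
    exact (Nat.eq_of_mul_eq_mul_left h3 (by rw [mul_one]; exact htower)).symm
  · have h1 := IsCyclotomicExtension.Rat.ramificationIdx_eq_of_not_dvd (m := p * q) r L P (by
      intro h
      rcases (Nat.Prime.dvd_mul hr).mp h with h | h
      · exact hrp ((Nat.prime_dvd_prime_iff_eq hr hp.out).mp h)
      · exact hrq ((Nat.prime_dvd_prime_iff_eq hr hq.out).mp h))
    rw [h1] at htower
    exact Nat.eq_one_of_mul_eq_one_left htower.symm

end ring

end Fermat.Agent.Thaine
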